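import Mathlib
import Fermat.Prelude.Def_GaloisRep_Flat

set_option autoImplicit false

/-! # S16 [U]: the interface between the toolkit [K] and the upper bound [U]

Everything is expressed with `q`-expansions in `ℂ⟦X⟧`. -/

namespace Fermat.Agent.S16

open PowerSeries UpperHalfPlane ModularForm EisensteinSeries ModularFormClass
open scoped MatrixGroups ArithmeticFunction.sigma

noncomputable section

/-- `U_p` on power series: `a_j (U_p A) = a_{pj} A` -/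
def Up (p : ℕ) : ℂ⟦X⟧ →ₗ[ℂ] ℂ⟦X⟧ where
  toFun A := PowerSeries.mk fun j => coeff (p * j) A
  map_add' A B := by ext j; simp
  map_smul' c A := by ext j; simp

@[simp] theorem coeff_Up (p j : ℕ) (A : ℂ⟦X⟧) : coeff j (Up p A) = coeff (p * j) A := by
  simp [Up]

/-- `V_p` on power series: `A(q) ↦ A(q^p)` -/
abbrev Vp (p : ℕ) [NeZero p] : ℂ⟦X⟧ →ₐ[ℂ] ℂ⟦X⟧ := PowerSeries.expand p (NeZero.ne p)

/-- `D = q d/dq` -/
def Dq : ℂ⟦X⟧ →ₗ[ℂ] ℂ⟦X⟧ where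
  toFun A := PowerSeries.mk fun j => (j : ℂ) * coeff j A
  map_add' A B := by ext j; simp [mul_add]
  map_smul' c A := by ext j; simp; ring

@[simp] theorem coeff_Dq (j : ℕ) (A : ℂ⟦X⟧) : coeff j (Dq A) = (j : ℂ) * coeff j A := by
  simp [Dq]

/-- `E_2 = 1 - 24 ∑ σ(n) q^n` -/
def E2q : ℂ⟦X⟧ := PowerSeries.mk fun n => if n = 0 then 1 else -24 * (σ 1 n : ℂ)

/-- the `q`-expansions of `E_4`, `E_6`, `Δ` -/
def E4q : ℂ⟦X⟧ := qExpansion 1 E₄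
def E6q : ℂ⟦X⟧ := qExpansion 1 E₆
def Δq : ℂ⟦X⟧ := qExpansion 1 ModularForm.discriminant

/-- `ℤ_(ℓ)` inside `ℂ` -/
def Zc (ℓ : ℕ) : Subring ℂ := (GaloisRep.ratLocalizedAt ℓ).map (algebraMap ℚ ℂ)

/-- power series with `ℓ`-integral rational coefficients -/
def intS (ℓ : ℕ) : Subring ℂ⟦X⟧ where
  carrier := {A | ∀ j, coeff j A ∈ Zc ℓ}
  mul_mem' {A B} hA hB j := by
    rw [coeff_mul]
    exact sum_mem fun x _ => mul_mem (hA _) (hB _)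
  one_mem' j := by
    rw [coeff_one]
    split_ifs
    · exact one_mem _
    · exact zero_mem _
  add_mem' {A B} hA hB j := by
    rw [map_add]; exact add_mem (hA j) (hB j)
  zero_mem' j := by
    rw [map_zero]; exact zero_mem _
  neg_mem' {A} hA j := by
    rw [map_neg]; exact neg_mem (hA j)

theorem mem_intS {ℓ : ℕ} {A : ℂ⟦X⟧} : A ∈ intS ℓ ↔ ∀ j, coeff j A ∈ Zc ℓ := Iff.rfl

/-- `z ∈ ℓ ℤ_(ℓ)` -/
def Ldvd (ℓ : ℕ) (z : ℂ) : Prop := ∃ c ∈ Zc ℓ, z = (ℓ : ℂ) * c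

/-- **The toolkit at prime level `p`.**
`M k` is meant to be the set of pairs (`q`-expansion of `Φ`, `q`-expansion of `w_k Φ`),
`Φ ∈ M_k(Γ₀(p))`, `w_k Φ (z) = p^{-k/2} z^{-k} Φ(-1/(pz))`. -/
structure Toolkit (p : ℕ) [NeZero p] where
  M : ℕ → Submodule ℂ (ℂ⟦X⟧ × ℂ⟦X⟧)
  /-- `w` is multiplicative -/
  mul_mem : ∀ {k l : ℕ} {x y : ℂ⟦X⟧ × ℂ⟦X⟧}, x ∈ M k → y ∈ M l → x * y ∈ M (k + l)
  /-- `w` is an involution -/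
  swap_mem : ∀ {k : ℕ} {x : ℂ⟦X⟧ × ℂ⟦X⟧}, x ∈ M k → x.swap ∈ M k
  /-- level one forms: `w φ = p^{k/2} φ(p·)` -/
  lvl1_mem : ∀ (h : ℕ) (k : ℤ) (_ : k = 2 * h) (φ : ModularForm 𝒮ℒ k),
    (qExpansion 1 φ, (p : ℂ) ^ h • Vp p (qExpansion 1 φ)) ∈ M (2 * h)
  /-- (K1) the trace: `p^{k/2} (Φ + p^{1-k/2} U_p (w Φ))` has level one -/
  trace : ∀ (h : ℕ) (k : ℤ) (_ : k = 2 * h) {A B : ℂ⟦X⟧}, (A, B) ∈ M (2 * h) →
    ∃ φ : ModularForm 𝒮ℒ k, qExpansion 1 φ = (p : ℂ) ^ h • A + (p : ℂ) • Up p B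
  /-- (K2) the two-cusp Sturm bound mod `ℓ ≠ p` -/
  sturm : ∀ (ℓ : ℕ), ℓ.Prime → ℓ ≠ p → ∀ {k : ℕ} {A B : ℂ⟦X⟧}, (A, B) ∈ M k →
    A ∈ intS ℓ → B ∈ intS ℓ → ∀ n₁ n₂ : ℕ, (∀ j < n₁, Ldvd ℓ (coeff j A)) →
    (∀ j < n₂, Ldvd ℓ (coeff j B)) → k * (p + 1) < 12 * (n₁ + n₂) →
    (∀ j, Ldvd ℓ (coeff j A)) ∨ (∀ j, Ldvd ℓ (coeff j B))

end

end Fermat.Agent.S16
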