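import Mathlib
import Fermat.Prelude.Def_ModularForm_HeckeOperatorForms
import Fermat.Prelude.Def_FLTPrelim_Modularity
import Fermat.Agent.S16.UDefs

set_option autoImplicit false

/-! # S16 [K]: shared definitions of the toolkit at prime level `p`

`frickeGL p = [[0,-1],[p,0]]`, `wFun p k Φ = p^{1-k/2} • Φ ∣[k] frickeGL p`
(so `wFun p k Φ z = p^{-k/2} z^{-k} Φ(-1/(pz))` for even `k`),
`cosetFun p k Φ c` (`c : Option (ZMod p)`) = `Φ` for `c = none`, `Φ ∣[k] S T^b` for `c = some b`. -/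

namespace Fermat.Agent.S16

open UpperHalfPlane ModularForm ModularFormClass CongruenceSubgroup
open scoped MatrixGroups Manifold

noncomputable section

/-- the Fricke matrix `[[0,-1],[p,0]]` -/
def frickeGL (p : ℕ) [NeZero p] : GL (Fin 2) ℝ :=
  Matrix.GeneralLinearGroup.mkOfDetNeZero !![0, -1; (p : ℝ), 0]
    (by simp [Matrix.det_fin_two_of, NeZero.ne p])

@[simp] theorem val_frickeGL (p : ℕ) [NeZero p] :
    ((frickeGL p : GL (Fin 2) ℝ) : Matrix (Fin 2) (Fin 2) ℝ) = !![0, -1; (p : ℝ), 0] := rfl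

/-- the normalised Fricke involution in weight `k` (`k` even) on functions -/
def wFun (p : ℕ) [NeZero p] (k : ℕ) (Φ : ℍ → ℂ) : ℍ → ℂ :=
  ((p : ℂ) ^ (1 - ((k / 2 : ℕ) : ℤ))) • (Φ ∣[(k : ℤ)] frickeGL p)

/-- the translates of `Φ` by the coset representatives `1`, `S T^b` of `Γ₀(p) \ SL₂(ℤ)` -/
def cosetFun (p : ℕ) (k : ℤ) (Φ : ℍ → ℂ) : Option (ZMod p) → ℍ → ℂ
  | none => Φ
  | some b => Φ ∣[k] (ModularGroup.S * ModularGroup.T ^ (b.val : ℤ))

end

end Fermat.Agent.S16
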