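import Mathlib
import Fermat.Agent.S20.Basic
import Fermat.Agent.S20.P1
import Fermat.Agent.S16.KDefs

/-!
# S16 [K1]: coset representatives of `Γ₀(p) \ SL₂(ℤ)`, trace and norm
-/

set_option autoImplicit false
set_option linter.unusedSimpArgs false

namespace Fermat.Agent.S16

open UpperHalfPlane ModularFormClass Function ModularForm Matrix.SpecialLinearGroup
  CongruenceSubgroup
open scoped MatrixGroups ModularForm Manifold Pointwise

/-- the coset representatives `1`, `S T^b`. -/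
noncomputable def cosetRep (p : ℕ) : Option (ZMod p) → SL(2, ℤ)
  | none => 1
  | some b => ModularGroup.S * ModularGroup.T ^ (b.val : ℤ)

theorem cosetFun_eq (p : ℕ) (k : ℤ) (Φ : ℍ → ℂ) (c : Option (ZMod p)) :
    cosetFun p k Φ c = Φ ∣[k] cosetRep p c := by
  cases c with
  | none => simp [cosetFun, cosetRep]
  | some b => rfl

theorem coe_S_mul_T_zpow (n : ℤ) :
    ((ModularGroup.S * ModularGroup.T ^ n : SL(2, ℤ)) : Matrix (Fin 2) (Fin 2) ℤ)
      = !![0, -1; 1, n] := by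
  rw [Matrix.SpecialLinearGroup.coe_mul, ModularGroup.coe_S, ModularGroup.coe_T_zpow]
  ext i j
  fin_cases i <;> fin_cases j <;> simp [Matrix.mul_apply, Fin.sum_univ_two]

theorem det_eq (γ : SL(2, ℤ)) : γ 0 0 * γ 1 1 - γ 0 1 * γ 1 0 = 1 := by
  have := γ.det_coe
  rw [Matrix.det_fin_two] at this
  exact this

/-- `γ (S T^n)⁻¹ ∈ Γ₀(p)` iff `p ∣ d - c n`. -/
theorem mul_inv_mem_Gamma0_iff (p : ℕ) (γ : SL(2, ℤ)) (n : ℤ) :
    γ * (ModularGroup.S * ModularGroup.T ^ n)⁻¹ ∈ Gamma0 p ↔ (p : ℤ) ∣ γ 1 1 - γ 1 0 * n := by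
  rw [Gamma0_mem, ZMod.intCast_zmod_eq_zero_iff_dvd]
  have : (γ * (ModularGroup.S * ModularGroup.T ^ n)⁻¹) 1 0 = -(γ 1 1 - γ 1 0 * n) := by
    rw [Matrix.SpecialLinearGroup.coe_mul, coe_inv, coe_S_mul_T_zpow, Matrix.adjugate_fin_two_of]
    simp [Matrix.mul_apply, Fin.sum_univ_two]
    ring
  rw [this, dvd_neg]

/-- every `γ ∈ SL₂(ℤ)` lies in `Γ₀(p) · cosetRep c` for some `c`. -/
theorem exists_cosetRep (p : ℕ) [Fact p.Prime] (γ : SL(2, ℤ)) :
    ∃ c : Option (ZMod p), γ * (cosetRep p c)⁻¹ ∈ Gamma0 p := by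
  by_cases h : ((γ 1 0 : ℤ) : ZMod p) = 0
  · exact ⟨none, by simpa [cosetRep, Gamma0_mem] using h⟩
  · refine ⟨some (((γ 1 1 : ℤ) : ZMod p) / ((γ 1 0 : ℤ) : ZMod p)), ?_⟩
    rw [cosetRep, mul_inv_mem_Gamma0_iff, ← ZMod.intCast_zmod_eq_zero_iff_dvd]
    push_cast
    rw [ZMod.natCast_zmod_val]
    field_simp
    ring

theorem cosetRep_injective (p : ℕ) [Fact p.Prime] {c c' : Option (ZMod p)}
    (h : cosetRep p c * (cosetRep p c')⁻¹ ∈ Gamma0 p) : c = c' := by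
  have hp1 : ¬ (p : ℤ) ∣ 1 := by
    intro h
    have := Int.natCast_dvd_natCast.mp (by simpa using h : (p : ℤ) ∣ ((1 : ℕ) : ℤ))
    exact (Fact.out : p.Prime).one_lt.ne' (Nat.dvd_one.mp this)
  cases c with
  | none =>
    cases c' with
    | none => rfl
    | some b' =>
      exfalso
      rw [cosetRep, cosetRep, mul_inv_mem_Gamma0_iff] at h
      simp at h
      exact hp1 h
  | some b =>
    cases c' with
    | none =>
      exfalso
      rw [cosetRep, cosetRep, inv_one, mul_one, Gamma0_mem, ZMod.intCast_zmod_eq_zero_iff_dvd,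
        coe_S_mul_T_zpow] at h
      simp at h
      exact hp1 h
    | some b' =>
      rw [cosetRep, cosetRep, mul_inv_mem_Gamma0_iff, coe_S_mul_T_zpow,
        ← ZMod.intCast_zmod_eq_zero_iff_dvd] at h
      simp at h
      rw [sub_eq_zero] at h
      rw [h]

/-- every `γ ∈ SL₂(ℤ)` lies in `Γ₀(p)` or in `Γ₀(p) S T^b`. -/
theorem exists_coset (p : ℕ) [Fact p.Prime] (γ : SL(2, ℤ)) : γ ∈ Gamma0 p ∨
    ∃ δ ∈ Gamma0 p, ∃ b : ℕ, b < p ∧ γ = δ * (ModularGroup.S * ModularGroup.T ^ b) := by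
  obtain ⟨c, hc⟩ := exists_cosetRep p γ
  cases c with
  | none => left; simpa [cosetRep] using hc
  | some b =>
    right
    refine ⟨_, hc, b.val, ZMod.val_lt b, ?_⟩
    rw [cosetRep, zpow_natCast, inv_mul_cancel_right]

/-- the bijection `Option (ZMod p) ≃ SL₂(ℤ) / Γ₀(p)`, `c ↦ (cosetRep c)⁻¹ Γ₀(p)`. -/
noncomputable def cosetEquiv (p : ℕ) [Fact p.Prime] : Option (ZMod p) ≃ S20.Quo p :=
  Equiv.ofBijective (fun c => (QuotientGroup.mk (S20.sl (cosetRep p c)⁻¹) : S20.Quo p)) (by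
    constructor
    · intro c c' h
      rw [S20.p1_mk_eq_iff, inv_inv] at h
      exact cosetRep_injective p h
    · intro q
      obtain ⟨γ, rfl⟩ := S20.p1_exists_mk q
      obtain ⟨c, hc⟩ := exists_cosetRep p γ⁻¹
      refine ⟨c, ?_⟩
      show (QuotientGroup.mk (S20.sl (cosetRep p c)⁻¹) : S20.Quo p) = _
      rw [S20.p1_mk_eq_iff, inv_inv]
      have := inv_mem hc
      simpa using this)

theorem cosetEquiv_apply (p : ℕ) [Fact p.Prime] (c : Option (ZMod p)) :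
    cosetEquiv p c = (QuotientGroup.mk (S20.sl (cosetRep p c)⁻¹) : S20.Quo p) := rfl

theorem card_quo_prime (p : ℕ) [Fact p.Prime] : Nat.card (S20.Quo p) = p + 1 := by
  rw [← Nat.card_congr (cosetEquiv p), Nat.card_eq_fintype_card, Fintype.card_option, ZMod.card]

theorem comp_cosetEquiv (p : ℕ) [Fact p.Prime] {k : ℤ} (Φ : ModularForm (Gamma0 p) k)
    (c : Option (ZMod p)) : S20.comp Φ (cosetEquiv p c) = cosetFun p k Φ c := by
  rw [cosetEquiv_apply, S20.comp_mk, inv_inv, cosetFun_eq]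

/-- `SL₂(ℤ)` permutes the coset translates. -/
theorem exists_perm_cosetFun (p : ℕ) [Fact p.Prime] (γ : SL(2, ℤ)) :
    ∃ σ : Equiv.Perm (Option (ZMod p)), ∀ (k : ℤ) (Φ : ℍ → ℂ),
      (∀ g ∈ Gamma0 p, Φ ∣[k] g = Φ) → ∀ c, cosetFun p k Φ c ∣[k] γ = cosetFun p k Φ (σ c) := by
  refine ⟨((cosetEquiv p).trans (MulAction.toPerm (S20.sl γ)⁻¹)).trans (cosetEquiv p).symm, ?_⟩
  intro k Φ hΦ c
  set c' := (((cosetEquiv p).trans (MulAction.toPerm (S20.sl γ)⁻¹)).trans (cosetEquiv p).symm) c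
    with hc'
  have h1 : cosetEquiv p c' = (S20.sl γ)⁻¹ • cosetEquiv p c := by
    rw [hc']
    simp
  rw [cosetEquiv_apply, cosetEquiv_apply, ← S20.sl_inv, S20.p1_smul_mk, S20.p1_mk_eq_iff,
    inv_inv] at h1
  have h2 := hΦ _ (inv_mem h1)
  rw [cosetFun_eq, cosetFun_eq, ← SlashAction.slash_mul]
  conv_rhs => rw [← h2]
  rw [← SlashAction.slash_mul]
  congr 1
  group

theorem exists_traceForm (p : ℕ) [Fact p.Prime] (k : ℤ) (Φ : ModularForm (Gamma0 p) k) :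
    ∃ φ : ModularForm 𝒮ℒ k, ⇑φ = ∑ c, cosetFun p k Φ c := by
  refine ⟨ModularForm.trace 𝒮ℒ Φ, ?_⟩
  rw [ModularForm.coe_trace]
  let := Fintype.ofFinite (S20.Quo p)
  rw [← Equiv.sum_comp (cosetEquiv p)]
  refine Finset.sum_congr rfl fun c _ => ?_
  exact comp_cosetEquiv p Φ c

theorem exists_normForm (p : ℕ) [Fact p.Prime] (k : ℤ) (Φ : ModularForm (Gamma0 p) k) :
    ∃ φ : ModularForm 𝒮ℒ (k * (p + 1)), ⇑φ = ∏ c, cosetFun p k Φ c := by
  have hcard : k * (Nat.card (S20.Quo p) : ℤ) = k * (p + 1) := by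
    rw [card_quo_prime]; push_cast; ring
  refine ⟨ModularForm.mcast hcard (ModularForm.norm 𝒮ℒ Φ), ?_⟩
  rw [ModularForm.coe_mcast, ModularForm.coe_norm]
  let := Fintype.ofFinite (S20.Quo p)
  rw [← Equiv.prod_comp (cosetEquiv p)]
  refine Finset.prod_congr rfl fun c _ => ?_
  exact comp_cosetEquiv p Φ c

end Fermat.Agent.S16
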