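import Mathlib
import Fermat.Agent.S16.Cosets
import Fermat.Prelude.Thm_CongruenceSubgroup_one_mem_strictPeriods_Gamma0

/-!
# S16 [K1']: a weight two form on `Γ₀(p)` with vanishing constant term is a cusp form
-/

set_option autoImplicit false
set_option linter.unusedSimpArgs false

namespace Fermat.Agent.S16

open UpperHalfPlane ModularFormClass Function ModularForm Matrix.SpecialLinearGroup
  CongruenceSubgroup Filter Topology
open scoped MatrixGroups ModularForm Manifold Pointwise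

theorem tendsto_valueAtInfty {Γ : Subgroup (GL (Fin 2) ℝ)} {k : ℤ} {F : Type*} [FunLike F ℍ ℂ]
    [DiscreteTopology Γ] [Γ.HasDetPlusMinusOne] [Fact (IsCusp OnePoint.infty Γ)]
    [ModularFormClass F Γ k] (f : F) : Tendsto f atImInfty (𝓝 (valueAtInfty f)) := by
  have hh : 0 < Γ.strictWidthInfty := Γ.strictWidthInfty_pos_iff.mpr Fact.out
  have hΓ : Γ.strictWidthInfty ∈ Γ.strictPeriods := Γ.strictWidthInfty_mem_strictPeriods
  have hanal := ModularFormClass.analyticAt_cuspFunction_zero f hh hΓ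
  have hper := SlashInvariantFormClass.periodic_comp_ofComplex f hΓ
  rw [← cuspFunction_apply_zero hh hanal hper]
  exact (hanal.continuousAt.tendsto.comp (qParam_tendsto_atImInfty hh)).congr
    (fun τ ↦ SlashInvariantFormClass.eq_cuspFunction f τ hΓ hh.ne')

theorem tendsto_T_zpow_smul (n : ℤ) :
    Tendsto (fun z : ℍ => ModularGroup.T ^ n • z) atImInfty atImInfty := by
  rw [atImInfty, tendsto_comap_iff]
  have : (im ∘ fun z : ℍ => ModularGroup.T ^ n • z) = im := by
    funext z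
    exact ModularGroup.im_T_zpow_smul z n
  rw [this]
  exact tendsto_comap

theorem slash_T_zpow_apply (k : ℤ) (f : ℍ → ℂ) (n : ℤ) (z : ℍ) :
    (f ∣[k] (ModularGroup.T ^ n)) z = f (ModularGroup.T ^ n • z) := by
  rw [ModularForm.SL_slash_apply]
  have : denom (ModularGroup.T ^ n : SL(2, ℤ)) z = 1 := by
    rw [ModularGroup.denom_apply, ModularGroup.coe_T_zpow]
    simp
  rw [this]
  simp

/-- all the `Φ ∣ S T^b` have the same limit at `i∞`. -/
theorem exists_tendsto_cosetFun (p : ℕ) [Fact p.Prime] (k : ℤ) (Φ : ModularForm (Gamma0 p) k) :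
    ∃ L : ℂ, ∀ b : ZMod p, Tendsto (cosetFun p k Φ (some b)) atImInfty (𝓝 L) := by
  have : Subgroup.IsArithmetic
      (ConjAct.toConjAct (mapGL ℝ ModularGroup.S)⁻¹ • (Gamma0 p : Subgroup (GL (Fin 2) ℝ))) := by
    simpa [(show Rat.castHom ℝ = algebraMap ℚ ℝ by rfl), map_inv, map_mapGL]
      using! Subgroup.IsArithmetic.conj (Gamma0 p : Subgroup (GL (Fin 2) ℝ))
        (mapGL ℚ ModularGroup.S)⁻¹
  have h := tendsto_valueAtInfty (ModularForm.translate Φ (mapGL ℝ ModularGroup.S))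
  refine ⟨valueAtInfty (ModularForm.translate Φ (mapGL ℝ ModularGroup.S)), fun b => ?_⟩
  have h2 := h.comp (tendsto_T_zpow_smul (b.val : ℤ))
  refine h2.congr fun z => ?_
  show _ = (⇑Φ ∣[k] (ModularGroup.S * ModularGroup.T ^ (b.val : ℤ))) z
  rw [SlashAction.slash_mul, slash_T_zpow_apply]
  rfl

theorem tendsto_coeff_zero (p : ℕ) [Fact p.Prime] (k : ℤ) (Φ : ModularForm (Gamma0 p) k) :
    Tendsto Φ atImInfty (𝓝 ((qExpansion 1 Φ).coeff 0)) := by
  have hΓ := CongruenceSubgroup.one_mem_strictPeriods_Gamma0 p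
  rw [qExpansion_coeff_zero one_pos
      (ModularFormClass.analyticAt_cuspFunction_zero Φ one_pos hΓ)
      (SlashInvariantFormClass.periodic_comp_ofComplex Φ hΓ)]
  exact tendsto_valueAtInfty Φ

theorem slash_eq_cosetFun (p : ℕ) [Fact p.Prime] (k : ℤ) (Φ : ModularForm (Gamma0 p) k)
    (γ : SL(2, ℤ)) : ∃ c, ⇑Φ ∣[k] γ = cosetFun p k Φ c := by
  obtain ⟨c, hc⟩ := exists_cosetRep p γ
  refine ⟨c, ?_⟩
  have h1 : ⇑Φ ∣[k] (γ * (cosetRep p c)⁻¹) = ⇑Φ :=
    SlashInvariantFormClass.slash_action_eq Φ _ ⟨_, hc, rfl⟩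
  rw [cosetFun_eq]
  conv_rhs => rw [← h1]
  rw [← SlashAction.slash_mul, inv_mul_cancel_right]

/-- (K1') a weight two form on `Γ₀(p)` with vanishing constant term is a cusp form. -/
theorem exists_cuspForm_of_coeff_zero (p : ℕ) [Fact p.Prime] (G : ModularForm (Gamma0 p) 2)
    (h0 : (qExpansion 1 G).coeff 0 = 0) : ∃ f : CuspForm (Gamma0 p) 2, ⇑f = ⇑G := by
  have hG : Tendsto G atImInfty (𝓝 0) := h0 ▸ tendsto_coeff_zero p 2 G
  obtain ⟨L, hL⟩ := exists_tendsto_cosetFun p 2 G
  obtain ⟨φ, hφ⟩ := exists_traceForm p 2 G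
  have hφ0 : φ = 0 := by
    have := ModularForm.levelOne_weight_two_rank_zero
    rw [rank_zero_iff] at this
    exact Subsingleton.elim _ _
  have hsum : Tendsto (fun z => ∑ c, cosetFun p 2 G c z) atImInfty
      (𝓝 (∑ c : Option (ZMod p), (Option.elim c 0 (fun _ => L)))) := by
    refine tendsto_finsetSum _ fun c _ => ?_
    cases c with
    | none => exact hG
    | some b => exact hL b
  have hz : (fun z => ∑ c, cosetFun p 2 G c z) = fun _ => 0 := by
    funext z
    have := congrFun hφ z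
    rw [hφ0] at this
    simpa using this.symm
  rw [hz] at hsum
  have hL0 := tendsto_nhds_unique hsum tendsto_const_nhds
  rw [Fintype.sum_option] at hL0
  simp at hL0
  have hp0 : p ≠ 0 := (Fact.out : p.Prime).ne_zero
  have hL' : L = 0 := by
    rcases hL0 with h | h
    · exact absurd h hp0
    · exact h
  refine ⟨{ G with zero_at_cusps' := ?_ }, rfl⟩
  intro c hc
  rw [Subgroup.IsArithmetic.isCusp_iff_isCusp_SL2Z] at hc
  rw [OnePoint.isZeroAt_iff_forall_SL2Z hc]
  intro γ _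
  obtain ⟨c, hc⟩ := slash_eq_cosetFun p 2 G γ
  show IsZeroAtImInfty (⇑G ∣[(2 : ℤ)] γ)
  rw [hc]
  cases c with
  | none => exact hG
  | some b =>
    have := hL b
    rw [hL'] at this
    exact this

end Fermat.Agent.S16
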