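import Mathlib
import Fermat.Agent.S22.Hermite
import Fermat.Agent.S22.Translate

set_option autoImplicit false

/-!
# S16 [E]: the weight two Eisenstein series `e_N = (N E₂(N z) - E₂(z)) / 24` on `Γ₀(N)`
-/

namespace Fermat.Agent.S16

open UpperHalfPlane ModularForm EisensteinSeries Matrix.SpecialLinearGroup ModularFormClass
open Fermat.Agent.S22
open scoped MatrixGroups ModularForm Manifold Real

/-- the non-holomorphic correction `3 / (π Im z)`. -/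
noncomputable def imCorr : ℍ → ℂ := fun z => 3 / (π * z.im)

theorem imCorr_slash_SL (γ : SL(2, ℤ)) :
    imCorr ∣[(2 : ℤ)] γ = imCorr - (1 / (2 * riemannZeta 2)) • D2 γ := by
  ext z
  rw [SL_slash_apply]
  simp only [imCorr, Pi.sub_apply, Pi.smul_apply, D2, smul_eq_mul, riemannZeta_two]
  rw [ModularGroup.im_smul_eq_div_normSq]
  have hw : denom γ z ≠ 0 := denom_ne_zero γ z
  have hy : ((z.im : ℝ) : ℂ) ≠ 0 := by exact_mod_cast z.im_pos.ne'
  have hpi : (π : ℂ) ≠ 0 := by exact_mod_cast Real.pi_ne_zero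
  have hn : ((Complex.normSq (denom γ z) : ℝ) : ℂ) = denom γ z * (starRingEnd ℂ) (denom γ z) :=
    (Complex.mul_conj _).symm
  have hc : (starRingEnd ℂ) (denom γ z) = denom γ z - 2 * Complex.I * (γ 1 0 : ℂ) * z.im := by
    have h1 : denom γ z = (γ 1 0 : ℂ) * z + (γ 1 1 : ℂ) := by simp [denom]
    rw [h1]
    apply Complex.ext <;> simp
    ring
  have hc0 : (starRingEnd ℂ) (denom γ z) ≠ 0 := by simp [hw]
  push_cast
  rw [hn]
  field_simp
  rw [hc]
  ring_nf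

/-- the non-holomorphic weight two Eisenstein series `E₂^* = E₂ - 3 / (π Im z)`. -/
noncomputable def E2star : ℍ → ℂ := E2 - imCorr

theorem E2star_slash_SL (γ : SL(2, ℤ)) : E2star ∣[(2 : ℤ)] γ = E2star := by
  rw [E2star, sub_eq_add_neg, SlashAction.add_slash, SlashAction.neg_slash, E2_slash_action,
    imCorr_slash_SL]
  abel

theorem E2star_slash_mapGL (γ : SL(2, ℤ)) : E2star ∣[(2 : ℤ)] (mapGL ℝ γ) = E2star := E2star_slash_SL γ

theorem im_tri_smul (a d : ℕ) (b : ℤ) (ha : a ≠ 0) (hd : d ≠ 0) (z : ℍ) :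
    (tri a d b ha hd • z).im = a * z.im / d := by
  have h := congrArg Complex.im (coe_tri_smul a d b ha hd z)
  rw [coe_im] at h
  rw [h]
  have : (((a : ℂ) * z + b) / d) = (((a : ℝ) * z.re + b) / d : ℝ) + ((a * z.im / d : ℝ) : ℂ) * Complex.I := by
    have hd' : (d : ℂ) ≠ 0 := by exact_mod_cast hd
    apply Complex.ext <;> simp [Complex.div_natCast_re, Complex.div_natCast_im]
  rw [this]
  simp

theorem imCorr_slash_tri (a d : ℕ) (b : ℤ) (ha : a ≠ 0) (hd : d ≠ 0) :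
    imCorr ∣[(2 : ℤ)] tri a d b ha hd = imCorr := by
  ext z
  rw [slash_tri_apply]
  simp only [imCorr]
  rw [im_tri_smul]
  have hy : ((z.im : ℝ) : ℂ) ≠ 0 := by exact_mod_cast z.im_pos.ne'
  have hpi : (π : ℂ) ≠ 0 := by exact_mod_cast Real.pi_ne_zero
  have ha' : (a : ℂ) ≠ 0 := by exact_mod_cast ha
  have hd' : (d : ℂ) ≠ 0 := by exact_mod_cast hd
  push_cast
  norm_num
  field_simp

/-- `E₂ ∣ tri a d b - E₂ = E₂^* ∣ tri a d b - E₂^*`. -/
theorem E2_tri_sub (a d : ℕ) (b : ℤ) (ha : a ≠ 0) (hd : d ≠ 0) :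
    E2 ∣[(2 : ℤ)] tri a d b ha hd - E2 = E2star ∣[(2 : ℤ)] tri a d b ha hd - E2star := by
  rw [E2star, sub_eq_add_neg E2 imCorr, SlashAction.add_slash, SlashAction.neg_slash,
    imCorr_slash_tri]
  abel

/-- the function `e_N(z) = (N E₂(N z) - E₂(z)) / 24`. -/
noncomputable def eisFun (N : ℕ) [NeZero N] : ℍ → ℂ :=
  (24 : ℂ)⁻¹ • (E2 ∣[(2 : ℤ)] tri N 1 0 (NeZero.ne N) one_ne_zero - E2)

theorem eisFun_apply (N : ℕ) [NeZero N] (z : ℍ) :
    eisFun N z = ((N : ℂ) * E2 (tri N 1 0 (NeZero.ne N) one_ne_zero • z) - E2 z) / 24 := by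
  simp only [eisFun, Pi.smul_apply, Pi.sub_apply, slash_tri_apply, smul_eq_mul]
  norm_num
  ring

/-- the slash of `e_N` by an arbitrary element of `SL₂(ℤ)`. -/
theorem eisFun_slash (N : ℕ) [NeZero N] (γ : SL(2, ℤ)) :
    ∃ (a d : ℕ) (b : ℤ) (ha : a ≠ 0) (hd : d ≠ 0), a * d = N ∧
      eisFun N ∣[(2 : ℤ)] γ = (24 : ℂ)⁻¹ • (E2 ∣[(2 : ℤ)] tri a d b ha hd - E2) := by
  obtain ⟨γ', a, d, b, ha, hd, had, heq, -⟩ := hermite N (NeZero.ne N) γ
  refine ⟨a, d, b, ha, hd, had, ?_⟩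
  rw [eisFun, E2_tri_sub, E2_tri_sub, SL_smul_slash, sub_eq_add_neg, SlashAction.add_slash,
    SlashAction.neg_slash, E2star_slash_SL, SL_slash, ← SlashAction.slash_mul]
  rw [show ((γ : SL(2, ℤ)) : GL (Fin 2) ℝ) = mapGL ℝ γ from rfl, heq, SlashAction.slash_mul,
    E2star_slash_mapGL, sub_eq_add_neg]

theorem eisFun_slash_Gamma0 (N : ℕ) [NeZero N] (γ : SL(2, ℤ))
    (hγ : γ ∈ CongruenceSubgroup.Gamma0 N) : eisFun N ∣[(2 : ℤ)] γ = eisFun N := by
  have h1 := Gamma0_le_conj N (NeZero.ne N) (Subgroup.mem_map_of_mem (mapGL ℝ) hγ)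
  rw [Subgroup.mem_pointwise_smul_iff_inv_smul_mem, ConjAct.smul_def] at h1
  simp only [map_inv, inv_inv, ConjAct.ofConjAct_toConjAct] at h1
  obtain ⟨γ', hγ'⟩ := h1
  rw [eq_mul_inv_iff_mul_eq] at hγ'
  rw [eisFun, E2_tri_sub, SL_smul_slash, sub_eq_add_neg, SlashAction.add_slash,
    SlashAction.neg_slash, E2star_slash_SL, SL_slash, ← SlashAction.slash_mul]
  rw [show ((γ : SL(2, ℤ)) : GL (Fin 2) ℝ) = mapGL ℝ γ from rfl, ← hγ', SlashAction.slash_mul,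
    E2star_slash_mapGL]

theorem mdiff_E2_tri (a d : ℕ) (b : ℤ) (ha : a ≠ 0) (hd : d ≠ 0) :
    MDiff (E2 ∣[(2 : ℤ)] tri a d b ha hd) :=
  E2_mdifferentiable.slash 2 _

theorem bdd_E2_tri (a d : ℕ) (b : ℤ) (ha : a ≠ 0) (hd : d ≠ 0) :
    IsBoundedAtImInfty (E2 ∣[(2 : ℤ)] tri a d b ha hd) := by
  have hb := isBoundedAtImInfty_E2
  rw [isBoundedAtImInfty_iff] at hb ⊢
  obtain ⟨M, A, hMA⟩ := hb
  refine ⟨‖(((a : ℂ) * d) ^ ((2 : ℤ) - 1) * (d : ℂ) ^ (-(2 : ℤ)))‖ * M, A * d / a, fun z hz => ?_⟩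
  rw [slash_tri_apply, norm_mul]
  gcongr
  apply hMA
  rw [im_tri_smul]
  have ha' : (0 : ℝ) < a := by exact_mod_cast Nat.pos_of_ne_zero ha
  have hd' : (0 : ℝ) < d := by exact_mod_cast Nat.pos_of_ne_zero hd
  rw [div_le_iff₀ ha'] at hz
  rw [le_div_iff₀ hd']
  linarith

/-- `e_N` as a modular form of weight two on `Γ₀(N)`. -/
noncomputable def eisMF (N : ℕ) [NeZero N] : ModularForm (CongruenceSubgroup.Gamma0 N) 2 where
  toFun := eisFun N
  slash_action_eq' := by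
    rintro _ ⟨γ, hγ, rfl⟩
    exact eisFun_slash_Gamma0 N γ hγ
  holo' := ((mdiff_E2_tri N 1 0 _ _).sub E2_mdifferentiable).const_smul _
  bdd_at_cusps' {c} hc := by
    rw [Subgroup.IsArithmetic.isCusp_iff_isCusp_SL2Z] at hc
    rw [OnePoint.isBoundedAt_iff_forall_SL2Z hc]
    intro γ _
    obtain ⟨a, d, b, ha, hd, -, h⟩ := eisFun_slash N γ
    rw [h]
    exact ((bdd_E2_tri a d b ha hd).sub isBoundedAtImInfty_E2).const_smul_left _

@[simp] theorem coe_eisMF (N : ℕ) [NeZero N] : ⇑(eisMF N) = eisFun N := rfl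

local notation "𝕢" => Function.Periodic.qParam

theorem qParam_tri_N (N : ℕ) (hN : N ≠ 0) (τ : ℍ) :
    𝕢 1 (tri N 1 0 hN one_ne_zero • τ : ℍ) = 𝕢 1 τ ^ N := by
  rw [coe_tri_smul]
  simp only [Function.Periodic.qParam, ← Complex.exp_nat_mul]
  congr 1
  push_cast
  ring

/-- `q`-expansion of `F(N z)`. -/
theorem hasSum_comp_tri_N {F : ℍ → ℂ} {c : ℕ → ℂ}
    (hF : ∀ τ : ℍ, HasSum (fun m ↦ c m • 𝕢 1 τ ^ m) (F τ)) (N : ℕ) (hN : N ≠ 0) (τ : ℍ) :
    HasSum (fun m ↦ (if N ∣ m then c (m / N) else 0) • 𝕢 1 τ ^ m)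
      (F (tri N 1 0 hN one_ne_zero • τ)) := by
  have h1 := hF (tri N 1 0 hN one_ne_zero • τ)
  have hN' : 0 < N := Nat.pos_of_ne_zero hN
  have hinj : Function.Injective (fun n : ℕ => N * n) := fun x y hxy =>
    Nat.eq_of_mul_eq_mul_left hN' hxy
  rw [← hinj.hasSum_iff]
  · have hfun : ((fun m ↦ (if N ∣ m then c (m / N) else 0) • 𝕢 1 τ ^ m) ∘ fun n : ℕ => N * n) =
        fun m ↦ c m • 𝕢 1 (tri N 1 0 hN one_ne_zero • τ : ℍ) ^ m := by
      funext n
      simp only [Function.comp_apply, if_pos (Dvd.intro n rfl), Nat.mul_div_cancel_left n hN']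
      rw [qParam_tri_N, ← pow_mul]
    rw [hfun]
    exact h1
  · intro m hm
    have : ¬ N ∣ m := by
      rintro ⟨n, rfl⟩
      exact hm ⟨n, rfl⟩
    simp [if_neg this]

/-- the coefficients of `E₂`. -/
noncomputable def E2c (m : ℕ) : ℂ := if m = 0 then 1 else -24 * (ArithmeticFunction.sigma 1 m : ℂ)

theorem hasSum_E2 (τ : ℍ) : HasSum (fun m ↦ E2c m • 𝕢 1 τ ^ m) (E2 τ) := by
  simpa only [Function.Periodic.qParam, Complex.ofReal_one, div_one, E2c] using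
    hasSum_qExpansion_E2 (z := τ)

/-- `s'(k) = σ(k) - N σ(k / N)`. -/
def sigmaP (N k : ℕ) : ℤ :=
  (ArithmeticFunction.sigma 1 k : ℤ) - if N ∣ k then (N : ℤ) * ArithmeticFunction.sigma 1 (k / N) else 0

/-- the coefficients of `e_N`. -/
noncomputable def eisCoeff (N m : ℕ) : ℂ := if m = 0 then ((N : ℂ) - 1) / 24 else (sigmaP N m : ℂ)

theorem hasSum_eisFun (N : ℕ) [NeZero N] (τ : ℍ) :
    HasSum (fun m ↦ eisCoeff N m • 𝕢 1 τ ^ m) (eisFun N τ) := by
  have h1 := (((hasSum_comp_tri_N hasSum_E2 N (NeZero.ne N) τ).mul_left (N : ℂ)).sub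
    (hasSum_E2 τ)).div_const 24
  rw [eisFun_apply]
  have hfun : (fun m ↦ eisCoeff N m • 𝕢 1 τ ^ m) = fun i => ((N : ℂ) *
      (if N ∣ i then E2c (i / N) else 0) • 𝕢 1 ↑τ ^ i - E2c i • 𝕢 1 ↑τ ^ i) / 24 := by
    funext m
    simp only [eisCoeff, sigmaP, E2c, smul_eq_mul]
    rcases Nat.eq_zero_or_pos m with rfl | hm
    · simp
    · by_cases hd : N ∣ m
      · have : m / N ≠ 0 :=
          (Nat.div_pos (Nat.le_of_dvd hm hd) (Nat.pos_of_ne_zero (NeZero.ne N))).ne'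
        simp only [if_neg hm.ne', if_pos hd, if_neg this]
        push_cast
        ring
      · simp only [if_neg hm.ne', if_neg hd]
        push_cast
        ring
  rw [hfun]
  exact h1

theorem qExpansion_eisMF (N : ℕ) [NeZero N] :
    qExpansion 1 (eisMF N) = PowerSeries.mk (eisCoeff N) :=
  qExpansion_of_hasSum one_pos (eisMF N).holo' (hasSum_eisFun N)

theorem coeff_qExpansion_eisMF (N : ℕ) [NeZero N] (m : ℕ) :
    (qExpansion 1 (eisMF N)).coeff m = eisCoeff N m := by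
  rw [qExpansion_eisMF, PowerSeries.coeff_mk]

/-- `α S = S diag(1, N)`. -/
theorem tri_mul_S (N : ℕ) (hN : N ≠ 0) :
    tri N 1 0 hN one_ne_zero * mapGL ℝ ModularGroup.S
      = mapGL ℝ ModularGroup.S * tri 1 N 0 one_ne_zero hN := by
  apply Units.ext
  ext i j
  fin_cases i <;> fin_cases j <;> simp [Matrix.mul_apply, Fin.sum_univ_two]

/-- `e_N ∣ S = (N⁻¹ E₂(z / N) - E₂(z)) / 24`. -/
theorem eisFun_slash_S (N : ℕ) [NeZero N] :
    eisFun N ∣[(2 : ℤ)] ModularGroup.S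
      = (24 : ℂ)⁻¹ • (E2 ∣[(2 : ℤ)] tri 1 N 0 one_ne_zero (NeZero.ne N) - E2) := by
  rw [eisFun, E2_tri_sub, E2_tri_sub, SL_smul_slash, sub_eq_add_neg, SlashAction.add_slash,
    SlashAction.neg_slash, E2star_slash_SL, SL_slash, ← SlashAction.slash_mul]
  rw [show ((ModularGroup.S : SL(2, ℤ)) : GL (Fin 2) ℝ) = mapGL ℝ ModularGroup.S from rfl,
    tri_mul_S, SlashAction.slash_mul, E2star_slash_mapGL, sub_eq_add_neg]

theorem tri_N_smul_tri_one (N : ℕ) (hN : N ≠ 0) (z : ℍ) :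
    tri N 1 0 hN one_ne_zero • (tri 1 N 0 one_ne_zero hN • z) = z := by
  apply UpperHalfPlane.ext
  rw [coe_tri_smul, coe_tri_smul]
  have : (N : ℂ) ≠ 0 := by exact_mod_cast hN
  push_cast
  field_simp
  simp

/-- `(e_N ∣ S)(z) = - N⁻¹ e_N(z / N)`. -/
theorem eisFun_slash_S_apply (N : ℕ) [NeZero N] (z : ℍ) :
    (eisFun N ∣[(2 : ℤ)] ModularGroup.S) z
      = -(N : ℂ)⁻¹ * eisFun N (tri 1 N 0 one_ne_zero (NeZero.ne N) • z) := by
  rw [eisFun_slash_S, eisFun_apply, tri_N_smul_tri_one]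
  simp only [Pi.smul_apply, Pi.sub_apply, slash_tri_apply, smul_eq_mul]
  have : (N : ℂ) ≠ 0 := by exact_mod_cast NeZero.ne N
  norm_num
  field_simp
  ring

theorem sigmaP_eq (p k : ℕ) (hp : p ≠ 0) :
    sigmaP p k = ∑ d ∈ k.divisors with ¬ p ∣ d, (d : ℤ) := by
  unfold sigmaP
  rw [ArithmeticFunction.sigma_one_apply]
  have h1 := Finset.sum_filter_add_sum_filter_not k.divisors (fun d => p ∣ d) (fun d => (d : ℤ))
  have h2 : ∑ d ∈ k.divisors with p ∣ d, (d : ℤ)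
      = if p ∣ k then (p : ℤ) * ArithmeticFunction.sigma 1 (k / p) else 0 := by
    split_ifs with hpk
    · rw [ArithmeticFunction.sigma_one_apply]
      push_cast
      rw [Finset.mul_sum]
      symm
      apply Finset.sum_bij (fun d _ => p * d)
      · intro d hd
        rw [Nat.mem_divisors] at hd
        obtain ⟨m, rfl⟩ := hpk
        rw [Nat.mul_div_cancel_left _ (Nat.pos_of_ne_zero hp)] at hd
        simp only [Finset.mem_filter, Nat.mem_divisors]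
        exact ⟨⟨Nat.mul_dvd_mul_left p hd.1, mul_ne_zero hp hd.2⟩, Dvd.intro d rfl⟩
      · intro a _ b _ hab
        exact Nat.eq_of_mul_eq_mul_left (Nat.pos_of_ne_zero hp) hab
      · intro d hd
        simp only [Finset.mem_filter, Nat.mem_divisors] at hd
        obtain ⟨⟨hdk, hk0⟩, e, rfl⟩ := hd
        obtain ⟨m, rfl⟩ := hpk
        refine ⟨e, ?_, rfl⟩
        rw [Nat.mul_div_cancel_left _ (Nat.pos_of_ne_zero hp), Nat.mem_divisors]
        exact ⟨Nat.dvd_of_mul_dvd_mul_left (Nat.pos_of_ne_zero hp) hdk, by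
          rintro rfl; simp at hk0⟩
      · intro d _
        push_cast
        ring
    · apply Finset.sum_eq_zero
      intro d hd
      simp only [Finset.mem_filter, Nat.mem_divisors] at hd
      exact absurd (hd.2.trans hd.1.1) hpk
  rw [← h2]
  push_cast
  linarith

theorem exists_eis' (p : ℕ) [NeZero p] :
    ∃ e : ModularForm (CongruenceSubgroup.Gamma0 p) 2, (qExpansion 1 e).coeff 0 = ((p : ℂ) - 1) / 24 ∧
      ∀ j : ℕ, 1 ≤ j → (qExpansion 1 e).coeff j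
        = ((∑ d ∈ j.divisors with ¬ p ∣ d, (d : ℤ) : ℤ) : ℂ) := by
  refine ⟨eisMF p, ?_, fun j hj => ?_⟩
  · rw [coeff_qExpansion_eisMF, eisCoeff, if_pos rfl]
  · rw [coeff_qExpansion_eisMF, eisCoeff, if_neg (by omega), sigmaP_eq p j (NeZero.ne p)]

end Fermat.Agent.S16
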