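import Mathlib
import Fermat.Prelude.Def_HeckeGalois_EichlerShimura

set_option autoImplicit false

/-! # S16 [F]: the formal reduction, abstract part -/

namespace Fermat.Agent.S16

open Module ModularCurve

theorem exists_smul_mem_range {A B : Type} [AddCommGroup A] [AddCommGroup B]
    [Module.Finite ℤ A] [Module.Finite ℤ B]
    (Λ : A →ₗ[ℤ] B) (hinj : Function.Injective Λ) (hrk : finrank ℤ B ≤ finrank ℤ A) (ψ : B) :
    ∃ c : ℤ, c ≠ 0 ∧ c • ψ ∈ LinearMap.range Λ := by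
  have h1 : finrank ℤ (LinearMap.range Λ) = finrank ℤ A := LinearMap.finrank_range_of_inj hinj
  have h2 := (LinearMap.range Λ).finrank_quotient_add_finrank
  have h3 : finrank ℤ (B ⧸ LinearMap.range Λ) = 0 := by omega
  have h4 : Module.rank ℤ (B ⧸ LinearMap.range Λ) = 0 := by
    rw [← Module.finrank_eq_rank, h3, Nat.cast_zero]
  obtain ⟨c, hc, hc'⟩ := rank_eq_zero_iff.mp h4 (Submodule.Quotient.mk ψ)
  refine ⟨c, hc, ?_⟩
  rwa [← Submodule.Quotient.mk_smul, Submodule.Quotient.mk_eq_zero] at hc'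

/-- the abstract data: a lattice with coefficient functionals and Hecke operators -/
structure FData (p : ℕ) (L : Type) [AddCommGroup L] where
  a : ℕ → L →ₗ[ℤ] ℤ
  π : HeckeAlg →+* Module.End ℤ L
  sep : ∀ g, (∀ k, 1 ≤ k → a k g = 0) → g = 0
  sat : ∀ (c : ℤ) (g : L), c ≠ 0 → (∀ k, 1 ≤ k → c ∣ a k g) → ∃ g', g = c • g'
  hT : ∀ ℓ : Nat.Primes, (ℓ : ℕ) ≠ p → ∀ k g, a k (π (MvPolynomial.X ℓ) g) =
    a (k * ℓ) g + if (ℓ : ℕ) ∣ k then (ℓ : ℤ) * a (k / ℓ) g else 0
  hU : ∀ ℓ : Nat.Primes, (ℓ : ℕ) = p → ∀ k g, a k (π (MvPolynomial.X ℓ) g) = a (k * ℓ) g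

/-- the abstract Eisenstein coefficients -/
structure SData (p : ℕ) (s : ℕ → ℤ) : Prop where
  s1 : s 1 = 1
  sT : ∀ ℓ : ℕ, ℓ.Prime → ℓ ≠ p → ∀ k, 1 ≤ k →
    s (k * ℓ) + (if ℓ ∣ k then (ℓ : ℤ) * s (k / ℓ) else 0) = (1 + ℓ) * s k
  sU : ∀ k, 1 ≤ k → s (k * p) = s k

/-- evaluation at the Eisenstein system -/
noncomputable def epsE (p : ℕ) : HeckeAlg →ₐ[ℤ] ℤ := MvPolynomial.aeval (eisensteinSystem p)

theorem epsE_X_of_ne {p : ℕ} (hp : p.Prime) (ℓ : Nat.Primes) (h : (ℓ : ℕ) ≠ p) :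
    epsE p (MvPolynomial.X ℓ) = 1 + (ℓ : ℕ) := by
  have : ¬ (ℓ : ℕ) ∣ p := fun hd => h ((Nat.prime_dvd_prime_iff_eq ℓ.2 hp).mp hd)
  simp [epsE, eisensteinSystem_of_not_dvd this]

theorem epsE_X_of_eq {p : ℕ} (ℓ : Nat.Primes) (h : (ℓ : ℕ) = p) :
    epsE p (MvPolynomial.X ℓ) = 1 := by
  have : (ℓ : ℕ) ∣ p := h ▸ dvd_rfl
  simp [epsE, eisensteinSystem_of_dvd this]

variable {p : ℕ} {L : Type} [AddCommGroup L] {s : ℕ → ℤ}

theorem exists_coeff_poly (hp : p.Prime) (F : FData p L) (S : SData p s) (k : ℕ) (hk : 1 ≤ k) :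
    ∃ P : HeckeAlg, (∀ g, F.a 1 (F.π P g) = F.a k g) ∧ epsE p P = s k := by
  induction k using Nat.strong_induction_on with
  | _ k ih =>
    rcases Nat.lt_or_ge 1 k with h1 | h1
    · have hne : k ≠ 1 := h1.ne'
      set ℓ := k.minFac with hℓ
      have hℓp : ℓ.Prime := Nat.minFac_prime hne
      obtain ⟨k', hk'⟩ : ℓ ∣ k := Nat.minFac_dvd k
      have hk'1 : 1 ≤ k' := by
        rcases Nat.eq_zero_or_pos k' with h0 | h0
        · rw [h0, mul_zero] at hk'; omega
        · exact h0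
      have hk'lt : k' < k := by
        rw [hk']
        have := hℓp.two_le
        nlinarith
      obtain ⟨P', hP', hε'⟩ := ih k' hk'lt hk'1
      have hkk : k = k' * ℓ := by rw [hk', mul_comm]
      by_cases hpl : ℓ = p
      · refine ⟨P' * MvPolynomial.X ⟨ℓ, hℓp⟩, fun g => ?_, ?_⟩
        · rw [map_mul, Module.End.mul_apply, hP', F.hU ⟨ℓ, hℓp⟩ hpl, hkk]
        · rw [map_mul, hε', epsE_X_of_eq ⟨ℓ, hℓp⟩ hpl, mul_one, hkk, hpl, S.sU k' hk'1]
      · by_cases hd : ℓ ∣ k'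
        · have hk''1 : 1 ≤ k' / ℓ := Nat.div_pos (Nat.le_of_dvd hk'1 hd) hℓp.pos
          have hk''lt : k' / ℓ < k := lt_of_le_of_lt (Nat.div_le_self _ _) hk'lt
          obtain ⟨P'', hP'', hε''⟩ := ih (k' / ℓ) hk''lt hk''1
          refine ⟨P' * MvPolynomial.X ⟨ℓ, hℓp⟩ - MvPolynomial.C (ℓ : ℤ) * P'', fun g => ?_, ?_⟩
          · have hC : F.π (MvPolynomial.C (ℓ : ℤ)) = ((ℓ : ℤ) : Module.End ℤ L) := by
              rw [← map_intCast F.π]; congr 1
            rw [map_sub, map_mul, map_mul, LinearMap.sub_apply, Module.End.mul_apply,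
              Module.End.mul_apply, map_sub, hP', F.hT ⟨ℓ, hℓp⟩ hpl, hC]
            simp only [if_pos hd]
            have : (((ℓ : ℤ) : Module.End ℤ L)) (F.π P'' g) = (ℓ : ℤ) • (F.π P'' g) := by
              rw [← zsmul_one, LinearMap.smul_apply, Module.End.one_apply]
            rw [this, map_smul, hP'', smul_eq_mul, hkk]
            ring
          · have := S.sT ℓ hℓp hpl k' hk'1
            rw [if_pos hd] at this
            rw [map_sub, map_mul, map_mul, hε', hε'', epsE_X_of_ne hp ⟨ℓ, hℓp⟩ hpl, hkk]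
            have hC : epsE p (MvPolynomial.C (ℓ : ℤ)) = (ℓ : ℤ) := by simp [epsE]
            rw [hC]
            push_cast
            linarith
        · refine ⟨P' * MvPolynomial.X ⟨ℓ, hℓp⟩, fun g => ?_, ?_⟩
          · rw [map_mul, Module.End.mul_apply, hP', F.hT ⟨ℓ, hℓp⟩ hpl]
            simp only [if_neg hd, add_zero, hkk]
          · have := S.sT ℓ hℓp hpl k' hk'1
            rw [if_neg hd, add_zero] at this
            rw [map_mul, hε', epsE_X_of_ne hp ⟨ℓ, hℓp⟩ hpl, hkk, this]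
            push_cast
            ring
    · have : k = 1 := le_antisymm h1 hk
      subst this
      exact ⟨1, fun g => by rw [map_one, Module.End.one_apply], by rw [map_one, S.s1]⟩


theorem pi_C_apply (F : FData p L) (c : ℤ) (g : L) : F.π (MvPolynomial.C c) g = c • g := by
  have hC : F.π (MvPolynomial.C c) = (c : Module.End ℤ L) := by
    rw [← map_intCast F.π]; congr 1
  rw [hC, ← zsmul_one, LinearMap.smul_apply, Module.End.one_apply]

/-- (a): the lower bound -/
theorem dvd_epsE_of_pi_eq_zero (hp : p.Prime) (F : FData p L) (S : SData p s) (n : ℕ)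
    (hn : 1 ≤ n) (f : L) (hf : ∀ k, 1 ≤ k → (n : ℤ) ∣ F.a k f - s k)
    (P : HeckeAlg) (hP : F.π P = 0) : (n : ℤ) ∣ epsE p P := by
  have hn0 : (n : ℤ) ≠ 0 := by exact_mod_cast (by omega : n ≠ 0)
  have key : ∀ P : HeckeAlg, ∃ g', F.π P f - epsE p P • f = (n : ℤ) • g' := by
    intro P
    induction P using MvPolynomial.induction_on with
    | C c =>
      refine ⟨0, ?_⟩
      have : epsE p (MvPolynomial.C c) = c := by simp [epsE]
      rw [pi_C_apply, this, sub_self, smul_zero]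
    | add P Q hP hQ =>
      obtain ⟨g1, h1⟩ := hP
      obtain ⟨g2, h2⟩ := hQ
      refine ⟨g1 + g2, ?_⟩
      rw [map_add, map_add, LinearMap.add_apply, add_smul, smul_add, ← h1, ← h2]
      abel
    | mul_X P ℓ hP =>
      obtain ⟨g1, h1⟩ := hP
      have hgen : ∃ g2, F.π (MvPolynomial.X ℓ) f - epsE p (MvPolynomial.X ℓ) • f
          = (n : ℤ) • g2 := by
        apply F.sat _ _ hn0
        intro k hk
        rw [map_sub, map_smul, smul_eq_mul]
        by_cases hpl : (ℓ : ℕ) = p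
        · rw [F.hU ℓ hpl, epsE_X_of_eq ℓ hpl, one_mul]
          have h2 := hf (k * ℓ) (Nat.mul_pos hk ℓ.2.pos)
          have h3 := hf k hk
          have h4 := S.sU k hk
          rw [hpl] at h2 ⊢
          rw [h4] at h2
          have := dvd_sub h2 h3
          simpa using this
        · rw [F.hT ℓ hpl, epsE_X_of_ne hp ℓ hpl]
          have h2 := hf (k * ℓ) (Nat.mul_pos hk ℓ.2.pos)
          have h3 := hf k hk
          have h4 := S.sT ℓ ℓ.2 hpl k hk
          by_cases hd : (ℓ : ℕ) ∣ k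
          · have h5 := hf (k / ℓ) (Nat.div_pos (Nat.le_of_dvd hk hd) ℓ.2.pos)
            rw [if_pos hd] at h4 ⊢
            obtain ⟨x2, h2⟩ := h2
            obtain ⟨x3, h3⟩ := h3
            obtain ⟨x5, h5⟩ := h5
            refine ⟨x2 + ℓ * x5 - (1 + ℓ) * x3, ?_⟩
            linear_combination h2 + (ℓ : ℤ) * h5 - (1 + (ℓ : ℤ)) * h3 + h4
          · rw [if_neg hd] at h4 ⊢
            obtain ⟨x2, h2⟩ := h2
            obtain ⟨x3, h3⟩ := h3
            refine ⟨x2 - (1 + ℓ) * x3, ?_⟩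
            linear_combination h2 - (1 + (ℓ : ℤ)) * h3 + h4
      obtain ⟨g2, h2⟩ := hgen
      refine ⟨F.π P g2 + epsE p (MvPolynomial.X ℓ) • g1, ?_⟩
      have e1 : F.π (MvPolynomial.X ℓ) f = epsE p (MvPolynomial.X ℓ) • f + (n : ℤ) • g2 := by
        rw [← h2]; abel
      have e2 : F.π P f = epsE p P • f + (n : ℤ) • g1 := by
        rw [← h1]; abel
      rw [map_mul, map_mul, Module.End.mul_apply, e1, map_add, map_smul, map_smul, e2]
      simp only [smul_add, smul_smul]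
      rw [mul_comm (epsE p P), mul_comm (epsE p (MvPolynomial.X ℓ)) (n : ℤ)]
      abel
  obtain ⟨g', hg'⟩ := key P
  rw [hP, LinearMap.zero_apply, zero_sub] at hg'
  have h1 := congrArg (F.a 1) hg'
  rw [map_neg, map_smul, map_smul, smul_eq_mul, smul_eq_mul] at h1
  obtain ⟨x, hx⟩ := hf 1 le_rfl
  rw [S.s1] at hx
  refine ⟨-(F.a 1 g') - epsE p P * x, ?_⟩
  linear_combination -h1 - epsE p P * hx

/-- `π` as a linear map -/
noncomputable def FData.πl (F : FData p L) : HeckeAlg →ₗ[ℤ] Module.End ℤ L :=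
  F.π.toAddMonoidHom.toIntLinearMap

@[simp] theorem FData.πl_apply (F : FData p L) (P : HeckeAlg) : F.πl P = F.π P := rfl

/-- the Hecke algebra as a submodule of `End L` -/
noncomputable def FData.T (F : FData p L) : Submodule ℤ (Module.End ℤ L) := LinearMap.range F.πl

/-- the pairing `(g, t) ↦ a_1 (t g)` -/
noncomputable def FData.Lam (F : FData p L) : L →ₗ[ℤ] (F.T →ₗ[ℤ] ℤ) where
  toFun g :=
    { toFun := fun t => F.a 1 (t.1 g)
      map_add' := fun t t' => by simp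
      map_smul' := fun c t => by simp }
  map_add' g g' := by ext t; simp
  map_smul' c g := by ext t; simp

/-- the pairing `(t, g) ↦ a_1 (t g)` -/
noncomputable def FData.Ev (F : FData p L) : F.T →ₗ[ℤ] (L →ₗ[ℤ] ℤ) where
  toFun t := (F.a 1) ∘ₗ t.1
  map_add' t t' := by ext g; simp
  map_smul' c t := by ext g; simp

theorem FData.Lam_injective (hp : p.Prime) (F : FData p L) (S : SData p s) :
    Function.Injective F.Lam := by
  rw [injective_iff_map_eq_zero]
  intro g hg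
  apply F.sep
  intro k hk
  obtain ⟨P, hP, -⟩ := exists_coeff_poly hp F S k hk
  rw [← hP g]
  exact LinearMap.congr_fun hg ⟨F.π P, P, rfl⟩

theorem FData.Ev_injective (hp : p.Prime) (F : FData p L) (S : SData p s) :
    Function.Injective F.Ev := by
  rw [injective_iff_map_eq_zero]
  rintro ⟨t, Q, rfl⟩ ht
  apply Subtype.ext
  apply LinearMap.ext
  intro g
  apply F.sep
  intro k hk
  obtain ⟨P, hP, -⟩ := exists_coeff_poly hp F S k hk
  rw [← hP]
  have h1 := LinearMap.congr_fun ht (F.π P g)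
  have h2 : F.π P (F.π Q g) = F.π Q (F.π P g) := by
    rw [← Module.End.mul_apply, ← Module.End.mul_apply, ← map_mul, ← map_mul, mul_comm]
  simp only [FData.πl_apply]
  rw [h2]
  exact h1

/-- (b): duality -/
theorem exists_form_of_dvd [Module.Free ℤ L] [Module.Finite ℤ L] (hp : p.Prime) (F : FData p L)
    (S : SData p s) (M : ℕ)
    (hker : ∀ P, F.π P = 0 → (M : ℤ) ∣ epsE p P) :
    ∃ f : L, ∀ k, 1 ≤ k → (M : ℤ) ∣ F.a k f - s k := by
  set b := Module.Free.chooseBasis ℤ F.T with hb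
  have hex : ∀ i, ∃ P : HeckeAlg, F.π P = (b i).1 := fun i => (b i).2
  choose Pb hPb using hex
  set φ : F.T →ₗ[ℤ] ℤ := b.constr ℤ (fun i => epsE p (Pb i)) with hφ
  have hφP : ∀ P : HeckeAlg, (M : ℤ) ∣ epsE p P - φ ⟨F.π P, P, rfl⟩ := by
    intro P
    set t : F.T := ⟨F.π P, P, rfl⟩ with ht
    have h1 : F.π (P - ∑ i, b.repr t i • Pb i) = 0 := by
      have h2 := congrArg Subtype.val (b.sum_repr t)
      rw [map_sub, map_sum, sub_eq_zero]
      simp only [map_zsmul, hPb]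
      have h4 : F.π P = (t : Module.End ℤ L) := rfl
      rw [h4, ← h2, Submodule.coe_sum]
      rfl
    have h3 := hker _ h1
    rw [map_sub, map_sum] at h3
    rw [hφ, Module.Basis.constr_apply_fintype]
    simpa [Module.Basis.equivFun_apply] using h3
  have hrk : finrank ℤ (F.T →ₗ[ℤ] ℤ) ≤ finrank ℤ L := by
    rw [Module.finrank_linearMap, Module.finrank_self, mul_one]
    have := LinearMap.finrank_le_finrank_of_injective (F.Ev_injective hp S)
    rwa [Module.finrank_linearMap, Module.finrank_self, mul_one] at this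
  obtain ⟨c, hc, g, hg⟩ := exists_smul_mem_range F.Lam (F.Lam_injective hp S) hrk φ
  have hak : ∀ (g : L) (k : ℕ), 1 ≤ k → ∃ P : HeckeAlg, F.a k g = F.Lam g ⟨F.π P, P, rfl⟩ ∧
      epsE p P = s k := by
    intro g k hk
    obtain ⟨P, hP, hε⟩ := exists_coeff_poly hp F S k hk
    exact ⟨P, (hP g).symm, hε⟩
  obtain ⟨g', rfl⟩ := F.sat c g hc (fun k hk => by
    obtain ⟨P, hP, -⟩ := hak g k hk
    rw [hP, hg]
    exact ⟨_, rfl⟩)
  have hg' : F.Lam g' = φ := by
    rw [map_smul] at hg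
    ext t
    have := LinearMap.congr_fun hg t
    simp only [LinearMap.smul_apply, smul_eq_mul] at this
    exact mul_left_cancel₀ hc this
  refine ⟨g', fun k hk => ?_⟩
  obtain ⟨P, hP, hε⟩ := hak g' k hk
  rw [hP, hg', ← hε]
  have := hφP P
  rwa [← dvd_neg, neg_sub] at this

/-- the abstract formal reduction -/
theorem formal_abs [Module.Free ℤ L] [Module.Finite ℤ L] (hp : p.Prime) (F : FData p L)
    (S : SData p s) (n : ℕ) (hn : 1 ≤ n)
    (LB : ∃ f : L, ∀ k, 1 ≤ k → (n : ℤ) ∣ F.a k f - s k)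
    (UB : ∀ M : ℕ, 1 ≤ M → ∀ f : L, (∀ k, 1 ≤ k → (M : ℤ) ∣ F.a k f - s k) → M ∣ n) (c : ℤ) :
    (∃ P, F.π P = 0 ∧ epsE p P = c) ↔ (n : ℤ) ∣ c := by
  constructor
  · rintro ⟨P, hP, rfl⟩
    obtain ⟨f, hf⟩ := LB
    exact dvd_epsE_of_pi_eq_zero hp F S n hn f hf P hP
  · -- the ideal `ε (ker π)`
    set J : Ideal ℤ := (RingHom.ker F.π).map (epsE p).toRingHom with hJ
    have hsurj : Function.Surjective (epsE p).toRingHom := fun c =>
      ⟨MvPolynomial.C c, by simp [epsE]⟩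
    have hmem : ∀ c : ℤ, c ∈ J ↔ ∃ P, F.π P = 0 ∧ epsE p P = c := by
      intro c
      rw [hJ, Ideal.mem_map_iff_of_surjective _ hsurj]
      simp [RingHom.mem_ker]
    obtain ⟨m, hm⟩ : ∃ m : ℕ, J = Ideal.span {(m : ℤ)} := by
      obtain ⟨m, hm⟩ := (IsPrincipalIdealRing.principal J).principal
      refine ⟨m.natAbs, ?_⟩
      rw [hm, Int.span_natAbs]
    have hdvd : ∀ M : ℕ, 1 ≤ M → M ∣ m → M ∣ n := by
      intro M hM hMm
      obtain ⟨f, hf⟩ := exists_form_of_dvd hp F S M (fun P hP => by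
        have : epsE p P ∈ J := (hmem _).mpr ⟨P, hP, rfl⟩
        rw [hm, Ideal.mem_span_singleton] at this
        exact (Int.natCast_dvd_natCast.mpr hMm).trans this)
      exact UB M hM f hf
    have hm0 : m ≠ 0 := by
      rintro rfl
      have := hdvd (n + 1) (by omega) (dvd_zero _)
      have := Nat.le_of_dvd (by omega) this
      omega
    have hmn : m ∣ n := hdvd m (by omega) dvd_rfl
    intro hc
    rw [← hmem, hm, Ideal.mem_span_singleton]
    exact (Int.natCast_dvd_natCast.mpr hmn).trans hc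

end Fermat.Agent.S16
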