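import Mathlib
import Fermat.Agent.S16.Eis
import Fermat.Agent.S16.FormalAbs

set_option autoImplicit false

/-! # S16 [F]: the Hecke relations of `sigmaP` -/

namespace Fermat.Agent.S16

open ArithmeticFunction

theorem sigma_hecke (ℓ : ℕ) (hℓ : ℓ.Prime) (k : ℕ) (hk : 1 ≤ k) :
    (sigma 1 (k * ℓ) : ℤ) + (if ℓ ∣ k then (ℓ : ℤ) * sigma 1 (k / ℓ) else 0)
      = (1 + ℓ) * sigma 1 k := by
  obtain ⟨a, m, hm, rfl⟩ := Nat.exists_eq_pow_mul_and_not_dvd (by omega : k ≠ 0) ℓ hℓ.ne_one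
  have hcop : ∀ i, Nat.Coprime (ℓ ^ i) m := fun i =>
    Nat.Coprime.pow_left i ((Nat.Prime.coprime_iff_not_dvd hℓ).mpr hm)
  have hmul : ∀ i, sigma 1 (ℓ ^ i * m) = sigma 1 (ℓ ^ i) * sigma 1 m := fun i =>
    isMultiplicative_sigma.map_mul_of_coprime (hcop i)
  have h1 : ℓ ^ a * m * ℓ = ℓ ^ (a + 1) * m := by ring
  rw [h1, hmul, hmul]
  rcases a with _ | a
  · have : ¬ ℓ ∣ ℓ ^ 0 * m := by simpa using hm
    rw [if_neg this, sigma_one_apply_prime_pow hℓ, sigma_one_apply_prime_pow hℓ]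
    simp [Finset.sum_range_succ]
  · have hd : ℓ ∣ ℓ ^ (a + 1) * m := Dvd.dvd.mul_right (dvd_pow_self ℓ (by omega)) m
    have h2 : ℓ ^ (a + 1) * m / ℓ = ℓ ^ a * m := by
      rw [pow_succ, mul_assoc, mul_comm ℓ m, ← mul_assoc]
      exact Nat.mul_div_cancel _ hℓ.pos
    rw [if_pos hd, h2, hmul]
    simp only [sigma_one_apply_prime_pow hℓ]
    push_cast
    have h3 : ∀ n : ℕ, ∑ i ∈ Finset.range (n + 1), (ℓ : ℤ) ^ i
        = 1 + ℓ * ∑ i ∈ Finset.range n, (ℓ : ℤ) ^ i := by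
      intro n
      rw [Finset.sum_range_succ', Finset.mul_sum, add_comm]
      simp [pow_succ, mul_comm]
    rw [h3 (a + 1 + 1), h3 (a + 1)]
    ring

theorem sData_sigmaP (p : ℕ) (hp : p.Prime) : SData p (sigmaP p) where
  s1 := by
    have : ¬ p ∣ 1 := by simpa using hp.ne_one
    simp [sigmaP, this]
  sT ℓ hℓ hne k hk := by
    have hpl : ¬ p ∣ ℓ := fun h => hne ((Nat.prime_dvd_prime_iff_eq hp hℓ).mp h).symm
    have h1 := sigma_hecke ℓ hℓ k hk
    unfold sigmaP
    by_cases hpk : p ∣ k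
    · obtain ⟨k', rfl⟩ := hpk
      have hk' : 1 ≤ k' := by
        rcases Nat.eq_zero_or_pos k' with h0 | h0
        · rw [h0, mul_zero] at hk; omega
        · exact h0
      have h2 := sigma_hecke ℓ hℓ k' hk'
      have e1 : p ∣ p * k' * ℓ := Dvd.dvd.mul_right (Dvd.intro k' rfl) ℓ
      have e2 : p * k' * ℓ / p = k' * ℓ := by
        rw [mul_assoc]; exact Nat.mul_div_cancel_left _ hp.pos
      have e3 : p * k' / p = k' := Nat.mul_div_cancel_left _ hp.pos
      have e4 : ℓ ∣ p * k' ↔ ℓ ∣ k' := by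
        constructor
        · intro h
          exact ((Nat.Prime.dvd_mul hℓ).mp h).resolve_left
            (fun h => hne ((Nat.prime_dvd_prime_iff_eq hℓ hp).mp h))
        · exact fun h => Dvd.dvd.mul_left h p
      rw [if_pos e1, e2, if_pos (Dvd.intro k' rfl), e3]
      by_cases hd : ℓ ∣ k'
      · obtain ⟨k'', rfl⟩ := hd
        have e5 : p * (ℓ * k'') / ℓ = p * k'' := by
          rw [mul_left_comm]; exact Nat.mul_div_cancel_left _ hℓ.pos
        have e6 : ℓ * k'' / ℓ = k'' := Nat.mul_div_cancel_left _ hℓ.pos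
        rw [if_pos (e4.mpr (Dvd.intro k'' rfl)), e5] at h1 ⊢
        rw [if_pos (Dvd.intro k'' rfl), e6] at h2
        rw [if_pos (Dvd.intro k'' rfl), Nat.mul_div_cancel_left _ hp.pos]
        linear_combination h1 - (p : ℤ) * h2
      · rw [if_neg (fun h => hd (e4.mp h))] at h1 ⊢
        rw [if_neg hd] at h2
        linear_combination h1 - (p : ℤ) * h2
    · have e1 : ¬ p ∣ k * ℓ := fun h => ((Nat.Prime.dvd_mul hp).mp h).elim hpk hpl
      rw [if_neg e1, if_neg hpk]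
      by_cases hd : ℓ ∣ k
      · have e2 : ¬ p ∣ k / ℓ := fun h => hpk (h.trans (Nat.div_dvd_of_dvd hd))
        rw [if_pos hd] at h1 ⊢
        rw [if_neg e2]
        linear_combination h1
      · rw [if_neg hd] at h1 ⊢
        linear_combination h1
  sU k hk := by
    have h1 := sigma_hecke p hp k hk
    unfold sigmaP
    rw [if_pos (Dvd.intro_left k rfl), Nat.mul_div_cancel _ hp.pos]
    split_ifs at h1 ⊢ <;> linear_combination h1

end Fermat.Agent.S16
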