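import Mathlib
import Fermat.Statements.S16
import Fermat.Agent.Lib.QCoeff
import Fermat.Agent.S16.FormalArith

set_option autoImplicit false

/-! # S16 [F]: the formal reduction, concrete part -/

namespace Fermat.Agent.S16

open ModularCurve CuspForm ModularFormClass Fermat.Agent.Lib.QCoeff

noncomputable section

variable (p : ℕ) [Fact p.Prime]

/-- the lattice -/
abbrev Lat : Type := ↥(intLattice p 2)

theorem exists_aInt (k : ℕ) (g : Lat p) : ∃ m : ℤ, qCoeff g.1 k = (m : ℂ) :=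
  (mem_intLattice_iff g.1).1 g.2 k

/-- the integral coefficient functionals -/
def aInt (k : ℕ) : Lat p →ₗ[ℤ] ℤ where
  toFun g := (exists_aInt p k g).choose
  map_add' g g' := by
    have h1 := (exists_aInt p k g).choose_spec
    have h2 := (exists_aInt p k g').choose_spec
    have h3 := (exists_aInt p k (g + g')).choose_spec
    have h4 : qCoeff (g + g').1 k = qCoeff g.1 k + qCoeff g'.1 k := qCoeff_add g.1 g'.1 k
    rw [h1, h2, h3] at h4
    exact_mod_cast h4
  map_smul' c g := by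
    have h1 := (exists_aInt p k g).choose_spec
    have h3 := (exists_aInt p k (c • g)).choose_spec
    have h4 : qCoeff (c • g).1 k = c * qCoeff g.1 k := by
      have : (c • g).1 = (c : ℂ) • g.1 := by
        rw [Int.cast_smul_eq_zsmul]; rfl
      rw [this, qCoeff_smul]
    rw [h1, h3] at h4
    simp only [RingHom.id_apply, smul_eq_mul]
    exact_mod_cast h4

theorem aInt_spec (k : ℕ) (g : Lat p) : qCoeff g.1 k = (aInt p k g : ℂ) :=
  (exists_aInt p k g).choose_spec

/-- the action of the abstract Hecke algebra on the lattice -/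
def piLat : HeckeAlg →+* Module.End ℤ (Lat p) :=
  (heckeLatticeAlgebra p ∅).val.toRingHom.comp
    ((latticeRestrictHom p ∅).toRingHom.comp (heckeEvalForms p 2))

theorem piLat_apply_coe (P : HeckeAlg) (g : Lat p) :
    (piLat p P g).1 = (heckeEvalForms p 2 P).1 g.1 := rfl

theorem aInt_ext_zero (g : Lat p) (h : ∀ k, 1 ≤ k → aInt p k g = 0) : g = 0 := by
  apply Subtype.ext
  apply eq_zero_of_qCoeff
  intro n
  rcases Nat.eq_zero_or_pos n with rfl | hn
  · exact qCoeff_zero_idx _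
  · rw [aInt_spec, h n hn, Int.cast_zero]

theorem aInt_sat (c : ℤ) (g : Lat p) (hc : c ≠ 0) (h : ∀ k, 1 ≤ k → c ∣ aInt p k g) :
    ∃ g', g = c • g' := by
  have hc' : (c : ℂ) ≠ 0 := by exact_mod_cast hc
  have hmem : ((c : ℂ)⁻¹ • g.1) ∈ intLattice p 2 := by
    rw [mem_intLattice_iff]
    intro n
    rcases Nat.eq_zero_or_pos n with rfl | hn
    · exact ⟨0, by rw [qCoeff_zero_idx, Int.cast_zero]⟩
    · obtain ⟨m, hm⟩ := h n hn
      refine ⟨m, ?_⟩
      rw [qCoeff_smul, aInt_spec, hm]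
      push_cast
      field_simp
  refine ⟨⟨_, hmem⟩, ?_⟩
  apply Subtype.ext
  change g.1 = c • ((c : ℂ)⁻¹ • g.1)
  rw [← Int.cast_smul_eq_zsmul ℂ, smul_smul, mul_inv_cancel₀ hc', one_smul]

/-- the concrete data -/
def fData : FData p (Lat p) where
  a := aInt p
  π := piLat p
  sep := aInt_ext_zero p
  sat := aInt_sat p
  hT ℓ hne k g := by
    have hnd : ¬ (ℓ : ℕ) ∣ p := fun hd =>
      hne ((Nat.prime_dvd_prime_iff_eq ℓ.2 (Fact.out : p.Prime)).mp hd)
    have h1 : (piLat p (MvPolynomial.X ℓ) g).1 = heckeTLin 2 ℓ.2 hnd g.1 := by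
      rw [piLat_apply_coe]
      have := heckeEvalForms_heckeGen_of_not_dvd (k := 2) hnd
      rw [heckeGen] at this
      rw [this]
      rfl
    have h2 := aInt_spec p k (piLat p (MvPolynomial.X ℓ) g)
    rw [h1, qCoeff_heckeTLin, aInt_spec] at h2
    by_cases hd : (ℓ : ℕ) ∣ k
    · rw [if_pos hd, aInt_spec] at h2
      rw [if_pos hd]
      have h3 : ((ℓ : ℕ) : ℂ) ^ ((2 : ℤ) - 1) = (ℓ : ℕ) := by norm_num
      rw [h3] at h2
      exact_mod_cast h2.symm
    · rw [if_neg hd] at h2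
      rw [if_neg hd]
      exact_mod_cast h2.symm
  hU ℓ he k g := by
    have hd : (ℓ : ℕ) ∣ p := he ▸ dvd_rfl
    have h1 : (piLat p (MvPolynomial.X ℓ) g).1 = heckeULin 2 hd g.1 := by
      rw [piLat_apply_coe]
      have := heckeEvalForms_heckeGen_of_dvd (k := 2) hd
      rw [heckeGen] at this
      rw [this]
      rfl
    have h2 := aInt_spec p k (piLat p (MvPolynomial.X ℓ) g)
    rw [h1, qCoeff_heckeULin, aInt_spec] at h2
    exact_mod_cast h2.symm

/-- the map of the statement -/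
abbrev pi0 : HeckeAlg →+* ↥(heckeLatticeAlgebra p ∅) :=
  (latticeRestrictHom p ∅).toRingHom.comp (heckeEvalForms p 2)

theorem heckeEvalForms_surjective : Function.Surjective (heckeEvalForms p 2) := by
  rintro ⟨t, ht⟩
  suffices h : ∃ P, (heckeEvalForms p 2 P).1 = t by
    obtain ⟨P, hP⟩ := h
    exact ⟨P, Subtype.ext hP⟩
  unfold heckeAlgebra at ht
  induction ht using Algebra.adjoin_induction with
  | mem x hx =>
    rcases hx with ⟨ℓ, hℓ, hℓN, -, rfl⟩ | ⟨q, hqN, hq, -, rfl⟩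
    · refine ⟨heckeGen ⟨ℓ, hℓ⟩, ?_⟩
      rw [heckeEvalForms_heckeGen_of_not_dvd (ℓ := ⟨ℓ, hℓ⟩) hℓN]
      rfl
    · refine ⟨heckeGen ⟨q, hq⟩, ?_⟩
      rw [heckeEvalForms_heckeGen_of_dvd (q := ⟨q, hq⟩) hqN]
      rfl
  | algebraMap r =>
    refine ⟨MvPolynomial.C r, ?_⟩
    rw [heckeEvalForms_C]
    rfl
  | add x y _ _ hx hy =>
    obtain ⟨P, rfl⟩ := hx
    obtain ⟨Q, rfl⟩ := hy
    exact ⟨P + Q, by rw [map_add]; rfl⟩
  | mul x y _ _ hx hy =>
    obtain ⟨P, rfl⟩ := hx
    obtain ⟨Q, rfl⟩ := hy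
    exact ⟨P * Q, by rw [map_mul]; rfl⟩

theorem pi0_surjective : Function.Surjective (pi0 p) :=
  (latticeRestrictHom_surjective p ∅).comp (heckeEvalForms_surjective p)

theorem pi0_eq_zero_iff (P : HeckeAlg) : pi0 p P = 0 ↔ (fData p).π P = 0 :=
  ⟨fun h => congrArg Subtype.val h, fun h => Subtype.ext h⟩

theorem mem_eisensteinIdeal_iff (P : HeckeAlg) : P ∈ eisensteinIdeal p ↔ epsE p P = 0 :=
  mem_eigenIdeal_iff _ _

set_option synthInstance.maxHeartbeats 400000 in
set_option maxHeartbeats 1000000 in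
theorem card_of_bounds (n : ℕ) (hn : 1 ≤ n)
    (LB : ∃ f : Lat p, ∀ k, 1 ≤ k → (n : ℤ) ∣ aInt p k f - sigmaP p k)
    (UB : ∀ M : ℕ, 1 ≤ M → ∀ f : Lat p, (∀ k, 1 ≤ k → (M : ℤ) ∣ aInt p k f - sigmaP p k) → M ∣ n) :
    Nat.card (↥(heckeLatticeAlgebra p ∅) ⧸
        Ideal.map ((latticeRestrictHom p ∅).toRingHom.comp (heckeEvalForms p 2))
          (eisensteinIdeal p)) = n := by
  have := intLattice.moduleFinite p
  have := intLattice.moduleFree p
  have hp : p.Prime := Fact.out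
  have key := formal_abs hp (fData p) (sData_sigmaP p hp) n hn LB UB
  set I := Ideal.map (pi0 p) (eisensteinIdeal p) with hI
  set φ : ℤ →+* (↥(heckeLatticeAlgebra p ∅) ⧸ I) := Int.castRingHom _ with hφ
  have hεC : ∀ c : ℤ, epsE p (MvPolynomial.C c) = c := fun c => by simp [epsE]
  have hπC : ∀ c : ℤ, pi0 p (MvPolynomial.C c) = (c : ↥(heckeLatticeAlgebra p ∅)) := fun c => by
    rw [← map_intCast (pi0 p)]; congr 1
  have hsurj : Function.Surjective φ := by
    intro x
    obtain ⟨t, rfl⟩ := Ideal.Quotient.mk_surjective x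
    obtain ⟨P, rfl⟩ := pi0_surjective p t
    refine ⟨epsE p P, ?_⟩
    rw [hφ, eq_intCast, ← map_intCast (Ideal.Quotient.mk I), Ideal.Quotient.eq, ← hπC, ← map_sub]
    apply Ideal.mem_map_of_mem
    rw [mem_eisensteinIdeal_iff, map_sub, hεC, sub_self]
  have hker : RingHom.ker φ = Ideal.span {(n : ℤ)} := by
    ext c
    rw [RingHom.mem_ker, Ideal.mem_span_singleton, ← key c, hφ, eq_intCast,
      ← map_intCast (Ideal.Quotient.mk I), Ideal.Quotient.eq_zero_iff_mem, hI,
      Ideal.mem_map_iff_of_surjective _ (pi0_surjective p)]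
    constructor
    · rintro ⟨Q, hQ, hQc⟩
      refine ⟨MvPolynomial.C c - Q, ?_, ?_⟩
      · rw [← pi0_eq_zero_iff, map_sub, hπC, hQc, sub_self]
      · rw [map_sub, hεC, (mem_eisensteinIdeal_iff p Q).mp hQ, sub_zero]
    · rintro ⟨P, hP, hPc⟩
      refine ⟨MvPolynomial.C c - P, ?_, ?_⟩
      · rw [mem_eisensteinIdeal_iff, map_sub, hεC, hPc, sub_self]
      · rw [map_sub, hπC, (pi0_eq_zero_iff p P).mpr hP, sub_zero]
  have e1 := RingHom.quotientKerEquivOfSurjective hsurj
  have e0 := Ideal.quotEquivOfEq hker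
  have e2 := ((Int.quotientSpanNatEquivZMod n).symm.trans e0.symm).trans e1
  rw [← Nat.card_congr e2.toEquiv, Nat.card_zmod]

end

end Fermat.Agent.S16
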