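import Mathlib
import Fermat.Agent.S20
import Fermat.Agent.S23.Descent

set_option autoImplicit false

/-! # S16 [F]: `S_2(Γ₀(p)) = 0` for `p = 2, 3, 5` -/

namespace Fermat.Agent.S16

open ModularCurve

theorem genusFormula_two : genusFormula 2 = 0 := by
  have h1 : dedekindPsi 2 = 3 := by decide +kernel
  have h2 : nuTwo 2 = 1 := by
    unfold nuTwo; rw [Nat.card_eq_fintype_card]; decide +kernel
  have h3 : nuThree 2 = 0 := by
    unfold nuThree; rw [Nat.card_eq_fintype_card]; decide +kernel
  have h4 : cuspCount 2 = 2 := by decide +kernel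
  rw [genusFormula, h1, h2, h3, h4]; norm_num

theorem genusFormula_three : genusFormula 3 = 0 := by
  have h1 : dedekindPsi 3 = 4 := by decide +kernel
  have h2 : nuTwo 3 = 0 := by
    unfold nuTwo; rw [Nat.card_eq_fintype_card]; decide +kernel
  have h3 : nuThree 3 = 1 := by
    unfold nuThree; rw [Nat.card_eq_fintype_card]; decide +kernel
  have h4 : cuspCount 3 = 2 := by decide +kernel
  rw [genusFormula, h1, h2, h3, h4]; norm_num

theorem genusFormula_five : genusFormula 5 = 0 := by
  have h1 : dedekindPsi 5 = 6 := by decide +kernel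
  have h2 : nuTwo 5 = 2 := by
    unfold nuTwo; rw [Nat.card_eq_fintype_card]; decide +kernel
  have h3 : nuThree 5 = 0 := by
    unfold nuThree; rw [Nat.card_eq_fintype_card]; decide +kernel
  have h4 : cuspCount 5 = 2 := by decide +kernel
  rw [genusFormula, h1, h2, h3, h4]; norm_num

theorem cuspForm_eq_zero_of_genus (N : ℕ) [NeZero N] (h : genusFormula N = 0)
    (f : CuspForm (CongruenceSubgroup.Gamma0 N) 2) : f = 0 := by
  have h1 := Fermat.Agent.S20.result N
  rw [h] at h1
  have h2 : Module.finrank ℂ (CuspForm (CongruenceSubgroup.Gamma0 N) 2) = 0 := by exact_mod_cast h1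
  have := Fermat.Agent.S23.finiteDimensional_cuspForm N 2
  have := Module.finrank_zero_iff.mp h2
  exact Subsingleton.elim _ _

end Fermat.Agent.S16
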