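import Fermat.Agent.S16.ThetaDefs

set_option autoImplicit false

/-!
# S16 [T]: basic analytic facts on the quaternary theta series
positivity, summability, holomorphy, boundedness at `i∞`, `q`-expansion.
-/

namespace Fermat.Agent.S16.Theta

open Complex Filter
open UpperHalfPlane hiding I I_im I_re
open scoped Manifold Topology

namespace Param

variable (P : Param)

theorem Valid.eq_real {P : Param} {p : ℕ} (h : P.Valid p) :
    (4 * (P.Na : ℝ) - (P.Tt : ℝ) ^ 2) * P.s = (P.r : ℝ) ^ 2 + p := by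
  have := h.eq
  unfold Param.D at this
  exact_mod_cast this

theorem Valid.D_pos_real {P : Param} {p : ℕ} (h : P.Valid p) :
    0 < 4 * (P.Na : ℝ) - (P.Tt : ℝ) ^ 2 := by
  have := h.D_pos
  unfold Param.D at this
  exact_mod_cast this

/-- sum of squares decomposition. -/
theorem Valid.four_D_sq_mul_Q {P : Param} {p : ℕ} (h : P.Valid p) (x : Fin 4 → ℝ) :
    4 * (4 * (P.Na : ℝ) - (P.Tt : ℝ) ^ 2) ^ 2 * P.Q x =
      (2 * ((4 * (P.Na : ℝ) - (P.Tt : ℝ) ^ 2) * x 0 + P.r * (P.Tt * x 2 + 2 * P.Na * x 3))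
          + P.Tt * ((4 * (P.Na : ℝ) - (P.Tt : ℝ) ^ 2) * x 1 - P.r * (2 * x 2 + P.Tt * x 3))) ^ 2
      + (4 * (P.Na : ℝ) - (P.Tt : ℝ) ^ 2)
          * ((4 * (P.Na : ℝ) - (P.Tt : ℝ) ^ 2) * x 1 - P.r * (2 * x 2 + P.Tt * x 3)) ^ 2
      + p * (4 * (P.Na : ℝ) - (P.Tt : ℝ) ^ 2) * ((2 * x 2 + P.Tt * x 3) ^ 2
          + (4 * (P.Na : ℝ) - (P.Tt : ℝ) ^ 2) * x 3 ^ 2) := by
  have h1 := h.eq_real
  simp only [Q, QR]
  linear_combination (4 * (4 * (P.Na : ℝ) - (P.Tt : ℝ) ^ 2)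
    * (x 2 ^ 2 + P.Tt * x 2 * x 3 + P.Na * x 3 ^ 2)) * h1

theorem Valid.Q_nonneg {P : Param} {p : ℕ} (h : P.Valid p) (x : Fin 4 → ℝ) : 0 ≤ P.Q x := by
  have h1 := h.four_D_sq_mul_Q x
  have hD := h.D_pos_real
  have h2 : 0 ≤ 4 * (4 * (P.Na : ℝ) - (P.Tt : ℝ) ^ 2) ^ 2 * P.Q x := by
    rw [h1]; positivity
  exact nonneg_of_mul_nonneg_right h2 (by positivity)

theorem Valid.eq_zero_of_Q_eq_zero {P : Param} {p : ℕ} (h : P.Valid p) (hp : 0 < p)
    {x : Fin 4 → ℝ} (hx : P.Q x = 0) : x = 0 := by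
  have h1 := h.four_D_sq_mul_Q x
  have hD := h.D_pos_real
  have hp' : (0 : ℝ) < p := by exact_mod_cast hp
  rw [hx, mul_zero] at h1
  set D : ℝ := 4 * (P.Na : ℝ) - (P.Tt : ℝ) ^ 2 with hDdef
  have e1 : 0 ≤ (2 * (D * x 0 + P.r * (P.Tt * x 2 + 2 * P.Na * x 3))
          + P.Tt * (D * x 1 - P.r * (2 * x 2 + P.Tt * x 3))) ^ 2 := sq_nonneg _
  have e2 : 0 ≤ D * (D * x 1 - P.r * (2 * x 2 + P.Tt * x 3)) ^ 2 := by positivity
  have e3 : 0 ≤ p * D * (2 * x 2 + P.Tt * x 3) ^ 2 := by positivity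
  have e4 : 0 ≤ p * D * (D * x 3 ^ 2) := by positivity
  have f4 : p * D * (D * x 3 ^ 2) = 0 := by nlinarith
  have f3 : p * D * (2 * x 2 + P.Tt * x 3) ^ 2 = 0 := by nlinarith
  have f2 : D * (D * x 1 - P.r * (2 * x 2 + P.Tt * x 3)) ^ 2 = 0 := by nlinarith
  have f1 : (2 * (D * x 0 + P.r * (P.Tt * x 2 + 2 * P.Na * x 3))
          + P.Tt * (D * x 1 - P.r * (2 * x 2 + P.Tt * x 3))) ^ 2 = 0 := by nlinarith
  have g3 : x 3 = 0 := by
    have : x 3 ^ 2 = 0 := by
      rcases mul_eq_zero.mp f4 with h | h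
      · exact absurd h (by positivity)
      · rcases mul_eq_zero.mp h with h | h
        · exact absurd h hD.ne'
        · exact h
    exact pow_eq_zero_iff (two_ne_zero) |>.mp this
  have g2 : x 2 = 0 := by
    have : (2 * x 2 + P.Tt * x 3) ^ 2 = 0 := by
      rcases mul_eq_zero.mp f3 with h | h
      · exact absurd h (by positivity)
      · exact h
    have := pow_eq_zero_iff (two_ne_zero) |>.mp this
    rw [g3] at this
    linarith
  have g1 : x 1 = 0 := by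
    have : (D * x 1 - P.r * (2 * x 2 + P.Tt * x 3)) ^ 2 = 0 := by
      rcases mul_eq_zero.mp f2 with h | h
      · exact absurd h hD.ne'
      · exact h
    have := pow_eq_zero_iff (two_ne_zero) |>.mp this
    rw [g3, g2] at this
    have : D * x 1 = 0 := by linarith
    rcases mul_eq_zero.mp this with h | h
    · exact absurd h hD.ne'
    · exact h
  have g0 : x 0 = 0 := by
    have := pow_eq_zero_iff (two_ne_zero) |>.mp f1
    rw [g3, g2, g1] at this
    have : D * x 0 = 0 := by linarith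
    rcases mul_eq_zero.mp this with h | h
    · exact absurd h hD.ne'
    · exact h
  funext i
  fin_cases i
  · exact g0
  · exact g1
  · exact g2
  · exact g3

theorem Q_smul (c : ℝ) (x : Fin 4 → ℝ) : P.Q (c • x) = c ^ 2 * P.Q x := by
  simp only [Q, QR, Pi.smul_apply, smul_eq_mul]
  ring

theorem continuous_Q : Continuous P.Q := by
  unfold Q QR
  fun_prop

/-- coercivity. -/
theorem Valid.exists_lower_bound {P : Param} {p : ℕ} (h : P.Valid p) (hp : 0 < p) :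
    ∃ ε : ℝ, 0 < ε ∧ ∀ x : Fin 4 → ℝ, ε * ∑ i, x i ^ 2 ≤ P.Q x := by
  obtain ⟨x₀, hx₀, hmin⟩ := (isCompact_sphere (0 : Fin 4 → ℝ) 1).exists_isMinOn
    (NormedSpace.sphere_nonempty.mpr zero_le_one) P.continuous_Q.continuousOn
  have hpos : 0 < P.Q x₀ := by
    refine lt_of_le_of_ne (h.Q_nonneg _) fun h0 => ?_
    have := h.eq_zero_of_Q_eq_zero hp h0.symm
    rw [this] at hx₀
    simp at hx₀
  refine ⟨P.Q x₀ / 4, by positivity, fun x => ?_⟩
  have hsum : ∑ i, x i ^ 2 ≤ 4 * ‖x‖ ^ 2 := by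
    have : ∀ i ∈ (Finset.univ : Finset (Fin 4)), x i ^ 2 ≤ ‖x‖ ^ 2 := fun i _ => by
      have := norm_le_pi_norm x i
      rw [Real.norm_eq_abs] at this
      rw [← sq_abs]
      exact pow_le_pow_left₀ (abs_nonneg _) this 2
    calc ∑ i, x i ^ 2 ≤ ∑ _i : Fin 4, ‖x‖ ^ 2 := Finset.sum_le_sum this
      _ = 4 * ‖x‖ ^ 2 := by simp
  rcases eq_or_ne x 0 with rfl | hx
  · simp [Q, QR]
  have hn : 0 < ‖x‖ := norm_pos_iff.mpr hx
  have hmem : ‖x‖⁻¹ • x ∈ Metric.sphere (0 : Fin 4 → ℝ) 1 := by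
    rw [mem_sphere_zero_iff_norm, norm_smul, norm_inv, norm_norm, inv_mul_cancel₀ hn.ne']
  have h1 : P.Q x₀ ≤ P.Q (‖x‖⁻¹ • x) := hmin hmem
  rw [Q_smul] at h1
  have h2 : P.Q x₀ * ‖x‖ ^ 2 ≤ P.Q x := by
    have := mul_le_mul_of_nonneg_right h1 (sq_nonneg ‖x‖)
    calc P.Q x₀ * ‖x‖ ^ 2 ≤ ‖x‖⁻¹ ^ 2 * P.Q x * ‖x‖ ^ 2 := this
      _ = P.Q x := by field_simp
  calc P.Q x₀ / 4 * ∑ i, x i ^ 2 ≤ P.Q x₀ / 4 * (4 * ‖x‖ ^ 2) :=
        mul_le_mul_of_nonneg_left hsum (by positivity)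
    _ = P.Q x₀ * ‖x‖ ^ 2 := by ring
    _ ≤ P.Q x := h2

end Param

/-- one-dimensional shifted Gaussian sums converge. -/
theorem summable_gauss {b : ℝ} (hb : 0 < b) (ν : ℝ) :
    Summable (fun n : ℤ => Real.exp (-b * ((n : ℝ) + ν) ^ 2)) := by
  have h := ((summable_jacobiTheta₂_term_iff ((b * ν / Real.pi : ℝ) * I) ((b / Real.pi : ℝ) * I)).mpr
    (by simp only [mul_im, ofReal_re, I_im, mul_one, ofReal_im, I_re, mul_zero, add_zero]
        positivity)).norm
  simp only [norm_jacobiTheta₂_term] at h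
  refine (h.mul_left (Real.exp (-b * ν ^ 2))).congr fun n => ?_
  rw [← Real.exp_add]
  congr 1
  simp only [mul_im, ofReal_re, I_im, mul_one, ofReal_im, I_re, mul_zero, add_zero]
  field_simp
  ring

/-- products of summable nonnegative families are summable over `Fin n → ℤ`. -/
theorem summable_pi_prod {n : ℕ} (g : Fin n → ℤ → ℝ) (h0 : ∀ i k, 0 ≤ g i k)
    (hs : ∀ i, Summable (g i)) : Summable (fun x : Fin n → ℤ => ∏ i, g i (x i)) := by
  induction n with
  | zero => exact (hasSum_fintype _).summable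
  | succ n ih =>
    have h1 := Summable.mul_of_nonneg (hs 0) (ih (fun i => g i.succ) (fun i k => h0 _ _)
      (fun i => hs _)) (fun k => h0 _ _) (fun x => Finset.prod_nonneg fun i _ => h0 _ _)
    rw [← (Fin.consEquiv (fun _ => ℤ)).summable_iff]
    refine h1.congr fun x => ?_
    simp [Fin.prod_univ_succ, Fin.consEquiv]

namespace Param

variable {P : Param} {p : ℕ}

/-- the Gaussian sums attached to `Q` converge. -/
theorem Valid.summable_exp (h : P.Valid p) (hp : 0 < p) {a : ℝ} (ha : 0 < a) (ν : Fin 4 → ℝ) :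
    Summable (fun x : Fin 4 → ℤ => Real.exp (-a * P.Q (fun i => (x i : ℝ) + ν i))) := by
  obtain ⟨ε, hε, hle⟩ := h.exists_lower_bound hp
  have h1 := summable_pi_prod (fun i n => Real.exp (-(a * ε) * ((n : ℝ) + ν i) ^ 2))
    (fun i k => (Real.exp_pos _).le) (fun i => summable_gauss (mul_pos ha hε) (ν i))
  refine Summable.of_nonneg_of_le (fun x => (Real.exp_pos _).le) (fun x => ?_) h1
  rw [← Real.exp_sum, Real.exp_le_exp, ← Finset.mul_sum]
  have := hle (fun i => (x i : ℝ) + ν i)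
  nlinarith


theorem norm_term (q : ℝ) (z : ℂ) :
    ‖cexp (2 * Real.pi * I * (q : ℝ) * z)‖ = Real.exp (-(2 * Real.pi * z.im) * q) := by
  rw [Complex.norm_exp]
  congr 1
  have : (2 * Real.pi * I * (q : ℝ) * z : ℂ) = ((2 * Real.pi * q : ℝ) : ℂ) * (I * z) := by
    push_cast; ring
  rw [this, re_ofReal_mul, I_mul_re]
  ring

/-- the theta terms are (absolutely) summable. -/
theorem Valid.summable_norm_term (h : P.Valid p) (hp : 0 < p) (ν : Fin 4 → ℝ) {z : ℂ}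
    (hz : 0 < z.im) :
    Summable (fun x : Fin 4 → ℤ =>
      ‖cexp (2 * Real.pi * I * (P.Q (fun i => (x i : ℝ) + ν i) : ℝ) * z)‖) := by
  simp only [norm_term]
  exact h.summable_exp hp (by positivity) ν

theorem Valid.summable_term (h : P.Valid p) (hp : 0 < p) (ν : Fin 4 → ℝ) {z : ℂ}
    (hz : 0 < z.im) :
    Summable (fun x : Fin 4 → ℤ =>
      cexp (2 * Real.pi * I * (P.Q (fun i => (x i : ℝ) + ν i) : ℝ) * z)) :=
  (h.summable_norm_term hp ν hz).of_norm

theorem Valid.hasSum_theta (h : P.Valid p) (hp : 0 < p) (ν : Fin 4 → ℝ) (z : ℍ) :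
    HasSum (fun x : Fin 4 → ℤ =>
      cexp (2 * Real.pi * I * (P.Q (fun i => (x i : ℝ) + ν i) : ℝ) * z)) (P.theta ν z) :=
  (h.summable_term hp ν z.im_pos).hasSum

theorem Valid.norm_term_le (h : P.Valid p) (ν : Fin 4 → ℝ) {z : ℂ} {t : ℝ}
    (hz : t ≤ z.im) (x : Fin 4 → ℤ) :
    ‖cexp (2 * Real.pi * I * (P.Q (fun i => (x i : ℝ) + ν i) : ℝ) * z)‖ ≤
      Real.exp (-(2 * Real.pi * t) * P.Q (fun i => (x i : ℝ) + ν i)) := by
  rw [norm_term, Real.exp_le_exp]
  have h1 := h.Q_nonneg (fun i => (x i : ℝ) + ν i)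
  have h2 : 2 * Real.pi * t ≤ 2 * Real.pi * z.im :=
    mul_le_mul_of_nonneg_left hz (by positivity)
  nlinarith

/-- the theta series are holomorphic. -/
theorem Valid.mdiff_theta (h : P.Valid p) (hp : 0 < p) (ν : Fin 4 → ℝ) : MDiff (P.theta ν) := by
  rw [UpperHalfPlane.mdifferentiable_iff]
  intro w hw
  have hw' : 0 < w.im := hw
  have hU : IsOpen {z : ℂ | w.im / 2 < z.im} := isOpen_lt continuous_const Complex.continuous_im
  have hwU : w ∈ {z : ℂ | w.im / 2 < z.im} := by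
    show w.im / 2 < w.im
    linarith
  have h1 : DifferentiableOn ℂ (fun z : ℂ => ∑' x : Fin 4 → ℤ,
      cexp (2 * Real.pi * I * (P.Q (fun i => (x i : ℝ) + ν i) : ℝ) * z))
      {z : ℂ | w.im / 2 < z.im} := by
    refine differentiableOn_tsum_of_summable_norm
      (h.summable_exp hp (a := 2 * Real.pi * (w.im / 2)) (by positivity) ν)
      (fun x => ?_) hU (fun x z hz => h.norm_term_le ν (le_of_lt hz) x)
    fun_prop
  have h2 := (h1.differentiableAt (hU.mem_nhds hwU)).differentiableWithinAt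
    (s := {z : ℂ | 0 < z.im})
  refine h2.congr_of_eventuallyEq ?_ ?_
  · filter_upwards [mem_nhdsWithin_of_mem_nhds (hU.mem_nhds hwU)] with z hz
    have hz' : 0 < z.im := lt_trans (by positivity) hz
    simp only [Function.comp_apply, ofComplex_apply_of_im_pos hz', theta]
  · simp only [Function.comp_apply, ofComplex_apply_of_im_pos hw', theta]

/-- the theta series are bounded at `i∞`. -/
theorem Valid.isBoundedAtImInfty_theta (h : P.Valid p) (hp : 0 < p) (ν : Fin 4 → ℝ) :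
    IsBoundedAtImInfty (P.theta ν) := by
  rw [UpperHalfPlane.isBoundedAtImInfty_iff]
  refine ⟨∑' x : Fin 4 → ℤ, Real.exp (-(2 * Real.pi * 1) * P.Q (fun i => (x i : ℝ) + ν i)), 1,
    fun z hz => ?_⟩
  exact tsum_of_norm_bounded (h.summable_exp hp (a := 2 * Real.pi * 1) (by positivity) ν).hasSum
    (fun x => h.norm_term_le ν hz x)

theorem Q_intCast (x : Fin 4 → ℤ) : P.Q (fun i => (x i : ℝ)) = (P.Qz x : ℝ) := by
  simp only [Q, Qz, QR]
  push_cast
  ring

theorem Valid.Qz_nonneg (h : P.Valid p) (x : Fin 4 → ℤ) : 0 ≤ P.Qz x := by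
  have := h.Q_nonneg (fun i => (x i : ℝ))
  rw [Q_intCast] at this
  exact_mod_cast this

theorem Valid.eq_zero_of_Qz_eq_zero (h : P.Valid p) (hp : 0 < p) {x : Fin 4 → ℤ}
    (hx : P.Qz x = 0) : x = 0 := by
  have h1 : P.Q (fun i => (x i : ℝ)) = 0 := by rw [Q_intCast, hx]; simp
  have h2 := h.eq_zero_of_Q_eq_zero hp h1
  funext i
  have := congrFun h2 i
  simpa using this

theorem Valid.rep_zero (h : P.Valid p) (hp : 0 < p) : P.rep 0 = 1 := by
  unfold rep
  rw [Nat.card_eq_one_iff_unique]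
  refine ⟨⟨fun a b => ?_⟩, ⟨⟨0, by simp [Qz, QR]⟩⟩⟩
  apply Subtype.ext
  rw [h.eq_zero_of_Qz_eq_zero hp (x := a.1) (by simpa using a.2),
    h.eq_zero_of_Qz_eq_zero hp (x := b.1) (by simpa using b.2)]

/-- the `q`-expansion of `theta 0`. -/
theorem Valid.hasSum_theta_zero (h : P.Valid p) (hp : 0 < p) (z : ℍ) :
    HasSum (fun n : ℕ => (P.rep n : ℂ) • Function.Periodic.qParam 1 z ^ n) (P.theta 0 z) := by
  have h1 := (h.hasSum_theta hp 0 z).tsum_fiberwise (fun x => (P.Qz x).toNat)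
  have key : (fun n : ℕ => (P.rep n : ℂ) • Function.Periodic.qParam 1 z ^ n) = fun c =>
      ∑' (b : ((fun x => (P.Qz x).toNat) ⁻¹' {c} : Set (Fin 4 → ℤ))),
        cexp (2 * Real.pi * I *
          (P.Q (fun i => ((b : Fin 4 → ℤ) i : ℝ) + (0 : Fin 4 → ℝ) i) : ℝ) * z) := ?_
  · rw [key]; exact h1
  funext n
  have h2 : ∀ b : ((fun x => (P.Qz x).toNat) ⁻¹' {n} : Set (Fin 4 → ℤ)),
      cexp (2 * Real.pi * I * (P.Q (fun i => ((b : Fin 4 → ℤ) i : ℝ) + (0 : Fin 4 → ℝ) i) : ℝ) * z)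
        = Function.Periodic.qParam 1 z ^ n := by
    rintro ⟨b, hb⟩
    have hb' : (P.Qz b).toNat = n := hb
    have hb2 : P.Qz b = n := by
      rw [← hb', Int.toNat_of_nonneg (h.Qz_nonneg b)]
    simp only [Pi.zero_apply, add_zero]
    rw [Q_intCast, hb2, Function.Periodic.qParam, ← Complex.exp_nat_mul]
    congr 1
    push_cast
    ring
  rw [tsum_congr h2, tsum_const, rep, nsmul_eq_mul, smul_eq_mul]
  congr 2
  refine Nat.card_congr (Equiv.subtypeEquivRight fun x => ?_)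
  simp only [Set.mem_preimage, Set.mem_singleton_iff]
  constructor
  · intro hx
    rw [hx]; simp
  · intro hx
    rw [← hx, Int.toNat_of_nonneg (h.Qz_nonneg x)]

end Param

end Fermat.Agent.S16.Theta
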