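import Mathlib

set_option autoImplicit false

/-!
# S16 [T]: shared definitions for the quaternary theta series

`Param` = lattice parameters `(Tt, Na, r, s)`, `D = 4 Na - Tt^2`, `D s = r^2 + p`.
`Q(c1,c2,b1,b2) = N(c) + r (c1 b2 - c2 b1) + s N(b)`, `N(u,v) = u^2 + Tt u v + Na v^2`,
coordinates `x 0 = c1, x 1 = c2, x 2 = b1, x 3 = b2`.
`theta P ν z = ∑_{x ∈ ℤ^4} exp (2 π i Q(x + ν) z)`.
-/

namespace Fermat.Agent.S16.Theta

open Complex UpperHalfPlane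

/-- lattice parameters. -/
structure Param where
  /-- trace of `α` -/
  Tt : ℤ
  /-- norm of `α` -/
  Na : ℤ
  /-- `r` -/
  r : ℤ
  /-- `s` -/
  s : ℤ

namespace Param

variable (P : Param)

/-- minus the discriminant of `ℤ[α]`. -/
def D : ℤ := 4 * P.Na - P.Tt ^ 2

/-- the parameters define a positive definite even lattice of determinant `p^2`, level `p`. -/
structure Valid (p : ℕ) : Prop where
  D_pos : 0 < P.D
  eq : P.D * P.s = P.r ^ 2 + p
  ndvd : ¬ (p : ℤ) ∣ P.D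

/-- the quadratic form over any commutative ring. -/
def QR {R : Type*} [CommRing R] (x : Fin 4 → R) : R :=
  x 0 ^ 2 + P.Tt * x 0 * x 1 + P.Na * x 1 ^ 2 + P.r * (x 0 * x 3 - x 1 * x 2)
    + P.s * (x 2 ^ 2 + P.Tt * x 2 * x 3 + P.Na * x 3 ^ 2)

/-- the real quadratic form. -/
abbrev Q (x : Fin 4 → ℝ) : ℝ := P.QR x

/-- the integral quadratic form. -/
abbrev Qz (x : Fin 4 → ℤ) : ℤ := P.QR x

/-- the theta series with real characteristic `ν`. -/
noncomputable def theta (ν : Fin 4 → ℝ) (z : ℍ) : ℂ :=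
  ∑' x : Fin 4 → ℤ, cexp (2 * Real.pi * Complex.I * (P.Q (fun i => (x i : ℝ) + ν i) : ℝ) * z)

/-- representatives of the dual lattice modulo the lattice:
`ν_y = A⁻¹ (0,0,y3,y4) = (1/p) (- r y4, r y3, 2 Na y3 - Tt y4, - Tt y3 + 2 y4)`. -/
noncomputable def nu (p : ℕ) (y3 y4 : ℤ) : Fin 4 → ℝ :=
  ![(-(P.r * y4 : ℤ) : ℝ) / p, ((P.r * y3 : ℤ) : ℝ) / p,
    ((2 * P.Na * y3 - P.Tt * y4 : ℤ) : ℝ) / p, ((-P.Tt * y3 + 2 * y4 : ℤ) : ℝ) / p]

/-- the discriminant form `N'(y) = Na y3^2 - Tt y3 y4 + y4^2`  (`Q (ν_y) = N'(y) / p`). -/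
def N' {R : Type*} [CommRing R] (y3 y4 : R) : R := P.Na * y3 ^ 2 - P.Tt * y3 * y4 + y4 ^ 2

/-- representation numbers. -/
noncomputable def rep (n : ℕ) : ℕ := Nat.card {x : Fin 4 → ℤ // P.Qz x = n}

end Param

end Fermat.Agent.S16.Theta
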