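import Mathlib
import Fermat.Agent.S16.ThetaDefs

set_option autoImplicit false

/-!
# S16 [T2/T3]: the finite part (Weil representation on `(ZMod p)^2`)
-/

namespace Fermat.Agent.S16.Theta

open Complex UpperHalfPlane

namespace Param

variable (P : Param)

/-- the dual form `Qd u = (1/2) uᵀ (p A⁻¹) u = p * Q (A⁻¹ u)`. -/
def Qd {R : Type*} [CommRing R] (u : Fin 4 → R) : R :=
  P.s * P.N' (u 0) (u 1) - P.r * (u 0 * u 3 - u 1 * u 2) + P.N' (u 2) (u 3)

/-- the inversion formula (T1). -/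
def InvFormula (p : ℕ) : Prop :=
  ∀ (w : Fin 4 → ℝ) (z : ℍ), P.theta w z = -(1 / ((p : ℂ) * (z : ℂ) ^ 2)) *
    ∑' u : Fin 4 → ℤ, cexp (2 * Real.pi * Complex.I *
      (-((P.Qd (fun i => (u i : ℝ)) : ℝ) : ℂ) / (p * z) + ∑ i, (u i : ℂ) * (w i : ℂ)))

/-- the bilinear form attached to `N'`. -/
def B' {R : Type*} [CommRing R] (y3 y4 y3' y4' : R) : R :=
  2 * P.Na * y3 * y3' - P.Tt * (y3 * y4' + y4 * y3') + 2 * y4 * y4'

end Param

section Fin

variable (P : Param) (p : ℕ) [Fact p.Prime]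

/-- the standard additive character. -/
noncomputable abbrev psi : AddChar (ZMod p) ℂ := ZMod.stdAddChar

/-- `N'` on pairs. -/
def Nq (y : ZMod p × ZMod p) : ZMod p := P.N' y.1 y.2

/-- `B'` on pairs. -/
def Bq (y y' : ZMod p × ZMod p) : ZMod p := P.B' y.1 y.2 y'.1 y'.2

theorem Nq_add (y y' : ZMod p × ZMod p) : Nq P p (y + y') = Nq P p y + Nq P p y' + Bq P p y y' := by
  simp only [Nq, Bq, Param.N', Param.B', Prod.fst_add, Prod.snd_add]
  ring

theorem Nq_smul (t : ZMod p) (y : ZMod p × ZMod p) : Nq P p (t • y) = t ^ 2 * Nq P p y := by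
  simp only [Nq, Param.N', Prod.smul_fst, Prod.smul_snd, smul_eq_mul]
  ring

theorem Bq_self (y : ZMod p × ZMod p) : Bq P p y y = 2 * Nq P p y := by
  simp only [Nq, Bq, Param.N', Param.B']
  ring

theorem Bq_add_left (y y' y'' : ZMod p × ZMod p) :
    Bq P p (y + y') y'' = Bq P p y y'' + Bq P p y' y'' := by
  simp only [Bq, Param.B', Prod.fst_add, Prod.snd_add]
  ring

theorem Bq_smul_left (t : ZMod p) (y y' : ZMod p × ZMod p) :
    Bq P p (t • y) y' = t * Bq P p y y' := by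
  simp only [Bq, Param.B', Prod.smul_fst, Prod.smul_snd, smul_eq_mul]
  ring

theorem Bq_neg_left (y y' : ZMod p × ZMod p) : Bq P p (-y) y' = - Bq P p y y' := by
  simp only [Bq, Param.B', Prod.fst_neg, Prod.snd_neg]
  ring

theorem Nq_zero : Nq P p 0 = 0 := by
  simp [Nq, Param.N']

/-- orthogonality in two variables. -/
theorem sum_psi_pair (a b : ZMod p) :
    ∑ y : ZMod p × ZMod p, psi p (y.1 * a + y.2 * b) =
      if a = 0 ∧ b = 0 then (p : ℂ) ^ 2 else 0 := by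
  rw [Fintype.sum_prod_type]
  simp only [AddChar.map_add_eq_mul]
  simp_rw [← Finset.mul_sum]
  rw [← Finset.sum_mul, AddChar.sum_mulShift a (ZMod.isPrimitive_stdAddChar p),
    AddChar.sum_mulShift b (ZMod.isPrimitive_stdAddChar p), ZMod.card]
  by_cases ha : a = 0 <;> by_cases hb : b = 0 <;> simp [ha, hb, sq]

theorem eq_zero_of_adj {D0 : (P.D : ZMod p) ≠ 0} {y : ZMod p × ZMod p}
    (h1 : 2 * (P.Na : ZMod p) * y.1 - P.Tt * y.2 = 0)
    (h2 : -(P.Tt : ZMod p) * y.1 + 2 * y.2 = 0) : y = 0 := by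
  have hD : (P.D : ZMod p) = 4 * P.Na - P.Tt ^ 2 := by
    simp [Param.D]
  have e1 : (P.D : ZMod p) * y.1 = 0 := by
    rw [hD]
    linear_combination 2 * h1 + (P.Tt : ZMod p) * h2
  have e2 : (P.D : ZMod p) * y.2 = 0 := by
    rw [hD]
    linear_combination (P.Tt : ZMod p) * h1 + 2 * (P.Na : ZMod p) * h2
  exact Prod.ext ((mul_eq_zero.mp e1).resolve_left D0) ((mul_eq_zero.mp e2).resolve_left D0)

/-- orthogonality for `B'`. -/
theorem sum_psi_Bq (D0 : (P.D : ZMod p) ≠ 0) (y' : ZMod p × ZMod p) :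
    ∑ y : ZMod p × ZMod p, psi p (- Bq P p y y') = if y' = 0 then (p : ℂ) ^ 2 else 0 := by
  have h := sum_psi_pair p (-(2 * (P.Na : ZMod p) * y'.1 - P.Tt * y'.2))
    (-(-(P.Tt : ZMod p) * y'.1 + 2 * y'.2))
  have e : ∀ y : ZMod p × ZMod p, - Bq P p y y' =
      y.1 * (-(2 * (P.Na : ZMod p) * y'.1 - P.Tt * y'.2)) +
        y.2 * (-(-(P.Tt : ZMod p) * y'.1 + 2 * y'.2)) := by
    intro y
    simp only [Bq, Param.B']
    ring
  simp_rw [e]
  rw [h]
  by_cases hy : y' = 0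
  · simp [hy]
  · rw [if_neg hy, if_neg]
    rintro ⟨h1, h2⟩
    exact hy (eq_zero_of_adj P p (D0 := D0) (neg_eq_zero.mp h1) (neg_eq_zero.mp h2))

/-- the Gauss sum. -/
noncomputable def gs (t : ZMod p) : ℂ := ∑ y : ZMod p × ZMod p, psi p (t * Nq P p y)

/-- completing the square. -/
theorem sum_psi_square {t : ZMod p} (ht : t ≠ 0) (y' : ZMod p × ZMod p) :
    ∑ y : ZMod p × ZMod p, psi p (t * Nq P p y - Bq P p y y') =
      gs P p t * psi p (-(t⁻¹ * Nq P p y')) := by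
  rw [gs, Finset.sum_mul]
  refine (Fintype.sum_equiv (Equiv.addRight (t⁻¹ • y')) _ _ ?_).symm
  intro y
  rw [← AddChar.map_add_eq_mul]
  congr 1
  simp only [Equiv.coe_addRight]
  rw [Nq_add, Bq_add_left, Bq_smul_left, Bq_self, Nq_smul]
  have e : Bq P p y (t⁻¹ • y') = t⁻¹ * Bq P p y y' := by
    simp only [Bq, Param.B', Prod.smul_fst, Prod.smul_snd, smul_eq_mul]
    ring
  rw [e]
  field_simp
  ring

/-- multiplication in `𝔽_p[α]` in the coordinates `y ↔ y.2 - y.1 α`. -/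
def mulA (u y : ZMod p × ZMod p) : ZMod p × ZMod p :=
  (u.2 * y.1 + u.1 * y.2 - P.Tt * u.1 * y.1, u.2 * y.2 - P.Na * u.1 * y.1)

theorem Nq_mulA (u y : ZMod p × ZMod p) : Nq P p (mulA P p u y) = Nq P p u * Nq P p y := by
  simp only [Nq, mulA, Param.N']
  ring

/-- conjugation. -/
def conjA (u : ZMod p × ZMod p) : ZMod p × ZMod p := (-u.1, u.2 - P.Tt * u.1)

theorem mulA_conjA (u y : ZMod p × ZMod p) :
    mulA P p (conjA P p u) (mulA P p u y) = Nq P p u • y := by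
  ext
  · simp only [Nq, mulA, conjA, Param.N', Prod.smul_fst, smul_eq_mul]
    ring
  · simp only [Nq, mulA, conjA, Param.N', Prod.smul_snd, smul_eq_mul]
    ring

theorem exists_Nq_eq (hp2 : p ≠ 2) (D0 : (P.D : ZMod p) ≠ 0) (t : ZMod p) :
    ∃ u : ZMod p × ZMod p, Nq P p u = t := by
  have hodd : p % 2 = 1 := (Fact.out : p.Prime).eq_two_or_odd.resolve_left hp2
  have h2 : (2 : ZMod p) ≠ 0 := by
    intro h
    have h' : ((2 : ℕ) : ZMod p) = 0 := by exact_mod_cast h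
    rw [ZMod.natCast_eq_zero_iff] at h'
    have := Nat.le_of_dvd (by norm_num) h'
    have := (Fact.out : p.Prime).two_le
    omega
  have h4 : (4 : ZMod p) ≠ 0 := by
    have : (4 : ZMod p) = 2 * 2 := by norm_num
    rw [this]
    exact mul_ne_zero h2 h2
  have hc : (P.D : ZMod p) / 4 ≠ 0 := div_ne_zero D0 h4
  obtain ⟨a, b, hab⟩ := FiniteField.exists_root_sum_quadratic
    (f := Polynomial.X ^ 2 - Polynomial.C t)
    (g := Polynomial.C ((P.D : ZMod p) / 4) * Polynomial.X ^ 2)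
    (Polynomial.degree_X_pow_sub_C (by norm_num) _)
    (by rw [Polynomial.degree_C_mul_X_pow 2 hc]; rfl)
    (by rw [ZMod.card, hodd])
  simp only [Polynomial.eval_sub, Polynomial.eval_pow, Polynomial.eval_X, Polynomial.eval_C,
    Polynomial.eval_mul] at hab
  refine ⟨(b, a + P.Tt / 2 * b), ?_⟩
  have hD : (P.D : ZMod p) = 4 * P.Na - P.Tt ^ 2 := by
    simp [Param.D]
  rw [hD] at hab
  simp only [Nq, Param.N']
  have : a ^ 2 + (4 * (P.Na : ZMod p) - P.Tt ^ 2) / 4 * b ^ 2 = t := by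
    linear_combination hab
  rw [← this]
  field_simp
  ring

theorem gs_eq_gs_one (hp2 : p ≠ 2) (D0 : (P.D : ZMod p) ≠ 0) {t : ZMod p} (ht : t ≠ 0) :
    gs P p t = gs P p 1 := by
  obtain ⟨u, hu⟩ := exists_Nq_eq P p hp2 D0 t
  have hinj : Function.Injective (mulA P p u) := by
    intro y y' h
    have h1 := congrArg (mulA P p (conjA P p u)) h
    rw [mulA_conjA, mulA_conjA, hu] at h1
    have := congrArg (fun v => t⁻¹ • v) h1
    simpa [smul_smul, inv_mul_cancel₀ ht] using this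
  have hbij : Function.Bijective (mulA P p u) := Finite.injective_iff_bijective.mp hinj
  rw [gs, gs]
  refine Fintype.sum_bijective _ hbij _ _ ?_
  intro y
  rw [Nq_mulA, hu, one_mul]

end Fin

end Fermat.Agent.S16.Theta
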