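import Mathlib
import Fermat.Agent.S16.ThetaFin

set_option autoImplicit false
set_option linter.unusedSimpArgs false

/-! # S16 (T2): the decomposition `ℤ⁴ = ⨆_y (A ℤ⁴ + (0,0,y))` -/

namespace Fermat.Agent.S16.Theta

open Complex UpperHalfPlane

namespace Param

variable (P : Param)

/-- the Gram matrix `A` acting on vectors. -/
def Amul {R : Type*} [CommRing R] (x : Fin 4 → R) : Fin 4 → R :=
  ![2 * x 0 + P.Tt * x 1 + P.r * x 3, P.Tt * x 0 + 2 * P.Na * x 1 - P.r * x 2,
    -P.r * x 1 + 2 * P.s * x 2 + P.s * P.Tt * x 3, P.r * x 0 + P.s * P.Tt * x 2 + 2 * P.s * P.Na * x 3]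

/-- `p A⁻¹` acting on vectors. -/
def Bmul {R : Type*} [CommRing R] (u : Fin 4 → R) : Fin 4 → R :=
  ![P.s * (2 * P.Na * u 0 - P.Tt * u 1) - P.r * u 3, P.s * (-P.Tt * u 0 + 2 * u 1) + P.r * u 2,
    P.r * u 1 + 2 * P.Na * u 2 - P.Tt * u 3, -P.r * u 0 - P.Tt * u 2 + 2 * u 3]

theorem Amul_Bmul {p : ℕ} (h : P.Valid p) (u : Fin 4 → ℤ) :
    P.Amul (P.Bmul u) = fun i => (p : ℤ) * u i := by
  have he := h.eq
  rw [Param.D] at he
  funext i
  fin_cases i
  · simp only [Amul, Bmul, Matrix.cons_val_zero, Matrix.cons_val_one, Matrix.cons_val, Fin.zero_eta,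
      Int.cast_id]
    linear_combination (u 0) * he
  · simp only [Amul, Bmul, Matrix.cons_val_zero, Matrix.cons_val_one, Matrix.cons_val, Fin.mk_one,
      Int.cast_id]
    linear_combination (u 1) * he
  · simp only [Amul, Bmul, Matrix.cons_val_zero, Matrix.cons_val_one, Matrix.cons_val,
      Fin.reduceFinMk, Int.cast_id]
    linear_combination (u 2) * he
  · simp only [Amul, Bmul, Matrix.cons_val_zero, Matrix.cons_val_one, Matrix.cons_val,
      Fin.reduceFinMk, Int.cast_id]
    linear_combination (u 3) * he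

theorem Bmul_Amul {p : ℕ} (h : P.Valid p) (u : Fin 4 → ℤ) :
    P.Bmul (P.Amul u) = fun i => (p : ℤ) * u i := by
  have he := h.eq
  rw [Param.D] at he
  funext i
  fin_cases i
  · simp only [Amul, Bmul, Matrix.cons_val_zero, Matrix.cons_val_one, Matrix.cons_val, Fin.zero_eta,
      Int.cast_id]
    linear_combination (u 0) * he
  · simp only [Amul, Bmul, Matrix.cons_val_zero, Matrix.cons_val_one, Matrix.cons_val, Fin.mk_one,
      Int.cast_id]
    linear_combination (u 1) * he
  · simp only [Amul, Bmul, Matrix.cons_val_zero, Matrix.cons_val_one, Matrix.cons_val,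
      Fin.reduceFinMk, Int.cast_id]
    linear_combination (u 2) * he
  · simp only [Amul, Bmul, Matrix.cons_val_zero, Matrix.cons_val_one, Matrix.cons_val,
      Fin.reduceFinMk, Int.cast_id]
    linear_combination (u 3) * he

theorem Amul_add (x y : Fin 4 → ℤ) : P.Amul (x + y) = P.Amul x + P.Amul y := by
  funext i
  fin_cases i <;> simp [Amul] <;> ring

theorem Amul_smul (c : ℤ) (x : Fin 4 → ℤ) : P.Amul (fun i => c * x i) = fun i => c * P.Amul x i := by
  funext i
  fin_cases i <;> simp [Amul] <;> ring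

theorem Amul_injective {p : ℕ} (hp : 0 < p) (h : P.Valid p) :
    Function.Injective (P.Amul : (Fin 4 → ℤ) → (Fin 4 → ℤ)) := by
  intro x y hxy
  have h1 := congrArg P.Bmul hxy
  rw [P.Bmul_Amul h, P.Bmul_Amul h] at h1
  funext i
  have h2 := congrFun h1 i
  exact mul_left_cancel₀ (by exact_mod_cast hp.ne') h2

section Prime

variable (p : ℕ) [Fact p.Prime]

/-- the class of `u` modulo `A ℤ⁴`. -/
def proj (u : Fin 4 → ℤ) : ZMod p × ZMod p :=
  ((u 2 : ZMod p) - (P.D : ZMod p)⁻¹ * P.r * (P.Tt * u 0 - 2 * u 1),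
    (u 3 : ZMod p) - (P.D : ZMod p)⁻¹ * P.r * (2 * P.Na * u 0 - P.Tt * u 1))

/-- representatives. -/
def rep4 (y : ZMod p × ZMod p) : Fin 4 → ℤ := ![0, 0, (y.1.val : ℤ), (y.2.val : ℤ)]

theorem proj_add (u v : Fin 4 → ℤ) : P.proj p (u + v) = P.proj p u + P.proj p v := by
  ext <;> simp [proj] <;> ring

theorem proj_sub (u v : Fin 4 → ℤ) : P.proj p (u - v) = P.proj p u - P.proj p v := by
  ext <;> simp [proj] <;> ring

theorem proj_rep4 (y : ZMod p × ZMod p) : P.proj p (rep4 p y) = y := by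
  ext <;> simp [proj, rep4]

variable {p}

theorem Valid.D_ne_zero (h : P.Valid p) : (P.D : ZMod p) ≠ 0 := by
  intro h0
  exact h.ndvd ((ZMod.intCast_zmod_eq_zero_iff_dvd _ _).mp h0)

theorem Valid.eq_zmod (h : P.Valid p) : (P.D : ZMod p) * P.s = (P.r : ZMod p) ^ 2 := by
  have := congrArg (Int.cast : ℤ → ZMod p) h.eq
  push_cast at this
  simpa using this

theorem D_zmod : (P.D : ZMod p) = 4 * P.Na - (P.Tt : ZMod p) ^ 2 := by
  simp [Param.D]

theorem proj_Amul (h : P.Valid p) (x : Fin 4 → ℤ) : P.proj p (P.Amul x) = 0 := by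
  have D0 := Valid.D_ne_zero P h
  have he := Valid.eq_zmod P h
  have hD := P.D_zmod (p := p)
  ext
  · simp only [proj, Amul, Matrix.cons_val_zero, Matrix.cons_val_one, Matrix.cons_val, Int.cast_id,
      Prod.fst_zero]
    push_cast
    field_simp
    rw [hD] at he ⊢
    linear_combination (2 * (x 2 : ZMod p) + P.Tt * x 3) * he
  · simp only [proj, Amul, Matrix.cons_val_zero, Matrix.cons_val_one, Matrix.cons_val, Int.cast_id,
      Prod.snd_zero]
    push_cast
    field_simp
    rw [hD] at he ⊢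
    linear_combination ((P.Tt : ZMod p) * x 2 + 2 * P.Na * x 3) * he

theorem exists_of_proj_eq_zero (h : P.Valid p) (u : Fin 4 → ℤ) (hu : P.proj p u = 0) :
    ∃ x : Fin 4 → ℤ, u = P.Amul x := by
  have D0 := Valid.D_ne_zero P h
  have he := Valid.eq_zmod P h
  have hD := P.D_zmod (p := p)
  have hp0 : (p : ℤ) ≠ 0 := by exact_mod_cast (Fact.out : p.Prime).ne_zero
  have h1 : (P.D : ZMod p) * (u 2 : ZMod p) = P.r * (P.Tt * u 0 - 2 * u 1) := by
    have := congrArg Prod.fst hu
    simp only [proj, Prod.fst_zero] at this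
    field_simp at this
    linear_combination this
  have h2 : (P.D : ZMod p) * (u 3 : ZMod p) = P.r * (2 * P.Na * u 0 - P.Tt * u 1) := by
    have := congrArg Prod.snd hu
    simp only [proj, Prod.snd_zero] at this
    field_simp at this
    linear_combination this
  have hdvd : ∀ i, (p : ℤ) ∣ P.Bmul u i := by
    intro i
    rw [← ZMod.intCast_zmod_eq_zero_iff_dvd]
    apply (mul_eq_zero.mp (?_ : (P.D : ZMod p) * _ = 0)).resolve_left D0
    fin_cases i
    · simp only [Bmul, Matrix.cons_val_zero, Matrix.cons_val_one, Matrix.cons_val, Int.cast_id,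
        Fin.zero_eta]
      push_cast
      linear_combination (2 * (P.Na : ZMod p) * u 0 - P.Tt * u 1) * he - (P.r : ZMod p) * h2
    · simp only [Bmul, Matrix.cons_val_zero, Matrix.cons_val_one, Matrix.cons_val, Int.cast_id,
        Fin.mk_one]
      push_cast
      linear_combination (-(P.Tt : ZMod p) * u 0 + 2 * u 1) * he + (P.r : ZMod p) * h1
    · simp only [Bmul, Matrix.cons_val_zero, Matrix.cons_val_one, Matrix.cons_val, Int.cast_id,
        Fin.reduceFinMk]
      push_cast
      linear_combination 2 * (P.Na : ZMod p) * h1 - (P.Tt : ZMod p) * h2 +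
        (P.r : ZMod p) * u 1 * hD
    · simp only [Bmul, Matrix.cons_val_zero, Matrix.cons_val_one, Matrix.cons_val, Int.cast_id,
        Fin.reduceFinMk]
      push_cast
      linear_combination -(P.Tt : ZMod p) * h1 + 2 * h2 - (P.r : ZMod p) * u 0 * hD
  choose x hx using hdvd
  refine ⟨x, ?_⟩
  have h3 := P.Amul_Bmul h u
  have h4 : P.Bmul u = fun i => (p : ℤ) * x i := funext hx
  rw [h4, P.Amul_smul] at h3
  funext i
  exact (mul_left_cancel₀ hp0 (congrFun h3 i)).symm

/-- the decomposition of `ℤ⁴`. -/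
noncomputable def cosetE (h : P.Valid p) :
    (ZMod p × ZMod p) × (Fin 4 → ℤ) ≃ (Fin 4 → ℤ) :=
  Equiv.ofBijective (fun a => P.Amul a.2 + rep4 p a.1) (by
    constructor
    · rintro ⟨y, x⟩ ⟨y', x'⟩ hxy
      dsimp only at hxy
      have h1 := congrArg (P.proj p) hxy
      rw [proj_add, proj_add, P.proj_Amul h, P.proj_Amul h, proj_rep4, proj_rep4, zero_add,
        zero_add] at h1
      subst h1
      have h2 := P.Amul_injective (Fact.out : p.Prime).pos h (add_right_cancel hxy)
      rw [h2]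
    · intro u
      obtain ⟨x, hx⟩ := P.exists_of_proj_eq_zero h (u - rep4 p (P.proj p u))
        (by rw [proj_sub, proj_rep4, sub_self])
      exact ⟨(P.proj p u, x), by dsimp only; rw [← hx]; abel⟩)

theorem cosetE_apply (h : P.Valid p) (y : ZMod p × ZMod p) (x : Fin 4 → ℤ) :
    P.cosetE h (y, x) = P.Amul x + rep4 p y := rfl

theorem tsum_cosetE (h : P.Valid p) (F : (Fin 4 → ℤ) → ℂ) (hF : Summable F) :
    ∑' u, F u = ∑ y : ZMod p × ZMod p, ∑' x : Fin 4 → ℤ, F (P.Amul x + rep4 p y) := by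
  rw [← (P.cosetE h).tsum_eq]
  refine (((P.cosetE h).summable_iff.mpr hF).tsum_prod).trans ?_
  rw [tsum_fintype]
  rfl

end Prime

end Param

end Fermat.Agent.S16.Theta
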