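import Mathlib

set_option autoImplicit false

/-! # S16 (T1): theta inversion by recursion on triangular forms -/

namespace Fermat.Agent.S16

open Complex Real

noncomputable section

/-- one-dimensional inversion with a real shift `s` and a real character `w`. -/
theorem one_dim_term (τ : ℂ) (d s w : ℝ) (n : ℤ) :
    cexp (π * I * τ * (d * ((n : ℝ) + s) ^ 2 : ℝ) + 2 * π * I * ((n : ℝ) * w : ℝ)) =
      cexp (π * I * (τ * d) * s ^ 2) * jacobiTheta₂_term n (w + τ * d * s) (τ * d) := by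
  rw [jacobiTheta₂_term, ← Complex.exp_add]
  congr 1
  push_cast
  ring

theorem one_dim_summable (τ : ℂ) (hτ : 0 < τ.im) (d : ℝ) (hd : 0 < d) (s w : ℝ) :
    Summable fun n : ℤ =>
      cexp (π * I * τ * (d * ((n : ℝ) + s) ^ 2 : ℝ) + 2 * π * I * ((n : ℝ) * w : ℝ)) := by
  have h : 0 < (τ * d).im := by
    rw [Complex.im_mul_ofReal]; positivity
  simp_rw [one_dim_term]
  exact ((summable_jacobiTheta₂_term_iff _ _).mpr h).mul_left _

theorem one_dim_dual_term (τ : ℂ) (hτ : τ ≠ 0) (d : ℝ) (hd : d ≠ 0) (s w : ℝ) (m : ℤ) :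
    cexp (-π * I * (((m : ℝ) - w) ^ 2 / d : ℝ) / τ + 2 * π * I * (((m : ℝ) - w) * s : ℝ)) =
      cexp (π * I * (τ * d) * s ^ 2) * cexp (-π * I * (w + τ * d * s) ^ 2 / (τ * d)) *
        jacobiTheta₂_term m ((w + τ * d * s) / (τ * d)) (-1 / (τ * d)) := by
  rw [jacobiTheta₂_term, ← Complex.exp_add, ← Complex.exp_add]
  congr 1
  have hd' : (d : ℂ) ≠ 0 := by exact_mod_cast hd
  push_cast
  field_simp
  ring

theorem one_dim_dual_summable (τ : ℂ) (hτ : 0 < τ.im) (d : ℝ) (hd : 0 < d) (s w : ℝ) :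
    Summable fun m : ℤ =>
      cexp (-π * I * (((m : ℝ) - w) ^ 2 / d : ℝ) / τ + 2 * π * I * (((m : ℝ) - w) * s : ℝ)) := by
  have h : 0 < (τ * d).im := by
    rw [Complex.im_mul_ofReal]; positivity
  have h0 : τ ≠ 0 := by
    rintro rfl; simp at hτ
  have h' : 0 < (-1 / (τ * d)).im := by
    rw [neg_div, neg_im, one_div, inv_im, neg_div, neg_neg]
    exact div_pos h (normSq_pos.mpr (by
      intro h1; rw [h1] at h; simp at h))
  simp_rw [one_dim_dual_term τ h0 d hd.ne']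
  exact ((summable_jacobiTheta₂_term_iff _ _).mpr h').mul_left _

theorem one_dim (τ : ℂ) (hτ : 0 < τ.im) (d : ℝ) (hd : 0 < d) (s w : ℝ) :
    ∑' n : ℤ, cexp (π * I * τ * (d * ((n : ℝ) + s) ^ 2 : ℝ) + 2 * π * I * ((n : ℝ) * w : ℝ)) =
      1 / (-I * (τ * d)) ^ (1 / 2 : ℂ) *
        ∑' m : ℤ, cexp (-π * I * (((m : ℝ) - w) ^ 2 / d : ℝ) / τ +
          2 * π * I * (((m : ℝ) - w) * s : ℝ)) := by
  have h0 : τ ≠ 0 := by
    rintro rfl; simp at hτ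
  simp_rw [one_dim_term, one_dim_dual_term τ h0 d hd.ne']
  rw [tsum_mul_left, tsum_mul_left]
  change _ * jacobiTheta₂ _ _ = _ * (_ * jacobiTheta₂ _ _)
  rw [jacobiTheta₂_functional_equation]
  ring

theorem norm_cexp_L (τ : ℂ) (a b : ℝ) :
    ‖cexp (π * I * τ * a + 2 * π * I * b)‖ = rexp (-(π * τ.im * a)) := by
  rw [Complex.norm_exp]
  congr 1
  simp only [add_re, mul_re, mul_im, ofReal_re, ofReal_im, I_re, I_im, re_ofNat, im_ofNat]
  ring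

theorem norm_cexp_R (τ : ℂ) (a b : ℝ) :
    ‖cexp (-π * I * a / τ + 2 * π * I * b)‖ = rexp (-(π * (τ.im / normSq τ) * a)) := by
  rw [Complex.norm_exp]
  congr 1
  simp only [add_re, mul_re, mul_im, ofReal_re, ofReal_im, I_re, I_im, re_ofNat, im_ofNat,
    div_re, neg_re, neg_im]
  ring

theorem norm_cexp_R' (τ : ℂ) (a : ℝ) :
    ‖cexp (-π * I * a / τ)‖ = rexp (-(π * (τ.im / normSq τ) * a)) := by
  have := norm_cexp_R τ a 0
  simpa using this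

theorem im_div_normSq_pos {τ : ℂ} (hτ : 0 < τ.im) : 0 < τ.im / normSq τ :=
  div_pos hτ (normSq_pos.mpr (by rintro rfl; simp at hτ))

/-- real summability of a shifted one-dimensional Gaussian. -/
theorem summable_gauss (t : ℝ) (ht : 0 < t) (s : ℝ) :
    Summable fun n : ℤ => rexp (-(π * t * ((n : ℝ) + s) ^ 2)) := by
  have h := (one_dim_summable (I * t) (by simp [ht]) 1 one_pos s 0).norm
  refine h.congr fun n => ?_
  rw [norm_cexp_L]
  simp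

/-- uniform bound for shifted one-dimensional Gaussians. -/
theorem exists_bound_gauss (t : ℝ) (ht : 0 < t) :
    ∃ C : ℝ, ∀ s : ℝ, ∑' n : ℤ, rexp (-(π * t * ((n : ℝ) + s) ^ 2)) ≤ C := by
  have hτ : 0 < (I * (t : ℂ)).im := by simp [ht]
  refine ⟨‖1 / (-I * ((I * (t : ℂ)) * (1 : ℝ))) ^ (1 / 2 : ℂ)‖ *
    ∑' m : ℤ, rexp (-(π * ((I * (t : ℂ)).im / normSq (I * (t : ℂ))) * ((m : ℝ) + 0) ^ 2)),
    fun s => ?_⟩
  have h1 := one_dim (I * t) hτ 1 one_pos s 0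
  have h2 : ∀ n : ℤ, cexp (π * I * (I * t) * (1 * ((n : ℝ) + s) ^ 2 : ℝ) +
      2 * π * I * ((n : ℝ) * 0 : ℝ)) = ((rexp (-(π * t * ((n : ℝ) + s) ^ 2)) : ℝ) : ℂ) := by
    intro n
    rw [Complex.ofReal_exp]
    congr 1
    push_cast
    ring_nf
    rw [I_sq]
    ring
  simp_rw [h2] at h1
  rw [← Complex.ofReal_tsum] at h1
  have h3 : 0 ≤ ∑' n : ℤ, rexp (-(π * t * ((n : ℝ) + s) ^ 2)) :=
    tsum_nonneg fun _ => (Real.exp_pos _).le
  calc ∑' n : ℤ, rexp (-(π * t * ((n : ℝ) + s) ^ 2))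
      = ‖((∑' n : ℤ, rexp (-(π * t * ((n : ℝ) + s) ^ 2)) : ℝ) : ℂ)‖ := by
        rw [Complex.norm_real, Real.norm_of_nonneg h3]
    _ = _ := by rw [h1, norm_mul]
    _ ≤ _ := by
        refine mul_le_mul_of_nonneg_left ?_ (norm_nonneg _)
        have h4 : ∀ m : ℤ, ‖cexp (-π * I * (((m : ℝ) - 0) ^ 2 / 1 : ℝ) / (I * t) +
            2 * π * I * (((m : ℝ) - 0) * s : ℝ))‖ =
            rexp (-(π * ((I * (t : ℂ)).im / normSq (I * (t : ℂ))) * ((m : ℝ) + 0) ^ 2)) := by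
          intro m
          rw [norm_cexp_R]
          simp
        refine (norm_tsum_le_tsum_norm ?_).trans (le_of_eq (tsum_congr h4))
        exact (one_dim_dual_summable (I * t) hτ 1 one_pos s 0).norm

/-- The inversion statement for a "lattice" `X` inside a real vector space `W`. -/
structure ThetaInv {X W : Type} [AddCommGroup W] [Module ℝ W] (ι : X → W) (B : X → W →ₗ[ℝ] ℝ)
    (q : X → ℝ) (qd : W → ℝ) (κ : ℂ → ℂ) : Prop where
  sumL : ∀ t : ℝ, 0 < t → Summable fun x => rexp (-(π * t * q x))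
  sumR : ∀ t : ℝ, 0 < t → ∀ w, Summable fun y => rexp (-(π * t * qd (ι y - w)))
  ne : ∀ τ : ℂ, 0 < τ.im → κ τ ≠ 0
  eq : ∀ τ : ℂ, 0 < τ.im → ∀ w, ∑' x, cexp (π * I * τ * q x + 2 * π * I * B x w) =
      κ τ * ∑' y, cexp (-π * I * qd (ι y - w) / τ)

namespace ThetaInv

variable {X W : Type} [AddCommGroup W] [Module ℝ W] {ι : X → W} {B : X → W →ₗ[ℝ] ℝ}
  {q : X → ℝ} {qd : W → ℝ} {κ : ℂ → ℂ}

theorem summableL (h : ThetaInv ι B q qd κ) (τ : ℂ) (hτ : 0 < τ.im) (w : W) :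
    Summable fun x => cexp (π * I * τ * q x + 2 * π * I * B x w) := by
  refine Summable.of_norm ?_
  simp_rw [norm_cexp_L]
  exact h.sumL _ hτ

theorem summableR (h : ThetaInv ι B q qd κ) (τ : ℂ) (hτ : 0 < τ.im) (w : W) :
    Summable fun y => cexp (-π * I * qd (ι y - w) / τ) := by
  refine Summable.of_norm ?_
  simp_rw [norm_cexp_R']
  exact h.sumR _ (im_div_normSq_pos hτ) w

theorem exists_boundR (h : ThetaInv ι B q qd κ) (t : ℝ) (ht : 0 < t) :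
    ∃ C : ℝ, ∀ w, ∑' y, rexp (-(π * t * qd (ι y - w))) ≤ C := by
  have hτ : 0 < (I * ((t⁻¹ : ℝ) : ℂ)).im := by simp [ht]
  refine ⟨‖(κ (I * ((t⁻¹ : ℝ) : ℂ)))⁻¹‖ * ∑' x, rexp (-(π * (I * ((t⁻¹ : ℝ) : ℂ)).im * q x)),
    fun w => ?_⟩
  have h1 := h.eq _ hτ w
  have h2 : ∀ y, cexp (-π * I * qd (ι y - w) / (I * ((t⁻¹ : ℝ) : ℂ))) =
      ((rexp (-(π * t * qd (ι y - w))) : ℝ) : ℂ) := by
    intro y
    rw [Complex.ofReal_exp]
    congr 1
    have : (t : ℂ) ≠ 0 := by exact_mod_cast ht.ne'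
    push_cast
    field_simp
  simp_rw [h2] at h1
  rw [← Complex.ofReal_tsum] at h1
  have h3 : 0 ≤ ∑' y, rexp (-(π * t * qd (ι y - w))) :=
    tsum_nonneg fun _ => (Real.exp_pos _).le
  have h5 : ((∑' y, rexp (-(π * t * qd (ι y - w))) : ℝ) : ℂ) =
      (κ (I * ((t⁻¹ : ℝ) : ℂ)))⁻¹ *
        ∑' x, cexp (π * I * (I * ((t⁻¹ : ℝ) : ℂ)) * q x + 2 * π * I * B x w) := by
    rw [h1, inv_mul_cancel_left₀ (h.ne _ hτ)]
  calc ∑' y, rexp (-(π * t * qd (ι y - w)))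
      = ‖((∑' y, rexp (-(π * t * qd (ι y - w))) : ℝ) : ℂ)‖ := by
        rw [Complex.norm_real, Real.norm_of_nonneg h3]
    _ = _ := by rw [h5, norm_mul]
    _ ≤ _ := by
        refine mul_le_mul_of_nonneg_left ?_ (norm_nonneg _)
        refine (norm_tsum_le_tsum_norm (h.summableL _ hτ w).norm).trans (le_of_eq ?_)
        exact tsum_congr fun x => norm_cexp_L _ _ _

/-- the data of the cons step -/
def consι (ι : X → W) : ℤ × X → ℝ × W := fun x => ((x.1 : ℝ), ι x.2)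

def consB (B : X → W →ₗ[ℝ] ℝ) : ℤ × X → (ℝ × W) →ₗ[ℝ] ℝ := fun x =>
  (x.1 : ℝ) • LinearMap.fst ℝ ℝ W + (B x.2).comp (LinearMap.snd ℝ ℝ W)

def consq (B : X → W →ₗ[ℝ] ℝ) (q : X → ℝ) (d : ℝ) (c : W) : ℤ × X → ℝ := fun x =>
  d * ((x.1 : ℝ) + B x.2 c) ^ 2 + q x.2

def consqd (qd : W → ℝ) (d : ℝ) (c : W) : ℝ × W → ℝ := fun v =>
  v.1 ^ 2 / d + qd (v.2 - v.1 • c)

def consκ (κ : ℂ → ℂ) (d : ℝ) : ℂ → ℂ := fun τ => 1 / (-I * (τ * d)) ^ (1 / 2 : ℂ) * κ τ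

theorem cons_sumL (h : ThetaInv ι B q qd κ) (d : ℝ) (hd : 0 < d) (c : W) (t : ℝ) (ht : 0 < t) :
    Summable fun x : ℤ × X => rexp (-(π * t * consq B q d c x)) := by
  rw [← (Equiv.prodComm X ℤ).summable_iff]
  have hfun : ((fun x : ℤ × X => rexp (-(π * t * consq B q d c x))) ∘ (Equiv.prodComm X ℤ)) =
      fun x : X × ℤ => rexp (-(π * t * q x.1)) *
        rexp (-(π * (t * d) * ((x.2 : ℝ) + B x.1 c) ^ 2)) := by
    funext x
    simp only [Function.comp, Equiv.prodComm_apply, Prod.swap, consq]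
    rw [← Real.exp_add]
    congr 1
    ring
  rw [hfun]
  obtain ⟨C, hC⟩ := exists_bound_gauss (t * d) (mul_pos ht hd)
  have hnn : (0 : X × ℤ → ℝ) ≤ fun x : X × ℤ => rexp (-(π * t * q x.1)) *
      rexp (-(π * (t * d) * ((x.2 : ℝ) + B x.1 c) ^ 2)) :=
    fun x => (mul_pos (Real.exp_pos _) (Real.exp_pos _)).le
  rw [summable_prod_of_nonneg hnn]
  constructor
  · intro x
    exact (summable_gauss (t * d) (mul_pos ht hd) (B x c)).mul_left (rexp (-(π * t * q x)))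
  · refine Summable.of_nonneg_of_le (fun x => tsum_nonneg fun y => hnn (x, y)) (fun x => ?_)
      ((h.sumL t ht).mul_right C)
    have : ∑' y : ℤ, rexp (-(π * t * q x)) * rexp (-(π * (t * d) * ((y : ℝ) + B x c) ^ 2)) ≤
        rexp (-(π * t * q x)) * C := by
      rw [tsum_mul_left]
      exact mul_le_mul_of_nonneg_left (hC _) (Real.exp_pos _).le
    exact this

theorem cons_sumR (h : ThetaInv ι B q qd κ) (d : ℝ) (hd : 0 < d) (c : W) (t : ℝ) (ht : 0 < t)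
    (w : ℝ × W) :
    Summable fun y : ℤ × X => rexp (-(π * t * consqd qd d c (consι ι y - w))) := by
  have hfun : (fun y : ℤ × X => rexp (-(π * t * consqd qd d c (consι ι y - w)))) =
      fun y : ℤ × X => rexp (-(π * (t / d) * ((y.1 : ℝ) + (-w.1)) ^ 2)) *
        rexp (-(π * t * qd (ι y.2 - (w.2 + ((y.1 : ℝ) - w.1) • c)))) := by
    funext y
    simp only [consqd, consι, Prod.fst_sub, Prod.snd_sub]
    rw [← Real.exp_add, sub_add_eq_sub_sub]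
    congr 1
    field_simp
    ring
  rw [hfun]
  obtain ⟨C, hC⟩ := h.exists_boundR t ht
  have hnn : (0 : ℤ × X → ℝ) ≤ fun y : ℤ × X => rexp (-(π * (t / d) * ((y.1 : ℝ) + (-w.1)) ^ 2)) *
        rexp (-(π * t * qd (ι y.2 - (w.2 + ((y.1 : ℝ) - w.1) • c)))) :=
    fun x => (mul_pos (Real.exp_pos _) (Real.exp_pos _)).le
  rw [summable_prod_of_nonneg hnn]
  constructor
  · intro x
    exact (h.sumR t ht (w.2 + ((x : ℝ) - w.1) • c)).mul_left
      (rexp (-(π * (t / d) * ((x : ℝ) + (-w.1)) ^ 2)))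
  · refine Summable.of_nonneg_of_le (fun x => tsum_nonneg fun y => hnn (x, y)) (fun x => ?_)
      ((summable_gauss (t / d) (div_pos ht hd) (-w.1)).mul_right C)
    have : ∑' y : X, rexp (-(π * (t / d) * ((x : ℝ) + (-w.1)) ^ 2)) *
        rexp (-(π * t * qd (ι y - (w.2 + ((x : ℝ) - w.1) • c)))) ≤
        rexp (-(π * (t / d) * ((x : ℝ) + (-w.1)) ^ 2)) * C := by
      rw [tsum_mul_left]
      exact mul_le_mul_of_nonneg_left (hC _) (Real.exp_pos _).le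
    exact this

theorem cons_eq (h : ThetaInv ι B q qd κ) (d : ℝ) (hd : 0 < d) (c : W) (τ : ℂ) (hτ : 0 < τ.im)
    (w : ℝ × W) :
    ∑' x : ℤ × X, cexp (π * I * τ * consq B q d c x + 2 * π * I * consB B x w) =
      consκ κ d τ * ∑' y : ℤ × X, cexp (-π * I * consqd qd d c (consι ι y - w) / τ) := by
  have hL : Summable fun x : ℤ × X =>
      cexp (π * I * τ * consq B q d c x + 2 * π * I * consB B x w) := by
    refine Summable.of_norm ?_
    simp_rw [norm_cexp_L]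
    exact cons_sumL h d hd c _ hτ
  have hR : Summable fun y : ℤ × X => cexp (-π * I * consqd qd d c (consι ι y - w) / τ) := by
    refine Summable.of_norm ?_
    simp_rw [norm_cexp_R']
    exact cons_sumR h d hd c _ (im_div_normSq_pos hτ) w
  have hτ0 : τ ≠ 0 := by rintro rfl; simp at hτ
  set b : X → ℂ := fun x' => cexp (π * I * τ * q x' + 2 * π * I * B x' w.2) with hb
  set a : X → ℤ → ℂ := fun x' x₀ => cexp (π * I * τ * (d * ((x₀ : ℝ) + B x' c) ^ 2 : ℝ) +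
    2 * π * I * ((x₀ : ℝ) * w.1 : ℝ)) with ha
  set a' : X → ℤ → ℂ := fun x' y₀ => cexp (-π * I * (((y₀ : ℝ) - w.1) ^ 2 / d : ℝ) / τ +
    2 * π * I * (((y₀ : ℝ) - w.1) * B x' c : ℝ)) with ha'
  set e : ℤ → ℂ := fun y₀ => cexp (-π * I * (((y₀ : ℝ) - w.1) ^ 2 / d : ℝ) / τ) with he
  set k₁ : ℂ := 1 / (-I * (τ * d)) ^ (1 / 2 : ℂ) with hk₁
  -- the mixed family is summable
  have hG : Summable (Function.uncurry fun (x' : X) (y₀ : ℤ) => b x' * a' x' y₀) := by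
    refine Summable.of_norm ?_
    have hn : (fun z : X × ℤ => ‖Function.uncurry (fun (x' : X) (y₀ : ℤ) => b x' * a' x' y₀) z‖) =
        fun z : X × ℤ => rexp (-(π * τ.im * q z.1)) *
          rexp (-(π * (τ.im / normSq τ / d) * ((z.2 : ℝ) + (-w.1)) ^ 2)) := by
      funext z
      simp only [Function.uncurry, hb, ha', norm_mul, norm_cexp_L, norm_cexp_R]
      congr 2
      field_simp
      ring
    rw [hn]
    exact (h.sumL _ hτ).mul_of_nonneg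
      (summable_gauss _ (div_pos (im_div_normSq_pos hτ) hd) (-w.1))
      (fun _ => (Real.exp_pos _).le) (fun _ => (Real.exp_pos _).le)
  calc ∑' x : ℤ × X, cexp (π * I * τ * consq B q d c x + 2 * π * I * consB B x w)
      = ∑' x' : X, ∑' x₀ : ℤ, b x' * a x' x₀ := by
        rw [← (Equiv.prodComm X ℤ).tsum_eq]
        refine (((Equiv.prodComm X ℤ).summable_iff.mpr hL).tsum_prod).trans ?_
        refine tsum_congr fun x' => tsum_congr fun x₀ => ?_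
        simp only [hb, ha, Function.comp, Equiv.prodComm_apply, Prod.swap, consq, consB,
          ← Complex.exp_add,
          LinearMap.add_apply, LinearMap.smul_apply, LinearMap.fst_apply, LinearMap.comp_apply,
          LinearMap.snd_apply, smul_eq_mul]
        congr 1
        push_cast
        ring
    _ = ∑' x' : X, ∑' y₀ : ℤ, k₁ * (b x' * a' x' y₀) := by
        refine tsum_congr fun x' => ?_
        rw [tsum_mul_left, tsum_mul_left, tsum_mul_left]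
        have := one_dim τ hτ d hd (B x' c) w.1
        simp only [ha, ha']
        rw [this]
        ring
    _ = k₁ * ∑' x' : X, ∑' y₀ : ℤ, b x' * a' x' y₀ := by
        simp_rw [tsum_mul_left]
    _ = k₁ * ∑' y₀ : ℤ, ∑' x' : X, b x' * a' x' y₀ := by
        rw [hG.tsum_comm]
    _ = k₁ * ∑' y₀ : ℤ, κ τ * ∑' y' : X,
          e y₀ * cexp (-π * I * qd (ι y' - (w.2 + ((y₀ : ℝ) - w.1) • c)) / τ) := by
        congr 1
        refine tsum_congr fun y₀ => ?_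
        have h1 := h.eq τ hτ (w.2 + ((y₀ : ℝ) - w.1) • c)
        rw [tsum_mul_left, mul_left_comm, ← h1, ← tsum_mul_left]
        refine tsum_congr fun x' => ?_
        simp only [hb, ha', he, ← Complex.exp_add, map_add, map_smul, smul_eq_mul]
        congr 1
        push_cast
        ring
    _ = consκ κ d τ * ∑' y : ℤ × X, cexp (-π * I * consqd qd d c (consι ι y - w) / τ) := by
        rw [hR.tsum_prod, tsum_mul_left, consκ, mul_assoc]
        congr 2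
        refine tsum_congr fun y₀ => tsum_congr fun y' => ?_
        simp only [he, ← Complex.exp_add, consqd, consι, Prod.fst_sub, Prod.snd_sub]
        rw [sub_add_eq_sub_sub]
        congr 1
        push_cast
        ring

theorem cons_ne (h : ThetaInv ι B q qd κ) (d : ℝ) (hd : 0 < d) (τ : ℂ) (hτ : 0 < τ.im) :
    consκ κ d τ ≠ 0 := by
  have hτ0 : τ ≠ 0 := by rintro rfl; simp at hτ
  have hd' : (d : ℂ) ≠ 0 := by exact_mod_cast hd.ne'
  refine mul_ne_zero (one_div_ne_zero ?_) (h.ne τ hτ)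
  rw [Ne, Complex.cpow_eq_zero_iff]
  intro h1
  exact (mul_ne_zero (neg_ne_zero.mpr I_ne_zero) (mul_ne_zero hτ0 hd')) h1.1

/-- the cons step. -/
theorem cons (h : ThetaInv ι B q qd κ) (d : ℝ) (hd : 0 < d) (c : W) :
    ThetaInv (consι ι) (consB B) (consq B q d c) (consqd qd d c) (consκ κ d) where
  sumL := cons_sumL h d hd c
  sumR := cons_sumR h d hd c
  ne := cons_ne h d hd
  eq := cons_eq h d hd c

end ThetaInv

/-- the base case. -/
theorem thetaInv_unit : ThetaInv (X := Unit) (W := Unit) (fun _ => ()) (fun _ => 0) (fun _ => 0)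
    (fun _ => 0) (fun _ => 1) where
  sumL _ _ := (hasSum_fintype _).summable
  sumR _ _ _ := (hasSum_fintype _).summable
  ne _ _ := one_ne_zero
  eq τ _ w := by simp

/-- the index equivalence. -/
def E4 : (Fin 4 → ℤ) ≃ ℤ × ℤ × ℤ × ℤ × Unit where
  toFun u := (u 0, u 1, u 2, u 3, ())
  invFun x := ![x.1, x.2.1, x.2.2.1, x.2.2.2.1]
  left_inv u := by
    funext i
    fin_cases i <;> rfl
  right_inv x := rfl

theorem E4_apply (u : Fin 4 → ℤ) : E4 u = (u 0, u 1, u 2, u 3, ()) := rfl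

/-- triangular quaternary form. -/
def q4 (d₀ d₁ d₂ d₃ c₀₁ c₀₂ c₀₃ c₁₂ c₁₃ c₂₃ : ℝ) (x : Fin 4 → ℝ) : ℝ :=
  d₀ * (x 0 + c₀₁ * x 1 + c₀₂ * x 2 + c₀₃ * x 3) ^ 2 + d₁ * (x 1 + c₁₂ * x 2 + c₁₃ * x 3) ^ 2 +
    d₂ * (x 2 + c₂₃ * x 3) ^ 2 + d₃ * x 3 ^ 2

/-- its dual form. -/
def qd4 (d₀ d₁ d₂ d₃ c₀₁ c₀₂ c₀₃ c₁₂ c₁₃ c₂₃ : ℝ) (v : Fin 4 → ℝ) : ℝ :=
  v 0 ^ 2 / d₀ + (v 1 - v 0 * c₀₁) ^ 2 / d₁ +
    ((v 2 - v 0 * c₀₂) - (v 1 - v 0 * c₀₁) * c₁₂) ^ 2 / d₂ +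
    (((v 3 - v 0 * c₀₃) - (v 1 - v 0 * c₀₁) * c₁₃) -
      ((v 2 - v 0 * c₀₂) - (v 1 - v 0 * c₀₁) * c₁₂) * c₂₃) ^ 2 / d₃

theorem kappa4 (d₀ d₁ d₂ d₃ : ℝ) (h₀ : 0 < d₀) (h₁ : 0 < d₁) (h₂ : 0 < d₂) (h₃ : 0 < d₃)
    (τ : ℂ) (hτ : 0 < τ.im) :
    ThetaInv.consκ (ThetaInv.consκ (ThetaInv.consκ (ThetaInv.consκ (fun _ => 1) d₃) d₂) d₁) d₀ τ =
      -1 / (τ ^ 2 * (Real.sqrt (d₀ * d₁ * d₂ * d₃) : ℝ)) := by
  have hτ0 : τ ≠ 0 := by rintro rfl; simp at hτ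
  have hz : -I * τ ≠ 0 := mul_ne_zero (neg_ne_zero.mpr I_ne_zero) hτ0
  have key : ∀ d : ℝ, 0 < d → (-I * (τ * d)) ^ (1 / 2 : ℂ) =
      (-I * τ) ^ (1 / 2 : ℂ) * (Real.sqrt d : ℝ) := by
    intro d hd
    have hd' : (d : ℂ) ≠ 0 := by exact_mod_cast hd.ne'
    have e1 : -I * (τ * d) = (d : ℂ) * (-I * τ) := by ring
    rw [e1, cpow_def_of_ne_zero (mul_ne_zero hd' hz), Complex.log_ofReal_mul hd hz, add_mul,
      Complex.exp_add, ← cpow_def_of_ne_zero hz, Real.sqrt_eq_rpow, Complex.ofReal_cpow hd.le,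
      cpow_def_of_ne_zero hd', Complex.ofReal_log hd.le, mul_comm]
    push_cast
    rfl
  set k : ℂ := (-I * τ) ^ (1 / 2 : ℂ) with hk
  have hk2 : k ^ 2 = -I * τ := by
    have := Complex.cpow_nat_inv_pow (-I * τ) (two_ne_zero)
    rw [hk]
    convert this using 3
    norm_num
  have hk4 : k ^ 4 = -τ ^ 2 := by
    have : k ^ 4 = (k ^ 2) ^ 2 := by ring
    rw [this, hk2, mul_pow, neg_sq, I_sq]
    ring
  have hk0 : k ≠ 0 := by
    intro h
    rw [h] at hk2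
    exact hz (by rw [← hk2]; simp)
  simp only [ThetaInv.consκ]
  rw [key d₀ h₀, key d₁ h₁, key d₂ h₂, key d₃ h₃, Real.sqrt_mul (by positivity),
    Real.sqrt_mul (by positivity), Real.sqrt_mul (by positivity)]
  have s0 : ((Real.sqrt d₀ : ℝ) : ℂ) ≠ 0 := by exact_mod_cast (Real.sqrt_pos.mpr h₀).ne'
  have s1 : ((Real.sqrt d₁ : ℝ) : ℂ) ≠ 0 := by exact_mod_cast (Real.sqrt_pos.mpr h₁).ne'
  have s2 : ((Real.sqrt d₂ : ℝ) : ℂ) ≠ 0 := by exact_mod_cast (Real.sqrt_pos.mpr h₂).ne'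
  have s3 : ((Real.sqrt d₃ : ℝ) : ℂ) ≠ 0 := by exact_mod_cast (Real.sqrt_pos.mpr h₃).ne'
  push_cast
  have e2 : 1 / (k * (Real.sqrt d₀ : ℝ)) * (1 / (k * (Real.sqrt d₁ : ℝ)) *
      (1 / (k * (Real.sqrt d₂ : ℝ)) * (1 / (k * (Real.sqrt d₃ : ℝ)) * 1))) =
      1 / (k ^ 4 * ((Real.sqrt d₀ : ℝ) * (Real.sqrt d₁ : ℝ) * (Real.sqrt d₂ : ℝ) *
        (Real.sqrt d₃ : ℝ))) := by
    field_simp
  rw [e2, hk4]
  field_simp

/-- **Theta inversion for triangular quaternary forms.** -/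
theorem inv4 (d₀ d₁ d₂ d₃ c₀₁ c₀₂ c₀₃ c₁₂ c₁₃ c₂₃ : ℝ) (h₀ : 0 < d₀) (h₁ : 0 < d₁) (h₂ : 0 < d₂)
    (h₃ : 0 < d₃) (τ : ℂ) (hτ : 0 < τ.im) (w : Fin 4 → ℝ) :
    ∑' x : Fin 4 → ℤ, cexp (π * I * τ *
        (q4 d₀ d₁ d₂ d₃ c₀₁ c₀₂ c₀₃ c₁₂ c₁₃ c₂₃ (fun i => (x i : ℝ)) : ℝ) +
        2 * π * I * (∑ i, (x i : ℝ) * w i : ℝ)) =
      -1 / (τ ^ 2 * (Real.sqrt (d₀ * d₁ * d₂ * d₃) : ℝ)) *
      ∑' y : Fin 4 → ℤ, cexp (-π * I *
        (qd4 d₀ d₁ d₂ d₃ c₀₁ c₀₂ c₀₃ c₁₂ c₁₃ c₂₃ (fun i => (y i : ℝ) - w i) : ℝ) / τ) := by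
  have H := (((thetaInv_unit.cons d₃ h₃ ()).cons d₂ h₂ (c₂₃, ())).cons d₁ h₁
    (c₁₂, c₁₃, ())).cons d₀ h₀ (c₀₁, c₀₂, c₀₃, ())
  have h := H.eq τ hτ (w 0, w 1, w 2, w 3, ())
  rw [kappa4 d₀ d₁ d₂ d₃ h₀ h₁ h₂ h₃ τ hτ, ← E4.tsum_eq, ← E4.tsum_eq] at h
  have hq : ∀ x : Fin 4 → ℤ, ThetaInv.consq (ThetaInv.consB (ThetaInv.consB (ThetaInv.consB
      fun _ : Unit => (0 : Unit →ₗ[ℝ] ℝ))))
      (ThetaInv.consq (ThetaInv.consB (ThetaInv.consB fun _ : Unit => (0 : Unit →ₗ[ℝ] ℝ)))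
        (ThetaInv.consq (ThetaInv.consB fun _ : Unit => (0 : Unit →ₗ[ℝ] ℝ))
          (ThetaInv.consq (fun _ : Unit => (0 : Unit →ₗ[ℝ] ℝ)) (fun _ => 0) d₃ ()) d₂ (c₂₃, ())) d₁
        (c₁₂, c₁₃, ())) d₀ (c₀₁, c₀₂, c₀₃, ()) (E4 x) =
      q4 d₀ d₁ d₂ d₃ c₀₁ c₀₂ c₀₃ c₁₂ c₁₃ c₂₃ (fun i => (x i : ℝ)) := by
    intro x
    simp only [q4, E4_apply, ThetaInv.consq, ThetaInv.consB, LinearMap.add_apply,
      LinearMap.smul_apply, LinearMap.fst_apply, LinearMap.comp_apply, LinearMap.snd_apply,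
      smul_eq_mul, LinearMap.zero_apply]
    ring
  have hB : ∀ x : Fin 4 → ℤ, (ThetaInv.consB (ThetaInv.consB (ThetaInv.consB (ThetaInv.consB
      fun _ : Unit => (0 : Unit →ₗ[ℝ] ℝ)))) (E4 x)) (w 0, w 1, w 2, w 3, ()) =
      ∑ i, (x i : ℝ) * w i := by
    intro x
    simp only [E4_apply, ThetaInv.consB, LinearMap.add_apply,
      LinearMap.smul_apply, LinearMap.fst_apply, LinearMap.comp_apply, LinearMap.snd_apply,
      smul_eq_mul, LinearMap.zero_apply, Fin.sum_univ_four]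
    ring
  have hqd : ∀ y : Fin 4 → ℤ, ThetaInv.consqd
      (ThetaInv.consqd (ThetaInv.consqd (ThetaInv.consqd (fun _ : Unit => (0 : ℝ)) d₃ ()) d₂
        (c₂₃, ())) d₁ (c₁₂, c₁₃, ())) d₀ (c₀₁, c₀₂, c₀₃, ())
      (ThetaInv.consι (ThetaInv.consι (ThetaInv.consι (ThetaInv.consι fun _ : Unit => ()))) (E4 y) -
        (w 0, w 1, w 2, w 3, ())) =
      qd4 d₀ d₁ d₂ d₃ c₀₁ c₀₂ c₀₃ c₁₂ c₁₃ c₂₃ (fun i => (y i : ℝ) - w i) := by
    intro y
    simp only [qd4, E4_apply, ThetaInv.consqd, ThetaInv.consι, Prod.fst_sub,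
      Prod.snd_sub, Prod.smul_fst, Prod.smul_snd, smul_eq_mul]
    ring
  simp_rw [hq, hB, hqd] at h
  exact h

end

end Fermat.Agent.S16
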