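import Mathlib
import Fermat.Agent.S16.ThetaInv
import Fermat.Agent.S16.ThetaFin

set_option autoImplicit false

/-! # S16 (T1): the inversion formula for the quaternary forms `P.Q` -/

namespace Fermat.Agent.S16.Theta

open Complex UpperHalfPlane

namespace Param

variable (P : Param)

theorem q4_eq_Qd (p : ℕ) (hp : 0 < p) (h : P.Valid p) (x : Fin 4 → ℝ) :
    q4 (2 / p) ((P.D : ℝ) / (2 * p)) (2 / (P.D : ℝ)) (1 / 2) (-(P.Tt : ℝ) / 2) 0 (-(P.r : ℝ) / 2)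
      (2 * (P.r : ℝ) / (P.D : ℝ)) (-((P.r : ℝ) * (P.Tt : ℝ)) / (P.D : ℝ)) (-(P.Tt : ℝ) / 2) x =
      2 / p * P.Qd ![x 3, x 2, x 1, x 0] := by
  have hD : (0 : ℝ) < (P.D : ℝ) := by exact_mod_cast h.D_pos
  have hp' : (0 : ℝ) < (p : ℝ) := by exact_mod_cast hp
  have he : (P.D : ℝ) * (P.s : ℝ) = (P.r : ℝ) ^ 2 + p := by exact_mod_cast h.eq
  have hs : (P.s : ℝ) = ((P.r : ℝ) ^ 2 + p) / (P.D : ℝ) := by
    field_simp
    linarith
  have hNa : (P.Na : ℝ) = ((P.D : ℝ) + (P.Tt : ℝ) ^ 2) / 4 := by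
    have : (P.D : ℝ) = 4 * (P.Na : ℝ) - (P.Tt : ℝ) ^ 2 := by
      simp [Param.D]
    linarith
  simp only [q4, Qd, N', Matrix.cons_val_zero, Matrix.cons_val_one, Matrix.cons_val]
  rw [hs, hNa]
  field_simp
  ring

theorem qd4_eq_Q (p : ℕ) (hp : 0 < p) (h : P.Valid p) (v : Fin 4 → ℝ) :
    qd4 (2 / p) ((P.D : ℝ) / (2 * p)) (2 / (P.D : ℝ)) (1 / 2) (-(P.Tt : ℝ) / 2) 0 (-(P.r : ℝ) / 2)
      (2 * (P.r : ℝ) / (P.D : ℝ)) (-((P.r : ℝ) * (P.Tt : ℝ)) / (P.D : ℝ)) (-(P.Tt : ℝ) / 2) v =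
      2 * P.Q ![v 3, v 2, v 1, v 0] := by
  have hD : (0 : ℝ) < (P.D : ℝ) := by exact_mod_cast h.D_pos
  have hp' : (0 : ℝ) < (p : ℝ) := by exact_mod_cast hp
  have he : (P.D : ℝ) * (P.s : ℝ) = (P.r : ℝ) ^ 2 + p := by exact_mod_cast h.eq
  have hs : (P.s : ℝ) = ((P.r : ℝ) ^ 2 + p) / (P.D : ℝ) := by
    field_simp
    linarith
  have hNa : (P.Na : ℝ) = ((P.D : ℝ) + (P.Tt : ℝ) ^ 2) / 4 := by
    have : (P.D : ℝ) = 4 * (P.Na : ℝ) - (P.Tt : ℝ) ^ 2 := by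
      simp [Param.D]
    linarith
  simp only [qd4, Q, QR, Matrix.cons_val_zero, Matrix.cons_val_one, Matrix.cons_val]
  rw [hs, hNa]
  field_simp
  ring

/-- reversal of the coordinates. -/
def revE : (Fin 4 → ℤ) ≃ (Fin 4 → ℤ) where
  toFun u := ![u 3, u 2, u 1, u 0]
  invFun u := ![u 3, u 2, u 1, u 0]
  left_inv u := by funext i; fin_cases i <;> rfl
  right_inv u := by funext i; fin_cases i <;> rfl

/-- reversal of the coordinates and change of sign. -/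
def revN : (Fin 4 → ℤ) ≃ (Fin 4 → ℤ) where
  toFun u := ![-u 3, -u 2, -u 1, -u 0]
  invFun u := ![-u 3, -u 2, -u 1, -u 0]
  left_inv u := by funext i; fin_cases i <;> simp
  right_inv u := by funext i; fin_cases i <;> simp

theorem Q_neg (x : Fin 4 → ℝ) : P.Q (fun i => -x i) = P.Q x := by
  simp only [Q, QR]
  ring

/-- **(T1)** the inversion formula. -/
theorem invFormula (p : ℕ) (hp : 0 < p) (h : P.Valid p) : P.InvFormula p := by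
  intro w z
  have hD : (0 : ℝ) < (P.D : ℝ) := by exact_mod_cast h.D_pos
  have hp' : (0 : ℝ) < (p : ℝ) := by exact_mod_cast hp
  have hz0 : (z : ℂ) ≠ 0 := z.ne_zero
  have hpc : (p : ℂ) ≠ 0 := by exact_mod_cast hp.ne'
  have hτ : 0 < (-1 / (z : ℂ)).im := by
    rw [neg_div, neg_im, one_div, inv_im, neg_div, neg_neg]
    exact div_pos z.im_pos (normSq_pos.mpr hz0)
  have key := inv4 (2 / p) ((P.D : ℝ) / (2 * p)) (2 / (P.D : ℝ)) (1 / 2) (-(P.Tt : ℝ) / 2) 0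
    (-(P.r : ℝ) / 2) (2 * (P.r : ℝ) / (P.D : ℝ)) (-((P.r : ℝ) * (P.Tt : ℝ)) / (P.D : ℝ))
    (-(P.Tt : ℝ) / 2) (by positivity) (by positivity) (by positivity) (by positivity)
    (-1 / (z : ℂ)) hτ ![w 3, w 2, w 1, w 0]
  have hsqrt : Real.sqrt (2 / p * ((P.D : ℝ) / (2 * p)) * (2 / (P.D : ℝ)) * (1 / 2)) = 1 / p := by
    have : 2 / (p : ℝ) * ((P.D : ℝ) / (2 * p)) * (2 / (P.D : ℝ)) * (1 / 2) = (1 / p) ^ 2 := by
      field_simp
    rw [this, Real.sqrt_sq (by positivity)]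
  rw [hsqrt] at key
  simp_rw [P.q4_eq_Qd p hp h, P.qd4_eq_Q p hp h] at key
  conv_lhs at key => rw [← revE.tsum_eq]
  conv_rhs at key => rw [← revN.tsum_eq]
  have hL : ∀ u : Fin 4 → ℤ, cexp (Real.pi * Complex.I * (-1 / (z : ℂ)) *
      ((2 / p * P.Qd ![((revE u) 3 : ℝ), ((revE u) 2 : ℝ), ((revE u) 1 : ℝ), ((revE u) 0 : ℝ)] : ℝ) : ℂ)
      + 2 * Real.pi * Complex.I * ((∑ i, ((revE u) i : ℝ) * (![w 3, w 2, w 1, w 0] : Fin 4 → ℝ) i : ℝ) : ℂ)) =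
      cexp (2 * Real.pi * Complex.I *
      (-((P.Qd (fun i => (u i : ℝ)) : ℝ) : ℂ) / (p * z) + ∑ i, (u i : ℂ) * (w i : ℂ))) := by
    intro u
    have e1 : (![((revE u) 3 : ℝ), ((revE u) 2 : ℝ), ((revE u) 1 : ℝ), ((revE u) 0 : ℝ)] :
        Fin 4 → ℝ) = fun i => (u i : ℝ) := by
      funext i; fin_cases i <;> rfl
    rw [e1]
    congr 1
    simp only [Fin.sum_univ_four, revE, Equiv.coe_fn_mk, Matrix.cons_val_zero, Matrix.cons_val_one,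
      Matrix.cons_val]
    push_cast
    field_simp
    ring
  have hR : ∀ x : Fin 4 → ℤ, cexp (-Real.pi * Complex.I *
      ((2 * P.Q ![((revN x) 3 : ℝ) - (![w 3, w 2, w 1, w 0] : Fin 4 → ℝ) 3,
        ((revN x) 2 : ℝ) - (![w 3, w 2, w 1, w 0] : Fin 4 → ℝ) 2,
        ((revN x) 1 : ℝ) - (![w 3, w 2, w 1, w 0] : Fin 4 → ℝ) 1,
        ((revN x) 0 : ℝ) - (![w 3, w 2, w 1, w 0] : Fin 4 → ℝ) 0] : ℝ) : ℂ) / (-1 / (z : ℂ))) =
      cexp (2 * Real.pi * Complex.I * (P.Q (fun i => (x i : ℝ) + w i) : ℝ) * z) := by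
    intro x
    have e1 : (![((revN x) 3 : ℝ) - (![w 3, w 2, w 1, w 0] : Fin 4 → ℝ) 3,
        ((revN x) 2 : ℝ) - (![w 3, w 2, w 1, w 0] : Fin 4 → ℝ) 2,
        ((revN x) 1 : ℝ) - (![w 3, w 2, w 1, w 0] : Fin 4 → ℝ) 1,
        ((revN x) 0 : ℝ) - (![w 3, w 2, w 1, w 0] : Fin 4 → ℝ) 0] : Fin 4 → ℝ) =
        fun i => -((x i : ℝ) + w i) := by
      funext i
      fin_cases i <;> simp [revN] <;> ring
    rw [e1, P.Q_neg]
    congr 1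
    push_cast
    field_simp
  simp_rw [hL, hR] at key
  rw [theta, key, ← mul_assoc]
  have e3 : -(1 / ((p : ℂ) * (z : ℂ) ^ 2)) * (-1 / ((-1 / (z : ℂ)) ^ 2 * ((1 / (p : ℝ) : ℝ) : ℂ))) =
      1 := by
    push_cast
    field_simp
  rw [e3, one_mul]

end Param

end Fermat.Agent.S16.Theta

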