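import Mathlib
import Fermat.Agent.S16.ThetaInvQ
import Fermat.Agent.S16.ThetaCoset
import Fermat.Agent.S16.ThetaBasic

set_option autoImplicit false
set_option linter.unusedSimpArgs false

/-! # S16 (T2): the `S`-law -/

namespace Fermat.Agent.S16.Theta

open Complex ModularGroup
open UpperHalfPlane hiding I I_im I_re
open scoped MatrixGroups ModularForm

namespace Param

variable {P : Param} {p : ℕ}

theorem Valid.Qd_Amul_add (h : P.Valid p) (hp : 0 < p) (x : Fin 4 → ℤ) (y3 y4 : ℤ) :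
    P.Qd (fun i => (((P.Amul x + ![0, 0, y3, y4]) i : ℤ) : ℝ)) =
      p * P.Q (fun i => (x i : ℝ) + P.nu p y3 y4 i) := by
  have hD : (0 : ℝ) < (P.D : ℝ) := by exact_mod_cast h.D_pos
  have hp' : (0 : ℝ) < (p : ℝ) := by exact_mod_cast hp
  have he : (P.D : ℝ) * (P.s : ℝ) = (P.r : ℝ) ^ 2 + p := by exact_mod_cast h.eq
  have hs : (P.s : ℝ) = ((P.r : ℝ) ^ 2 + p) / (P.D : ℝ) := by
    field_simp
    linarith
  have hNa : (P.Na : ℝ) = ((P.D : ℝ) + (P.Tt : ℝ) ^ 2) / 4 := by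
    have : (P.D : ℝ) = 4 * (P.Na : ℝ) - (P.Tt : ℝ) ^ 2 := by
      simp [Param.D]
    linarith
  simp only [Qd, N', Q, QR, nu, Amul, Pi.add_apply, Matrix.cons_val_zero, Matrix.cons_val_one,
    Matrix.cons_val, Int.cast_id]
  push_cast
  rw [hs, hNa]
  field_simp
  ring

theorem Valid.sum_Amul_add_mul_nu (h : P.Valid p) (hp : 0 < p) (x : Fin 4 → ℤ) (y3 y4 z3 z4 : ℤ) :
    ∑ i, (((P.Amul x + ![0, 0, y3, y4]) i : ℤ) : ℝ) * P.nu p z3 z4 i =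
      ((x 2 * z3 + x 3 * z4 : ℤ) : ℝ) + ((P.B' z3 z4 y3 y4 : ℤ) : ℝ) / p := by
  have hD : (0 : ℝ) < (P.D : ℝ) := by exact_mod_cast h.D_pos
  have hp' : (0 : ℝ) < (p : ℝ) := by exact_mod_cast hp
  have he : (P.D : ℝ) * (P.s : ℝ) = (P.r : ℝ) ^ 2 + p := by exact_mod_cast h.eq
  have hs : (P.s : ℝ) = ((P.r : ℝ) ^ 2 + p) / (P.D : ℝ) := by
    field_simp
    linarith
  have hNa : (P.Na : ℝ) = ((P.D : ℝ) + (P.Tt : ℝ) ^ 2) / 4 := by
    have : (P.D : ℝ) = 4 * (P.Na : ℝ) - (P.Tt : ℝ) ^ 2 := by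
      simp [Param.D]
    linarith
  simp only [Fin.sum_univ_four, B', nu, Amul, Pi.add_apply, Matrix.cons_val_zero,
    Matrix.cons_val_one, Matrix.cons_val, Int.cast_id]
  push_cast
  rw [hs, hNa]
  field_simp
  ring

/-- the signed permutation relating `Qd` and `Q`. -/
def sigE : (Fin 4 → ℤ) ≃ (Fin 4 → ℤ) where
  toFun u := ![u 3, -u 2, u 1, -u 0]
  invFun x := ![-x 3, x 2, -x 1, x 0]
  left_inv u := by funext i; fin_cases i <;> simp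
  right_inv u := by funext i; fin_cases i <;> simp

theorem Qd_eq_Q_sigE (P : Param) (u : Fin 4 → ℤ) :
    P.Qd (fun i => (u i : ℝ)) = P.Q (fun i => ((sigE u) i : ℝ) + 0) := by
  simp only [Qd, N', Q, QR, sigE, Equiv.coe_fn_mk, Matrix.cons_val_zero, Matrix.cons_val_one,
    Matrix.cons_val]
  push_cast
  ring

theorem Valid.summable_exp_Qd (h : P.Valid p) (hp : 0 < p) {a : ℝ} (ha : 0 < a) :
    Summable (fun u : Fin 4 → ℤ => Real.exp (-a * P.Qd (fun i => (u i : ℝ)))) := by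
  have h1 := h.summable_exp hp ha 0
  have h2 := sigE.summable_iff.mpr h1
  refine h2.congr fun u => ?_
  simp only [Function.comp, Qd_eq_Q_sigE, Pi.zero_apply]

theorem slash_S_apply (f : ℍ → ℂ) (z : ℍ) :
    (f ∣[(2 : ℤ)] S) z = f (S • z) * ((z : ℂ) ^ 2)⁻¹ := by
  rw [ModularForm.SL_slash_apply]
  have : denom (S : SL(2, ℤ)) z = z := by
    simp [denom, coe_S]
  rw [this]
  congr 1

theorem coe_S_smul (z : ℍ) : ((S • z : ℍ) : ℂ) = -1 / (z : ℂ) := by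
  rw [modular_S_smul]
  simp [neg_div, inv_neg]

/-- the dual series. -/
theorem Valid.theta_S_smul (h : P.Valid p) (hp : 0 < p) (w : Fin 4 → ℝ) (z : ℍ) :
    P.theta w (S • z) * ((z : ℂ) ^ 2)⁻¹ = -(1 / (p : ℂ)) *
      ∑' u : Fin 4 → ℤ, cexp (2 * Real.pi * I *
        (((P.Qd (fun i => (u i : ℝ)) : ℝ) : ℂ) / p * z + ∑ i, (u i : ℂ) * (w i : ℂ))) := by
  have hz0 : (z : ℂ) ≠ 0 := z.ne_zero
  have hpc : (p : ℂ) ≠ 0 := by exact_mod_cast hp.ne'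
  rw [P.invFormula p hp h w (S • z), coe_S_smul]
  have e1 : ∀ u : Fin 4 → ℤ, (-((P.Qd (fun i => (u i : ℝ)) : ℝ) : ℂ) / (p * (-1 / (z : ℂ))) +
      ∑ i, (u i : ℂ) * (w i : ℂ)) =
      (((P.Qd (fun i => (u i : ℝ)) : ℝ) : ℂ) / p * z + ∑ i, (u i : ℂ) * (w i : ℂ)) := by
    intro u
    congr 1
    field_simp
  simp_rw [e1]
  field_simp

theorem Valid.summable_dual (h : P.Valid p) (hp : 0 < p) (w : Fin 4 → ℝ) (z : ℍ) :
    Summable fun u : Fin 4 → ℤ => cexp (2 * Real.pi * I *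
        (((P.Qd (fun i => (u i : ℝ)) : ℝ) : ℂ) / p * z + ∑ i, (u i : ℂ) * (w i : ℂ))) := by
  have hp' : (0 : ℝ) < (p : ℝ) := by exact_mod_cast hp
  refine Summable.of_norm ?_
  have ha : 0 < 2 * Real.pi * z.im / p := by
    have := z.im_pos
    positivity
  refine (h.summable_exp_Qd hp ha).congr fun u => ?_
  rw [Complex.norm_exp]
  congr 1
  have e : (2 * Real.pi * I * (((P.Qd (fun i => (u i : ℝ)) : ℝ) : ℂ) / p * z +
      ∑ i, (u i : ℂ) * (w i : ℂ))) =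
      ((2 * Real.pi * (P.Qd (fun i => (u i : ℝ))) / p : ℝ) : ℂ) * (I * z) +
        ((2 * Real.pi * ∑ i, (u i : ℝ) * w i : ℝ) : ℂ) * I := by
    push_cast
    ring
  rw [e, add_re, re_ofReal_mul, re_ofReal_mul, I_mul_re, I_re, UpperHalfPlane.coe_im]
  ring

theorem Qd_neg (P : Param) (u : Fin 4 → ℝ) : P.Qd (fun i => -u i) = P.Qd u := by
  simp only [Qd, N']
  ring

/-- **(T2)** the `S`-law. -/
theorem Valid.theta_nu_S [Fact p.Prime] (h : P.Valid p) (y : ZMod p × ZMod p) :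
    P.theta (P.nu p y.1.val y.2.val) ∣[(2 : ℤ)] S =
      (-(1 / (p : ℂ))) • ∑ y' : ZMod p × ZMod p,
        psi p (-Bq P p y y') • P.theta (P.nu p y'.1.val y'.2.val) := by
  have hp : 0 < p := (Fact.out : p.Prime).pos
  have hpc : (p : ℂ) ≠ 0 := by exact_mod_cast hp.ne'
  funext z
  rw [slash_S_apply, h.theta_S_smul hp, Pi.smul_apply, smul_eq_mul, Finset.sum_apply]
  congr 1
  have hF := h.summable_dual hp (P.nu p y.1.val y.2.val) z
  rw [← (Equiv.neg (Fin 4 → ℤ)).tsum_eq]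
  refine (P.tsum_cosetE h _ ((Equiv.neg (Fin 4 → ℤ)).summable_iff.mpr hF)).trans ?_
  refine Finset.sum_congr rfl fun y' _ => ?_
  rw [Pi.smul_apply, smul_eq_mul, theta, ← tsum_mul_left]
  refine tsum_congr fun x => ?_
  have e1 : -Bq P p y y' =
      ((-(P.B' (y.1.val : ℤ) (y.2.val : ℤ) (y'.1.val : ℤ) (y'.2.val : ℤ)) : ℤ) : ZMod p) := by
    simp [Bq, B']
  rw [e1, psi, ZMod.stdAddChar_coe, ← Complex.exp_add]
  have e2 := h.Qd_Amul_add hp x (y'.1.val : ℤ) (y'.2.val : ℤ)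
  have e3 := h.sum_Amul_add_mul_nu hp x (y'.1.val : ℤ) (y'.2.val : ℤ) (y.1.val : ℤ) (y.2.val : ℤ)
  set u : Fin 4 → ℤ := P.Amul x + ![0, 0, (y'.1.val : ℤ), (y'.2.val : ℤ)] with hu
  have e4 : P.Qd (fun i => (((Equiv.neg (Fin 4 → ℤ)) u) i : ℝ)) =
      p * P.Q (fun i => (x i : ℝ) + P.nu p (y'.1.val : ℤ) (y'.2.val : ℤ) i) := by
    rw [← e2, ← P.Qd_neg]
    congr 1
    funext i
    simp
  have e5 : ∑ i, ((((Equiv.neg (Fin 4 → ℤ)) u) i : ℤ) : ℂ) *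
      ((P.nu p (y.1.val : ℤ) (y.2.val : ℤ) i : ℝ) : ℂ) =
      -((((x 2 * (y.1.val : ℤ) + x 3 * (y.2.val : ℤ) : ℤ) : ℝ) +
        ((P.B' (y.1.val : ℤ) (y.2.val : ℤ) (y'.1.val : ℤ) (y'.2.val : ℤ) : ℤ) : ℝ) / p : ℝ) : ℂ) := by
    rw [← e3]
    push_cast
    rw [← Finset.sum_neg_distrib]
    refine Finset.sum_congr rfl fun i _ => ?_
    simp
  change cexp (2 * Real.pi * I * (((P.Qd (fun i => (((Equiv.neg (Fin 4 → ℤ)) u) i : ℝ)) : ℝ) : ℂ) /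
    p * z + ∑ i, ((((Equiv.neg (Fin 4 → ℤ)) u) i : ℤ) : ℂ) *
      ((P.nu p (y.1.val : ℤ) (y.2.val : ℤ) i : ℝ) : ℂ))) = _
  rw [e4, e5]
  set m : ℤ := x 2 * (y.1.val : ℤ) + x 3 * (y.2.val : ℤ) with hm
  set n : ℤ := P.B' (y.1.val : ℤ) (y.2.val : ℤ) (y'.1.val : ℤ) (y'.2.val : ℤ) with hn
  rw [← Complex.exp_periodic.int_mul m (2 * Real.pi * I * _)]
  congr 1
  push_cast
  field_simp
  ring

end Param

end Fermat.Agent.S16.Theta

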