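import Fermat.Agent.S16.ThetaFin
import Fermat.Agent.S16.ThetaBasic

set_option autoImplicit false

/-!
# S16 [T2]: the `T`-law
-/

namespace Fermat.Agent.S16.Theta

open Complex ModularGroup
open UpperHalfPlane hiding I I_im I_re
open scoped MatrixGroups ModularForm

namespace Param

variable {P : Param} {p : ℕ}

theorem Valid.Q_add_nu (h : P.Valid p) (hp : 0 < p) (x : Fin 4 → ℤ) (y3 y4 : ℤ) :
    P.Q (fun i => (x i : ℝ) + P.nu p y3 y4 i) =
      ((P.Qz x + x 2 * y3 + x 3 * y4 : ℤ) : ℝ) + ((P.N' y3 y4 : ℤ) : ℝ) / p := by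
  have h1 := h.eq_real
  have hp' : (p : ℝ) ≠ 0 := by exact_mod_cast hp.ne'
  simp only [Q, Qz, QR, nu, N']
  simp
  field_simp
  linear_combination ((p : ℝ) * (x 2 * y3 + x 3 * y4) +
    ((P.Na : ℝ) * y3 ^ 2 - P.Tt * y3 * y4 + y4 ^ 2)) * h1

theorem slash_T_apply (f : ℍ → ℂ) (z : ℍ) : (f ∣[(2 : ℤ)] T) z = f ((1 : ℝ) +ᵥ z) := by
  rw [ModularForm.SL_slash_apply, modular_T_smul]
  have : denom (T : SL(2, ℤ)) z = 1 := by
    simp [denom, coe_T]
  rw [this]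
  simp

/-- the `T`-law. -/
theorem Valid.theta_nu_T [Fact p.Prime] (h : P.Valid p) (y : ZMod p × ZMod p) :
    P.theta (P.nu p y.1.val y.2.val) ∣[(2 : ℤ)] T =
      psi p (Nq P p y) • P.theta (P.nu p y.1.val y.2.val) := by
  have hp : 0 < p := (Fact.out : p.Prime).pos
  have hp' : (p : ℂ) ≠ 0 := by exact_mod_cast hp.ne'
  funext z
  rw [slash_T_apply, Pi.smul_apply, smul_eq_mul, theta, theta, ← tsum_mul_left]
  refine tsum_congr fun x => ?_
  have e1 : Nq P p y = ((P.N' (y.1.val : ℤ) (y.2.val : ℤ) : ℤ) : ZMod p) := by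
    simp [Nq, N']
  rw [e1, psi, ZMod.stdAddChar_coe, ← Complex.exp_add, h.Q_add_nu hp]
  rw [UpperHalfPlane.coe_vadd]
  set m : ℤ := P.Qz x + x 2 * (y.1.val : ℤ) + x 3 * (y.2.val : ℤ) with hm
  set n : ℤ := P.N' (y.1.val : ℤ) (y.2.val : ℤ) with hn
  rw [← Complex.exp_periodic.int_mul m (2 * Real.pi * I * n / p + _)]
  congr 1
  push_cast
  field_simp
  ring

end Param

end Fermat.Agent.S16.Theta
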