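import Fermat.Agent.S16.ThetaSL
import Fermat.Agent.S16.ThetaT
import Fermat.Agent.S16.ThetaS

set_option autoImplicit false

/-!
# S16 [T]: the final statement of the theta block
-/

namespace Fermat.Agent.S16

open UpperHalfPlane ModularForm ModularFormClass CongruenceSubgroup PowerSeries

/-- **[T]** a form `G ∈ M₂(Γ₀(p))` with `a₀ = 1` and `a_j ∈ gcd(12, p+1) ℤ` for `j ≥ 1`. -/
theorem exists_theta (p : ℕ) [Fact p.Prime] (hp : 5 ≤ p) :
    ∃ G : ModularForm (Gamma0 p) 2, (qExpansion 1 G).coeff 0 = 1 ∧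
      ∀ j : ℕ, 1 ≤ j → ∃ m : ℤ, (qExpansion 1 G).coeff j = (Nat.gcd 12 (p + 1) : ℂ) * m :=
  Theta.exists_theta_form hp fun _ h =>
    h.isModular_of (by omega) h.theta_nu_T h.theta_nu_S

end Fermat.Agent.S16
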