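import Mathlib
import Fermat.Agent.S16.KDefs
import Fermat.Agent.S22.Translate

/-! # S16 [K0]: the Fricke involution `w_k` at prime level `p` -/

set_option autoImplicit false

namespace Fermat.Agent.S16

open UpperHalfPlane ModularForm ModularFormClass CongruenceSubgroup Matrix.SpecialLinearGroup
open scoped MatrixGroups Manifold Pointwise

theorem det_frickeGL (p : ℕ) [NeZero p] : ((frickeGL p).det : ℝ) = p := by
  rw [Matrix.GeneralLinearGroup.val_det_apply, val_frickeGL, Matrix.det_fin_two_of]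
  ring

theorem det_frickeGL_pos (p : ℕ) [NeZero p] : 0 < ((frickeGL p).det : ℝ) := by
  rw [det_frickeGL]
  exact_mod_cast Nat.pos_of_ne_zero (NeZero.ne p)

theorem denom_frickeGL (p : ℕ) [NeZero p] (z : ℍ) : denom (frickeGL p) z = p * z := by
  simp [denom]

theorem coe_frickeGL_smul (p : ℕ) [NeZero p] (z : ℍ) :
    ((frickeGL p • z : ℍ) : ℂ) = -1 / (p * z) := by
  rw [coe_smul_of_det_pos (det_frickeGL_pos p)]
  simp [num, denom]

theorem σ_frickeGL (p : ℕ) [NeZero p] : σ (frickeGL p) = .refl ℝ ℂ := by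
  rw [σ, if_pos (det_frickeGL_pos p)]

theorem slash_frickeGL_apply (p : ℕ) [NeZero p] (k : ℤ) (f : ℍ → ℂ) (z : ℍ) :
    (f ∣[k] frickeGL p) z = (p : ℂ) ^ (-1 : ℤ) * (z : ℂ) ^ (-k) * f (frickeGL p • z) := by
  have hp : (p : ℂ) ≠ 0 := by exact_mod_cast NeZero.ne p
  rw [ModularForm.slash_apply, σ_frickeGL, det_frickeGL, denom_frickeGL]
  simp only [ContinuousAlgEquiv.refl_apply]
  have : |(p : ℝ)| = (p : ℝ) := abs_of_nonneg (by positivity)
  rw [this, mul_zpow]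
  push_cast
  have : (p : ℂ) ^ (k - 1) * (p : ℂ) ^ (-k) = (p : ℂ) ^ (-1 : ℤ) := by
    rw [← zpow_add₀ hp]; congr 1; ring
  linear_combination (f (frickeGL p • z) * (z : ℂ) ^ (-k)) * this

/-- `w_k Φ (z) = p^{-k/2} z^{-k} Φ(-1/(pz))`. -/
theorem wFun_apply (p : ℕ) [NeZero p] (k : ℕ) (f : ℍ → ℂ) (z : ℍ) :
    wFun p k f z = (p : ℂ) ^ (-((k / 2 : ℕ) : ℤ)) * (z : ℂ) ^ (-(k : ℤ)) * f (frickeGL p • z) := by
  have hp : (p : ℂ) ≠ 0 := by exact_mod_cast NeZero.ne p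
  rw [wFun, Pi.smul_apply, slash_frickeGL_apply, smul_eq_mul]
  have : (p : ℂ) ^ (1 - ((k / 2 : ℕ) : ℤ)) * (p : ℂ) ^ (-1 : ℤ) = (p : ℂ) ^ (-((k / 2 : ℕ) : ℤ)) := by
    rw [← zpow_add₀ hp]; congr 1; ring
  linear_combination ((z : ℂ) ^ (-(k : ℤ)) * f (frickeGL p • z)) * this

theorem frickeGL_smul_smul (p : ℕ) [NeZero p] (z : ℍ) : frickeGL p • (frickeGL p • z) = z := by
  have hp : (p : ℂ) ≠ 0 := by exact_mod_cast NeZero.ne p
  apply UpperHalfPlane.ext
  rw [coe_frickeGL_smul, coe_frickeGL_smul]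
  have hz := z.ne_zero
  field_simp

theorem wFun_wFun (p : ℕ) [Fact p.Prime] (k : ℕ) (hk : Even k)
    (Φ : ℍ → ℂ) : wFun p k (wFun p k Φ) = Φ := by
  have hp : (p : ℂ) ≠ 0 := by exact_mod_cast NeZero.ne p
  funext z
  have hz := z.ne_zero
  obtain ⟨h, rfl⟩ := hk
  have hh : (h + h) / 2 = h := by omega
  rw [wFun_apply, wFun_apply, frickeGL_smul_smul, coe_frickeGL_smul, hh]
  have e1 : (-1 / ((p : ℂ) * z)) ^ (-((h + h : ℕ) : ℤ)) = ((p : ℂ) * z) ^ (h + h) := by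
    rw [zpow_neg, zpow_natCast, div_pow, ← two_mul, pow_mul]
    simp
  rw [e1, zpow_neg, zpow_neg, zpow_natCast, zpow_natCast, mul_pow, pow_add]
  field_simp
  ring

theorem wFun_mul (p : ℕ) [Fact p.Prime] (k l : ℕ) (hk : Even k) (hl : Even l) (Φ Φ' : ℍ → ℂ) :
    wFun p (k + l) (Φ * Φ') = wFun p k Φ * wFun p l Φ' := by
  have hp : (p : ℂ) ≠ 0 := by exact_mod_cast NeZero.ne p
  funext z
  have hz := z.ne_zero
  obtain ⟨h, rfl⟩ := hk
  obtain ⟨h', rfl⟩ := hl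
  have hh : (h + h) / 2 = h := by omega
  have hh' : (h' + h') / 2 = h' := by omega
  have hh'' : (h + h + (h' + h')) / 2 = h + h' := by omega
  rw [Pi.mul_apply, wFun_apply, wFun_apply, wFun_apply, hh, hh', hh'', Pi.mul_apply]
  simp only [zpow_neg, zpow_natCast, pow_add]
  field_simp

theorem wFun_add (p : ℕ) [NeZero p] (k : ℕ) (Φ Φ' : ℍ → ℂ) :
    wFun p k (Φ + Φ') = wFun p k Φ + wFun p k Φ' := by
  funext z
  simp only [Pi.add_apply, wFun_apply]
  ring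

theorem wFun_smul (p : ℕ) [NeZero p] (k : ℕ) (c : ℂ) (Φ : ℍ → ℂ) :
    wFun p k (c • Φ) = c • wFun p k Φ := by
  funext z
  simp only [Pi.smul_apply, wFun_apply, smul_eq_mul]
  ring

theorem frickeGL_eq (p : ℕ) [NeZero p] :
    frickeGL p = mapGL ℝ ModularGroup.S * heckeDiagMatrix p := by
  apply Units.ext
  ext i j
  fin_cases i <;> fin_cases j <;>
    simp [Matrix.mul_apply, Fin.sum_univ_two, ModularGroup.coe_S, val_heckeDiagMatrix (NeZero.ne p)]

theorem wFun_levelOne (p : ℕ) [Fact p.Prime] (h : ℕ) (φ : ModularForm 𝒮ℒ ((2 * h : ℕ) : ℤ)) :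
    wFun p (2 * h) φ = (p : ℂ) ^ h • fun z : ℍ => φ (heckeDiagMatrix p • z) := by
  have hp0 : p ≠ 0 := NeZero.ne p
  have hp : (p : ℂ) ≠ 0 := by exact_mod_cast hp0
  funext z
  have hz := z.ne_zero
  have hh : (2 * h) / 2 = h := by omega
  rw [wFun_apply, hh, Pi.smul_apply, smul_eq_mul, frickeGL_eq, mul_smul]
  set w : ℍ := heckeDiagMatrix p • z with hw
  have hwc : (w : ℂ) = p * z := coe_heckeDiagMatrix_smul hp0 z
  have h1 : (⇑φ ∣[((2 * h : ℕ) : ℤ)] ModularGroup.S) w = φ w := by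
    have := SlashInvariantFormClass.slash_action_eq φ (mapGL ℝ ModularGroup.S) ⟨_, rfl⟩
    exact congrFun this w
  rw [ModularForm.SL_slash_apply] at h1
  have hden : denom (ModularGroup.S : SL(2, ℤ)) w = w := ModularGroup.denom_S w
  rw [hden, hwc] at h1
  have h2 : φ ((mapGL ℝ ModularGroup.S) • w) = φ w * ((p : ℂ) * z) ^ (2 * h) := by
    have h3 : ((p : ℂ) * z) ^ (2 * h) ≠ 0 := pow_ne_zero _ (mul_ne_zero hp hz)
    rw [← h1, zpow_neg, zpow_natCast]
    have : (ModularGroup.S • w : ℍ) = (mapGL ℝ ModularGroup.S) • w := rfl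
    rw [this]
    field_simp
  rw [h2, zpow_neg, zpow_neg, zpow_natCast, zpow_natCast, mul_pow]
  have e2 : (p : ℂ) ^ (2 * h) = (p : ℂ) ^ h * (p : ℂ) ^ h := by rw [two_mul, pow_add]
  rw [e2]
  field_simp

theorem wFun_slash_heckeMatrix (p : ℕ) [Fact p.Prime] (k : ℕ) (hk : Even k) (Φ : ℍ → ℂ)
    (b : ZMod p) :
    (wFun p k Φ) ∣[(k : ℤ)] heckeMatrix p b.val =
      ((p : ℂ) ^ (((k / 2 : ℕ) : ℤ) - 1)) • cosetFun p k Φ (some b) := by
  have hp0 : p ≠ 0 := NeZero.ne p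
  have hp : (p : ℂ) ≠ 0 := by exact_mod_cast hp0
  funext z
  obtain ⟨h, rfl⟩ := hk
  have hh : (h + h) / 2 = h := by omega
  rw [slash_heckeMatrix_apply _ hp0, wFun_apply, hh, Pi.smul_apply, smul_eq_mul, cosetFun,
    ModularForm.SL_slash_apply, coe_heckeMatrix_smul hp0]
  have hne : (z : ℂ) + (b.val : ℂ) ≠ 0 := by
    have := ((b.val : ℝ) +ᵥ z).ne_zero
    rw [UpperHalfPlane.coe_vadd] at this
    push_cast at this
    rwa [add_comm]
  have hpt : frickeGL p • (heckeMatrix p b.val • z) =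
      (ModularGroup.S * ModularGroup.T ^ (b.val : ℤ)) • z := by
    apply UpperHalfPlane.ext
    rw [coe_frickeGL_smul, coe_heckeMatrix_smul hp0, mul_smul, UpperHalfPlane.modular_S_smul,
      UpperHalfPlane.modular_T_zpow_smul]
    simp only [UpperHalfPlane.coe_vadd]
    push_cast
    have h2 : ((b.val : ℂ) + (z : ℂ)) ≠ 0 := by rwa [add_comm]
    field_simp
    ring
  have hden : denom (ModularGroup.S * ModularGroup.T ^ (b.val : ℤ) : SL(2, ℤ)) z = z + b.val := by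
    have h10 : (ModularGroup.S * ModularGroup.T ^ (b.val : ℤ) : SL(2, ℤ)) 1 0 = 1 := by
      simp [Matrix.SpecialLinearGroup.coe_mul, ModularGroup.coe_S, ModularGroup.coe_T_zpow,
        Matrix.mul_apply, Fin.sum_univ_two]
    have h11 : (ModularGroup.S * ModularGroup.T ^ (b.val : ℤ) : SL(2, ℤ)) 1 1 = (b.val : ℤ) := by
      simp [Matrix.SpecialLinearGroup.coe_mul, ModularGroup.coe_S, ModularGroup.coe_T_zpow,
        Matrix.mul_apply, Fin.sum_univ_two]
    rw [ModularGroup.denom_apply, h10, h11]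
    push_cast
    ring
  rw [hpt, hden, zpow_sub₀ hp]
  simp only [zpow_neg, zpow_natCast, zpow_one, div_pow, pow_add]
  field_simp

end Fermat.Agent.S16
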