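import Mathlib
import Fermat.Agent.S22.Translate
import Fermat.Agent.S16.KDefs

/-!
# S16 [K0]: the Fricke matrix normalises `Γ₀(p)`; `wFun p k Φ` is a modular form
-/

set_option autoImplicit false
set_option linter.unusedSimpArgs false

namespace Fermat.Agent.S16

open UpperHalfPlane ModularFormClass Function ModularForm Matrix.SpecialLinearGroup
open scoped MatrixGroups ModularForm Manifold Pointwise

theorem Gamma0_le_conj_frickeGL (p : ℕ) [NeZero p] :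
    (CongruenceSubgroup.Gamma0 p : Subgroup (GL (Fin 2) ℝ)) ≤
      ConjAct.toConjAct (frickeGL p)⁻¹ •
        (CongruenceSubgroup.Gamma0 p : Subgroup (GL (Fin 2) ℝ)) := by
  intro x hx
  obtain ⟨γ, hγ, rfl⟩ := Subgroup.mem_map.mp hx
  rw [Subgroup.mem_pointwise_smul_iff_inv_smul_mem, ConjAct.smul_def]
  simp only [map_inv, inv_inv, ConjAct.ofConjAct_toConjAct]
  rw [CongruenceSubgroup.Gamma0_mem, ZMod.intCast_zmod_eq_zero_iff_dvd] at hγ
  obtain ⟨c', hc'⟩ := hγ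
  have hdet : γ 0 0 * γ 1 1 - γ 0 1 * γ 1 0 = 1 := by
    have := γ.det_coe
    rw [Matrix.det_fin_two] at this
    exact this
  obtain ⟨γ', h00, h01, h10, h11⟩ : ∃ γ' : SL(2, ℤ),
      γ' 0 0 = γ 1 1 ∧ γ' 0 1 = - c' ∧ γ' 1 0 = - (p * γ 0 1) ∧ γ' 1 1 = γ 0 0 :=
    ⟨⟨!![γ 1 1, - c'; - (p * γ 0 1), γ 0 0], by
      rw [Matrix.det_fin_two_of]; rw [hc'] at hdet; linear_combination hdet⟩,
      rfl, rfl, rfl, rfl⟩
  refine Subgroup.mem_map.mpr ⟨γ', ?_, ?_⟩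
  · rw [CongruenceSubgroup.Gamma0_mem, h10]
    simp
  rw [eq_mul_inv_iff_mul_eq]
  apply Units.ext
  have e1 : ((γ 1 0 : ℤ) : ℝ) = p * c' := by exact_mod_cast hc'
  rw [Units.val_mul, Units.val_mul, val_frickeGL]
  ext i j
  fin_cases i <;> fin_cases j
  · simp [Matrix.mul_apply, Fin.sum_univ_two, h00, h01, h10, h11, e1]; try ring
  · simp [Matrix.mul_apply, Fin.sum_univ_two, h00, h01, h10, h11]
  · simp [Matrix.mul_apply, Fin.sum_univ_two, h00, h01, h10, h11, e1]; try ring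
  · simp [Matrix.mul_apply, Fin.sum_univ_two, h00, h01, h10, h11]

/-- The normalised Fricke involution on `M_k(Γ₀(p))`. -/
noncomputable def wForm (p : ℕ) [NeZero p] (k : ℕ)
    (Φ : ModularForm (CongruenceSubgroup.Gamma0 p) (k : ℤ)) :
    ModularForm (CongruenceSubgroup.Gamma0 p) (k : ℤ) :=
  ((p : ℂ) ^ (1 - ((k / 2 : ℕ) : ℤ))) •
    S22.restrictSubgroup (Gamma0_le_conj_frickeGL p) (ModularForm.translate Φ (frickeGL p))

theorem coe_wForm (p : ℕ) [NeZero p] (k : ℕ)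
    (Φ : ModularForm (CongruenceSubgroup.Gamma0 p) (k : ℤ)) :
    ⇑(wForm p k Φ) = wFun p k Φ := rfl

theorem exists_wForm (p : ℕ) [NeZero p] (k : ℕ)
    (Φ : ModularForm (CongruenceSubgroup.Gamma0 p) (k : ℤ)) :
    ∃ Ψ : ModularForm (CongruenceSubgroup.Gamma0 p) (k : ℤ), ⇑Ψ = wFun p k Φ :=
  ⟨wForm p k Φ, rfl⟩

end Fermat.Agent.S16
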