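import Mathlib
import Fermat.Agent.S16.UDefs
import Fermat.Agent.S16.KDefs
import Fermat.Agent.S16.Fricke
import Fermat.Agent.S16.FrickeForm
import Fermat.Agent.S16.Cosets
import Fermat.Agent.S16.Eis
import Fermat.Prelude.Thm_ModularFormClass_qCoeff_heckeU
import Fermat.Prelude.Thm_CongruenceSubgroup_one_mem_strictPeriods_Gamma0

/-! # S16 [K]: the module `MK p k` of pairs (`q`-expansion of `Φ`, `q`-expansion of `w_k Φ`)
and all fields of the toolkit except `sturm`. -/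

set_option autoImplicit false

namespace Fermat.Agent.S16

open UpperHalfPlane ModularForm ModularFormClass CongruenceSubgroup Matrix.SpecialLinearGroup
  PowerSeries
open scoped MatrixGroups Manifold

theorem qExp_add {N : ℕ} {k : ℤ} (Φ Φ' : ModularForm (Gamma0 N) k) :
    qExpansion 1 (⇑Φ + ⇑Φ') = qExpansion 1 Φ + qExpansion 1 Φ' :=
  ModularForm.qExpansion_add one_pos (one_mem_strictPeriods_Gamma0 N) Φ Φ'

theorem qExp_smul {N : ℕ} {k : ℤ} (c : ℂ) (Φ : ModularForm (Gamma0 N) k) :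
    qExpansion 1 (c • ⇑Φ) = c • qExpansion 1 Φ :=
  ModularForm.qExpansion_smul one_pos (one_mem_strictPeriods_Gamma0 N) c Φ

theorem qExp_mul {N : ℕ} {k l : ℤ} (Φ : ModularForm (Gamma0 N) k) (Φ' : ModularForm (Gamma0 N) l) :
    qExpansion 1 (⇑Φ * ⇑Φ') = qExpansion 1 Φ * qExpansion 1 Φ' :=
  ModularForm.qExpansion_mul_coe one_pos (one_mem_strictPeriods_Gamma0 N) Φ Φ'

/-- `Φ ↦ (q`-expansion of `Φ`, `q`-expansion of `w_k Φ)`. -/
noncomputable def pairMap (p : ℕ) [NeZero p] (k : ℕ) :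
    ModularForm (Gamma0 p) (k : ℤ) →ₗ[ℂ] ℂ⟦X⟧ × ℂ⟦X⟧ where
  toFun Φ := (qExpansion 1 Φ, qExpansion 1 (wForm p k Φ))
  map_add' Φ Φ' := by
    refine Prod.ext ?_ ?_
    · exact qExp_add Φ Φ'
    · show qExpansion 1 (wFun p k (⇑Φ + ⇑Φ')) = _
      rw [wFun_add]
      exact qExp_add (wForm p k Φ) (wForm p k Φ')
  map_smul' c Φ := by
    refine Prod.ext ?_ ?_
    · exact qExp_smul c Φ
    · show qExpansion 1 (wFun p k (c • ⇑Φ)) = _
      rw [wFun_smul]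
      exact qExp_smul c (wForm p k Φ)

theorem pairMap_apply (p : ℕ) [NeZero p] (k : ℕ) (Φ : ModularForm (Gamma0 p) (k : ℤ)) :
    pairMap p k Φ = (qExpansion 1 Φ, qExpansion 1 (wForm p k Φ)) := rfl

open Classical in
/-- pairs (`q`-expansion of `Φ`, `q`-expansion of `w_k Φ`), `Φ ∈ M_k(Γ₀(p))`, `k` even. -/
noncomputable def MK (p : ℕ) [NeZero p] (k : ℕ) : Submodule ℂ (ℂ⟦X⟧ × ℂ⟦X⟧) :=
  if Even k then LinearMap.range (pairMap p k) else ⊥

theorem mem_MK_of_even {p : ℕ} [NeZero p] {k : ℕ} (hk : Even k) {x : ℂ⟦X⟧ × ℂ⟦X⟧} :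
    x ∈ MK p k ↔ ∃ Φ : ModularForm (Gamma0 p) (k : ℤ),
      (qExpansion 1 Φ, qExpansion 1 (wForm p k Φ)) = x := by
  rw [MK, if_pos hk, LinearMap.mem_range]
  rfl

theorem mem_MK_of_not_even {p : ℕ} [NeZero p] {k : ℕ} (hk : ¬ Even k) {x : ℂ⟦X⟧ × ℂ⟦X⟧} :
    x ∈ MK p k ↔ x = 0 := by
  rw [MK, if_neg hk, Submodule.mem_bot]

theorem MK_mul_mem {p : ℕ} [Fact p.Prime] {k l : ℕ} {x y : ℂ⟦X⟧ × ℂ⟦X⟧} (hx : x ∈ MK p k)
    (hy : y ∈ MK p l) : x * y ∈ MK p (k + l) := by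
  by_cases hk : Even k
  · by_cases hl : Even l
    · obtain ⟨Φ, rfl⟩ := (mem_MK_of_even hk).mp hx
      obtain ⟨Φ', rfl⟩ := (mem_MK_of_even hl).mp hy
      rw [mem_MK_of_even (hk.add hl)]
      refine ⟨ModularForm.mcast (by push_cast; ring) (Φ.mul Φ'), ?_⟩
      refine Prod.ext ?_ ?_
      · exact qExp_mul Φ Φ'
      · show qExpansion 1 (wFun p (k + l) (⇑Φ * ⇑Φ')) = _
        rw [wFun_mul p k l hk hl]
        exact qExp_mul (wForm p k Φ) (wForm p l Φ')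
    · rw [(mem_MK_of_not_even hl).mp hy, mul_zero]
      exact zero_mem _
  · rw [(mem_MK_of_not_even hk).mp hx, zero_mul]
    exact zero_mem _

theorem MK_swap_mem {p : ℕ} [Fact p.Prime] {k : ℕ} {x : ℂ⟦X⟧ × ℂ⟦X⟧} (hx : x ∈ MK p k) :
    x.swap ∈ MK p k := by
  by_cases hk : Even k
  · obtain ⟨Φ, rfl⟩ := (mem_MK_of_even hk).mp hx
    rw [mem_MK_of_even hk]
    refine ⟨wForm p k Φ, ?_⟩
    refine Prod.ext rfl ?_
    show qExpansion 1 (wFun p k (wFun p k ⇑Φ)) = _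
    rw [wFun_wFun p k hk]
    rfl
  · rw [(mem_MK_of_not_even hk).mp hx]
    exact zero_mem _

theorem Gamma0_le_SL (N : ℕ) : (Gamma0 N : Subgroup (GL (Fin 2) ℝ)) ≤ 𝒮ℒ :=
  Subgroup.map_le_range _ _

theorem heckeDiagMatrix_smul_eq (p : ℕ) (hp : p ≠ 0) (z : ℍ) :
    heckeDiagMatrix p • z = S22.tri p 1 0 hp one_ne_zero • z := by
  apply UpperHalfPlane.ext
  rw [coe_heckeDiagMatrix_smul hp, S22.coe_tri_smul]
  simp

/-- `q`-expansion of `c φ(p z)`. -/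
theorem qExpansion_smul_comp_diag {Γ : Subgroup (GL (Fin 2) ℝ)} {k : ℤ} (φ : ModularForm Γ k)
    (hΓ : (1 : ℝ) ∈ Γ.strictPeriods) (p : ℕ) [NeZero p] (c : ℂ)
    (hol : MDiff (c • fun z : ℍ => φ (heckeDiagMatrix p • z))) :
    qExpansion 1 (c • fun z : ℍ => φ (heckeDiagMatrix p • z)) = c • Vp p (qExpansion 1 φ) := by
  have hp : p ≠ 0 := NeZero.ne p
  have : Fact (IsCusp OnePoint.infty Γ) := ⟨Subgroup.isCusp_of_mem_strictPeriods one_pos hΓ⟩
  have h1 : ∀ τ : ℍ, HasSum (fun m ↦ (qExpansion 1 φ).coeff m • Function.Periodic.qParam 1 τ ^ m)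
      (φ τ) := fun τ => ModularForm.hasSum_qExpansion (f := φ) one_pos hΓ τ
  have h2 := hasSum_comp_tri_N h1 p hp
  have h3 : ∀ τ : ℍ, HasSum (fun m ↦ (c * (if p ∣ m then (qExpansion 1 φ).coeff (m / p) else 0)) •
      Function.Periodic.qParam 1 τ ^ m) ((c • fun z : ℍ => φ (heckeDiagMatrix p • z)) τ) := by
    intro τ
    have := (h2 τ).mul_left c
    rw [Pi.smul_apply, smul_eq_mul, heckeDiagMatrix_smul_eq p hp]
    have e : (fun m ↦ (c * (if p ∣ m then (qExpansion 1 φ).coeff (m / p) else 0)) •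
        Function.Periodic.qParam 1 τ ^ m) = fun i => c * (if p ∣ i then
          (coeff (i / p)) (qExpansion 1 ⇑φ) else 0) • Function.Periodic.qParam 1 ↑τ ^ i := by
      funext m
      simp only [smul_eq_mul]
      ring
    rw [e]
    exact this
  rw [S22.qExpansion_of_hasSum one_pos hol h3]
  ext m
  rw [coeff_mk, PowerSeries.coeff_smul, PowerSeries.coeff_expand, smul_eq_mul]

theorem MK_lvl1_mem {p : ℕ} [Fact p.Prime] (h : ℕ) (k : ℤ) (hk : k = 2 * h)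
    (φ : ModularForm 𝒮ℒ k) :
    (qExpansion 1 φ, (p : ℂ) ^ h • Vp p (qExpansion 1 φ)) ∈ MK p (2 * h) := by
  rw [mem_MK_of_even (even_two_mul h)]
  have hk' : k = ((2 * h : ℕ) : ℤ) := by rw [hk]; push_cast; ring
  subst hk'
  refine ⟨S22.restrictSubgroup (Gamma0_le_SL p) φ, ?_⟩
  refine Prod.ext rfl ?_
  show qExpansion 1 (wForm p (2 * h) (S22.restrictSubgroup (Gamma0_le_SL p) φ)) = _
  have e : ⇑(wForm p (2 * h) (S22.restrictSubgroup (Gamma0_le_SL p) φ)) =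
      (p : ℂ) ^ h • fun z : ℍ => φ (heckeDiagMatrix p • z) := by
    rw [coe_wForm]
    exact wFun_levelOne p h φ
  have hol := (wForm p (2 * h) (S22.restrictSubgroup (Gamma0_le_SL p) φ)).holo'
  rw [e]
  refine qExpansion_smul_comp_diag φ one_mem_strictPeriods_SL p _ ?_
  rw [← e]
  exact hol

theorem sum_zmod_val {M : Type*} [AddCommMonoid M] (p : ℕ) [NeZero p] (f : ℕ → M) :
    ∑ b : ZMod p, f b.val = ∑ j ∈ Finset.range p, f j := by
  refine Finset.sum_nbij' (fun b => b.val) (fun j => (j : ZMod p)) ?_ ?_ ?_ ?_ ?_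
  · intro b _
    exact Finset.mem_range.mpr (ZMod.val_lt b)
  · intro j _
    exact Finset.mem_univ _
  · intro b _
    exact ZMod.natCast_zmod_val b
  · intro j hj
    exact ZMod.val_cast_of_lt (Finset.mem_range.mp hj)
  · intro b _
    rfl

theorem MK_trace {p : ℕ} [Fact p.Prime] (h : ℕ) (k : ℤ) (hk : k = 2 * h) {A B : ℂ⟦X⟧}
    (hAB : (A, B) ∈ MK p (2 * h)) :
    ∃ φ : ModularForm 𝒮ℒ k, qExpansion 1 φ = (p : ℂ) ^ h • A + (p : ℂ) • Up p B := by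
  have hp0 : p ≠ 0 := NeZero.ne p
  have hp : (p : ℂ) ≠ 0 := by exact_mod_cast hp0
  have hk' : k = ((2 * h : ℕ) : ℤ) := by rw [hk]; push_cast; ring
  subst hk'
  obtain ⟨Φ, hΦ⟩ := (mem_MK_of_even (even_two_mul h)).mp hAB
  obtain ⟨rfl, rfl⟩ := Prod.mk.inj hΦ
  obtain ⟨φ0, hφ0⟩ := exists_traceForm p ((2 * h : ℕ) : ℤ) Φ
  set U := ModularForm.heckeULin ((2 * h : ℕ) : ℤ) (dvd_refl p) (wForm p (2 * h) Φ) with hU
  have hh : (2 * h) / 2 = h := by omega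
  have e1 : ⇑φ0 = ⇑Φ + ((p : ℂ) ^ (1 - (h : ℤ))) • ⇑U := by
    rw [hφ0, Fintype.sum_option]
    congr 1
    rw [hU, coe_heckeULin_apply, heckeU_def, coe_wForm,
      ← sum_zmod_val p (fun j => wFun p (2 * h) ⇑Φ ∣[((2 * h : ℕ) : ℤ)] heckeMatrix p j)]
    simp only [wFun_slash_heckeMatrix p (2 * h) (even_two_mul h), hh]
    rw [← Finset.smul_sum, smul_smul, ← zpow_add₀ hp]
    simp
  refine ⟨(p : ℂ) ^ h • φ0, ?_⟩
  have e2 : qExpansion 1 U = Up p (qExpansion 1 (wForm p (2 * h) Φ)) := by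
    ext n
    rw [coeff_Up]
    have := ModularFormClass.qCoeff_heckeU (wForm p (2 * h) Φ) (one_mem_strictPeriods_Gamma0 p)
      hp0 n
    rw [mul_comm p n]
    exact this
  have e3 : qExpansion 1 φ0 = qExpansion 1 Φ + ((p : ℂ) ^ (1 - (h : ℤ))) • qExpansion 1 U := by
    rw [e1]
    have := qExp_add Φ (((p : ℂ) ^ (1 - (h : ℤ))) • U)
    rw [FunLike.coe_smul, qExp_smul] at this
    exact this
  have e4 : qExpansion 1 ⇑((p : ℂ) ^ h • φ0) = (p : ℂ) ^ h • qExpansion 1 φ0 := by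
    rw [FunLike.coe_smul]
    exact ModularForm.qExpansion_smul one_pos one_mem_strictPeriods_SL _ φ0
  rw [e4, e3, e2, smul_add, smul_smul]
  congr 2
  rw [← zpow_natCast, ← zpow_add₀ hp]
  simp

theorem mem_MK_two {p : ℕ} [Fact p.Prime] (Φ : ModularForm (Gamma0 p) 2) :
    ∃ B, (qExpansion 1 Φ, B) ∈ MK p 2 :=
  ⟨_, (mem_MK_of_even even_two).mpr ⟨Φ, rfl⟩⟩

end Fermat.Agent.S16
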