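import Mathlib
import Fermat.Agent.S16.Formal
import Fermat.Agent.S16.Small
import Fermat.Agent.S16.CuspCrit
import Fermat.Agent.S16.ThetaFinal
import Fermat.Agent.S16.ToolkitA

set_option autoImplicit false

/-! # S16 [F]: the lower bound, and the upper bound from `upper_bound_MK` -/

namespace Fermat.Agent.S16

open ModularCurve CuspForm ModularFormClass Fermat.Agent.Lib.QCoeff CongruenceSubgroup
  UpperHalfPlane PowerSeries

theorem gcd_mul_gcd_bounds {p : ℕ} (hp : p.Prime) (hp5 : 5 ≤ p) :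
    (p - 1) * Nat.gcd 12 (p + 1) = 24 * ((p - 1) / Nat.gcd (p - 1) 12) := by
  have h2 : ¬ 2 ∣ p := fun h => by
    have := (Nat.prime_dvd_prime_iff_eq Nat.prime_two hp).mp h; omega
  have h3 : ¬ 3 ∣ p := fun h => by
    have := (Nat.prime_dvd_prime_iff_eq Nat.prime_three hp).mp h; omega
  obtain ⟨q, r, hr, rfl⟩ : ∃ q r, r < 12 ∧ p = 12 * q + r :=
    ⟨p / 12, p % 12, Nat.mod_lt _ (by norm_num), (Nat.div_add_mod p 12).symm⟩
  have hcases : r = 1 ∨ r = 5 ∨ r = 7 ∨ r = 11 := by omega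
  have g1 : ∀ x : ℕ, Nat.gcd 12 (12 * q + x) = Nat.gcd 12 x := fun x => by
    rw [add_comm]; exact Nat.gcd_add_mul_left_right _ _ _
  rcases hcases with rfl | rfl | rfl | rfl
  · have e1 : 12 * q + 1 - 1 = 12 * q + 0 := by omega
    rw [e1, Nat.gcd_comm (12 * q + 0) 12, g1 0, show 12 * q + 1 + 1 = 12 * q + 2 by omega, g1 2]
    norm_num
    omega
  · have e1 : 12 * q + 5 - 1 = 12 * q + 4 := by omega
    rw [e1, Nat.gcd_comm (12 * q + 4) 12, g1 4, show 12 * q + 5 + 1 = 12 * q + 6 by omega, g1 6]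
    norm_num
    omega
  · have e1 : 12 * q + 7 - 1 = 12 * q + 6 := by omega
    rw [e1, Nat.gcd_comm (12 * q + 6) 12, g1 6, show 12 * q + 7 + 1 = 12 * q + 8 by omega, g1 8]
    norm_num
    omega
  · have e1 : 12 * q + 11 - 1 = 12 * q + 10 := by omega
    rw [e1, Nat.gcd_comm (12 * q + 10) 12, g1 10,
      show 12 * q + 11 + 1 = 12 * q + 12 by omega, g1 12]
    norm_num
    omega

variable (p : ℕ) [Fact p.Prime]

theorem eisensteinNumerator_pos : 1 ≤ eisensteinNumerator p := by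
  have hp : p.Prime := Fact.out
  unfold eisensteinNumerator
  have h1 : 0 < p - 1 := by have := hp.two_le; omega
  exact Nat.div_pos (Nat.le_of_dvd h1 (Nat.gcd_dvd_left _ _)) (Nat.gcd_pos_of_pos_left _ h1)

theorem lower_bound : ∃ f : Lat p, ∀ k, 1 ≤ k →
    (eisensteinNumerator p : ℤ) ∣ aInt p k f - sigmaP p k := by
  have hp : p.Prime := Fact.out
  rcases Nat.lt_or_ge p 5 with h5 | h5
  · have hn : eisensteinNumerator p = 1 := by
      have : p = 2 ∨ p = 3 := by
        have := hp.two_le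
        have h4 : p ≠ 4 := by rintro rfl; norm_num at hp
        omega
      rcases this with h | h <;> rw [h] <;> decide
    exact ⟨0, fun k _ => by rw [hn]; exact one_dvd _⟩
  · obtain ⟨G, hG0, hGj⟩ := exists_theta p h5
    set κ : ℂ := ((p : ℂ) - 1) / 24 with hκ
    set H : ModularForm (Gamma0 p) 2 := eisMF p + (-κ) • G with hH
    have hHq : qExpansion 1 H = qExpansion 1 (eisMF p) + (-κ) • qExpansion 1 G := by
      have e1 : (⇑H : ℍ → ℂ) = ⇑(eisMF p) + ⇑((-κ) • G) := rfl
      have e2 : (⇑((-κ) • G) : ℍ → ℂ) = (-κ) • ⇑G := rfl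
      rw [e1, qExp_add, e2, qExp_smul]
    have hH0 : (qExpansion 1 H).coeff 0 = 0 := by
      rw [hHq, map_add, coeff_qExpansion_eisMF, eisCoeff, if_pos rfl, map_smul, hG0, smul_eq_mul,
        hκ]
      ring
    obtain ⟨f, hf⟩ := exists_cuspForm_of_coeff_zero p H hH0
    have hκn : κ * (Nat.gcd 12 (p + 1) : ℂ) = (eisensteinNumerator p : ℂ) := by
      have h1 := gcd_mul_gcd_bounds hp h5
      have h2 : ((p - 1 : ℕ) : ℂ) = (p : ℂ) - 1 := by
        rw [Nat.cast_sub hp.one_le, Nat.cast_one]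
      have h3 := congrArg (fun x : ℕ => (x : ℂ)) h1
      simp only [Nat.cast_mul, h2] at h3
      rw [hκ, eisensteinNumerator]
      push_cast at h3 ⊢
      linear_combination h3 / 24
    have hcoef : ∀ k, 1 ≤ k → ∃ m : ℤ,
        qCoeff f k = ((sigmaP p k - eisensteinNumerator p * m : ℤ) : ℂ) := by
      intro k hk
      obtain ⟨m, hm⟩ := hGj k hk
      refine ⟨m, ?_⟩
      unfold qCoeff
      rw [hf, hHq, map_add, coeff_qExpansion_eisMF, eisCoeff, if_neg (by omega)]
      simp only [map_smul, smul_eq_mul, hm]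
      push_cast
      rw [← hκn]
      ring
    have hmem : f ∈ intLattice p 2 := by
      rw [mem_intLattice_iff]
      intro k
      rcases Nat.eq_zero_or_pos k with rfl | hk
      · exact ⟨0, by rw [qCoeff_zero_idx, Int.cast_zero]⟩
      · obtain ⟨m, hm⟩ := hcoef k hk
        exact ⟨_, hm⟩
    refine ⟨⟨f, hmem⟩, fun k hk => ?_⟩
    obtain ⟨m, hm⟩ := hcoef k hk
    have h1 := aInt_spec p k ⟨f, hmem⟩
    rw [hm] at h1
    have h2 : aInt p k ⟨f, hmem⟩ = sigmaP p k - eisensteinNumerator p * m := by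
      exact_mod_cast h1.symm
    rw [h2]
    exact ⟨-m, by ring⟩

/-- the upper bound, given the analytic input -/
theorem upper_bound_of
    (hU : 7 ≤ p → ∀ (M : ℕ) {A B : ℂ⟦X⟧}, (A, B) ∈ MK p 2 → coeff 0 A = ((p : ℂ) - 1) / 24 →
      (∀ j, 1 ≤ j → ∃ c : ℤ, coeff j A = (M : ℂ) * c) → M ∣ (p - 1) / Nat.gcd (p - 1) 12)
    (M : ℕ) (_hM : 1 ≤ M) (f : Lat p) (hf : ∀ k, 1 ≤ k → (M : ℤ) ∣ aInt p k f - sigmaP p k) :
    M ∣ eisensteinNumerator p := by
  have hp : p.Prime := Fact.out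
  rcases Nat.lt_or_ge p 7 with h7 | h7
  · have hg : genusFormula p = 0 := by
      have : p = 2 ∨ p = 3 ∨ p = 5 := by
        have := hp.two_le
        have h4 : p ≠ 4 := by rintro rfl; norm_num at hp
        have h6 : p ≠ 6 := by rintro rfl; norm_num at hp
        omega
      rcases this with h | h | h <;> rw [h]
      · exact genusFormula_two
      · exact genusFormula_three
      · exact genusFormula_five
    have hf0 : f = 0 := Subtype.ext (cuspForm_eq_zero_of_genus p hg f.1)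
    have h1 := hf 1 le_rfl
    rw [hf0, map_zero, (sData_sigmaP p hp).s1] at h1
    have h2 : (M : ℤ) ∣ 1 := by simpa using h1
    have h3 : M ∣ 1 := by exact_mod_cast h2
    exact h3.trans (one_dvd _)
  · set H : ModularForm (Gamma0 p) 2 := eisMF p + (-1 : ℂ) • CuspForm.toModularFormₗ f.1 with hH
    have hHq : qExpansion 1 H = qExpansion 1 (eisMF p) + (-1 : ℂ) • qExpansion 1 f.1 := by
      have e1 : (⇑H : ℍ → ℂ) = ⇑(eisMF p) + ⇑((-1 : ℂ) • CuspForm.toModularFormₗ f.1) := rfl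
      have e2 : (⇑((-1 : ℂ) • CuspForm.toModularFormₗ f.1) : ℍ → ℂ)
          = (-1 : ℂ) • ⇑(CuspForm.toModularFormₗ f.1) := rfl
      rw [e1, qExp_add, e2, qExp_smul]
      rfl
    obtain ⟨B, hB⟩ := mem_MK_two H
    refine hU h7 M hB ?_ ?_
    · rw [hHq, map_add, coeff_qExpansion_eisMF, eisCoeff, if_pos rfl]
      have : (qExpansion 1 f.1).coeff 0 = 0 := qCoeff_zero_idx f.1
      rw [map_smul, this, smul_zero, add_zero]
    · intro j hj
      obtain ⟨c, hc⟩ := hf j hj
      refine ⟨-c, ?_⟩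
      rw [hHq, map_add, coeff_qExpansion_eisMF, eisCoeff, if_neg (by omega)]
      have h1 : (qExpansion 1 f.1).coeff j = (aInt p j f : ℂ) := aInt_spec p j f
      simp only [map_smul, smul_eq_mul, h1]
      have h2 : (aInt p j f : ℂ) = sigmaP p j + M * c := by
        have : aInt p j f = sigmaP p j + M * c := by linarith
        exact_mod_cast this
      rw [h2]
      push_cast
      ring

end Fermat.Agent.S16
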