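import Mathlib
import Fermat.Agent.S16.Cosets
import Fermat.Agent.S16.Fricke
import Fermat.Agent.S16.FrickeForm
import Fermat.Agent.S22.QExp
import Fermat.Prelude.Thm_CongruenceSubgroup_one_mem_strictPeriods_Gamma0
import Fermat.Prelude.Thm_UpperHalfPlane_qExpansion_prod
import Fermat.Prelude.Thm_UpperHalfPlane_qExpansion_coeff_nat_mul

/-!
# S16 [K2]: `q_p`-expansions of the coset translates, of the trace and of the norm
-/

set_option autoImplicit false
set_option linter.unusedSimpArgs false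

namespace Fermat.Agent.S16

open UpperHalfPlane ModularFormClass Function ModularForm Matrix.SpecialLinearGroup
  CongruenceSubgroup Filter Topology
open scoped MatrixGroups ModularForm Manifold Pointwise

local notation "𝕢" => Periodic.qParam

/-- `ζ_p = exp(2πi/p)`. -/
noncomputable def zetaP (p : ℕ) : ℂ := Complex.exp (2 * Real.pi * Complex.I / p)

theorem zetaP_pow (p : ℕ) [NeZero p] : zetaP p ^ p = 1 := by
  have hp : (p : ℂ) ≠ 0 := Nat.cast_ne_zero.mpr (NeZero.ne p)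
  rw [zetaP, ← Complex.exp_nat_mul, mul_div_cancel₀ _ hp, Complex.exp_two_pi_mul_I]

theorem cosetFun_some_apply (p : ℕ) [Fact p.Prime] (k : ℕ) (hk : Even k) (Φ : ℍ → ℂ)
    (b : ZMod p) (z : ℍ) :
    cosetFun p k Φ (some b) z =
      ((p : ℂ) ^ (k / 2))⁻¹ * wFun p k Φ (heckeMatrix p b.val • z) := by
  have hp0 : p ≠ 0 := NeZero.ne p
  have hp : (p : ℂ) ≠ 0 := by exact_mod_cast hp0
  have h1 := congrFun (wFun_slash_heckeMatrix p k hk Φ b) z
  rw [slash_heckeMatrix_apply _ hp0, Pi.smul_apply, smul_eq_mul, zpow_sub₀ hp, zpow_natCast,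
    zpow_one] at h1
  have h2 : (p : ℂ) ^ (k / 2) ≠ 0 := pow_ne_zero _ hp
  field_simp at h1 ⊢
  linear_combination -h1

theorem qParam_heckeMatrix (p : ℕ) [NeZero p] (j : ℕ) (z : ℍ) :
    𝕢 1 (heckeMatrix p j • z : ℍ) = zetaP p ^ j * 𝕢 p z := by
  have hp : (p : ℂ) ≠ 0 := Nat.cast_ne_zero.mpr (NeZero.ne p)
  unfold Periodic.qParam
  rw [coe_heckeMatrix_smul (NeZero.ne p), zetaP, ← Complex.exp_nat_mul, ← Complex.exp_add]
  congr 1
  push_cast
  field_simp
  ring

theorem hasSum_cosetFun_some (p : ℕ) [Fact p.Prime] (k : ℕ) (hk : Even k)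
    (Φ : ModularForm (Gamma0 p) (k : ℤ)) (b : ZMod p) (z : ℍ) :
    HasSum (fun m ↦ (((p : ℂ) ^ (k / 2))⁻¹ * ((zetaP p ^ b.val) ^ m *
      (qExpansion 1 (wForm p k Φ)).coeff m)) • 𝕢 p z ^ m) (cosetFun p k Φ (some b) z) := by
  have h1 := ModularForm.hasSum_qExpansion (f := wForm p k Φ) one_pos
    (CongruenceSubgroup.one_mem_strictPeriods_Gamma0 p) (heckeMatrix p b.val • z)
  rw [cosetFun_some_apply p k hk, ← coe_wForm]
  have h2 := h1.mul_left (((p : ℂ) ^ (k / 2))⁻¹)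
  have hfun : (fun m ↦ (((p : ℂ) ^ (k / 2))⁻¹ * ((zetaP p ^ b.val) ^ m *
      (qExpansion 1 (wForm p k Φ)).coeff m)) • 𝕢 p z ^ m) = fun i =>
      ((p : ℂ) ^ (k / 2))⁻¹ * ((PowerSeries.coeff i) (qExpansion 1 ⇑(wForm p k Φ)) *
        𝕢 1 ↑(heckeMatrix p b.val • z) ^ i) := by
    funext m
    rw [qParam_heckeMatrix, smul_eq_mul, mul_pow]
    ring
  rw [hfun]
  exact h2

theorem mdiff_cosetFun (p : ℕ) (k : ℤ) (Φ : ModularForm (Gamma0 p) k) (c : Option (ZMod p)) :
    MDiff (cosetFun p k Φ c) := by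
  rw [cosetFun_eq]
  exact (ModularFormClass.holo Φ).slash k _

theorem natCast_pos' (p : ℕ) [NeZero p] : (0 : ℝ) < p :=
  Nat.cast_pos.mpr (Nat.pos_of_ne_zero (NeZero.ne p))

theorem qExpansion_cosetFun_some (p : ℕ) [Fact p.Prime] (k : ℕ) (hk : Even k)
    (Φ : ModularForm (Gamma0 p) (k : ℤ)) (b : ZMod p) :
    qExpansion p (cosetFun p k Φ (some b)) = ((p : ℂ) ^ (k / 2))⁻¹ •
      PowerSeries.rescale (zetaP p ^ b.val) (qExpansion 1 (wForm p k Φ)) := by
  rw [S22.qExpansion_of_hasSum (natCast_pos' p) (mdiff_cosetFun p k Φ _)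
    (hasSum_cosetFun_some p k hk Φ b)]
  ext m
  simp [PowerSeries.coeff_rescale]

theorem analyticAt_cosetFun_some (p : ℕ) [Fact p.Prime] (k : ℕ) (hk : Even k)
    (Φ : ModularForm (Gamma0 p) (k : ℤ)) (b : ZMod p) :
    AnalyticAt ℂ (cuspFunction p (cosetFun p k Φ (some b))) 0 :=
  S22.analyticAt_of_hasSum (natCast_pos' p) (mdiff_cosetFun p k Φ _)
    (hasSum_cosetFun_some p k hk Φ b)

theorem natCast_mem_strictPeriods (p : ℕ) {Γ : Subgroup (GL (Fin 2) ℝ)}
    (h : (1 : ℝ) ∈ Γ.strictPeriods) : (p : ℝ) ∈ Γ.strictPeriods := by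
  have := nsmul_mem h p
  simpa using this

/-- a form of period one, expanded in `q_p`. -/
theorem qExpansion_natCast {Γ : Subgroup (GL (Fin 2) ℝ)} {k : ℤ} (p : ℕ) [NeZero p]
    (h1 : (1 : ℝ) ∈ Γ.strictPeriods) (f : ModularForm Γ k) :
    qExpansion p f = PowerSeries.expand p (NeZero.ne p) (qExpansion 1 f) := by
  have : Fact (IsCusp OnePoint.infty Γ) := ⟨Γ.isCusp_of_mem_strictPeriods one_pos h1⟩
  ext n
  have := UpperHalfPlane.qExpansion_coeff_nat_mul one_pos
    (SlashInvariantFormClass.periodic_comp_ofComplex f h1) (ModularFormClass.holo f)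
    (ModularFormClass.bdd_at_infty f) (Nat.pos_of_ne_zero (NeZero.ne p)) n
  rw [mul_one] at this
  rw [this, PowerSeries.coeff_expand]

/-- the `q`-expansion of the norm. -/
theorem qExpansion_norm (p : ℕ) [Fact p.Prime] (k : ℕ) (hk : Even k)
    (Φ : ModularForm (Gamma0 p) (k : ℤ)) {w : ℤ} (F : ModularForm 𝒮ℒ w)
    (hF : ⇑F = ∏ c, cosetFun p k Φ c) :
    PowerSeries.expand p (NeZero.ne p) (qExpansion 1 F) =
      PowerSeries.expand p (NeZero.ne p) (qExpansion 1 Φ) *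
        ∏ b : ZMod p, (((p : ℂ) ^ (k / 2))⁻¹ •
          PowerSeries.rescale (zetaP p ^ b.val) (qExpansion 1 (wForm p k Φ))) := by
  have hΓ := CongruenceSubgroup.one_mem_strictPeriods_Gamma0 p
  rw [← qExpansion_natCast p one_mem_strictPeriods_SL F, hF,
    UpperHalfPlane.qExpansion_prod, Fintype.prod_option]
  · congr 1
    · exact qExpansion_natCast p hΓ Φ
    · exact Finset.prod_congr rfl fun b _ => qExpansion_cosetFun_some p k hk Φ b
  · intro c _
    cases c with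
    | none =>
      exact ModularFormClass.analyticAt_cuspFunction_zero Φ (natCast_pos' p)
        (natCast_mem_strictPeriods p hΓ)
    | some b => exact analyticAt_cosetFun_some p k hk Φ b

end Fermat.Agent.S16
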