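import Mathlib

/-!
# S16 [K2]: the purely algebraic part of the two-cusp Sturm bound
-/

set_option autoImplicit false

namespace Fermat.Agent.S16

open PowerSeries

theorem map_rescale' {R S : Type*} [CommSemiring R] [CommSemiring S] (f : R →+* S) (a : R)
    (φ : R⟦X⟧) : (rescale a φ).map f = rescale (f a) (φ.map f) := by
  ext n
  simp [coeff_rescale]

theorem X_pow_dvd_rescale {R : Type*} [CommSemiring R] (a : R) (φ : R⟦X⟧) (n : ℕ)
    (h : X ^ n ∣ φ) : X ^ n ∣ rescale a φ := by
  rw [X_pow_dvd_iff] at h ⊢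
  intro m hm
  rw [coeff_rescale, h m hm, mul_zero]

theorem X_pow_dvd_expand {R : Type*} [CommRing R] (p : ℕ) (hp : p ≠ 0) (φ : R⟦X⟧) (n : ℕ)
    (h : X ^ n ∣ φ) : X ^ (p * n) ∣ expand p hp φ := by
  have := map_dvd (expand p hp) h
  rwa [map_pow, expand_X, ← pow_mul] at this

theorem expand_eq_zero {R : Type*} [CommRing R] (p : ℕ) (hp : p ≠ 0) (φ : R⟦X⟧)
    (h : expand p hp φ = 0) : φ = 0 := by
  ext m
  have := congrArg (coeff (p * m)) h
  simpa using this

theorem rescale_eq_zero {R : Type*} [CommRing R] [IsDomain R] (a : R) (ha : a ≠ 0) (φ : R⟦X⟧)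
    (h : rescale a φ = 0) : φ = 0 := by
  ext m
  have := congrArg (coeff m) h
  rw [coeff_rescale, map_zero] at this
  rcases mul_eq_zero.mp this with h | h
  · exact absurd h (pow_ne_zero _ ha)
  · simpa using h

/-- The algebraic core of the two-cusp Sturm bound: `Q` is the `q`-expansion of (a multiple of)
the norm, `hSt` is the level one Sturm bound for it. -/
theorem sturm_algebra (R : Subring ℂ) {κ : Type} [Field κ] (π : ↥R →+* κ) (p : ℕ) [NeZero p]
    (ζ : ↥R) (hζ : ζ ^ p = 1) (A' B' : (↥R)⟦X⟧) (Q : ℂ⟦X⟧)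
    (hQ : expand p (NeZero.ne p) Q = expand p (NeZero.ne p) (A'.map R.subtype) *
      ∏ b : ZMod p, rescale ((ζ : ℂ) ^ b.val) (B'.map R.subtype))
    (N : ℕ) (hSt : ∀ J : AddSubgroup ℂ, (∀ j, j < N → coeff j Q ∈ J) → ∀ j, coeff j Q ∈ J)
    (n₁ n₂ : ℕ) (h₁ : ∀ j < n₁, π (coeff j A') = 0) (h₂ : ∀ j < n₂, π (coeff j B') = 0)
    (hN : N ≤ n₁ + n₂) : A'.map π = 0 ∨ B'.map π = 0 := by
  have hp := NeZero.ne p
  set P' : (↥R)⟦X⟧ := expand p hp A' * ∏ b : ZMod p, rescale (ζ ^ b.val) B' with hP'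
  have hP'map : P'.map R.subtype = expand p hp Q := by
    rw [hQ, hP', map_mul, map_prod, map_expand]
    refine congrArg₂ _ rfl (Finset.prod_congr rfl fun b _ => ?_)
    rw [map_rescale', map_pow]
    rfl
  have hPπ : P'.map π = expand p hp (A'.map π) * ∏ b : ZMod p, rescale (π ζ ^ b.val) (B'.map π) := by
    rw [hP', map_mul, map_prod, map_expand]
    congr 1
    refine Finset.prod_congr rfl fun b _ => ?_
    rw [map_rescale']
    simp
  -- divisibility
  have hdvd : X ^ (p * (n₁ + n₂)) ∣ P'.map π := by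
    rw [hPπ, mul_add, pow_add]
    refine mul_dvd_mul ?_ ?_
    · apply X_pow_dvd_expand
      rw [X_pow_dvd_iff]
      intro m hm
      rw [coeff_map, h₁ m hm]
    · have : (X : κ⟦X⟧) ^ (p * n₂) = ∏ _b : ZMod p, (X : κ⟦X⟧) ^ n₂ := by
        rw [Finset.prod_const, Finset.card_univ, ZMod.card, ← pow_mul, mul_comm]
      rw [this]
      refine Finset.prod_dvd_prod_of_dvd _ _ fun b _ => ?_
      apply X_pow_dvd_rescale
      rw [X_pow_dvd_iff]
      intro m hm
      rw [coeff_map, h₂ m hm]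
  rw [X_pow_dvd_iff] at hdvd
  -- the subgroup
  let J : AddSubgroup ℂ := (RingHom.ker π).toAddSubgroup.map R.subtype.toAddMonoidHom
  have hJ : ∀ r : ↥R, (r : ℂ) ∈ J ↔ π r = 0 := by
    intro r
    constructor
    · rintro ⟨s, hs, hsr⟩
      have : s = r := Subtype.ext hsr
      rw [← this]
      exact hs
    · intro h
      exact ⟨r, h, rfl⟩
  have hcoeff : ∀ j, coeff j Q = ((coeff (p * j) P' : ↥R) : ℂ) := by
    intro j
    have := congrArg (coeff (p * j)) hP'map
    rw [coeff_expand_mul, coeff_map] at this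
    exact this.symm
  have hall := hSt J (by
    intro j hj
    rw [hcoeff, hJ, ← coeff_map]
    apply hdvd
    exact Nat.mul_lt_mul_of_pos_left (lt_of_lt_of_le hj hN) (Nat.pos_of_ne_zero hp))
  have hzero : P'.map π = 0 := by
    ext m
    rw [map_zero, coeff_map]
    by_cases hm : p ∣ m
    · obtain ⟨j, rfl⟩ := hm
      rw [← hJ, ← hcoeff]
      exact hall j
    · have := congrArg (coeff m) hP'map
      rw [coeff_expand_of_not_dvd p hp _ hm, coeff_map] at this
      have h0 : coeff m P' = 0 := Subtype.ext this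
      rw [h0, map_zero]
  rw [hPπ] at hzero
  rcases mul_eq_zero.mp hzero with h | h
  · left
    exact expand_eq_zero p hp _ h
  · right
    obtain ⟨b, _, hb⟩ := Finset.prod_eq_zero_iff.mp h
    refine rescale_eq_zero _ ?_ _ hb
    apply pow_ne_zero
    intro h0
    have := congrArg π hζ
    rw [map_pow, h0, zero_pow hp, map_one] at this
    exact zero_ne_one this

end Fermat.Agent.S16
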