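import Mathlib
import Fermat.Agent.S22.LevelOne

set_option autoImplicit false

/-!
# S16 (K2, level one part): the Sturm bound in level one modulo an arbitrary additive subgroup

If `F ∈ M_w(SL₂(ℤ))` and `a_j(F) ∈ J` for all `j ≤ w / 12`, `J` any additive subgroup of `ℂ`,
then all `a_j(F) ∈ J`.
-/

namespace Fermat.Agent.S16

open UpperHalfPlane ModularForm ModularFormClass EisensteinSeries PowerSeries
open Fermat.Agent.S22
open scoped MatrixGroups

noncomputable section

local notation "ι" => PowerSeries.map (Int.castRingHom ℂ)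

/-- multiplication by an integral series preserves "the first coefficients lie in `J`". -/
theorem coeff_int_mul_mem (J : AddSubgroup ℂ) (P : ℤ⟦X⟧) (A : ℂ⟦X⟧) (m : ℕ)
    (hA : ∀ j ≤ m, coeff j A ∈ J) : ∀ j ≤ m, coeff j (ι P * A) ∈ J := by
  intro j hj
  rw [coeff_mul]
  refine sum_mem fun x hx => ?_
  have hx' : x.1 + x.2 = j := Finset.HasAntidiagonal.mem_antidiagonal.mp hx
  rw [coeff_map, eq_intCast, ← zsmul_eq_mul]
  exact J.zsmul_mem (hA _ (by omega)) _

theorem coeff_int_mul_mem' (J : AddSubgroup ℂ) (P : ℤ⟦X⟧) (A : ℂ⟦X⟧)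
    (hA : ∀ j, coeff j A ∈ J) : ∀ j, coeff j (ι P * A) ∈ J :=
  fun j => coeff_int_mul_mem J P A j (fun i _ => hA i) j le_rfl

/-- `Δ = q * unit` in `ℤ⟦q⟧`. -/
theorem exists_deltaSeries_factor : ∃ u v : ℤ⟦X⟧, deltaSeries = X * u ∧ v * u = 1 := by
  obtain ⟨P, hP, h0, h1⟩ := discriminant_qExpansion_int
  have hPd : P = deltaSeries := by
    have hinj : Function.Injective (ι) :=
      PowerSeries.map_injective _ (Int.cast_injective (α := ℂ))
    apply hinj
    rw [← hP, discriminant_qExpansion_eq]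
  subst hPd
  obtain ⟨u, hu⟩ : (X : ℤ⟦X⟧) ∣ deltaSeries := X_dvd_iff.mpr (by simpa using h0)
  have hu1 : constantCoeff u = 1 := by
    rw [hu, show (1 : ℕ) = 0 + 1 from rfl, mul_comm, coeff_succ_mul_X] at h1
    simpa using h1
  have hunit : IsUnit u := isUnit_iff_constantCoeff.mpr (by rw [hu1]; exact isUnit_one)
  obtain ⟨v, hv⟩ := hunit.exists_left_inv
  exact ⟨u, v, hu, hv⟩

/-- division by `Δ`. -/
theorem coeff_mem_of_delta_mul (J : AddSubgroup ℂ) (A : ℂ⟦X⟧) (m : ℕ)
    (hA : ∀ j ≤ m + 1, coeff j (ι deltaSeries * A) ∈ J) : ∀ j ≤ m, coeff j A ∈ J := by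
  obtain ⟨u, v, hu, hv⟩ := exists_deltaSeries_factor
  have h1 : ∀ j ≤ m, coeff j (ι u * A) ∈ J := by
    intro j hj
    have := hA (j + 1) (by omega)
    rw [hu, (ι).map_mul, PowerSeries.map_X, mul_assoc, mul_comm, coeff_succ_mul_X] at this
    exact this
  have h2 := coeff_int_mul_mem J v (ι u * A) m h1
  rw [← mul_assoc, ← map_mul, hv, map_one, one_mul] at h2
  exact h2

/-- the statement proved by induction on the weight. -/
def SturmProp (J : AddSubgroup ℂ) (k : ℤ) : Prop :=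
  ∀ F : ModularForm 𝒮ℒ k, (∀ j : ℕ, 12 * (j : ℤ) ≤ k → (qExpansion 1 F).coeff j ∈ J) →
    ∀ j : ℕ, (qExpansion 1 F).coeff j ∈ J

theorem sturmProp_of_forall_zero (J : AddSubgroup ℂ) {k : ℤ}
    (h : ∀ F : ModularForm 𝒮ℒ k, F = 0) : SturmProp J k := by
  intro F _ j
  rw [h F]
  simp [qExpansion_zero, J.zero_mem]

theorem sturmProp_neg (J : AddSubgroup ℂ) {k : ℤ} (hk : k < 0) : SturmProp J k :=
  sturmProp_of_forall_zero J (rank_zero_iff_forall_zero.mp (levelOne_neg_weight_rank_zero hk))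

theorem sturmProp_odd (J : AddSubgroup ℂ) {k : ℤ} (hk : Odd k) : SturmProp J k :=
  sturmProp_of_forall_zero J (levelOne_odd_weight_eq_zero hk)

theorem sturmProp_two (J : AddSubgroup ℂ) : SturmProp J 2 :=
  sturmProp_of_forall_zero J (rank_zero_iff_forall_zero.mp levelOne_weight_two_rank_zero)

theorem sturmProp_zero (J : AddSubgroup ℂ) : SturmProp J 0 := by
  intro F hF j
  obtain ⟨c, hc⟩ := levelOne_weight_zero_const F
  have : (F : ℍ → ℂ) = c • ((1 : ModularForm 𝒮ℒ 0) : ℍ → ℂ) := by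
    rw [hc]; funext z; simp
  have hq : qExpansion 1 F = c • (1 : ℂ⟦X⟧) := by
    rw [this, ModularForm.qExpansion_smul one_pos one_mem_strictPeriods_SL c
      (1 : ModularForm 𝒮ℒ 0), ModularForm.qExpansion_one]
  rcases Nat.eq_zero_or_pos j with rfl | hj
  · exact hF 0 (by simp)
  · rw [hq, coeff_smul, coeff_one, if_neg hj.ne']
    simp [J.zero_mem]

/-- an integral form of weight `k` with constant term one. -/
theorem exists_int_form {k : ℕ} (hk : 3 ≤ k) (hk2 : Even k) :
    ∃ (G : ModularForm 𝒮ℒ (k : ℤ)) (P : ℤ⟦X⟧), qExpansion 1 G = ι P ∧ coeff 0 P = 1 := by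
  obtain ⟨a, b, hab⟩ : ∃ a b : ℕ, a * 4 + b * 6 = k := by
    obtain ⟨m, hm⟩ := hk2
    rcases Nat.even_or_odd' m with ⟨c, hc | hc⟩
    · exact ⟨c, 0, by omega⟩
    · exact ⟨c - 1, 1, by omega⟩
  refine ⟨ModularForm.mcast (by rw [← hab]; push_cast; ring) ((E₄.pow a).mul (E₆.pow b)),
    (1 + PowerSeries.C 240 * sigmaSeries 3) ^ a * (1 - PowerSeries.C 504 * sigmaSeries 5) ^ b,
    ?_, ?_⟩
  · rw [ModularForm.qExpansion_mcast, ModularForm.qExpansion_mul one_pos one_mem_strictPeriods_SL,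
      ModularForm.qExpansion_pow one_pos one_mem_strictPeriods_SL,
      ModularForm.qExpansion_pow one_pos one_mem_strictPeriods_SL, E4_qExpansion, E6_qExpansion,
      map_mul, map_pow, map_pow]
  · simp [sigmaSeries]

theorem sturmProp_step (J : AddSubgroup ℂ) {k : ℕ} (hk : 3 ≤ k) (hk2 : Even k)
    (ih : SturmProp J ((k : ℤ) - 12)) : SturmProp J k := by
  intro F hF
  obtain ⟨G0, P0, hG0, hP0⟩ := exists_int_form hk hk2
  set c0 : ℂ := (qExpansion 1 F).coeff 0 with hc0
  have hc0J : c0 ∈ J := hF 0 (by simp)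
  set F1 : ModularForm 𝒮ℒ k := F - c0 • G0 with hF1
  have hq1 : qExpansion 1 F1 = qExpansion 1 F - c0 • qExpansion 1 G0 := by
    rw [hF1, FunLike.coe_sub, ModularForm.qExpansion_sub one_pos one_mem_strictPeriods_SL,
      FunLike.coe_smul, ModularForm.qExpansion_smul one_pos one_mem_strictPeriods_SL]
  have hcG : ∀ j, coeff j (c0 • qExpansion 1 G0) ∈ J := by
    intro j
    rw [hG0, coeff_smul, coeff_map, eq_intCast, smul_eq_mul, mul_comm, ← zsmul_eq_mul]
    exact J.zsmul_mem hc0J _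
  have hcusp : (qExpansion 1 F1).coeff 0 = 0 := by
    rw [hq1, map_sub, PowerSeries.coeff_smul, hG0, coeff_map, hP0]
    simp [hc0]
  have h2 := qExpansion_eq_qExpansion_discriminant_mul F1 hcusp
  set F' := CuspForm.discriminantEquiv (toCuspForm F1 hcusp) with hF'
  rw [discriminant_qExpansion_eq] at h2
  have h3 : ∀ j : ℕ, 12 * (j : ℤ) ≤ k → coeff j (ι deltaSeries * qExpansion 1 F') ∈ J := by
    intro j hj
    rw [← h2, hq1, map_sub]
    exact J.sub_mem (hF j hj) (hcG j)
  have h4 : ∀ j : ℕ, (qExpansion 1 F').coeff j ∈ J := by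
    apply ih
    intro j hj
    exact coeff_mem_of_delta_mul J _ j (fun i hi => h3 i (by omega)) j le_rfl
  intro j
  have h5 : qExpansion 1 F = qExpansion 1 F1 + c0 • qExpansion 1 G0 := by
    rw [hq1]; ring
  rw [h5, map_add, h2]
  exact J.add_mem (coeff_int_mul_mem' J _ _ h4 j) (hcG j)

theorem sturmProp_nat (J : AddSubgroup ℂ) (k : ℕ) : SturmProp J k := by
  induction k using Nat.strong_induction_on with | _ k ih =>
  rcases Nat.even_or_odd k with hk2 | hk2
  · rcases lt_or_ge k 3 with hk | hk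
    · interval_cases k
      · exact sturmProp_zero J
      · exact absurd hk2 (by decide)
      · exact sturmProp_two J
    · apply sturmProp_step J hk hk2
      rcases lt_or_ge k 12 with h12 | h12
      · exact sturmProp_neg J (by omega)
      · have := ih (k - 12) (by omega)
        rwa [show ((k - 12 : ℕ) : ℤ) = (k : ℤ) - 12 by omega] at this
  · exact sturmProp_odd J (by exact_mod_cast hk2)

/-- **Sturm bound in level one modulo an additive subgroup of `ℂ`.** -/
theorem levelOne_sturm (J : AddSubgroup ℂ) (w : ℕ) (F : ModularForm 𝒮ℒ (w : ℤ))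
    (h : ∀ j, 12 * j ≤ w → (qExpansion 1 F).coeff j ∈ J) :
    ∀ j, (qExpansion 1 F).coeff j ∈ J :=
  sturmProp_nat J w F fun j hj => h j (by exact_mod_cast hj)

/-- integer weight version. -/
theorem levelOne_sturm_int (J : AddSubgroup ℂ) (k : ℤ) (F : ModularForm 𝒮ℒ k)
    (h : ∀ j : ℕ, 12 * (j : ℤ) ≤ k → (qExpansion 1 F).coeff j ∈ J) :
    ∀ j, (qExpansion 1 F).coeff j ∈ J := by
  rcases lt_or_ge k 0 with hk | hk
  · exact sturmProp_neg J hk F h
  · lift k to ℕ using hk
    exact sturmProp_nat J k F h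

end

end Fermat.Agent.S16
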