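import Mathlib
import Fermat.Agent.S16.UDefs
import Fermat.Agent.S16.ToolkitA
import Fermat.Agent.S16.NormQ
import Fermat.Agent.S16.SturmOne
import Fermat.Agent.S16.SturmAlg
import Fermat.Agent.S28.Rings
import Fermat.Agent.S28.Red

/-!
# S16 [K2]: the two-cusp Sturm bound (`sturm` field of the toolkit)
-/

set_option autoImplicit false

namespace Fermat.Agent.S16

open UpperHalfPlane ModularForm ModularFormClass CongruenceSubgroup Matrix.SpecialLinearGroup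
  PowerSeries
open scoped MatrixGroups Manifold

theorem Zc_le_Rl (ℓ : ℕ) : Zc ℓ ≤ S28.Rl ℓ := by
  rintro x ⟨a, ha, rfl⟩
  exact S28.algebraMap_Zl_mem_Rl ℓ ⟨a, ha⟩

theorem Ldvd_zero (ℓ : ℕ) : Ldvd ℓ 0 := ⟨0, zero_mem _, by simp⟩

/-- for `x ∈ ℤ_(ℓ)`: `x` dies in the residue field iff `ℓ ∣ x`. -/
theorem Ldvd_iff (ℓ : ℕ) [Fact ℓ.Prime] {κ : Type} [Field κ] (π : ↥(S28.Rl ℓ) →+* κ)
    (hπ : π (ℓ : ↥(S28.Rl ℓ)) = 0) (x : ℂ) (hx : x ∈ Zc ℓ) :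
    Ldvd ℓ x ↔ π ⟨x, Zc_le_Rl ℓ hx⟩ = 0 := by
  constructor
  · rintro ⟨c, hc, rfl⟩
    have : (⟨(ℓ : ℂ) * c, Zc_le_Rl ℓ hx⟩ : ↥(S28.Rl ℓ)) = (ℓ : ↥(S28.Rl ℓ)) * ⟨c, Zc_le_Rl ℓ hc⟩ := by
      apply Subtype.ext
      simp
    rw [this, map_mul, hπ, zero_mul]
  · intro h
    obtain ⟨a, ha, rfl⟩ := hx
    by_cases hred : S28.red ℓ ⟨a, ha⟩ = 0
    · obtain ⟨a', ha'⟩ := (S28.red_eq_zero_iff ℓ _).mp hred
      refine ⟨algebraMap ℚ ℂ a', ⟨a', a'.2, rfl⟩, ?_⟩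
      have := congrArg (fun t : S28.Zl ℓ => algebraMap ℚ ℂ (t : ℚ)) ha'
      simpa using this
    · exfalso
      obtain ⟨b, hb⟩ := S28.red_surjective ℓ ((S28.red ℓ ⟨a, ha⟩)⁻¹)
      have h1 : S28.red ℓ (⟨a, ha⟩ * b - 1) = 0 := by
        rw [map_sub, map_mul, hb, mul_inv_cancel₀ hred, map_one, sub_self]
      obtain ⟨c, hc⟩ := (S28.red_eq_zero_iff ℓ _).mp h1
      have h2 := congrArg (fun t => π (S28.kap ℓ t)) hc
      simp only [map_sub, map_mul, map_one, map_natCast, hπ, zero_mul] at h2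
      have h3 : S28.kap ℓ ⟨a, ha⟩ = ⟨algebraMap ℚ ℂ a, Zc_le_Rl ℓ ⟨a, ha, rfl⟩⟩ := by
        apply Subtype.ext
        rfl
      rw [h3, h, zero_mul, zero_sub] at h2
      exact one_ne_zero (neg_eq_zero.mp h2)

theorem qExp_smul_SL {k : ℤ} (c : ℂ) (F : ModularForm 𝒮ℒ k) :
    qExpansion 1 (c • F) = c • qExpansion 1 F := by
  rw [← ModularForm.qExpansion_smul one_pos one_mem_strictPeriods_SL]

/-- **(K2)** the two-cusp Sturm bound modulo `ℓ`. -/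
theorem MK_sturm {p : ℕ} [Fact p.Prime] (ℓ : ℕ) (hℓ : ℓ.Prime) {k : ℕ} {A B : ℂ⟦X⟧}
    (h : (A, B) ∈ MK p k) (hA : A ∈ intS ℓ) (hB : B ∈ intS ℓ) (n₁ n₂ : ℕ)
    (h₁ : ∀ j < n₁, Ldvd ℓ (coeff j A)) (h₂ : ∀ j < n₂, Ldvd ℓ (coeff j B))
    (hn : k * (p + 1) < 12 * (n₁ + n₂)) :
    (∀ j, Ldvd ℓ (coeff j A)) ∨ (∀ j, Ldvd ℓ (coeff j B)) := by
  by_cases hk : Even k
  swap
  · rw [mem_MK_of_not_even hk, Prod.mk_eq_zero] at h
    left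
    intro j
    rw [h.1, map_zero]
    exact Ldvd_zero ℓ
  obtain ⟨Φ, hΦ⟩ := (mem_MK_of_even hk).mp h
  rw [Prod.mk.injEq] at hΦ
  obtain ⟨hΦA, hΦB⟩ := hΦ
  have : Fact ℓ.Prime := ⟨hℓ⟩
  have hp0 : p ≠ 0 := NeZero.ne p
  have hpC : (p : ℂ) ≠ 0 := Nat.cast_ne_zero.mpr hp0
  obtain ⟨κ, _, π, hπ⟩ := S28.exists_residue_Rl ℓ
  set A' : (↥(S28.Rl ℓ))⟦X⟧ := PowerSeries.mk fun j => ⟨coeff j A, Zc_le_Rl ℓ (hA j)⟩ with hA'
  set B' : (↥(S28.Rl ℓ))⟦X⟧ := PowerSeries.mk fun j => ⟨coeff j B, Zc_le_Rl ℓ (hB j)⟩ with hB'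
  have hA'map : A'.map (S28.Rl ℓ).subtype = A := by
    ext j; simp [hA']
  have hB'map : B'.map (S28.Rl ℓ).subtype = B := by
    ext j; simp [hB']
  obtain ⟨F, hF⟩ := exists_normForm p k Φ
  have hnorm := qExpansion_norm p k hk Φ F hF
  set c₀ : ℂ := (p : ℂ) ^ (k / 2) with hc₀
  have hc₀0 : c₀ ≠ 0 := pow_ne_zero _ hpC
  have key := sturm_algebra (S28.Rl ℓ) π p
    ⟨zetaP p, S28.mem_Rl_of_pow_eq_one ℓ _ p hp0 (zetaP_pow p)⟩
    (Subtype.ext (by simpa using zetaP_pow p)) A' B' (qExpansion 1 ((c₀ ^ p) • F))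
    (by
      rw [qExp_smul_SL, map_smul, hnorm, hA'map, hB'map, hΦA, hΦB]
      have : ∏ b : ZMod p, (c₀⁻¹ • rescale (zetaP p ^ b.val) B) =
          C (c₀⁻¹ ^ p) * ∏ b : ZMod p, rescale (zetaP p ^ b.val) B := by
        simp only [smul_eq_C_mul]
        rw [Finset.prod_mul_distrib, Finset.prod_const, Finset.card_univ, ZMod.card, map_pow]
      rw [this, smul_eq_C_mul]
      have h1 : (C (c₀ ^ p) : ℂ⟦X⟧) * C (c₀⁻¹ ^ p) = 1 := by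
        rw [← map_mul, ← mul_pow, mul_inv_cancel₀ hc₀0, one_pow, map_one]
      linear_combination (expand p hp0 A * ∏ b : ZMod p, rescale (zetaP p ^ b.val) B) * h1)
    (n₁ + n₂)
    (fun J hJ => levelOne_sturm_int J _ ((c₀ ^ p) • F) fun j hj => hJ j (by
      have h3 : (12 * j : ℤ) < 12 * ((n₁ + n₂ : ℕ) : ℤ) := by
        refine lt_of_le_of_lt hj ?_
        exact_mod_cast hn
      omega))
    n₁ n₂
    (fun j hj => by
      rw [hA', coeff_mk]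
      exact (Ldvd_iff ℓ π hπ _ (hA j)).mp (h₁ j hj))
    (fun j hj => by
      rw [hB', coeff_mk]
      exact (Ldvd_iff ℓ π hπ _ (hB j)).mp (h₂ j hj))
    le_rfl
  rcases key with h0 | h0
  · left
    intro j
    rw [Ldvd_iff ℓ π hπ _ (hA j)]
    have := congrArg (coeff j) h0
    rw [coeff_map, hA', coeff_mk, map_zero] at this
    exact this
  · right
    intro j
    rw [Ldvd_iff ℓ π hπ _ (hB j)]
    have := congrArg (coeff j) h0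
    rw [coeff_map, hB', coeff_mk, map_zero] at this
    exact this

end Fermat.Agent.S16
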