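import Mathlib
import Fermat.Agent.S16.UDefs
import Fermat.Agent.S22.LevelOne

set_option autoImplicit false

/-! # S16 [U]: the level one facts used in the upper bound -/

namespace Fermat.Agent.S16

open PowerSeries UpperHalfPlane ModularForm EisensteinSeries ModularFormClass
open scoped MatrixGroups ArithmeticFunction.sigma

noncomputable section

theorem intCast_mem_Zc (ℓ : ℕ) (n : ℤ) : (n : ℂ) ∈ Zc ℓ := intCast_mem _ n

theorem map_int_mem_intS (ℓ : ℕ) (P : ℤ⟦X⟧) : P.map (Int.castRingHom ℂ) ∈ intS ℓ := by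
  intro j
  rw [coeff_map]
  exact intCast_mem_Zc ℓ _

/-- `∑ σ_k(n) q^n` -/
def sg (k : ℕ) : ℂ⟦X⟧ := (S22.sigmaSeries k).map (Int.castRingHom ℂ)

theorem sg_mem (ℓ k : ℕ) : sg k ∈ intS ℓ := map_int_mem_intS ℓ _

theorem coeff_sg (k n : ℕ) : coeff n (sg k) = (σ k n : ℂ) := by
  simp [sg, S22.sigmaSeries]

theorem coeff_zero_sg (k : ℕ) : coeff 0 (sg k) = 0 := by
  rw [coeff_sg]; simp

theorem coeff_one_sg (k : ℕ) : coeff 1 (sg k) = 1 := by
  rw [coeff_sg]; simp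

theorem E4q_eq : E4q = 1 + 240 * sg 3 := by
  rw [E4q, S22.E4_qExpansion, sg, map_add, map_one, map_mul, map_C]
  simp [map_ofNat]

theorem E6q_eq : E6q = 1 - 504 * sg 5 := by
  rw [E6q, S22.E6_qExpansion, sg, map_sub, map_one, map_mul, map_C]
  simp [map_ofNat]

theorem E2q_eq : E2q = 1 - 24 * sg 1 := by
  ext n
  rw [E2q, coeff_mk, map_sub, ← map_ofNat (PowerSeries.C (R := ℂ)) 24, coeff_C_mul, coeff_sg,
    coeff_one]
  split_ifs with h
  · simp [h]
  · ring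

theorem Δq_mem (ℓ : ℕ) : Δq ∈ intS ℓ := by
  rw [Δq, S22.discriminant_qExpansion_eq]
  exact map_int_mem_intS ℓ _

theorem coeff_zero_Δq : coeff 0 Δq = 0 :=
  CuspFormClass.qExpansion_coeff_zero CuspForm.discriminant one_pos one_mem_strictPeriods_SL

theorem coeff_one_Δq : coeff 1 Δq = 1 := discriminant_qExpansion_coeff_one

theorem E4q_cube_sub_E6q_sq : E4q ^ 3 - E6q ^ 2 = 1728 * Δq := by
  rw [E4q, E6q, Δq, S22.E4_qExpansion, S22.E6_qExpansion, S22.discriminant_qExpansion_eq,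
    ← map_pow, ← map_pow, ← map_sub, S22.deltaSeries_identity, map_mul, map_C]
  simp [map_ofNat]

theorem lvl2 (φ : ModularForm 𝒮ℒ 2) : qExpansion 1 φ = 0 := by
  have h : φ = 0 := rank_zero_iff_forall_zero.mp levelOne_weight_two_rank_zero φ
  rw [h]
  simp [qExpansion_zero]

theorem lvl4 (φ : ModularForm 𝒮ℒ 4) : ∃ c : ℂ, qExpansion 1 φ = c • E4q := by
  obtain ⟨c, hc⟩ := (finrank_eq_one_iff_of_nonzero' E₄ (E_ne_zero _ ⟨2, rfl⟩)).mp
    (Module.rank_eq_one_iff_finrank_eq_one.mp levelOne_weight_four_rank_one) φ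
  refine ⟨c, ?_⟩
  rw [← hc, FunLike.coe_smul, ModularForm.qExpansion_smul one_pos one_mem_strictPeriods_SL]
  rfl

theorem lvl12 (φ : ModularForm 𝒮ℒ 12) (h0 : coeff 0 (qExpansion 1 φ) = 0) :
    ∃ c : ℂ, qExpansion 1 φ = c • Δq := by
  obtain ⟨c, hc⟩ := CuspForm.exists_smul_discriminant_of_weight_eq_twelve (toCuspForm φ h0)
  refine ⟨c, ?_⟩
  have h1 : (φ : ℍ → ℂ) = ((c • CuspForm.discriminant : CuspForm 𝒮ℒ 12) : ℍ → ℂ) := by
    rw [hc]; rfl
  rw [h1, FunLike.coe_smul,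
    ModularForm.qExpansion_smul one_pos one_mem_strictPeriods_SL c CuspForm.discriminant]
  rfl

theorem lvl14 (φ : ModularForm 𝒮ℒ 14) (h0 : coeff 0 (qExpansion 1 φ) = 0) :
    qExpansion 1 φ = 0 := by
  have h2 : Module.rank ℂ (ModularForm 𝒮ℒ (14 - 12)) = 0 := levelOne_weight_two_rank_zero
  have h3 : CuspForm.discriminantEquiv (toCuspForm φ h0) = 0 :=
    rank_zero_iff_forall_zero.mp h2 _
  have h4 : toCuspForm φ h0 = 0 := by
    simpa [CuspForm.discriminantEquiv.map_eq_zero_iff] using h3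
  have h5 : (φ : ℍ → ℂ) = 0 := by
    funext z
    have := DFunLike.congr_fun h4 z
    simpa using this
  rw [h5]
  simp [qExpansion_zero]

end

end Fermat.Agent.S16
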