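import Mathlib
import Fermat.Agent.S16.ULevelOne

set_option autoImplicit false

/-! # S16 [U]: arithmetic of `ℤ_(ℓ) ⊂ ℂ`, operators on integral series -/

namespace Fermat.Agent.S16

open PowerSeries

noncomputable section

theorem mem_Zc {ℓ : ℕ} {z : ℂ} : z ∈ Zc ℓ ↔ ∃ r : ℚ, r.den.Coprime ℓ ∧ (r : ℂ) = z := by
  constructor
  · rintro ⟨r, hr, rfl⟩
    exact ⟨r, hr, by simp⟩
  · rintro ⟨r, hr, rfl⟩
    exact ⟨r, hr, by simp⟩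

/-- an integer in `ℓ^a ℤ_(ℓ)` is divisible by `ℓ^a` -/
theorem dvd_of_eq_pow_mul {ℓ : ℕ} (N : ℤ) (a : ℕ) {z : ℂ} (hz : z ∈ Zc ℓ)
    (h : (N : ℂ) = (ℓ : ℂ) ^ a * z) : ((ℓ : ℤ) ^ a) ∣ N := by
  obtain ⟨r, hr, rfl⟩ := mem_Zc.mp hz
  have h1 : (N : ℚ) = (ℓ : ℚ) ^ a * r := by exact_mod_cast h
  have h2 : (N : ℚ) * r.den = (ℓ : ℚ) ^ a * r.num := by
    rw [h1, mul_assoc, Rat.mul_den_eq_num]
  have h3 : N * (r.den : ℤ) = (ℓ : ℤ) ^ a * r.num := by exact_mod_cast h2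
  have h4 : IsCoprime ((ℓ : ℤ) ^ a) (r.den : ℤ) := by
    apply IsCoprime.pow_left
    exact_mod_cast (Nat.isCoprime_iff_coprime.mpr hr.symm)
  exact h4.dvd_of_dvd_mul_right (Dvd.intro _ h3.symm)

theorem natDvd_of_eq_pow_mul {ℓ : ℕ} (N : ℕ) (a : ℕ) {z : ℂ} (hz : z ∈ Zc ℓ)
    (h : (N : ℂ) = (ℓ : ℂ) ^ a * z) : ℓ ^ a ∣ N := by
  have := dvd_of_eq_pow_mul (N : ℤ) a hz (by exact_mod_cast h)
  exact_mod_cast this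

theorem inv_natCast_mem_Zc {ℓ m : ℕ} (hm : m.Coprime ℓ) : ((m : ℂ))⁻¹ ∈ Zc ℓ := by
  refine mem_Zc.mpr ⟨(m : ℚ)⁻¹, ?_, by simp⟩
  rw [Rat.inv_natCast_den]
  split_ifs
  · simp
  · exact hm

theorem Up_mem {ℓ : ℕ} (p : ℕ) {A : ℂ⟦X⟧} (hA : A ∈ intS ℓ) : Up p A ∈ intS ℓ := by
  intro j
  rw [coeff_Up]
  exact hA _

theorem Vp_mem {ℓ : ℕ} (p : ℕ) [NeZero p] {A : ℂ⟦X⟧} (hA : A ∈ intS ℓ) : Vp p A ∈ intS ℓ := by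
  intro j
  rw [coeff_expand]
  split_ifs
  · exact hA _
  · exact zero_mem _

theorem Dq_mem {ℓ : ℕ} {A : ℂ⟦X⟧} (hA : A ∈ intS ℓ) : Dq A ∈ intS ℓ := by
  intro j
  rw [coeff_Dq]
  exact mul_mem (natCast_mem _ j) (hA _)

theorem Up_one (p : ℕ) [NeZero p] : Up p 1 = 1 := by
  ext j
  rw [coeff_Up, coeff_one, coeff_one]
  simp [NeZero.ne p]

theorem Dq_one : Dq 1 = 0 := by
  ext j
  rw [coeff_Dq, coeff_one]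
  split_ifs with h
  · simp [h]
  · simp

theorem Up_natCast_mul (p n : ℕ) (A : ℂ⟦X⟧) : Up p ((n : ℂ⟦X⟧) * A) = (n : ℂ⟦X⟧) * Up p A := by
  rw [← nsmul_eq_mul, ← nsmul_eq_mul, map_nsmul]

theorem Dq_natCast_mul (n : ℕ) (A : ℂ⟦X⟧) : Dq ((n : ℂ⟦X⟧) * A) = (n : ℂ⟦X⟧) * Dq A := by
  rw [← nsmul_eq_mul, ← nsmul_eq_mul, map_nsmul]

theorem coeff_natCast_mul (n j : ℕ) (A : ℂ⟦X⟧) :
    coeff j ((n : ℂ⟦X⟧) * A) = (n : ℂ) * coeff j A := by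
  rw [← map_natCast (PowerSeries.C (R := ℂ)) n, coeff_C_mul]

end

end Fermat.Agent.S16
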