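import Mathlib
import Fermat.Agent.S16.UZc

set_option autoImplicit false

/-! # S16 [U]: (K1'), (U4), (U1) -/

namespace Fermat.Agent.S16

open PowerSeries UpperHalfPlane ModularForm EisensteinSeries
open scoped MatrixGroups

noncomputable section

variable {p : ℕ} [NeZero p] (T : Toolkit p)

theorem natCast_S_ne_zero {n : ℕ} (hn : n ≠ 0) : (n : ℂ⟦X⟧) ≠ 0 := by
  rw [← map_natCast (PowerSeries.C (R := ℂ)) n, Ne, map_eq_zero_iff _ PowerSeries.C_injective]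
  exact_mod_cast hn

theorem coeff_ofNat_mul (n : ℕ) [n.AtLeastTwo] (j : ℕ) (A : ℂ⟦X⟧) :
    coeff j ((ofNat(n) : ℂ⟦X⟧) * A) = (ofNat(n) : ℂ) * coeff j A := by
  rw [← map_ofNat (PowerSeries.C (R := ℂ)) n, coeff_C_mul]

theorem coeff_natCast_pow_mul (n k j : ℕ) (A : ℂ⟦X⟧) :
    coeff j ((n : ℂ⟦X⟧) ^ k * A) = (n : ℂ) ^ k * coeff j A := by
  rw [← map_natCast (PowerSeries.C (R := ℂ)) n, ← map_pow, coeff_C_mul]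

/-- the trace in multiplicative form -/
theorem Toolkit.tr (h : ℕ) (k : ℤ) (hk : k = 2 * h) {A B : ℂ⟦X⟧} (hAB : (A, B) ∈ T.M (2 * h)) :
    ∃ φ : ModularForm 𝒮ℒ k, qExpansion 1 φ = (p : ℂ⟦X⟧) ^ h * A + (p : ℂ⟦X⟧) * Up p B := by
  obtain ⟨φ, hφ⟩ := T.trace h k hk hAB
  refine ⟨φ, ?_⟩
  rw [hφ, smul_eq_C_mul, smul_eq_C_mul, map_pow, map_natCast]

/-- (K1') -/
theorem Toolkit.tr2 {A B : ℂ⟦X⟧} (hAB : (A, B) ∈ T.M 2) : B = - Up p A := by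
  obtain ⟨φ, hφ⟩ := T.tr 1 2 (by norm_num) (T.swap_mem hAB)
  rw [lvl2, pow_one, ← mul_add] at hφ
  have h1 := (mul_eq_zero.mp hφ.symm).resolve_left (natCast_S_ne_zero (NeZero.ne p))
  exact eq_neg_of_add_eq_zero_left h1

/-- level one pairs in multiplicative form -/
theorem Toolkit.lvl1 (h : ℕ) (k : ℤ) (hk : k = 2 * h) (φ : ModularForm 𝒮ℒ k) :
    (qExpansion 1 φ, (p : ℂ⟦X⟧) ^ h * Vp p (qExpansion 1 φ)) ∈ T.M (2 * h) := by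
  have := T.lvl1_mem h k hk φ
  rwa [smul_eq_C_mul, map_pow, map_natCast] at this

theorem Toolkit.E4_mem : (E4q, (p : ℂ⟦X⟧) ^ 2 * Vp p E4q) ∈ T.M 4 :=
  T.lvl1 2 4 (by norm_num) E₄

theorem Toolkit.E6_mem : (E6q, (p : ℂ⟦X⟧) ^ 3 * Vp p E6q) ∈ T.M 6 :=
  T.lvl1 3 6 (by norm_num) E₆

theorem Toolkit.Δ_mem : (Δq, (p : ℂ⟦X⟧) ^ 6 * Vp p Δq) ∈ T.M 12 :=
  T.lvl1 6 12 (by norm_num) (CuspForm.discriminant : CuspForm 𝒮ℒ 12)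

/-- `U_p` on integral series -/
def UpO {ℓ : ℕ} (p : ℕ) (x : ↥(intS ℓ)) : ↥(intS ℓ) := ⟨Up p x, Up_mem p x.2⟩

@[simp] theorem coe_UpO {ℓ : ℕ} (p : ℕ) (x : ↥(intS ℓ)) :
    ((UpO p x : ↥(intS ℓ)) : ℂ⟦X⟧) = Up p x :=
  rfl

@[simp] theorem coe_ofNat_intS {ℓ : ℕ} (n : ℕ) [n.AtLeastTwo] :
    ((ofNat(n) : ↥(intS ℓ)) : ℂ⟦X⟧) = ofNat(n) :=
  rfl

/-- coefficients of integral series -/
def cf {ℓ : ℕ} (j : ℕ) (y : ↥(intS ℓ)) : ↥(Zc ℓ) := ⟨coeff j (y : ℂ⟦X⟧), y.2 j⟩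

@[simp] theorem coe_cf {ℓ : ℕ} (j : ℕ) (y : ↥(intS ℓ)) :
    ((cf j y : ↥(Zc ℓ)) : ℂ) = coeff j (y : ℂ⟦X⟧) := rfl

@[simp] theorem coe_ofNat_Zc {ℓ : ℕ} (n : ℕ) [n.AtLeastTwo] :
    ((ofNat(n) : ↥(Zc ℓ)) : ℂ) = ofNat(n) :=
  rfl

/-- `V_p` on integral series -/
def VpO {ℓ : ℕ} (p : ℕ) [NeZero p] (x : ↥(intS ℓ)) : ↥(intS ℓ) := ⟨Vp p x, Vp_mem p x.2⟩

@[simp] theorem coe_VpO {ℓ : ℕ} (p : ℕ) [NeZero p] (x : ↥(intS ℓ)) :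
    ((VpO p x : ↥(intS ℓ)) : ℂ⟦X⟧) = Vp p x :=
  rfl

/-- `D` on integral series -/
def DqO {ℓ : ℕ} (x : ↥(intS ℓ)) : ↥(intS ℓ) := ⟨Dq x, Dq_mem x.2⟩

@[simp] theorem coe_DqO {ℓ : ℕ} (x : ↥(intS ℓ)) : ((DqO x : ↥(intS ℓ)) : ℂ⟦X⟧) = Dq x :=
  rfl

/-- `Δ` as an integral series -/
def ΔO (ℓ : ℕ) : ↥(intS ℓ) := ⟨Δq, Δq_mem ℓ⟩

@[simp] theorem coe_ΔO (ℓ : ℕ) : ((ΔO ℓ : ↥(intS ℓ)) : ℂ⟦X⟧) = Δq := rfl

/-- `∑ σ_k(n) q^n` as an integral series -/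
def sgO (ℓ k : ℕ) : ↥(intS ℓ) := ⟨sg k, sg_mem ℓ k⟩

@[simp] theorem coe_sgO (ℓ k : ℕ) : ((sgO ℓ k : ↥(intS ℓ)) : ℂ⟦X⟧) = sg k := rfl

theorem coeff_Vp_of_lt {p : ℕ} [NeZero p] {A : ℂ⟦X⟧} (hA : coeff 0 A = 0) {j : ℕ} (hj : j < p) :
    coeff j (Vp p A) = 0 := by
  rw [coeff_expand]
  split_ifs with h
  · have : j = 0 := Nat.eq_zero_of_dvd_of_lt h hj
    subst this
    simpa using hA
  · rfl

theorem coeff_Vp_self {p : ℕ} [NeZero p] (A : ℂ⟦X⟧) : coeff p (Vp p A) = coeff 1 A := by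
  have := coeff_expand_mul p (NeZero.ne p) A 1
  rwa [mul_one] at this

theorem Toolkit.w_of_one_add {ℓ : ℕ} {G G' : ℂ⟦X⟧} (hG : (G, G') ∈ T.M 2) (c : ℕ) (x : ↥(intS ℓ))
    (hx : G = 1 + (c : ℂ⟦X⟧) * x) : G' = -1 + (c : ℂ⟦X⟧) * ((-UpO p x : ↥(intS ℓ)) : ℂ⟦X⟧) := by
  rw [T.tr2 hG, hx, map_add, Up_one, Up_natCast_mul]
  push_cast [coe_UpO, coe_ofNat_intS]
  ring

theorem prime_not_dvd_240 {p : ℕ} (hp : p.Prime) (hp7 : 7 ≤ p) : ¬ p ∣ 240 := by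
  intro h
  have h1 : (240 : ℕ) = 2 ^ 4 * 3 * 5 := by norm_num
  rw [h1] at h
  rcases (Nat.Prime.dvd_mul hp).mp h with h | h
  · rcases (Nat.Prime.dvd_mul hp).mp h with h | h
    · have := (Nat.prime_dvd_prime_iff_eq hp Nat.prime_two).mp (hp.dvd_of_dvd_pow h)
      omega
    · have := (Nat.prime_dvd_prime_iff_eq hp Nat.prime_three).mp h
      omega
  · have := (Nat.prime_dvd_prime_iff_eq hp Nat.prime_five).mp h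
    omega

/-- (U4) -/
theorem Toolkit.U4 (hp : p.Prime) (hp7 : 7 ≤ p) {G G' : ℂ⟦X⟧} (hG : (G, G') ∈ T.M 2)
    (x : ↥(intS p)) (hx : G = 1 + (p : ℂ⟦X⟧) * x) : False := by
  have hG' := T.w_of_one_add hG p x hx
  set x' : ↥(intS p) := -UpO p x with hx'
  set y : ↥(intS p) := 2 * x + p * x ^ 2 with hy
  set y' : ↥(intS p) := -2 * x' + p * x' ^ 2 with hy'
  have h1 : G ^ 2 = 1 + (p : ℂ⟦X⟧) * y := by
    rw [hx, hy]; push_cast [coe_UpO, coe_ofNat_intS]; ring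
  have h1' : G' ^ 2 = 1 + (p : ℂ⟦X⟧) * y' := by
    rw [hG', hy']; push_cast [coe_UpO, coe_ofNat_intS]; ring
  have h2 : (G ^ 2, G' ^ 2) ∈ T.M (2 * 2) := by
    have := T.mul_mem hG hG
    simpa [pow_two] using this
  obtain ⟨φ, hφ⟩ := T.tr 2 4 (by norm_num) h2
  obtain ⟨c, hc⟩ := lvl4 φ
  rw [hc, h1, h1', map_add, Up_one, Up_natCast_mul, E4q_eq] at hφ
  have e0 := congrArg (coeff 0) hφ
  have e1 := congrArg (coeff 1) hφ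
  simp only [map_add, coeff_smul, smul_eq_mul, coeff_natCast_mul, coeff_ofNat_mul,
    coeff_natCast_pow_mul, coeff_one, coeff_zero_sg, coeff_one_sg, coeff_Up, if_true,
    one_ne_zero, if_false, mul_zero, mul_one, add_zero, zero_add] at e0 e1
  have hp0 : (p : ℂ) ≠ 0 := by exact_mod_cast hp.ne_zero
  have key : ((240 : ℕ) : ℂ) = (p : ℂ) ^ 1 * ((p : ℂ) * coeff 1 (y : ℂ⟦X⟧) + coeff p (y' : ℂ⟦X⟧) -
      240 * (1 + (p : ℂ) * coeff 0 (y : ℂ⟦X⟧) + coeff 0 (y' : ℂ⟦X⟧))) := by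
    apply mul_left_cancel₀ hp0
    push_cast
    linear_combination e1 - 240 * e0
  refine prime_not_dvd_240 hp hp7 ?_
  have := natDvd_of_eq_pow_mul (ℓ := p) 240 1 ?_ key
  · simpa using this
  · exact sub_mem (add_mem (Subring.mul_mem _ (natCast_mem _ p) (y.2 1)) (y'.2 p))
      (Subring.mul_mem _ (ofNat_mem _ 240) (add_mem (add_mem (one_mem _)
        (Subring.mul_mem _ (natCast_mem _ p) (y.2 0))) (y'.2 0)))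

/-- (U1) -/
theorem Toolkit.U1 (hp : p.Prime) {ℓ : ℕ} (hℓ : ℓ.Prime) (hℓp : ℓ ≠ p) (a : ℕ) {G G' : ℂ⟦X⟧}
    (hG : (G, G') ∈ T.M 2) (x : ↥(intS ℓ)) (hx : G = 1 + ((ℓ ^ a : ℕ) : ℂ⟦X⟧) * x) :
    ℓ ^ a ∣ p + 1 := by
  have hG' := T.w_of_one_add hG (ℓ ^ a) x hx
  set x' : ↥(intS ℓ) := -UpO p x with hx'
  have hp0 : (p : ℂ) ≠ 0 := by exact_mod_cast hp.ne_zero
  have hp1 : 1 < p := hp.one_lt
  have hΔ : ((p : ℂ⟦X⟧) ^ 6 * Vp p Δq, Δq) ∈ T.M 12 := T.swap_mem T.Δ_mem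
  -- weight 12
  obtain ⟨φ, hφ⟩ := T.tr 6 12 (by norm_num) hΔ
  have hφ0 : coeff 0 (qExpansion 1 φ) = 0 := by
    rw [hφ]
    simp only [map_add, coeff_natCast_mul, coeff_natCast_pow_mul, coeff_Up, mul_zero,
      coeff_zero_Δq, coeff_Vp_of_lt coeff_zero_Δq hp.pos, add_zero]
  obtain ⟨c, hc⟩ := lvl12 φ hφ0
  rw [hc] at hφ
  have a1 := congrArg (coeff 1) hφ
  have ap := congrArg (coeff p) hφ
  simp only [map_add, coeff_smul, smul_eq_mul, coeff_natCast_mul, coeff_natCast_pow_mul, coeff_Up,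
    coeff_one_Δq, coeff_Vp_of_lt coeff_zero_Δq hp1, coeff_Vp_self, mul_one, mul_zero,
    zero_add] at a1 ap
  -- weight 14
  have h14 : (G * ((p : ℂ⟦X⟧) ^ 6 * Vp p Δq), G' * Δq) ∈ T.M (2 * 7) := T.mul_mem hG hΔ
  obtain ⟨ψ, hψ⟩ := T.tr 7 14 (by norm_num) h14
  have hψ0 : coeff 0 (qExpansion 1 ψ) = 0 := by
    rw [hψ]
    simp only [map_add, coeff_natCast_mul, coeff_natCast_pow_mul, coeff_Up, mul_zero,
      coeff_zero_eq_constantCoeff, map_mul, constantCoeff_expand]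
    have : constantCoeff Δq = 0 := by
      rw [← coeff_zero_eq_constantCoeff]; exact coeff_zero_Δq
    simp [this]
  have hψ1 := lvl14 ψ hψ0
  rw [hψ, hx, hG'] at hψ1
  set u₁ : ↥(intS ℓ) := x * VpO p (ΔO ℓ) with hu₁
  set u₂ : ↥(intS ℓ) := UpO p (x' * ΔO ℓ) with hu₂
  have e3 : Up p ((-1 + ((ℓ ^ a : ℕ) : ℂ⟦X⟧) * (x' : ℂ⟦X⟧)) * Δq) =
      - Up p Δq + ((ℓ ^ a : ℕ) : ℂ⟦X⟧) * (u₂ : ℂ⟦X⟧) := by
    have : (-1 + ((ℓ ^ a : ℕ) : ℂ⟦X⟧) * (x' : ℂ⟦X⟧)) * Δq =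
        - Δq + ((ℓ ^ a : ℕ) : ℂ⟦X⟧) * ((x' : ℂ⟦X⟧) * Δq) := by ring
    rw [this, map_add, map_neg, Up_natCast_mul, hu₂]
    push_cast [coe_UpO, coe_ΔO]
    rfl
  have e4 : (p : ℂ⟦X⟧) ^ 13 * Vp p Δq + ((ℓ ^ a : ℕ) : ℂ⟦X⟧) * ((p : ℂ⟦X⟧) ^ 13 * (u₁ : ℂ⟦X⟧)) +
      (p : ℂ⟦X⟧) * (- Up p Δq + ((ℓ ^ a : ℕ) : ℂ⟦X⟧) * (u₂ : ℂ⟦X⟧)) = 0 := by
    rw [← hψ1, e3, hu₁]
    push_cast [coe_VpO, coe_ΔO]
    ring
  have b1 := congrArg (coeff 1) e4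
  have bp := congrArg (coeff p) e4
  simp only [map_add, map_neg, coeff_natCast_mul, coeff_natCast_pow_mul, coeff_Up,
    coeff_one_Δq, coeff_Vp_of_lt coeff_zero_Δq hp1, coeff_Vp_self, mul_one, mul_zero,
    zero_add, map_zero] at b1 bp
  set t₁ : ↥(Zc ℓ) := (p : ↥(Zc ℓ)) ^ 12 * cf 1 u₁ + cf 1 u₂ with ht₁
  set t₂ : ↥(Zc ℓ) := (p : ↥(Zc ℓ)) ^ 12 * cf p u₁ + cf p u₂ with ht₂
  have key : ((p ^ 11 * (p + 1) : ℕ) : ℂ) = (ℓ : ℂ) ^ a *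
      (((ℓ : ↥(Zc ℓ)) ^ a * t₁ ^ 2 - t₂ : ↥(Zc ℓ)) : ℂ) := by
    have hτ1 : coeff p Δq = (ℓ : ℂ) ^ a * (t₁ : ℂ) := by
      apply mul_left_cancel₀ hp0
      rw [ht₁]
      push_cast [coe_cf] at b1 ⊢
      linear_combination -b1
    have hτ2 : coeff (p * p) Δq = (p : ℂ) ^ 12 + (ℓ : ℂ) ^ a * (t₂ : ℂ) := by
      apply mul_left_cancel₀ hp0
      rw [ht₂]
      push_cast [coe_cf] at bp ⊢
      linear_combination -bp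
    rw [a1, hτ1, hτ2] at ap
    apply mul_left_cancel₀ hp0
    push_cast
    linear_combination -ap
  have h5 := natDvd_of_eq_pow_mul (ℓ := ℓ) _ a (Subtype.mem _) key
  have h6 : Nat.Coprime (ℓ ^ a) (p ^ 11) :=
    Nat.Coprime.pow _ _ ((Nat.coprime_primes hℓ hp).mpr hℓp)
  exact h6.dvd_of_dvd_mul_left h5

end

end Fermat.Agent.S16
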