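import Mathlib
import Fermat.Agent.S16.UCore1

set_option autoImplicit false

/-! # S16 [U]: (U2) -/

namespace Fermat.Agent.S16

open PowerSeries UpperHalfPlane ModularForm EisensteinSeries
open scoped MatrixGroups

noncomputable section

variable {p : ℕ} [NeZero p] (T : Toolkit p)

theorem not_Ldvd_of_eq {ℓ : ℕ} {m : ℕ} (hm : ¬ ℓ ∣ m) {z : ℂ} (w : ↥(Zc ℓ))
    (hz : z = -(m : ℂ) + (ℓ : ℂ) * w) : ¬ Ldvd ℓ z := by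
  rintro ⟨c, hc, h⟩
  apply hm
  have key : ((m : ℕ) : ℂ) = (ℓ : ℂ) ^ 1 * ((w - ⟨c, hc⟩ : ↥(Zc ℓ)) : ℂ) := by
    push_cast
    linear_combination hz - h
  simpa using natDvd_of_eq_pow_mul (ℓ := ℓ) m 1 (Subtype.mem _) key

theorem not_Ldvd_of_eq' {ℓ : ℕ} {m : ℕ} (hm : ¬ ℓ ∣ m) {z : ℂ} (w : ↥(Zc ℓ))
    (hz : z = (m : ℂ) + (ℓ : ℂ) * w) : ¬ Ldvd ℓ z := by
  rintro ⟨c, hc, h⟩
  apply hm
  have key : ((m : ℕ) : ℂ) = (ℓ : ℂ) ^ 1 * (((⟨c, hc⟩ : ↥(Zc ℓ)) - w : ↥(Zc ℓ)) : ℂ) := by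
    push_cast
    linear_combination h - hz
  simpa using natDvd_of_eq_pow_mul (ℓ := ℓ) m 1 (Subtype.mem _) key

/-- (U2), `E₄` variant: `ℓ^a ∣ 240` -/
theorem Toolkit.U2a (hp : p.Prime) {ℓ : ℕ} (hℓ : ℓ.Prime) (hℓp : ℓ ≠ p) (a : ℕ) {G G' : ℂ⟦X⟧}
    (hG : (G, G') ∈ T.M 2) (x : ↥(intS ℓ)) (hx : G = 1 + ((ℓ ^ a : ℕ) : ℂ⟦X⟧) * x) :
    ℓ ^ a ∣ 240 := by
  by_contra hnd
  obtain ⟨u, hu⟩ := T.U1 hp hℓ hℓp a hG x hx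
  have hG' := T.w_of_one_add hG (ℓ ^ a) x hx
  set x' : ↥(intS ℓ) := -UpO p x with hx'
  obtain ⟨w, m, hm, h24⟩ := Nat.exists_eq_pow_mul_and_not_dvd (n := 240) (by norm_num) ℓ hℓ.ne_one
  have hwa : w < a := by
    by_contra hcon
    exact hnd (h24 ▸ Dvd.dvd.mul_right (pow_dvd_pow ℓ (not_lt.mp hcon)) m)
  obtain ⟨d, rfl⟩ := Nat.exists_eq_add_of_lt hwa
  have h24S : (240 : ℂ⟦X⟧) = (ℓ : ℂ⟦X⟧) ^ w * (m : ℂ⟦X⟧) := by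
    have : ((240 : ℕ) : ℂ⟦X⟧) = ((ℓ ^ w * m : ℕ) : ℂ⟦X⟧) := by rw [← h24]
    simpa using this
  have hpS : (p : ℂ⟦X⟧) = (ℓ : ℂ⟦X⟧) ^ (w + d + 1) * (u : ℂ⟦X⟧) - 1 := by
    have : ((p + 1 : ℕ) : ℂ⟦X⟧) = ((ℓ ^ (w + d + 1) * u : ℕ) : ℂ⟦X⟧) := by rw [hu]
    push_cast at this
    linear_combination this
  have hY := (T.M 4).sub_mem (T.mul_mem hG hG) T.E4_mem
  set s : ↥(intS ℓ) := sgO ℓ 3 with hs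
  set y₁ : ↥(intS ℓ) := 2 * x + (ℓ : ↥(intS ℓ)) ^ (w + d + 1) * x ^ 2 with hy₁
  set y₂ : ↥(intS ℓ) := 2 * u - (ℓ : ↥(intS ℓ)) ^ (w + d + 1) * u ^ 2 - 2 * x' +
    (ℓ : ↥(intS ℓ)) ^ (w + d + 1) * x' ^ 2 with hy₂
  set Z₁ : ↥(intS ℓ) := - (m : ↥(intS ℓ)) * s + (ℓ : ↥(intS ℓ)) * ((ℓ : ↥(intS ℓ)) ^ d * y₁) with hZ₁
  set Z₂ : ↥(intS ℓ) := - ((m * p ^ 2 : ℕ) : ↥(intS ℓ)) * VpO p s +
    (ℓ : ↥(intS ℓ)) * ((ℓ : ↥(intS ℓ)) ^ d * y₂) with hZ₂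
  have hZ : ((Z₁ : ℂ⟦X⟧), (Z₂ : ℂ⟦X⟧)) ∈ T.M 4 := by
    have hc : ((ℓ : ℂ) ^ w) ≠ 0 := pow_ne_zero _ (by exact_mod_cast hℓ.ne_zero)
    rw [← Submodule.smul_mem_iff _ hc]
    convert hY using 1
    refine Prod.ext ?_ ?_
    · show (ℓ : ℂ) ^ w • (Z₁ : ℂ⟦X⟧) = G * G - E4q
      rw [smul_eq_C_mul, map_pow, map_natCast, hx, E4q_eq, hZ₁, hy₁, hs]
      push_cast [coe_sgO, coe_ofNat_intS]
      linear_combination (sg 3) * h24S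
    · show (ℓ : ℂ) ^ w • (Z₂ : ℂ⟦X⟧) = G' * G' - (p : ℂ⟦X⟧) ^ 2 * Vp p E4q
      rw [smul_eq_C_mul, map_pow, map_natCast, hG', E4q_eq, map_add, map_one, map_mul, map_ofNat,
        hZ₂, hy₂, hs]
      push_cast [coe_sgO, coe_VpO, coe_ofNat_intS]
      linear_combination ((p : ℂ⟦X⟧) ^ 2 * Vp p (sg 3)) * h24S +
        ((p : ℂ⟦X⟧) + (ℓ : ℂ⟦X⟧) ^ (w + d + 1) * (u : ℂ⟦X⟧) - 1) * hpS
  have hc0 : ∀ j < 1, Ldvd ℓ (coeff j (Z₁ : ℂ⟦X⟧)) := by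
    intro j hj
    obtain rfl : j = 0 := by omega
    refine ⟨cf 0 ((ℓ : ↥(intS ℓ)) ^ d * y₁), Subtype.mem _, ?_⟩
    rw [hZ₁, hs]
    push_cast [coe_sgO, coe_cf]
    rw [map_add, coeff_natCast_mul, neg_mul, map_neg, coeff_natCast_mul, coeff_zero_sg]
    ring
  have hcp : ∀ j < p, Ldvd ℓ (coeff j (Z₂ : ℂ⟦X⟧)) := by
    intro j hj
    refine ⟨cf j ((ℓ : ↥(intS ℓ)) ^ d * y₂), Subtype.mem _, ?_⟩
    rw [hZ₂, hs, Subring.coe_add, Subring.coe_mul, Subring.coe_mul, Subring.coe_neg,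
      Subring.coe_natCast, Subring.coe_natCast, coe_VpO, coe_sgO, coe_cf]
    rw [map_add, coeff_natCast_mul, neg_mul, map_neg, coeff_natCast_mul,
      coeff_Vp_of_lt (coeff_zero_sg 3) hj]
    ring
  have hmp : ¬ ℓ ∣ m * p ^ 2 := by
    intro h
    rcases (Nat.Prime.dvd_mul hℓ).mp h with h | h
    · exact hm h
    · exact hℓp ((Nat.prime_dvd_prime_iff_eq hℓ hp).mp (hℓ.dvd_of_dvd_pow h))
  rcases T.sturm ℓ hℓ hℓp hZ Z₁.2 Z₂.2 1 p hc0 hcp (by omega) with h | h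
  · refine not_Ldvd_of_eq hm (cf 1 ((ℓ : ↥(intS ℓ)) ^ d * y₁)) ?_ (h 1)
    rw [hZ₁, hs]
    push_cast [coe_sgO, coe_cf]
    rw [map_add, coeff_natCast_mul, neg_mul, map_neg, coeff_natCast_mul, coeff_one_sg]
    ring
  · refine not_Ldvd_of_eq hmp (cf p ((ℓ : ↥(intS ℓ)) ^ d * y₂)) ?_ (h p)
    rw [hZ₂, hs, Subring.coe_add, Subring.coe_mul, Subring.coe_mul, Subring.coe_neg,
      Subring.coe_natCast, Subring.coe_natCast, coe_VpO, coe_sgO, coe_cf]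
    rw [map_add, coeff_natCast_mul, neg_mul, map_neg, coeff_natCast_mul, coeff_Vp_self,
      coeff_one_sg]
    ring

/-- (U2), `E₆` variant: `ℓ^a ∣ 504` -/
theorem Toolkit.U2b (hp : p.Prime) {ℓ : ℕ} (hℓ : ℓ.Prime) (hℓp : ℓ ≠ p) (a : ℕ) {G G' : ℂ⟦X⟧}
    (hG : (G, G') ∈ T.M 2) (x : ↥(intS ℓ)) (hx : G = 1 + ((ℓ ^ a : ℕ) : ℂ⟦X⟧) * x) :
    ℓ ^ a ∣ 504 := by
  by_contra hnd
  obtain ⟨u, hu⟩ := T.U1 hp hℓ hℓp a hG x hx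
  have hG' := T.w_of_one_add hG (ℓ ^ a) x hx
  set x' : ↥(intS ℓ) := -UpO p x with hx'
  obtain ⟨w, m, hm, h24⟩ := Nat.exists_eq_pow_mul_and_not_dvd (n := 504) (by norm_num) ℓ hℓ.ne_one
  have hwa : w < a := by
    by_contra hcon
    exact hnd (h24 ▸ Dvd.dvd.mul_right (pow_dvd_pow ℓ (not_lt.mp hcon)) m)
  obtain ⟨d, rfl⟩ := Nat.exists_eq_add_of_lt hwa
  have h24S : (504 : ℂ⟦X⟧) = (ℓ : ℂ⟦X⟧) ^ w * (m : ℂ⟦X⟧) := by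
    have : ((504 : ℕ) : ℂ⟦X⟧) = ((ℓ ^ w * m : ℕ) : ℂ⟦X⟧) := by rw [← h24]
    simpa using this
  have hpS : (p : ℂ⟦X⟧) = (ℓ : ℂ⟦X⟧) ^ (w + d + 1) * (u : ℂ⟦X⟧) - 1 := by
    have : ((p + 1 : ℕ) : ℂ⟦X⟧) = ((ℓ ^ (w + d + 1) * u : ℕ) : ℂ⟦X⟧) := by rw [hu]
    push_cast at this
    linear_combination this
  have hY := (T.M 6).sub_mem (T.mul_mem hG (T.mul_mem hG hG)) T.E6_mem
  set s : ↥(intS ℓ) := sgO ℓ 5 with hs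
  set c : ↥(intS ℓ) := (ℓ : ↥(intS ℓ)) ^ (w + d + 1) with hc
  set y₁ : ↥(intS ℓ) := 3 * x + 3 * c * x ^ 2 + c ^ 2 * x ^ 3 with hy₁
  set y₂ : ↥(intS ℓ) := 3 * x' - 3 * c * x' ^ 2 + c ^ 2 * x' ^ 3 - c ^ 2 * u ^ 3 + 3 * c * u ^ 2 -
    3 * u with hy₂
  set Z₁ : ↥(intS ℓ) := (m : ↥(intS ℓ)) * s + (ℓ : ↥(intS ℓ)) * ((ℓ : ↥(intS ℓ)) ^ d * y₁) with hZ₁
  set Z₂ : ↥(intS ℓ) := ((m * p ^ 3 : ℕ) : ↥(intS ℓ)) * VpO p s +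
    (ℓ : ↥(intS ℓ)) * ((ℓ : ↥(intS ℓ)) ^ d * y₂) with hZ₂
  have hZ : ((Z₁ : ℂ⟦X⟧), (Z₂ : ℂ⟦X⟧)) ∈ T.M 6 := by
    have hc0 : ((ℓ : ℂ) ^ w) ≠ 0 := pow_ne_zero _ (by exact_mod_cast hℓ.ne_zero)
    rw [← Submodule.smul_mem_iff _ hc0]
    convert hY using 1
    refine Prod.ext ?_ ?_
    · show (ℓ : ℂ) ^ w • (Z₁ : ℂ⟦X⟧) = G * (G * G) - E6q
      rw [smul_eq_C_mul, map_pow, map_natCast, hx, E6q_eq, hZ₁, hy₁, hc, hs]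
      push_cast [coe_sgO, coe_ofNat_intS]
      linear_combination (-sg 5) * h24S
    · show (ℓ : ℂ) ^ w • (Z₂ : ℂ⟦X⟧) = G' * (G' * G') - (p : ℂ⟦X⟧) ^ 3 * Vp p E6q
      rw [smul_eq_C_mul, map_pow, map_natCast, hG', E6q_eq, map_sub, map_one, map_mul, map_ofNat,
        hZ₂, hy₂, hc, hs]
      push_cast [coe_sgO, coe_VpO, coe_ofNat_intS]
      linear_combination (-(p : ℂ⟦X⟧) ^ 3 * Vp p (sg 5)) * h24S +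
        ((p : ℂ⟦X⟧) ^ 2 + (p : ℂ⟦X⟧) * ((ℓ : ℂ⟦X⟧) ^ (w + d + 1) * (u : ℂ⟦X⟧) - 1) +
          ((ℓ : ℂ⟦X⟧) ^ (w + d + 1) * (u : ℂ⟦X⟧) - 1) ^ 2) * hpS
  have hc0 : ∀ j < 1, Ldvd ℓ (coeff j (Z₁ : ℂ⟦X⟧)) := by
    intro j hj
    obtain rfl : j = 0 := by omega
    refine ⟨cf 0 ((ℓ : ↥(intS ℓ)) ^ d * y₁), Subtype.mem _, ?_⟩
    rw [hZ₁, hs, Subring.coe_add, Subring.coe_mul, Subring.coe_mul,
      Subring.coe_natCast, Subring.coe_natCast, coe_sgO, coe_cf]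
    rw [map_add, coeff_natCast_mul, coeff_natCast_mul, coeff_zero_sg]
    ring
  have hcp : ∀ j < p, Ldvd ℓ (coeff j (Z₂ : ℂ⟦X⟧)) := by
    intro j hj
    refine ⟨cf j ((ℓ : ↥(intS ℓ)) ^ d * y₂), Subtype.mem _, ?_⟩
    rw [hZ₂, hs, Subring.coe_add, Subring.coe_mul, Subring.coe_mul,
      Subring.coe_natCast, Subring.coe_natCast, coe_VpO, coe_sgO, coe_cf]
    rw [map_add, coeff_natCast_mul, coeff_natCast_mul, coeff_Vp_of_lt (coeff_zero_sg 5) hj]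
    ring
  have hmp : ¬ ℓ ∣ m * p ^ 3 := by
    intro h
    rcases (Nat.Prime.dvd_mul hℓ).mp h with h | h
    · exact hm h
    · exact hℓp ((Nat.prime_dvd_prime_iff_eq hℓ hp).mp (hℓ.dvd_of_dvd_pow h))
  rcases T.sturm ℓ hℓ hℓp hZ Z₁.2 Z₂.2 1 p hc0 hcp (by omega) with h | h
  · refine not_Ldvd_of_eq' hm (cf 1 ((ℓ : ↥(intS ℓ)) ^ d * y₁)) ?_ (h 1)
    rw [hZ₁, hs, Subring.coe_add, Subring.coe_mul, Subring.coe_mul,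
      Subring.coe_natCast, Subring.coe_natCast, coe_sgO, coe_cf]
    rw [map_add, coeff_natCast_mul, coeff_natCast_mul, coeff_one_sg]
    ring
  · refine not_Ldvd_of_eq' hmp (cf p ((ℓ : ↥(intS ℓ)) ^ d * y₂)) ?_ (h p)
    rw [hZ₂, hs, Subring.coe_add, Subring.coe_mul, Subring.coe_mul,
      Subring.coe_natCast, Subring.coe_natCast, coe_VpO, coe_sgO, coe_cf]
    rw [map_add, coeff_natCast_mul, coeff_natCast_mul, coeff_Vp_self, coeff_one_sg]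
    ring

/-- (U2): `ℓ^a ∣ 24` -/
theorem Toolkit.U2 (hp : p.Prime) {ℓ : ℕ} (hℓ : ℓ.Prime) (hℓp : ℓ ≠ p) (a : ℕ) {G G' : ℂ⟦X⟧}
    (hG : (G, G') ∈ T.M 2) (x : ↥(intS ℓ)) (hx : G = 1 + ((ℓ ^ a : ℕ) : ℂ⟦X⟧) * x) :
    ℓ ^ a ∣ 24 := by
  have h := Nat.dvd_gcd (T.U2a hp hℓ hℓp a hG x hx) (T.U2b hp hℓ hℓp a hG x hx)
  have h24 : Nat.gcd 240 504 = 24 := by norm_num
  rwa [h24] at h

end

end Fermat.Agent.S16
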