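import Mathlib
import Fermat.Agent.S16.UCore2

set_option autoImplicit false

/-! # S16 [U]: (U3) -/

namespace Fermat.Agent.S16

open PowerSeries UpperHalfPlane ModularForm EisensteinSeries
open scoped MatrixGroups

noncomputable section

/-- the 2-adic algebra behind (U3) -/
theorem U3_alg {R : Type*} [CommRing R] [IsDomain R] [CharZero R] {g x ε e4 e6 δ a4 a6 : R}
    (hε : ε ^ 2 = 1) (hg : g = ε + 8 * x) (h4 : g ^ 2 - e4 = 16 * a4) (h6 : g ^ 3 - e6 = 8 * a6)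
    (hrel : e4 ^ 3 - e6 ^ 2 = 1728 * δ) :
    ∃ b r : R, a6 - 3 * g * a4 = 4 * b ∧ g * b + 3 * a4 ^ 2 = δ + 2 * r := by
  have he4 : e4 = g ^ 2 - 16 * a4 := by linear_combination -h4
  have he6 : e6 = g ^ 3 - 8 * a6 := by linear_combination -h6
  rw [he4, he6] at hrel
  set d := a6 - 3 * g * a4 with hd
  set R₀ := 27 * δ - 12 * g ^ 2 * a4 ^ 2 + 64 * a4 ^ 3 + a6 ^ 2 with hR₀
  set x₃ := 3 * x + 24 * ε * x ^ 2 + 64 * x ^ 3 with hx₃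
  have hg3 : g ^ 3 = ε + 8 * x₃ := by
    rw [hg, hx₃]
    linear_combination (ε + 24 * x) * hε
  have hA : g ^ 3 * d = 4 * R₀ := by
    apply mul_left_cancel₀ (by norm_num : (16 : R) ≠ 0)
    rw [hd, hR₀]
    linear_combination hrel
  set b := ε * (R₀ - 2 * x₃ * d) with hb
  have hB : d = 4 * b := by
    rw [hb]
    linear_combination ε * hA - ε * d * hg3 - d * hε
  have ha6 : a6 = 4 * b + 3 * g * a4 := by linear_combination hB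
  set c := g * b + 3 * a4 ^ 2 with hc
  have hC : g ^ 2 * c = 27 * δ + 64 * a4 ^ 3 + 24 * g * a4 * b + 16 * b ^ 2 := by
    apply mul_left_cancel₀ (by norm_num : (64 : R) ≠ 0)
    rw [ha6] at hrel
    rw [hc]
    linear_combination hrel
  set y := ε * x + 4 * x ^ 2 with hy
  have hg2 : g ^ 2 = 1 + 16 * y := by
    rw [hg, hy]
    linear_combination hε
  refine ⟨b, 13 * δ + 32 * a4 ^ 3 + 12 * g * a4 * b + 8 * b ^ 2 - 8 * y * c, hB, ?_⟩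
  linear_combination hC - c * hg2

theorem charZero_S : CharZero ℂ⟦X⟧ :=
  charZero_of_injective_ringHom (PowerSeries.C_injective (R := ℂ))

theorem charZero_intS (ℓ : ℕ) : CharZero ↥(intS ℓ) :=
  ⟨fun n m h => by
    have := charZero_S
    have h1 := congrArg (Subtype.val : ↥(intS ℓ) → ℂ⟦X⟧) h
    exact Nat.cast_injective (R := ℂ⟦X⟧) (by simpa using h1)⟩

variable {p : ℕ} [NeZero p] (T : Toolkit p)

/-- (U3) -/
theorem Toolkit.U3 (hp : p.Prime) (hp2 : p ≠ 2) {G G' : ℂ⟦X⟧}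
    (hG : (G, G') ∈ T.M 2) (x : ↥(intS 2)) (hx : G = 1 + ((2 ^ 3 : ℕ) : ℂ⟦X⟧) * x) : False := by
  have := charZero_intS 2
  obtain ⟨u, hu⟩ := T.U1 hp Nat.prime_two (Ne.symm hp2) 3 hG x hx
  have hG' := T.w_of_one_add hG (2 ^ 3) x hx
  set x' : ↥(intS 2) := -UpO p x with hx'
  have hpO : (p : ↥(intS 2)) = 8 * (u : ↥(intS 2)) - 1 := by
    have : ((p + 1 : ℕ) : ↥(intS 2)) = ((2 ^ 3 * u : ℕ) : ↥(intS 2)) := by rw [hu]
    push_cast at this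
    linear_combination this
  set s3 : ↥(intS 2) := sgO 2 3 with hs3
  set s5 : ↥(intS 2) := sgO 2 5 with hs5
  -- the cusp `∞`
  have hrel : (1 + 240 * s3) ^ 3 - (1 - 504 * s5) ^ 2 = 1728 * ΔO 2 := by
    apply Subtype.ext
    have := E4q_cube_sub_E6q_sq
    rw [E4q_eq, E6q_eq] at this
    push_cast [coe_sgO, coe_ΔO, coe_ofNat_intS]
    exact this
  set a4 : ↥(intS 2) := x + 4 * x ^ 2 - 15 * s3 with ha4
  set a6 : ↥(intS 2) := 3 * x + 24 * x ^ 2 + 64 * x ^ 3 + 63 * s5 with ha6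
  have h4 : (1 + 8 * x) ^ 2 - (1 + 240 * s3) = 16 * a4 := by rw [ha4]; ring
  have h6 : (1 + 8 * x) ^ 3 - (1 - 504 * s5) = 8 * a6 := by rw [ha6]; ring
  obtain ⟨b, r, hb, hr⟩ := U3_alg (ε := 1) (by ring) rfl h4 h6 hrel
  -- the cusp `0`
  have hrel' : ((p : ↥(intS 2)) ^ 2 * (1 + 240 * VpO p s3)) ^ 3 -
      ((p : ↥(intS 2)) ^ 3 * (1 - 504 * VpO p s5)) ^ 2 = 1728 * ((p : ↥(intS 2)) ^ 6 * VpO p (ΔO 2)) := by
    apply Subtype.ext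
    have := congrArg (Vp p) E4q_cube_sub_E6q_sq
    rw [E4q_eq, E6q_eq] at this
    simp only [map_sub, map_pow, map_add, map_mul, map_one, map_ofNat] at this
    rw [hs3, hs5]
    push_cast [coe_sgO, coe_ΔO, coe_VpO, coe_ofNat_intS]
    linear_combination (p : ℂ⟦X⟧) ^ 6 * this
  set a4' : ↥(intS 2) := u - 4 * u ^ 2 - x' + 4 * x' ^ 2 - 15 * (p : ↥(intS 2)) ^ 2 * VpO p s3
    with ha4'
  set a6' : ↥(intS 2) := 3 * x' - 24 * x' ^ 2 + 64 * x' ^ 3 - 3 * u + 24 * u ^ 2 - 64 * u ^ 3 +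
      63 * (p : ↥(intS 2)) ^ 3 * VpO p s5 with ha6'
  have h4' : (-1 + 8 * x') ^ 2 - (p : ↥(intS 2)) ^ 2 * (1 + 240 * VpO p s3) = 16 * a4' := by
    rw [ha4', hpO]; ring
  have h6' : (-1 + 8 * x') ^ 3 - (p : ↥(intS 2)) ^ 3 * (1 - 504 * VpO p s5) = 8 * a6' := by
    rw [ha6', hpO]; ring
  obtain ⟨b', r', hb', hr'⟩ := U3_alg (ε := -1) (by ring) rfl h4' h6' hrel'
  -- coercions
  have hGx : G = ((1 + 8 * x : ↥(intS 2)) : ℂ⟦X⟧) := by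
    rw [hx]; push_cast [coe_ofNat_intS]; norm_num
  have hGx' : G' = ((-1 + 8 * x' : ↥(intS 2)) : ℂ⟦X⟧) := by
    rw [hG']; push_cast [coe_ofNat_intS]; norm_num
  have hE4 : E4q = ((1 + 240 * s3 : ↥(intS 2)) : ℂ⟦X⟧) := by
    rw [E4q_eq, hs3]; push_cast [coe_ofNat_intS, coe_sgO]; rfl
  have hE6 : E6q = ((1 - 504 * s5 : ↥(intS 2)) : ℂ⟦X⟧) := by
    rw [E6q_eq, hs5]; push_cast [coe_ofNat_intS, coe_sgO]; rfl
  have hE4' : (p : ℂ⟦X⟧) ^ 2 * Vp p E4q =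
      (((p : ↥(intS 2)) ^ 2 * (1 + 240 * VpO p s3) : ↥(intS 2)) : ℂ⟦X⟧) := by
    rw [E4q_eq, hs3, map_add, map_one, map_mul, map_ofNat]
    push_cast [coe_ofNat_intS, coe_sgO, coe_VpO]; rfl
  have hE6' : (p : ℂ⟦X⟧) ^ 3 * Vp p E6q =
      (((p : ↥(intS 2)) ^ 3 * (1 - 504 * VpO p s5) : ↥(intS 2)) : ℂ⟦X⟧) := by
    rw [E6q_eq, hs5, map_sub, map_one, map_mul, map_ofNat]
    push_cast [coe_ofNat_intS, coe_sgO, coe_VpO]; rfl
  have hA4 : ((a4 : ℂ⟦X⟧), (a4' : ℂ⟦X⟧)) ∈ T.M 4 := by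
    rw [← Submodule.smul_mem_iff _ (by norm_num : (16 : ℂ) ≠ 0)]
    convert (T.M 4).sub_mem (T.mul_mem hG hG) T.E4_mem using 1
    refine Prod.ext ?_ ?_
    · show (16 : ℂ) • (a4 : ℂ⟦X⟧) = G * G - E4q
      rw [smul_eq_C_mul, map_ofNat, hGx, hE4]
      have := congrArg (Subtype.val : ↥(intS 2) → ℂ⟦X⟧) h4
      push_cast [coe_ofNat_intS] at this ⊢
      linear_combination -this
    · show (16 : ℂ) • (a4' : ℂ⟦X⟧) = G' * G' - (p : ℂ⟦X⟧) ^ 2 * Vp p E4q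
      rw [smul_eq_C_mul, map_ofNat, hGx', hE4']
      have := congrArg (Subtype.val : ↥(intS 2) → ℂ⟦X⟧) h4'
      push_cast [coe_ofNat_intS] at this ⊢
      linear_combination -this
  have hA6 : ((a6 : ℂ⟦X⟧), (a6' : ℂ⟦X⟧)) ∈ T.M 6 := by
    rw [← Submodule.smul_mem_iff _ (by norm_num : (8 : ℂ) ≠ 0)]
    convert (T.M 6).sub_mem (T.mul_mem hG (T.mul_mem hG hG)) T.E6_mem using 1
    refine Prod.ext ?_ ?_
    · show (8 : ℂ) • (a6 : ℂ⟦X⟧) = G * (G * G) - E6q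
      rw [smul_eq_C_mul, map_ofNat, hGx, hE6]
      have := congrArg (Subtype.val : ↥(intS 2) → ℂ⟦X⟧) h6
      push_cast [coe_ofNat_intS] at this ⊢
      linear_combination -this
    · show (8 : ℂ) • (a6' : ℂ⟦X⟧) = G' * (G' * G') - (p : ℂ⟦X⟧) ^ 3 * Vp p E6q
      rw [smul_eq_C_mul, map_ofNat, hGx', hE6']
      have := congrArg (Subtype.val : ↥(intS 2) → ℂ⟦X⟧) h6'
      push_cast [coe_ofNat_intS] at this ⊢
      linear_combination -this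
  have hB : ((b : ℂ⟦X⟧), (b' : ℂ⟦X⟧)) ∈ T.M 6 := by
    rw [← Submodule.smul_mem_iff _ (by norm_num : (4 : ℂ) ≠ 0)]
    convert (T.M 6).sub_mem hA6 ((T.M 6).smul_mem (3 : ℂ) (T.mul_mem hG hA4)) using 1
    refine Prod.ext ?_ ?_
    · show (4 : ℂ) • (b : ℂ⟦X⟧) = (a6 : ℂ⟦X⟧) - (3 : ℂ) • (G * (a4 : ℂ⟦X⟧))
      rw [smul_eq_C_mul, map_ofNat, smul_eq_C_mul, map_ofNat, hGx]
      have := congrArg (Subtype.val : ↥(intS 2) → ℂ⟦X⟧) hb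
      push_cast [coe_ofNat_intS] at this ⊢
      linear_combination -this
    · show (4 : ℂ) • (b' : ℂ⟦X⟧) = (a6' : ℂ⟦X⟧) - (3 : ℂ) • (G' * (a4' : ℂ⟦X⟧))
      rw [smul_eq_C_mul, map_ofNat, smul_eq_C_mul, map_ofNat, hGx']
      have := congrArg (Subtype.val : ↥(intS 2) → ℂ⟦X⟧) hb'
      push_cast [coe_ofNat_intS] at this ⊢
      linear_combination -this
  set C₁ : ↥(intS 2) := ΔO 2 + 2 * r with hC₁
  set C₂ : ↥(intS 2) := (p : ↥(intS 2)) ^ 6 * VpO p (ΔO 2) + 2 * r' with hC₂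
  have hC : ((C₁ : ℂ⟦X⟧), (C₂ : ℂ⟦X⟧)) ∈ T.M 8 := by
    convert (T.M 8).add_mem (T.mul_mem hG hB) ((T.M 8).smul_mem (3 : ℂ) (T.mul_mem hA4 hA4)) using 1
    refine Prod.ext ?_ ?_
    · show (C₁ : ℂ⟦X⟧) = G * (b : ℂ⟦X⟧) + (3 : ℂ) • ((a4 : ℂ⟦X⟧) * (a4 : ℂ⟦X⟧))
      rw [smul_eq_C_mul, map_ofNat, hGx, ← hr]
      push_cast [coe_ofNat_intS]
      ring
    · show (C₂ : ℂ⟦X⟧) = G' * (b' : ℂ⟦X⟧) + (3 : ℂ) • ((a4' : ℂ⟦X⟧) * (a4' : ℂ⟦X⟧))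
      rw [smul_eq_C_mul, map_ofNat, hGx', ← hr']
      push_cast [coe_ofNat_intS]
      ring
  have hc0 : ∀ j < 1, Ldvd 2 (coeff j (C₁ : ℂ⟦X⟧)) := by
    intro j hj
    obtain rfl : j = 0 := by omega
    refine ⟨cf 0 r, Subtype.mem _, ?_⟩
    rw [hC₁]
    push_cast [coe_ΔO, coe_cf, coe_ofNat_intS]
    rw [map_add, coeff_ofNat_mul, coeff_zero_Δq]
    ring
  have hcp : ∀ j < p, Ldvd 2 (coeff j (C₂ : ℂ⟦X⟧)) := by
    intro j hj
    refine ⟨cf j r', Subtype.mem _, ?_⟩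
    rw [hC₂]
    push_cast [coe_ΔO, coe_cf, coe_VpO, coe_ofNat_intS]
    rw [map_add, coeff_ofNat_mul, coeff_natCast_pow_mul, coeff_Vp_of_lt coeff_zero_Δq hj]
    ring
  rcases T.sturm 2 Nat.prime_two (Ne.symm hp2) hC C₁.2 C₂.2 1 p hc0 hcp (by omega) with h | h
  · refine not_Ldvd_of_eq' (m := 1) (by norm_num) (cf 1 r) ?_ (h 1)
    rw [hC₁]
    push_cast [coe_ΔO, coe_cf, coe_ofNat_intS]
    rw [map_add, coeff_ofNat_mul, coeff_one_Δq]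
  · have hodd : ¬ 2 ∣ p ^ 6 := by
      intro h2
      exact hp2 ((Nat.prime_dvd_prime_iff_eq Nat.prime_two hp).mp
        (Nat.prime_two.dvd_of_dvd_pow h2)).symm
    refine not_Ldvd_of_eq' hodd (cf p r') ?_ (h p)
    rw [hC₂]
    push_cast [coe_ΔO, coe_cf, coe_VpO, coe_ofNat_intS]
    rw [map_add, coeff_ofNat_mul, coeff_natCast_pow_mul, coeff_Vp_self, coeff_one_Δq]
    ring

end

end Fermat.Agent.S16
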