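import Mathlib
import Fermat.Agent.S16.UCore3

set_option autoImplicit false

/-! # S16 [U]: the upper bound -/

namespace Fermat.Agent.S16

open PowerSeries UpperHalfPlane ModularForm EisensteinSeries
open scoped MatrixGroups

noncomputable section

variable {p : ℕ} [NeZero p] (T : Toolkit p)

/-- the core of [U]: a weight 2 form `≡ 1 mod ℓ^a` forces `ℓ^a ∣ gcd(12, p+1)` -/
theorem Toolkit.core (hp : p.Prime) (hp7 : 7 ≤ p) {ℓ : ℕ} (hℓ : ℓ.Prime) (a : ℕ) (ha : 1 ≤ a)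
    {G G' : ℂ⟦X⟧} (hG : (G, G') ∈ T.M 2) (x : ↥(intS ℓ))
    (hx : G = 1 + ((ℓ ^ a : ℕ) : ℂ⟦X⟧) * x) : ℓ ^ a ∣ Nat.gcd 12 (p + 1) := by
  have hℓp : ℓ ≠ p := by
    rintro rfl
    obtain ⟨d, rfl⟩ := Nat.exists_eq_add_of_le ha
    refine T.U4 hp hp7 hG ((ℓ : ↥(intS ℓ)) ^ d * x) ?_
    rw [hx]
    push_cast
    ring
  refine Nat.dvd_gcd ?_ (T.U1 hp hℓ hℓp a hG x hx)
  rcases eq_or_ne ℓ 2 with rfl | hℓ2
  · have ha2 : a ≤ 2 := by
      by_contra hcon
      obtain ⟨d, rfl⟩ := Nat.exists_eq_add_of_le (show 3 ≤ a by omega)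
      refine T.U3 hp (Ne.symm hℓp) hG ((2 : ↥(intS 2)) ^ d * x) ?_
      rw [hx]
      push_cast [coe_ofNat_intS]
      ring
    exact (pow_dvd_pow 2 ha2).trans (by norm_num)
  · have h24 := T.U2 hp hℓ hℓp a hG x hx
    have hcop : Nat.Coprime (ℓ ^ a) 8 := by
      have : Nat.Coprime ℓ 2 := (Nat.coprime_primes hℓ Nat.prime_two).mpr hℓ2
      exact Nat.Coprime.pow_left a (Nat.Coprime.pow_right 3 this)
    have h3 : ℓ ^ a ∣ 3 := hcop.dvd_of_dvd_mul_left (by simpa using h24)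
    exact h3.trans (by norm_num)

theorem gcd_mul_gcd {p : ℕ} (hp : p.Prime) (hp5 : 5 ≤ p) :
    Nat.gcd (p - 1) 12 * Nat.gcd 12 (p + 1) = 24 := by
  have h1 : Nat.gcd (p - 1) 12 = Nat.gcd ((p - 1) % 12) 12 := by
    rw [Nat.gcd_comm, Nat.gcd_rec]
  have h2 : Nat.gcd 12 (p + 1) = Nat.gcd ((p + 1) % 12) 12 := by
    rw [Nat.gcd_rec]
  have h2' : ¬ 2 ∣ p := fun h => by
    have := (Nat.prime_dvd_prime_iff_eq Nat.prime_two hp).mp h
    omega
  have h3' : ¬ 3 ∣ p := fun h => by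
    have := (Nat.prime_dvd_prime_iff_eq Nat.prime_three hp).mp h
    omega
  have hr : p % 12 = 1 ∨ p % 12 = 5 ∨ p % 12 = 7 ∨ p % 12 = 11 := by omega
  rw [h1, h2]
  rcases hr with h | h | h | h
  · rw [show (p - 1) % 12 = 0 by omega, show (p + 1) % 12 = 2 by omega]; norm_num
  · rw [show (p - 1) % 12 = 4 by omega, show (p + 1) % 12 = 6 by omega]; norm_num
  · rw [show (p - 1) % 12 = 6 by omega, show (p + 1) % 12 = 8 by omega]; norm_num
  · rw [show (p - 1) % 12 = 10 by omega, show (p + 1) % 12 = 0 by omega]; norm_num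

theorem twentyfour_mul_num {p : ℕ} (hp : p.Prime) (hp5 : 5 ≤ p) :
    24 * ((p - 1) / Nat.gcd (p - 1) 12) = (p - 1) * Nat.gcd 12 (p + 1) := by
  have h1 : (p - 1) / Nat.gcd (p - 1) 12 * Nat.gcd (p - 1) 12 = p - 1 :=
    Nat.div_mul_cancel (Nat.gcd_dvd_left _ _)
  rw [← gcd_mul_gcd hp hp5]
  calc Nat.gcd (p - 1) 12 * Nat.gcd 12 (p + 1) * ((p - 1) / Nat.gcd (p - 1) 12)
      = ((p - 1) / Nat.gcd (p - 1) 12 * Nat.gcd (p - 1) 12) * Nat.gcd 12 (p + 1) := by ring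
    _ = (p - 1) * Nat.gcd 12 (p + 1) := by rw [h1]

/-- **[U]** the upper bound -/
theorem upper_bound (hp : p.Prime) (hp7 : 7 ≤ p) (M : ℕ) {A B : ℂ⟦X⟧} (hAB : (A, B) ∈ T.M 2)
    (h0 : coeff 0 A = ((p : ℂ) - 1) / 24)
    (hj : ∀ j, 1 ≤ j → ∃ c : ℤ, coeff j A = (M : ℂ) * c) :
    M ∣ (p - 1) / Nat.gcd (p - 1) 12 := by
  rw [Nat.dvd_iff_prime_pow_dvd_dvd]
  intro ℓ t hℓ hdvd
  obtain ⟨M', rfl⟩ := hdvd
  set n := (p - 1) / Nat.gcd (p - 1) 12 with hn
  set g := Nat.gcd 12 (p + 1) with hg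
  have h24n : 24 * n = (p - 1) * g := twentyfour_mul_num hp (by omega)
  obtain ⟨v, m', hm', hpv⟩ :=
    Nat.exists_eq_pow_mul_and_not_dvd (n := p - 1) (by omega) ℓ hℓ.ne_one
  obtain ⟨w, m'', hm'', h24⟩ :=
    Nat.exists_eq_pow_mul_and_not_dvd (n := 24) (by norm_num) ℓ hℓ.ne_one
  have claim : ℓ ^ (t + w) ∣ (p - 1) * g := by
    rcases le_or_gt (t + w) v with hle | hlt
    · exact Dvd.dvd.mul_right (hpv ▸ Dvd.dvd.mul_right (pow_dvd_pow ℓ hle) m') g
    · obtain ⟨d, hd⟩ := Nat.exists_eq_add_of_lt hlt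
      have hcore : ℓ ^ (d + 1) ∣ g := by
        choose! c hc using hj
        have hm'0 : (m' : ℂ) ≠ 0 := by
          have : m' ≠ 0 := by rintro rfl; exact hm' (dvd_zero _)
          exact_mod_cast this
        have hℓ0 : (ℓ : ℂ) ≠ 0 := by exact_mod_cast hℓ.ne_zero
        have hcop : Nat.Coprime m' ℓ := ((Nat.Prime.coprime_iff_not_dvd hℓ).mpr hm').symm
        have hpC : (p : ℂ) - 1 = (ℓ : ℂ) ^ v * m' := by
          have : ((p - 1 : ℕ) : ℂ) = ((ℓ ^ v * m' : ℕ) : ℂ) := by rw [← hpv]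
          rw [Nat.cast_sub hp.one_lt.le] at this
          simpa using this
        have h24C : (24 : ℂ) = (ℓ : ℂ) ^ w * m'' := by
          have : ((24 : ℕ) : ℂ) = ((ℓ ^ w * m'' : ℕ) : ℂ) := by rw [← h24]
          simpa using this
        have hκ : ((p : ℂ) - 1) / 24 ≠ 0 := by
          rw [hpC]
          exact div_ne_zero (mul_ne_zero (pow_ne_zero _ hℓ0) hm'0) (by norm_num)
        set x : ℂ⟦X⟧ := PowerSeries.mk fun j =>
          if j = 0 then 0 else ((m'' : ℂ) * M' * c j) * (m' : ℂ)⁻¹ with hx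
        have hxmem : x ∈ intS ℓ := by
          intro j
          rw [hx, coeff_mk]
          split_ifs
          · exact zero_mem _
          · exact mul_mem (mul_mem (mul_mem (natCast_mem _ _) (natCast_mem _ _))
              (intCast_mem _ _)) (inv_natCast_mem_Zc hcop)
        have hGmem : ((((p : ℂ) - 1) / 24)⁻¹ • A, (((p : ℂ) - 1) / 24)⁻¹ • B) ∈ T.M 2 :=
          (T.M 2).smul_mem _ hAB
        refine T.core hp hp7 hℓ (d + 1) (by omega) hGmem ⟨x, hxmem⟩ ?_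
        ext j
        rw [coeff_smul, map_add, coeff_natCast_mul, coeff_one, smul_eq_mul]
        show _ = _ + _ * coeff j x
        rw [hx, coeff_mk]
        rcases Nat.eq_zero_or_pos j with rfl | hjpos
        · rw [h0, inv_mul_cancel₀ hκ]
          simp
        · rw [hc j hjpos, if_neg hjpos.ne', if_neg hjpos.ne', hpC, h24C]
          push_cast
          have hpow : (ℓ : ℂ) ^ t * (ℓ : ℂ) ^ w = (ℓ : ℂ) ^ v * (ℓ : ℂ) ^ (d + 1) := by
            rw [← pow_add, ← pow_add, hd, add_assoc]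
          field_simp
          linear_combination (m'' : ℂ) * M' * c j * hpow
      rw [hd, add_assoc, pow_add, hpv]
      exact mul_dvd_mul (Dvd.intro _ rfl) hcore
  rw [← h24n, h24, pow_add, mul_comm (ℓ ^ t), mul_assoc] at claim
  have h1 : ℓ ^ t ∣ m'' * n := Nat.dvd_of_mul_dvd_mul_left (pow_pos hℓ.pos w) claim
  have h2 : Nat.Coprime (ℓ ^ t) m'' :=
    Nat.Coprime.pow_left t ((Nat.Prime.coprime_iff_not_dvd hℓ).mpr hm'')
  exact h2.dvd_of_dvd_mul_left h1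

end

end Fermat.Agent.S16
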