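import Mathlib

set_option autoImplicit false

/-!
# S16 [F]: abstract duality over `ℤ`
-/

namespace Fermat.Agent.S16.FDual

variable {T L : Type*} [AddCommGroup T] [AddCommGroup L]
  [Module.Free ℤ T] [Module.Finite ℤ T] [Module.Free ℤ L] [Module.Finite ℤ L]

/-- a pairing of finite free `ℤ`-modules which is non degenerate on both sides and saturated on
the right is perfect on the right. -/
theorem exists_repr (B : T →ₗ[ℤ] L →ₗ[ℤ] ℤ)
    (hL : ∀ f : L, (∀ t : T, B t f = 0) → f = 0) (hT : ∀ t : T, (∀ f : L, B t f = 0) → t = 0)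
    (hsat : ∀ (N : ℕ) (g : L), 0 < N → (∀ t : T, (N : ℤ) ∣ B t g) → ∃ f : L, g = N • f)
    (lam : T →ₗ[ℤ] ℤ) : ∃ f : L, ∀ t, lam t = B t f := by
  have hinjL : Function.Injective B.flip := by
    rw [injective_iff_map_eq_zero]
    intro f hf
    exact hL f fun t => by simpa using LinearMap.congr_fun hf t
  have hinjT : Function.Injective B := by
    rw [injective_iff_map_eq_zero]
    intro t ht
    exact hT t fun f => by simpa using LinearMap.congr_fun ht f
  have hdT : Module.finrank ℤ (T →ₗ[ℤ] ℤ) = Module.finrank ℤ T := by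
    rw [Module.finrank_linearMap, Module.finrank_self, mul_one]
  have hdL : Module.finrank ℤ (L →ₗ[ℤ] ℤ) = Module.finrank ℤ L := by
    rw [Module.finrank_linearMap, Module.finrank_self, mul_one]
  have h1 : Module.finrank ℤ L ≤ Module.finrank ℤ T :=
    hdT ▸ LinearMap.finrank_le_finrank_of_injective hinjL
  have h2 : Module.finrank ℤ T ≤ Module.finrank ℤ L :=
    hdL ▸ LinearMap.finrank_le_finrank_of_injective hinjT
  have h3 : Module.finrank ℤ (LinearMap.range B.flip) = Module.finrank ℤ (T →ₗ[ℤ] ℤ) := by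
    rw [LinearMap.finrank_range_of_inj hinjL, hdT]
    exact le_antisymm h1 h2
  have hfin : Finite ((T →ₗ[ℤ] ℤ) ⧸ LinearMap.range B.flip) :=
    Submodule.finiteQuotientOfFreeOfRankEq _ h3
  set N : ℕ := Nat.card ((T →ₗ[ℤ] ℤ) ⧸ LinearMap.range B.flip) with hN
  have hNpos : 0 < N := Nat.card_pos
  have hmem : N • lam ∈ LinearMap.range B.flip := by
    simpa using! AddSubgroup.nsmul_index_mem (LinearMap.range B.flip).toAddSubgroup lam
  obtain ⟨g, hg⟩ := hmem
  have hg' : ∀ t, B t g = N * lam t := fun t => by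
    have := LinearMap.congr_fun hg t
    simpa using this
  obtain ⟨f, rfl⟩ := hsat N g hNpos fun t => ⟨lam t, hg' t⟩
  refine ⟨f, fun t => ?_⟩
  have := hg' t
  rw [map_nsmul, nsmul_eq_mul] at this
  exact (mul_left_cancel₀ (by exact_mod_cast hNpos.ne') this).symm

omit [Module.Finite ℤ T] in
/-- additive maps to `ZMod M` lift to `ℤ`. -/
theorem exists_lift (M : ℕ) (φ : T →+ ZMod M) :
    ∃ lam : T →ₗ[ℤ] ℤ, ∀ t, ((lam t : ℤ) : ZMod M) = φ t := by
  obtain ⟨h, hh⟩ := Module.projective_lifting_property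
    ((Int.castAddHom (ZMod M)).toIntLinearMap) φ.toIntLinearMap
    (by intro x; exact ZMod.intCast_surjective x)
  exact ⟨h, fun t => by simpa using LinearMap.congr_fun hh t⟩

/-- the combination used for the upper bound. -/
theorem exists_repr_mod (B : T →ₗ[ℤ] L →ₗ[ℤ] ℤ)
    (hL : ∀ f : L, (∀ t : T, B t f = 0) → f = 0) (hT : ∀ t : T, (∀ f : L, B t f = 0) → t = 0)
    (hsat : ∀ (N : ℕ) (g : L), 0 < N → (∀ t : T, (N : ℤ) ∣ B t g) → ∃ f : L, g = N • f)
    (M : ℕ) (φ : T →+ ZMod M) : ∃ f : L, ∀ t, ((B t f : ℤ) : ZMod M) = φ t := by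
  obtain ⟨lam, hlam⟩ := exists_lift M φ
  obtain ⟨f, hf⟩ := exists_repr B hL hT hsat lam
  exact ⟨f, fun t => by rw [← hf, hlam]⟩

end Fermat.Agent.S16.FDual
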