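import Fermat.Statements.S16
import Fermat.Agent.Lib.QCoeff
import Fermat.Agent.Lib.FormalHecke
import Fermat.Agent.S16.FDual

set_option autoImplicit false
set_option linter.unusedSectionVars false

/-!
# S16 [F]: the pairing `T × L → ℤ`, `(t, f) ↦ a₁(t f)`
-/

namespace Fermat.Agent.S16.FPair

open CuspForm ModularFormClass Fermat.Agent.Lib.QCoeff ModularCurve

variable (N : ℕ) [NeZero N]

/-- the lattice. -/
abbrev Lat : Type := ↥(intLattice N 2)

/-- the Hecke ring. -/
abbrev TT : Type := ↥(heckeLatticeAlgebra N ∅)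

variable {N}

theorem exists_int_coeff (f : Lat N) (k : ℕ) : ∃ m : ℤ, qCoeff f.1 k = (m : ℂ) :=
  (mem_intLattice_iff f.1).mp f.2 k

/-- integer coefficients. -/
noncomputable def aZfun (k : ℕ) (f : Lat N) : ℤ := (exists_int_coeff f k).choose

theorem aZfun_spec (k : ℕ) (f : Lat N) : (aZfun k f : ℂ) = qCoeff f.1 k :=
  (exists_int_coeff f k).choose_spec.symm

/-- integer coefficients as linear maps. -/
noncomputable def aZ (k : ℕ) : Lat N →ₗ[ℤ] ℤ where
  toFun := aZfun k
  map_add' f g := by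
    apply Int.cast_injective (α := ℂ)
    push_cast
    rw [aZfun_spec, aZfun_spec, aZfun_spec]
    exact qCoeff_add f.1 g.1 k
  map_smul' c f := by
    apply Int.cast_injective (α := ℂ)
    simp only [RingHom.id_apply, smul_eq_mul]
    push_cast
    rw [aZfun_spec, aZfun_spec]
    have : ((c • f : Lat N) : CuspForm (CongruenceSubgroup.Gamma0 N) 2) = (c : ℂ) • f.1 := by
      rw [Int.cast_smul_eq_zsmul]; rfl
    rw [this, qCoeff_smul]

theorem aZ_spec (k : ℕ) (f : Lat N) : (aZ k f : ℂ) = qCoeff f.1 k := aZfun_spec k f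

theorem aZ_zero_idx (f : Lat N) : aZ 0 f = 0 := by
  apply Int.cast_injective (α := ℂ)
  rw [aZ_spec, qCoeff_zero_idx]
  simp

theorem ext_aZ {f g : Lat N} (h : ∀ k, aZ k f = aZ k g) : f = g := by
  apply Subtype.ext
  apply ext_qCoeff
  intro k
  rw [← aZ_spec, ← aZ_spec, h]

/-- the Hecke generators in `TT`. -/
noncomputable def TL (ℓ : Nat.Primes) : TT N := latticeRestrictHom N ∅ (heckeFormsGen N 2 ℓ)

/-- the "nebentypus weight" `e ℓ = ℓ` for `ℓ ∤ N`, `0` otherwise. -/
def eN (N : ℕ) (ℓ : ℕ) : ℤ := if ℓ ∣ N then 0 else ℓ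

theorem coe_latticeRestrictHom (t : ↥(heckeAlgebra N 2 ∅)) (f : Lat N) :
    (((latticeRestrictHom N ∅ t : TT N) : Module.End ℤ (Lat N)) f : 
      CuspForm (CongruenceSubgroup.Gamma0 N) 2) = t.1 f.1 := rfl

/-- the Hecke relations. -/
theorem aZ_TL (ℓ : Nat.Primes) (f : Lat N) (n : ℕ) :
    aZ ((ℓ : ℕ) * n) f + eN N ℓ * (if (ℓ : ℕ) ∣ n then aZ (n / ℓ) f else 0) =
      aZ n ((TL ℓ : TT N).1 f) := by
  apply Int.cast_injective (α := ℂ)
  rw [aZ_spec, TL, coe_latticeRestrictHom]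
  push_cast
  by_cases h : (ℓ : ℕ) ∣ N
  · rw [heckeFormsGen_of_dvd h, heckeAlgebra.coe_U, qCoeff_heckeULin, aZ_spec, eN, if_pos h,
      mul_comm n]
    simp
  · rw [heckeFormsGen_of_not_dvd h, heckeAlgebra.coe_T, qCoeff_heckeTLin, aZ_spec, eN, if_neg h,
      mul_comm n]
    congr 1
    split_ifs
    · rw [aZ_spec]
      norm_num
    · simp

theorem mul_apply' (s t : TT N) (g : Lat N) : (s * t).1 g = s.1 (t.1 g) := rfl

/-- if `a₁(t g)` vanishes in `R` for all `t`, then all coefficients of all `t g` vanish in `R`. -/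
theorem cast_aZ_eq_zero {R : Type*} [CommRing R] (g : Lat N)
    (h : ∀ t : TT N, ((aZ 1 (t.1 g) : ℤ) : R) = 0) :
    ∀ (n : ℕ) (t : TT N), ((aZ n (t.1 g) : ℤ) : R) = 0 := by
  intro n
  induction n using Nat.strong_induction_on with
  | _ n ih =>
    intro t
    rcases Nat.lt_or_ge n 2 with hn | hn
    · interval_cases n
      · rw [aZ_zero_idx]; simp
      · exact h t
    · obtain ⟨ℓ, hℓ, m, rfl⟩ : ∃ ℓ : ℕ, ℓ.Prime ∧ ∃ m, n = ℓ * m := by
        obtain ⟨ℓ, hℓ, hd⟩ := Nat.exists_prime_and_dvd (show n ≠ 1 by omega)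
        exact ⟨ℓ, hℓ, hd⟩
      have hm0 : 0 < m := by
        rcases Nat.eq_zero_or_pos m with rfl | hm
        · simp at hn
        · exact hm
      have hlt : m < ℓ * m := by
        have := hℓ.one_lt
        nlinarith
      have hrel := aZ_TL (N := N) ⟨ℓ, hℓ⟩ (t.1 g) m
      have hrel' := congrArg (Int.cast : ℤ → R) hrel
      rw [← mul_apply', ih m hlt] at hrel'
      push_cast at hrel'
      have h0 : ((if ℓ ∣ m then aZ (m / ℓ) (t.1 g) else 0 : ℤ) : R) = 0 := by
        split_ifs with hd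
        · exact ih _ (lt_of_le_of_lt (Nat.div_le_self m ℓ) hlt) t
        · simp
      have hrel2 : ((aZ (ℓ * m) (t.1 g) : ℤ) : R) + (eN N ℓ : R) *
          ((if ℓ ∣ m then aZ (m / ℓ) (t.1 g) else 0 : ℤ) : R) = 0 := by
        simpa using hrel'
      rw [h0, mul_zero, add_zero] at hrel2
      exact hrel2

theorem one_apply' (g : Lat N) : (1 : TT N).1 g = g := rfl

/-- non degeneracy on the right. -/
theorem eq_zero_of_pairing (f : Lat N) (h : ∀ t : TT N, aZ 1 (t.1 f) = 0) : f = 0 := by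
  apply ext_aZ
  intro k
  have := cast_aZ_eq_zero (R := ℤ) f (fun t => by simpa using h t) k 1
  rw [one_apply'] at this
  simpa using this

/-- non degeneracy on the left. -/
theorem eq_zero_of_pairing_left (t : TT N) (h : ∀ f : Lat N, aZ 1 (t.1 f) = 0) : t = 0 := by
  apply Subtype.ext
  apply LinearMap.ext
  intro f
  apply eq_zero_of_pairing
  intro s
  rw [← mul_apply', mul_comm, mul_apply']
  exact h _

/-- coefficientwise saturation. -/
theorem exists_eq_nsmul_of_dvd (M : ℕ) (hM : 0 < M) (g : Lat N) (h : ∀ k, (M : ℤ) ∣ aZ k g) :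
    ∃ f : Lat N, g = M • f := by
  have hM' : (M : ℂ) ≠ 0 := by exact_mod_cast hM.ne'
  refine ⟨⟨(M : ℂ)⁻¹ • g.1, ?_⟩, ?_⟩
  · rw [mem_intLattice_iff]
    intro k
    obtain ⟨c, hc⟩ := h k
    refine ⟨c, ?_⟩
    rw [qCoeff_smul, ← aZ_spec, hc]
    push_cast
    field_simp
  · apply Subtype.ext
    show g.1 = M • ((M : ℂ)⁻¹ • g.1)
    rw [← Nat.cast_smul_eq_nsmul ℂ, smul_smul, mul_inv_cancel₀ hM', one_smul]

/-- saturation of the pairing. -/
theorem exists_eq_nsmul (M : ℕ) (g : Lat N) (hM : 0 < M)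
    (h : ∀ t : TT N, (M : ℤ) ∣ aZ 1 (t.1 g)) : ∃ f : Lat N, g = M • f := by
  apply exists_eq_nsmul_of_dvd M hM
  intro k
  have := cast_aZ_eq_zero (R := ZMod M) g
    (fun t => (ZMod.intCast_zmod_eq_zero_iff_dvd _ _).mpr (h t)) k 1
  rw [one_apply'] at this
  exact (ZMod.intCast_zmod_eq_zero_iff_dvd _ _).mp this

/-- the pairing. -/
noncomputable def pairing : TT N →ₗ[ℤ] Lat N →ₗ[ℤ] ℤ :=
  LinearMap.mk₂ ℤ (fun t f => aZ 1 (t.1 f))
    (fun t t' f => by
      show aZ 1 ((t.1 + t'.1) f) = _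
      rw [LinearMap.add_apply, map_add])
    (fun c t f => by
      show aZ 1 ((c • t.1) f) = _
      rw [LinearMap.smul_apply, map_smul])
    (fun t f f' => by rw [map_add, map_add])
    (fun c t f => by rw [map_smul, map_smul])

theorem pairing_apply (t : TT N) (f : Lat N) : pairing t f = aZ 1 (t.1 f) := rfl

/-- every additive map `T → ZMod M` is represented by an element of the lattice. -/
theorem exists_repr_mod (M : ℕ) (φ : TT N →+ ZMod M) :
    ∃ f : Lat N, ∀ t : TT N, ((aZ 1 (t.1 f) : ℤ) : ZMod M) = φ t := by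
  have := intLattice.moduleFinite N
  have := intLattice.moduleFree N
  exact FDual.exists_repr_mod (pairing (N := N)) eq_zero_of_pairing eq_zero_of_pairing_left
    exists_eq_nsmul M φ

end Fermat.Agent.S16.FPair
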