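import Mathlib
import Fermat.Statements.S16
import Fermat.Agent.S16.UDefs
import Fermat.Agent.S16.KDefs

set_option autoImplicit false

/-! # S16: interface statements (REFERENCE ONLY -- never import this file)

Each `theorem` below is the exact statement its owner must deliver (same name, in the file
named in the comment, namespace `Fermat.Agent.S16`).  -/

namespace Fermat.Agent.S16.Stubs

open UpperHalfPlane ModularForm ModularFormClass CongruenceSubgroup PowerSeries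
open scoped MatrixGroups Manifold

noncomputable section

/-- `s'(k) = ∑_{d ∣ k, p ∤ d} d`  (goes to `S16/FDefs.lean`, helper3) -/
def sP (p k : ℕ) : ℤ := ∑ d ∈ k.divisors with ¬ p ∣ d, (d : ℤ)

/-! ## [E]  (S16/Eis.lean, helper1) -/

theorem exists_eis (p : ℕ) [Fact p.Prime] :
    ∃ e : ModularForm (Gamma0 p) 2, (qExpansion 1 e).coeff 0 = ((p : ℂ) - 1) / 24 ∧
      ∀ j : ℕ, 1 ≤ j → (qExpansion 1 e).coeff j = (sP p j : ℂ) := sorry

/-! ## [K]  -/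

/-- K0 (S16/Fricke.lean, helper8) -/
theorem exists_wForm (p : ℕ) [Fact p.Prime] (k : ℕ) (Φ : ModularForm (Gamma0 p) (k : ℤ)) :
    ∃ Ψ : ModularForm (Gamma0 p) (k : ℤ), ⇑Ψ = wFun p k Φ := sorry

/-- K0: `W² = -p` -/
theorem wFun_wFun (p : ℕ) [Fact p.Prime] (k : ℕ) (hk : Even k)
    (Φ : ℍ → ℂ) : wFun p k (wFun p k Φ) = Φ := sorry

/-- K0 -/
theorem wFun_mul (p : ℕ) [Fact p.Prime] (k l : ℕ) (hk : Even k) (hl : Even l) (Φ Φ' : ℍ → ℂ) :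
    wFun p (k + l) (Φ * Φ') = wFun p k Φ * wFun p l Φ' := sorry

/-- K0: level one forms -/
theorem wFun_levelOne (p : ℕ) [Fact p.Prime] (h : ℕ) (φ : ModularForm 𝒮ℒ ((2 * h : ℕ) : ℤ)) :
    wFun p (2 * h) φ = (p : ℂ) ^ h • fun z : ℍ => φ (heckeDiagMatrix p • z) := sorry

/-- K0/K1 link: `(wΦ) ∣ [[1,b],[0,p]] = p^{k/2-1} Φ ∣ S T^b` -/
theorem wFun_slash_heckeMatrix (p : ℕ) [Fact p.Prime] (k : ℕ) (hk : Even k) (Φ : ℍ → ℂ)
    (b : ZMod p) :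
    (wFun p k Φ) ∣[(k : ℤ)] heckeMatrix p b.val =
      ((p : ℂ) ^ (((k / 2 : ℕ) : ℤ) - 1)) • cosetFun p k Φ (some b) := sorry

/-- K1 (S16/Cosets.lean, helper2): `S` and `T` permute the coset translates -/
theorem exists_perm_cosetFun (p : ℕ) [Fact p.Prime] (γ : SL(2, ℤ)) :
    ∃ σ : Equiv.Perm (Option (ZMod p)), ∀ (k : ℤ) (Φ : ℍ → ℂ),
      (∀ g ∈ Gamma0 p, Φ ∣[k] g = Φ) → ∀ c, cosetFun p k Φ c ∣[k] γ = cosetFun p k Φ (σ c) := sorry

/-- K1 (S16/Cosets.lean, helper2) -/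
theorem exists_traceForm (p : ℕ) [Fact p.Prime] (k : ℤ) (Φ : ModularForm (Gamma0 p) k) :
    ∃ φ : ModularForm 𝒮ℒ k, ⇑φ = ∑ c, cosetFun p k Φ c := sorry

/-- K1 (S16/Cosets.lean, helper2) -/
theorem exists_normForm (p : ℕ) [Fact p.Prime] (k : ℤ) (Φ : ModularForm (Gamma0 p) k) :
    ∃ φ : ModularForm 𝒮ℒ (k * (p + 1)), ⇑φ = ∏ c, cosetFun p k Φ c := sorry

/-- K1' (S16/Cosets.lean or S16/CuspCrit.lean, helper2) -/
theorem exists_cuspForm_of_coeff_zero (p : ℕ) [Fact p.Prime] (G : ModularForm (Gamma0 p) 2)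
    (h0 : (qExpansion 1 G).coeff 0 = 0) : ∃ f : CuspForm (Gamma0 p) 2, ⇑f = ⇑G := sorry

/-- the toolkit (S16/Toolkit.lean, helper8 assembles; `sturm` field = K2 by helper6
(S16/Sturm.lean); the `serre` field is to be REMOVED from `Toolkit`, see msg) -/
def toolkit (p : ℕ) [Fact p.Prime] : Toolkit p := sorry

theorem mem_toolkit (p : ℕ) [Fact p.Prime] (Φ : ModularForm (Gamma0 p) 2) :
    ∃ B, (qExpansion 1 Φ, B) ∈ (toolkit p).M 2 := sorry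

/-! ## [U]  (S16/Upper.lean, helper4) -/

theorem upper_bound (p : ℕ) [Fact p.Prime] (hp : 7 ≤ p) (T : Toolkit p) (M : ℕ) {A B : ℂ⟦X⟧}
    (hAB : (A, B) ∈ T.M 2) (h0 : coeff 0 A = ((p : ℂ) - 1) / 24)
    (hj : ∀ j, 1 ≤ j → ∃ c : ℤ, coeff j A = (M : ℂ) * c) :
    M ∣ (p - 1) / Nat.gcd (p - 1) 12 := sorry

/-! ## [T]  (S16/ThetaFinal.lean, helper5 assembles; T1 helper7, T2/T3 helper9) -/

theorem exists_theta (p : ℕ) [Fact p.Prime] (hp : 5 ≤ p) :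
    ∃ G : ModularForm (Gamma0 p) 2, (qExpansion 1 G).coeff 0 = 1 ∧
      ∀ j : ℕ, 1 ≤ j → ∃ m : ℤ, (qExpansion 1 G).coeff j = (Nat.gcd 12 (p + 1) : ℂ) * m := sorry

/-! ## [F]  (S16/Formal*.lean + S16.lean, helper3) -/

theorem lower (p : ℕ) [Fact p.Prime] :
    ∃ f ∈ CuspForm.intLattice p 2, ∀ k : ℕ, 1 ≤ k →
      ∃ m : ℤ, qCoeff f k = ((sP p k + ModularCurve.eisensteinNumerator p * m : ℤ) : ℂ) := sorry

theorem upper (p : ℕ) [Fact p.Prime] (M : ℕ) (hM : 1 ≤ M) (f : CuspForm (Gamma0 p) 2)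
    (hf : f ∈ CuspForm.intLattice p 2)
    (h : ∀ k : ℕ, 1 ≤ k → ∃ m : ℤ, qCoeff f k = ((sP p k + M * m : ℤ) : ℂ)) :
    M ∣ ModularCurve.eisensteinNumerator p := sorry

end

end Fermat.Agent.S16.Stubs
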