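import Fermat.Agent.S16.ThetaBasic
import Fermat.Prelude.Thm_CongruenceSubgroup_one_mem_strictPeriods_Gamma0

set_option autoImplicit false

/-!
# S16 [T4]: packaging the theta series as a modular form of weight 2 on `Γ₀(p)`
-/

namespace Fermat.Agent.S16.Theta

open Complex Filter ModularForm ModularFormClass
open UpperHalfPlane hiding I I_im I_re
open scoped Manifold Topology MatrixGroups ModularForm

namespace Param

variable {P : Param} {p : ℕ}

/-- (T4) given the transformation behaviour (T3), `theta 0` is a modular form of weight `2` on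
`Γ₀(p)` whose `q`-expansion coefficients are the representation numbers. -/
theorem Valid.exists_modularForm (h : P.Valid p) (hp : 0 < p)
    (H1 : ∀ γ ∈ CongruenceSubgroup.Gamma0 p, P.theta 0 ∣[(2 : ℤ)] γ = P.theta 0)
    (H2 : ∀ γ : SL(2, ℤ), IsBoundedAtImInfty (P.theta 0 ∣[(2 : ℤ)] γ)) :
    ∃ G : ModularForm (CongruenceSubgroup.Gamma0 p) 2, ⇑G = P.theta 0 ∧
      ∀ n : ℕ, (qExpansion 1 G).coeff n = (P.rep n : ℂ) := by
  have hp' : NeZero p := ⟨hp.ne'⟩
  let G : ModularForm (CongruenceSubgroup.Gamma0 p) 2 :=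
    { toFun := P.theta 0
      slash_action_eq' := by
        rintro _ ⟨γ, hγ, rfl⟩
        exact H1 γ hγ
      holo' := h.mdiff_theta hp 0
      bdd_at_cusps' := by
        intro c hc
        rw [Subgroup.IsArithmetic.isCusp_iff_isCusp_SL2Z] at hc
        rw [OnePoint.isBoundedAt_iff_forall_SL2Z hc]
        intro γ _
        exact H2 γ }
  refine ⟨G, rfl, fun n => ?_⟩
  exact (ModularFormClass.qExpansion_coeff_unique (f := G) one_pos
    (CongruenceSubgroup.one_mem_strictPeriods_Gamma0 p) (fun τ => h.hasSum_theta_zero hp τ) n).symm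

end Param

end Fermat.Agent.S16.Theta
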