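import Fermat.Agent.S16.ThetaForm

set_option autoImplicit false

/-!
# S16 [T]: lattice choices and units
-/

namespace Fermat.Agent.S16.Theta

open Complex Filter ModularForm ModularFormClass
open UpperHalfPlane hiding I I_im I_re
open scoped Manifold Topology MatrixGroups ModularForm

/-- a permutation of exact order `m` all of whose nontrivial powers are fixed point free. -/
theorem dvd_card_of_perm {X : Type*} (σ : Equiv.Perm X) (m : ℕ) (hm : 0 < m) (h1 : σ ^ m = 1)
    (h2 : ∀ j, 0 < j → j < m → ∀ x, (σ ^ j) x ≠ x) : m ∣ Nat.card X := by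
  rcases isEmpty_or_nonempty X with hX | ⟨⟨x₀⟩⟩
  · simp
  have hord : orderOf σ = m := by
    rw [orderOf_eq_iff hm]
    refine ⟨h1, fun j hj hj0 hσ => h2 j hj0 hj x₀ (by rw [hσ]; rfl)⟩
  have hfree : ∀ b : X, MulAction.stabilizer (Subgroup.zpowers σ) b = ⊥ := by
    intro b
    rw [Subgroup.eq_bot_iff_forall]
    rintro ⟨g, k, rfl⟩ hg
    have hg' : (σ ^ k) b = b := hg
    apply Subtype.ext
    show σ ^ k = 1
    rw [← zpow_mod_orderOf, hord] at hg' ⊢
    have hm' : (0 : ℤ) < m := by exact_mod_cast hm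
    obtain ⟨j, hj⟩ := Int.eq_ofNat_of_zero_le (Int.emod_nonneg k hm'.ne')
    have hlt : (j : ℤ) < m := hj ▸ Int.emod_lt_of_pos k hm'
    rw [hj, zpow_natCast] at hg' ⊢
    rcases Nat.eq_zero_or_pos j with rfl | hj0
    · simp
    · exact absurd hg' (h2 j hj0 (by exact_mod_cast hlt) b)
  rw [Nat.card_congr (MulAction.selfEquivOrbitsQuotientProd hfree), Nat.card_prod,
    Nat.card_zpowers, hord]
  exact dvd_mul_left _ _

/-- the same for a self map of a subtype. -/
theorem dvd_card_subtype {V : Type*} (S : V → Prop) (τ : V → V) (hS : ∀ x, S x → S (τ x))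
    (m : ℕ) (hm : 0 < m) (h1 : ∀ x, S x → τ^[m] x = x)
    (h2 : ∀ j, 0 < j → j < m → ∀ x, S x → τ^[j] x ≠ x) : m ∣ Nat.card {x // S x} := by
  let f : {x // S x} → {x // S x} := fun x => ⟨τ x.1, hS _ x.2⟩
  have hsc : ∀ j, Function.Semiconj (Subtype.val : {x // S x} → V) f^[j] τ^[j] :=
    Function.Semiconj.iterate_right (fun _ => rfl)
  have hfm : ∀ x, f^[m] x = x := fun x => Subtype.ext (by rw [(hsc m).eq]; exact h1 _ x.2)
  obtain ⟨m', rfl⟩ : ∃ m', m = m' + 1 := ⟨m - 1, by omega⟩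
  let σ : Equiv.Perm {x // S x} :=
    { toFun := f
      invFun := f^[m']
      left_inv := fun x => (Function.iterate_succ_apply f m' x).symm.trans (hfm x)
      right_inv := fun x => (Function.iterate_succ_apply' f m' x).symm.trans (hfm x) }
  have hσ : ∀ j, ⇑(σ ^ j) = f^[j] := fun j => (Equiv.Perm.iterate_eq_pow σ j).symm
  refine dvd_card_of_perm σ (m' + 1) hm ?_ ?_
  · ext1 x
    rw [hσ]
    exact hfm x
  · intro j hj0 hj x hx
    rw [hσ] at hx
    have := congrArg Subtype.val hx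
    rw [(hsc j).eq] at this
    exact h2 j hj0 hj _ x.2 this

namespace Param

variable {P : Param} {p : ℕ}

theorem ne_zero_of_Qz {n : ℕ} (hn : 1 ≤ n) {x : Fin 4 → ℤ} (hx : P.Qz x = n) : x ≠ 0 := by
  rintro rfl
  simp [Qz, QR] at hx
  omega

/-- `x ↦ -x`: representation numbers are even. -/
theorem two_dvd_rep (P : Param) {n : ℕ} (hn : 1 ≤ n) : 2 ∣ P.rep n := by
  refine dvd_card_subtype (fun x => P.Qz x = n) (fun x => -x) (fun x hx => ?_) 2 two_pos
    (fun x _ => by simp) (fun j hj0 hj x hx h => ?_)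
  · rw [← hx]
    simp only [Qz, QR, Pi.neg_apply]
    ring
  · obtain rfl : j = 1 := by omega
    apply ne_zero_of_Qz hn hx
    funext i
    have := congrFun h i
    simp only [Function.iterate_one, Pi.neg_apply] at this
    simp only [Pi.zero_apply]
    omega

/-- the lattice with `D = 4`. -/
def four (s : ℤ) : Param := ⟨0, 1, 1, s⟩

/-- the lattice with `D = 3`. -/
def three (s : ℤ) : Param := ⟨1, 1, 1, s⟩

theorem four_dvd_rep (s : ℤ) {n : ℕ} (hn : 1 ≤ n) : 4 ∣ (four s).rep n := by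
  refine dvd_card_subtype (fun x => (four s).Qz x = n) (fun x => ![-x 1, x 0, -x 3, x 2])
    (fun x hx => ?_) 4 (by norm_num) (fun x _ => ?_) (fun j hj0 hj x hx h => ?_)
  · rw [← hx]
    simp only [Qz, QR, four]
    simp
    ring
  · funext i
    fin_cases i <;> simp
  · apply ne_zero_of_Qz hn hx
    have h0 := congrFun h 0
    have h1 := congrFun h 1
    have h2 := congrFun h 2
    have h3 := congrFun h 3
    funext i
    interval_cases j <;> simp at h0 h1 h2 h3 <;> fin_cases i <;> simp <;> omega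

theorem six_dvd_rep (s : ℤ) {n : ℕ} (hn : 1 ≤ n) : 6 ∣ (three s).rep n := by
  refine dvd_card_subtype (fun x => (three s).Qz x = n)
    (fun x => ![-x 1, x 0 + x 1, -x 3, x 2 + x 3])
    (fun x hx => ?_) 6 (by norm_num) (fun x _ => ?_) (fun j hj0 hj x hx h => ?_)
  · rw [← hx]
    simp only [Qz, QR, three]
    simp
    ring
  · funext i
    fin_cases i <;> simp
  · apply ne_zero_of_Qz hn hx
    have h0 := congrFun h 0
    have h1 := congrFun h 1
    have h2 := congrFun h 2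
    have h3 := congrFun h 3
    funext i
    interval_cases j <;> simp at h0 h1 h2 h3 <;> fin_cases i <;> simp <;> omega

theorem valid_four {p : ℕ} (hp : p.Prime) (h4 : p % 4 = 3) : (four ((p + 1) / 4 : ℕ)).Valid p where
  D_pos := by simp [four, D]
  eq := by
    obtain ⟨k, hk⟩ : ∃ k, p = 4 * k + 3 := ⟨p / 4, by omega⟩
    have : (p + 1) / 4 = k + 1 := by omega
    rw [this, hk]
    simp [four, D]
    ring
  ndvd := by
    simp only [four, D]
    intro h
    have h' : p ∣ 4 := by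
      have : ((p : ℕ) : ℤ) ∣ ((4 : ℕ) : ℤ) := by simpa using h
      exact Int.natCast_dvd_natCast.mp this
    have := Nat.le_of_dvd (by norm_num) h'
    interval_cases p <;> omega

theorem valid_three {p : ℕ} (hp : p.Prime) (h3 : p % 3 = 2) :
    (three ((p + 1) / 3 : ℕ)).Valid p where
  D_pos := by simp [three, D]
  eq := by
    obtain ⟨k, hk⟩ : ∃ k, p = 3 * k + 2 := ⟨p / 3, by omega⟩
    have : (p + 1) / 3 = k + 1 := by omega
    rw [this, hk]
    simp [three, D]
    ring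
  ndvd := by
    simp only [three, D]
    intro h
    have h' : p ∣ 3 := by
      have : ((p : ℕ) : ℤ) ∣ ((3 : ℕ) : ℤ) := by simpa using h
      exact Int.natCast_dvd_natCast.mp this
    have := Nat.le_of_dvd (by norm_num) h'
    interval_cases p <;> omega


/-- Dirichlet + quadratic reciprocity: for `p ≡ 1 mod 4` there is a prime `q ≡ 3 mod 4`, `q ≠ p`,
such that `-p` is a square modulo `q`. -/
theorem exists_aux_prime {p : ℕ} [Fact p.Prime] (h4 : p % 4 = 1) :
    ∃ q : ℕ, q.Prime ∧ q % 4 = 3 ∧ q ≠ p ∧ ∃ r s : ℤ, (q : ℤ) * s = r ^ 2 + p := by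
  have hp : p.Prime := Fact.out
  have hp2 : p ≠ 2 := by rintro rfl; omega
  obtain ⟨a, ha⟩ := FiniteField.exists_nonsquare (F := ZMod p) (by rwa [ZMod.ringChar_zmod_n])
  have ha0 : a ≠ 0 := by
    rintro rfl
    exact ha (IsSquare.zero)
  have hcop : Nat.Coprime 4 p := by
    have : Nat.Coprime 2 p := (Nat.coprime_primes Nat.prime_two hp).mpr (Ne.symm hp2)
    exact Nat.Coprime.pow_left 2 this
  have : NeZero (4 * p) := ⟨by have := hp.pos; omega⟩
  let e := ZMod.chineseRemainder hcop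
  have hu : IsUnit (e.symm ((3 : ZMod 4), a)) := by
    apply IsUnit.map
    rw [Prod.isUnit_iff]
    exact ⟨(by decide : IsUnit (3 : ZMod 4)), ha0.isUnit⟩
  obtain ⟨q, hqp, hq, hqe⟩ := Nat.forall_exists_prime_gt_and_eq_mod hu p
  have hq' : e (q : ZMod (4 * p)) = ((3 : ZMod 4), a) := by rw [hqe]; simp
  rw [map_natCast] at hq'
  have hq4 : ((q : ℕ) : ZMod 4) = 3 := congrArg Prod.fst hq'
  have hqa : ((q : ℕ) : ZMod p) = a := congrArg Prod.snd hq'
  have hq43 : q % 4 = 3 := by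
    have : ((q : ℕ) : ZMod 4) = ((3 : ℕ) : ZMod 4) := by rw [hq4]; rfl
    rw [ZMod.natCast_eq_natCast_iff'] at this
    simpa using this
  have hq2 : q ≠ 2 := by rintro rfl; omega
  have : Fact q.Prime := ⟨hq⟩
  have h1 : legendreSym p q = -1 := by
    rw [legendreSym.eq_neg_one_iff]
    push_cast
    rwa [hqa]
  have h2 : legendreSym q p = -1 := by
    rw [legendreSym.quadratic_reciprocity_one_mod_four h4 hq2, h1]
  have h3 : legendreSym q (-1) = -1 := by
    rw [legendreSym.at_neg_one hq2, ZMod.χ₄_nat_three_mod_four hq43]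
  have h5 : legendreSym q (-1 * p) = 1 := by
    rw [legendreSym.mul, h2, h3]; norm_num
  have hne : (((-1 * p : ℤ)) : ZMod q) ≠ 0 := by
    intro h0
    rw [(legendreSym.eq_zero_iff q _).mpr h0] at h5
    norm_num at h5
  obtain ⟨r, hr⟩ := (legendreSym.eq_one_iff q hne).mp h5
  refine ⟨q, hq, hq43, hqp.ne', (r.val : ℤ), ?_⟩
  have hdvd : (q : ℤ) ∣ (r.val : ℤ) ^ 2 + p := by
    rw [← ZMod.intCast_zmod_eq_zero_iff_dvd]
    push_cast at hr ⊢
    rw [ZMod.natCast_zmod_val, sq, ← hr]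
    ring
  obtain ⟨s, hs⟩ := hdvd
  exact ⟨s, hs.symm⟩

/-- existence of a valid lattice for `p ≡ 1 mod 4`. -/
theorem exists_valid_of_one_mod_four {p : ℕ} [Fact p.Prime] (h4 : p % 4 = 1) :
    ∃ P : Param, P.Valid p := by
  have hp : p.Prime := Fact.out
  obtain ⟨q, hq, hq4, hqp, r, s, hrs⟩ := exists_aux_prime h4
  obtain ⟨k, hk⟩ : ∃ k, q = 4 * k + 3 := ⟨q / 4, by omega⟩
  have hD : (⟨1, (k + 1 : ℕ), r, s⟩ : Param).D = q := by
    simp only [D, hk]
    push_cast
    ring
  refine ⟨⟨1, (k + 1 : ℕ), r, s⟩, ?_, ?_, ?_⟩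
  · rw [hD]
    exact_mod_cast hq.pos
  · rw [hD]
    exact hrs
  · rw [hD]
    intro h
    exact hqp ((Nat.prime_dvd_prime_iff_eq hp hq).mp (Int.natCast_dvd_natCast.mp h)).symm

/-- the transformation behaviour to be supplied by (T3). -/
structure IsModular (P : Param) (p : ℕ) : Prop where
  H1 : ∀ γ ∈ CongruenceSubgroup.Gamma0 p, P.theta 0 ∣[(2 : ℤ)] γ = P.theta 0
  H2 : ∀ γ : SL(2, ℤ), IsBoundedAtImInfty (P.theta 0 ∣[(2 : ℤ)] γ)

end Param

/-- **Lower bound input**: a form `G ∈ M₂(Γ₀(p))` with `a₀ = 1` and `a_j ∈ gcd(12, p+1) ℤ`. -/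
theorem exists_theta_form {p : ℕ} [Fact p.Prime] (hp5 : 5 ≤ p)
    (T3 : ∀ P : Param, P.Valid p → P.IsModular p) :
    ∃ G : ModularForm (CongruenceSubgroup.Gamma0 p) 2, (qExpansion 1 G).coeff 0 = 1 ∧
      ∀ j : ℕ, 1 ≤ j → ∃ m : ℤ, (qExpansion 1 G).coeff j = (Nat.gcd 12 (p + 1) : ℂ) * m := by
  have hp : p.Prime := Fact.out
  have hp0 : 0 < p := hp.pos
  have hΓ := CongruenceSubgroup.one_mem_strictPeriods_Gamma0 p
  have h2 : p % 2 = 1 := by
    rcases hp.eq_two_or_odd with h | h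
    · omega
    · exact h
  have h3 : p % 3 ≠ 0 := by
    intro h
    have := (Nat.prime_dvd_prime_iff_eq Nat.prime_three hp).mp (Nat.dvd_of_mod_eq_zero h)
    omega
  -- a form attached to a valid lattice whose representation numbers are divisible by `d`
  have key : ∀ (P : Param) (d : ℕ), P.Valid p → (∀ n, 1 ≤ n → d ∣ P.rep n) →
      ∃ G : ModularForm (CongruenceSubgroup.Gamma0 p) 2, (qExpansion 1 G).coeff 0 = 1 ∧
      ∀ j : ℕ, 1 ≤ j → ∃ m : ℤ, (qExpansion 1 G).coeff j = (d : ℂ) * m := by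
    intro P d hP hd
    obtain ⟨G, -, hG⟩ := hP.exists_modularForm hp0 (T3 P hP).H1 (T3 P hP).H2
    refine ⟨G, by rw [hG, hP.rep_zero hp0]; simp, fun j hj => ?_⟩
    obtain ⟨m, hm⟩ := hd j hj
    exact ⟨m, by rw [hG, hm]; push_cast; ring⟩
  have hcases : p % 12 = 1 ∨ p % 12 = 5 ∨ p % 12 = 7 ∨ p % 12 = 11 := by omega
  rcases hcases with h | h | h | h
  · obtain ⟨P, hP⟩ := Param.exists_valid_of_one_mod_four (p := p) (by omega)
    have hg : Nat.gcd 12 (p + 1) = 2 := by
      rw [Nat.gcd_rec, show (p + 1) % 12 = 2 by omega]; rfl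
    rw [hg]
    exact key P 2 hP fun n hn => P.two_dvd_rep hn
  · have hg : Nat.gcd 12 (p + 1) = 6 := by
      rw [Nat.gcd_rec, show (p + 1) % 12 = 6 by omega]; rfl
    rw [hg]
    exact key _ 6 (Param.valid_three hp (by omega)) fun n hn => Param.six_dvd_rep _ hn
  · have hg : Nat.gcd 12 (p + 1) = 4 := by
      rw [Nat.gcd_rec, show (p + 1) % 12 = 8 by omega]; rfl
    rw [hg]
    exact key _ 4 (Param.valid_four hp (by omega)) fun n hn => Param.four_dvd_rep _ hn
  · have hg : Nat.gcd 12 (p + 1) = 12 := by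
      rw [Nat.gcd_rec, show (p + 1) % 12 = 0 by omega]; rfl
    rw [hg]
    obtain ⟨G4, h40, h4⟩ := key _ 4 (Param.valid_four hp (by omega))
      fun n hn => Param.four_dvd_rep _ hn
    obtain ⟨G6, h60, h6⟩ := key _ 6 (Param.valid_three hp (by omega))
      fun n hn => Param.six_dvd_rep _ hn
    have hq : qExpansion 1 (⇑((3 : ℂ) • G4 - (2 : ℂ) • G6)) =
        (3 : ℂ) • qExpansion 1 G4 - (2 : ℂ) • qExpansion 1 G6 := by
      rw [← ModularForm.qExpansion_smul one_pos hΓ, ← ModularForm.qExpansion_smul one_pos hΓ]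
      exact ModularForm.qExpansion_sub one_pos hΓ ((3 : ℂ) • G4) ((2 : ℂ) • G6)
    refine ⟨(3 : ℂ) • G4 - (2 : ℂ) • G6, ?_, fun j hj => ?_⟩
    · rw [hq]
      simp only [map_sub, PowerSeries.coeff_smul, h40, h60]
      norm_num
    · obtain ⟨m4, hm4⟩ := h4 j hj
      obtain ⟨m6, hm6⟩ := h6 j hj
      refine ⟨m4 - m6, ?_⟩
      rw [hq]
      simp only [map_sub, PowerSeries.coeff_smul, hm4, hm6]
      push_cast
      simp only [smul_eq_mul]
      ring

end Fermat.Agent.S16.Theta
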