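import Fermat.Agent.S16.ThetaFin
import Fermat.Agent.S16.ThetaLattice

set_option autoImplicit false

/-!
# S16 [T3]: the row-0 formula by induction on words in `S`, `T`
-/

namespace Fermat.Agent.S16.Theta

open Complex ModularGroup
open UpperHalfPlane hiding I I_im I_re
open scoped MatrixGroups ModularForm

/-- `-1` acts trivially in weight two. -/
theorem slash_neg_one_two (f : ℍ → ℂ) : f ∣[(2 : ℤ)] (-1 : SL(2, ℤ)) = f := by
  funext z
  rw [ModularForm.SL_slash_apply, SL_neg_smul, one_smul]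
  have : denom ((-1 : SL(2, ℤ)) : SL(2, ℤ)) z = -1 := by
    simp [denom]
  rw [this]
  norm_num

theorem STSTST : S * T * S * T * S * T = (-1 : SL(2, ℤ)) := by
  ext i j
  fin_cases i <;> fin_cases j <;>
    simp [Matrix.SpecialLinearGroup.coe_mul, coe_S, coe_T, Matrix.mul_apply, Fin.sum_univ_two]

theorem S_inv_eq : (S : SL(2, ℤ))⁻¹ = S * S * S := by
  ext i j
  fin_cases i <;> fin_cases j <;>
    simp [Matrix.SpecialLinearGroup.coe_mul, coe_S, Matrix.mul_apply, Fin.sum_univ_two,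
      Matrix.SpecialLinearGroup.coe_inv, Matrix.adjugate_fin_two]

section abstract

variable (P : Param) (p : ℕ) [Fact p.Prime] (Θ : ZMod p × ZMod p → ℍ → ℂ)

/-- `F_t = ∑_y ψ(t N'(y)) Θ_y`. -/
noncomputable def Frow (t : ZMod p) : ℍ → ℂ := ∑ y, psi p (t * Nq P p y) • Θ y

variable {Θ}

theorem Frow_T (hT : ∀ y, Θ y ∣[(2 : ℤ)] T = psi p (Nq P p y) • Θ y) (t : ZMod p) :
    Frow P p Θ t ∣[(2 : ℤ)] T = Frow P p Θ (t + 1) := by
  simp only [Frow, SlashAction.sum_slash, ModularForm.SL_smul_slash, hT, smul_smul]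
  refine Finset.sum_congr rfl fun y _ => ?_
  rw [← AddChar.map_add_eq_mul]
  congr 2
  ring

theorem Frow_T_inv (hT : ∀ y, Θ y ∣[(2 : ℤ)] T = psi p (Nq P p y) • Θ y) (t : ZMod p) :
    Frow P p Θ t ∣[(2 : ℤ)] T⁻¹ = Frow P p Θ (t - 1) := by
  have h := Frow_T P p hT (t - 1)
  rw [sub_add_cancel] at h
  rw [← h, ← SlashAction.slash_mul, mul_inv_cancel, SlashAction.slash_one]

theorem Theta0_T (hT : ∀ y, Θ y ∣[(2 : ℤ)] T = psi p (Nq P p y) • Θ y) :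
    Θ 0 ∣[(2 : ℤ)] T = Θ 0 := by
  rw [hT, Nq_zero, AddChar.map_zero_eq_one, one_smul]

theorem Theta0_T_inv (hT : ∀ y, Θ y ∣[(2 : ℤ)] T = psi p (Nq P p y) • Θ y) :
    Θ 0 ∣[(2 : ℤ)] T⁻¹ = Θ 0 := by
  conv_lhs => rw [← Theta0_T P p hT]
  rw [← SlashAction.slash_mul, mul_inv_cancel, SlashAction.slash_one]

theorem Theta0_S
    (hS : ∀ y, Θ y ∣[(2 : ℤ)] S = (-(1 / (p : ℂ))) • ∑ y', psi p (-Bq P p y y') • Θ y') :
    Θ 0 ∣[(2 : ℤ)] S = (-(1 / (p : ℂ))) • Frow P p Θ 0 := by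
  rw [hS, Frow]
  congr 1
  refine Finset.sum_congr rfl fun y _ => ?_
  congr 2
  simp [Bq, Param.B']

/-- the general `S`-step. -/
theorem Frow_S_aux
    (hS : ∀ y, Θ y ∣[(2 : ℤ)] S = (-(1 / (p : ℂ))) • ∑ y', psi p (-Bq P p y y') • Θ y')
    (t : ZMod p) :
    Frow P p Θ t ∣[(2 : ℤ)] S = (-(1 / (p : ℂ))) •
      ∑ y', (∑ y, psi p (t * Nq P p y - Bq P p y y')) • Θ y' := by
  simp only [Frow, SlashAction.sum_slash, ModularForm.SL_smul_slash, hS]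
  simp only [smul_comm _ (-(1 / (p : ℂ))), ← Finset.smul_sum]
  congr 1
  simp only [Finset.smul_sum, smul_smul]
  rw [Finset.sum_comm]
  refine Finset.sum_congr rfl fun y' _ => ?_
  rw [Finset.sum_smul]
  refine Finset.sum_congr rfl fun y _ => ?_
  rw [← AddChar.map_add_eq_mul, sub_eq_add_neg]

theorem Frow_S_zero (D0 : (P.D : ZMod p) ≠ 0)
    (hS : ∀ y, Θ y ∣[(2 : ℤ)] S = (-(1 / (p : ℂ))) • ∑ y', psi p (-Bq P p y y') • Θ y') :
    Frow P p Θ 0 ∣[(2 : ℤ)] S = (-(p : ℂ)) • Θ 0 := by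
  have hp0 : (p : ℂ) ≠ 0 := by exact_mod_cast (Fact.out : p.Prime).ne_zero
  rw [Frow_S_aux P p hS]
  simp only [zero_mul, zero_sub, sum_psi_Bq P p D0]
  simp only [ite_smul, zero_smul, Finset.sum_ite_eq', Finset.mem_univ, if_true, smul_smul]
  congr 1
  field_simp

theorem Frow_S {t : ZMod p} (ht : t ≠ 0)
    (hS : ∀ y, Θ y ∣[(2 : ℤ)] S = (-(1 / (p : ℂ))) • ∑ y', psi p (-Bq P p y y') • Θ y') :
    Frow P p Θ t ∣[(2 : ℤ)] S = (-(gs P p t / (p : ℂ))) • Frow P p Θ (-t⁻¹) := by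
  rw [Frow_S_aux P p hS]
  simp only [sum_psi_square P p ht, Frow, Finset.smul_sum, smul_smul]
  refine Finset.sum_congr rfl fun y _ => ?_
  congr 1
  rw [neg_mul]
  ring_nf

/-- the `(ST)^3` trick. -/
theorem gs_one_eq (D0 : (P.D : ZMod p) ≠ 0)
    (hT : ∀ y, Θ y ∣[(2 : ℤ)] T = psi p (Nq P p y) • Θ y)
    (hS : ∀ y, Θ y ∣[(2 : ℤ)] S = (-(1 / (p : ℂ))) • ∑ y', psi p (-Bq P p y y') • Θ y')
    (h0 : Θ 0 ≠ 0) : gs P p 1 = -(p : ℂ) := by
  have hp0 : (p : ℂ) ≠ 0 := by exact_mod_cast (Fact.out : p.Prime).ne_zero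
  have h := slash_neg_one_two (Θ 0)
  rw [← STSTST] at h
  simp only [SlashAction.slash_mul] at h
  have e2 : (Θ 0 ∣[(2 : ℤ)] S) ∣[(2 : ℤ)] T = (-(1 / (p : ℂ))) • Frow P p Θ 1 := by
    rw [Theta0_S P p hS, ModularForm.SL_smul_slash, Frow_T P p hT, zero_add]
  have e3 : ((Θ 0 ∣[(2 : ℤ)] S) ∣[(2 : ℤ)] T) ∣[(2 : ℤ)] S =
      (-(1 / (p : ℂ)) * -(gs P p 1 / (p : ℂ))) • Frow P p Θ (-1) := by
    rw [e2, ModularForm.SL_smul_slash, Frow_S P p one_ne_zero hS, smul_smul, inv_one]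
  have e4 : (((Θ 0 ∣[(2 : ℤ)] S) ∣[(2 : ℤ)] T) ∣[(2 : ℤ)] S) ∣[(2 : ℤ)] T =
      (-(1 / (p : ℂ)) * -(gs P p 1 / (p : ℂ))) • Frow P p Θ 0 := by
    rw [e3, ModularForm.SL_smul_slash, Frow_T P p hT, neg_add_cancel]
  have e5 : ((((Θ 0 ∣[(2 : ℤ)] S) ∣[(2 : ℤ)] T) ∣[(2 : ℤ)] S) ∣[(2 : ℤ)] T) ∣[(2 : ℤ)] S =
      (-(1 / (p : ℂ)) * -(gs P p 1 / (p : ℂ)) * -(p : ℂ)) • Θ 0 := by
    rw [e4, ModularForm.SL_smul_slash, Frow_S_zero P p D0 hS, smul_smul]
  rw [e5, ModularForm.SL_smul_slash, Theta0_T P p hT] at h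
  have h1 : (-(1 / (p : ℂ)) * -(gs P p 1 / (p : ℂ)) * -(p : ℂ) - 1) • Θ 0 = 0 := by
    rw [sub_smul, h, one_smul, sub_self]
  rcases smul_eq_zero.mp h1 with h2 | h2
  · field_simp at h2
    linear_combination -h2
  · exact absurd h2 h0


/-- the right hand side of the row-0 formula. -/
noncomputable def rowRHS (Θ : ZMod p × ZMod p → ℍ → ℂ) (c d : ZMod p) : ℍ → ℂ :=
  if c = 0 then Θ 0 else (-(1 / (p : ℂ))) • Frow P p Θ (d / c)

theorem rowRHS_T (hT : ∀ y, Θ y ∣[(2 : ℤ)] T = psi p (Nq P p y) • Θ y) (c d : ZMod p) :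
    rowRHS P p Θ c d ∣[(2 : ℤ)] T = rowRHS P p Θ c (c + d) := by
  unfold rowRHS
  by_cases hc : c = 0
  · simp only [hc, if_true]
    exact Theta0_T P p hT
  · simp only [hc, if_false]
    rw [ModularForm.SL_smul_slash, Frow_T P p hT]
    congr 2
    field_simp
    ring

theorem rowRHS_T_inv (hT : ∀ y, Θ y ∣[(2 : ℤ)] T = psi p (Nq P p y) • Θ y) (c d : ZMod p) :
    rowRHS P p Θ c d ∣[(2 : ℤ)] T⁻¹ = rowRHS P p Θ c (d - c) := by
  unfold rowRHS
  by_cases hc : c = 0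
  · simp only [hc, if_true]
    exact Theta0_T_inv P p hT
  · simp only [hc, if_false]
    rw [ModularForm.SL_smul_slash, Frow_T_inv P p hT]
    congr 2
    field_simp

theorem rowRHS_S (hp2 : p ≠ 2) (D0 : (P.D : ZMod p) ≠ 0)
    (hT : ∀ y, Θ y ∣[(2 : ℤ)] T = psi p (Nq P p y) • Θ y)
    (hS : ∀ y, Θ y ∣[(2 : ℤ)] S = (-(1 / (p : ℂ))) • ∑ y', psi p (-Bq P p y y') • Θ y')
    (h0 : Θ 0 ≠ 0) (c d : ZMod p) (hcd : c ≠ 0 ∨ d ≠ 0) :
    rowRHS P p Θ c d ∣[(2 : ℤ)] S = rowRHS P p Θ d (-c) := by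
  have hp0 : (p : ℂ) ≠ 0 := by exact_mod_cast (Fact.out : p.Prime).ne_zero
  unfold rowRHS
  by_cases hc : c = 0
  · have hd : d ≠ 0 := hcd.resolve_left (not_not.mpr hc)
    simp only [hc, hd, if_true, if_false, neg_zero, zero_div]
    exact Theta0_S P p hS
  · by_cases hd : d = 0
    · simp only [hc, hd, if_true, if_false, zero_div]
      rw [ModularForm.SL_smul_slash, Frow_S_zero P p D0 hS, smul_smul]
      have : -(1 / (p : ℂ)) * -(p : ℂ) = 1 := by field_simp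
      rw [this, one_smul]
    · simp only [hc, hd, if_false]
      have ht : d / c ≠ 0 := div_ne_zero hd hc
      rw [ModularForm.SL_smul_slash, Frow_S P p ht hS, gs_eq_gs_one P p hp2 D0 ht,
        gs_one_eq P p D0 hT hS h0]
      have e1 : -(-(p : ℂ) / (p : ℂ)) = 1 := by field_simp
      have e2 : -(d / c)⁻¹ = -c / d := by field_simp
      rw [e1, one_smul, e2]

/-- **(T3)** the row-0 formula. -/
theorem row0 (hp2 : p ≠ 2) (D0 : (P.D : ZMod p) ≠ 0)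
    (hT : ∀ y, Θ y ∣[(2 : ℤ)] T = psi p (Nq P p y) • Θ y)
    (hS : ∀ y, Θ y ∣[(2 : ℤ)] S = (-(1 / (p : ℂ))) • ∑ y', psi p (-Bq P p y y') • Θ y')
    (h0 : Θ 0 ≠ 0) (γ : SL(2, ℤ)) :
    Θ 0 ∣[(2 : ℤ)] γ = rowRHS P p Θ ((γ 1 0 : ℤ) : ZMod p) ((γ 1 1 : ℤ) : ZMod p) := by
  have hcop : ∀ γ : SL(2, ℤ), ((γ 1 0 : ℤ) : ZMod p) ≠ 0 ∨ ((γ 1 1 : ℤ) : ZMod p) ≠ 0 := by
    intro γ
    by_contra hcon
    push Not at hcon
    have hdet := Matrix.SpecialLinearGroup.det_coe γ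
    rw [Matrix.det_fin_two] at hdet
    have := congrArg (Int.cast : ℤ → ZMod p) hdet
    push_cast at this
    rw [hcon.1, hcon.2] at this
    simp at this
  have stepS : ∀ γ : SL(2, ℤ),
      Θ 0 ∣[(2 : ℤ)] γ = rowRHS P p Θ ((γ 1 0 : ℤ) : ZMod p) ((γ 1 1 : ℤ) : ZMod p) →
      Θ 0 ∣[(2 : ℤ)] (γ * S) =
        rowRHS P p Θ (((γ * S) 1 0 : ℤ) : ZMod p) (((γ * S) 1 1 : ℤ) : ZMod p) := by
    intro γ ih
    rw [SlashAction.slash_mul, ih, rowRHS_S P p hp2 D0 hT hS h0 _ _ (hcop γ)]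
    congr 1 <;>
      simp [Matrix.SpecialLinearGroup.coe_mul, coe_S, Matrix.mul_apply, Fin.sum_univ_two]
  have hγ : γ ∈ Subgroup.closure ({S, T} : Set SL(2, ℤ)) := by
    simp [SpecialLinearGroup.SL2Z_generators]
  induction hγ using Subgroup.closure_induction_right with
  | one =>
    rw [SlashAction.slash_one]
    simp [rowRHS]
  | mul_right γ _ g hg ih =>
    rcases hg with rfl | rfl
    · exact stepS γ ih
    · rw [SlashAction.slash_mul, ih, rowRHS_T P p hT]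
      congr 1 <;>
        simp [Matrix.SpecialLinearGroup.coe_mul, coe_T, Matrix.mul_apply, Fin.sum_univ_two]
  | mul_inv_cancel γ _ g hg ih =>
    rcases hg with rfl | rfl
    · rw [S_inv_eq, ← mul_assoc, ← mul_assoc]
      exact stepS _ (stepS _ (stepS γ ih))
    · rw [SlashAction.slash_mul, ih, rowRHS_T_inv P p hT]
      congr 1 <;>
        simp [Matrix.SpecialLinearGroup.coe_mul, Matrix.mul_apply, Fin.sum_univ_two]
      ring

end abstract

namespace Param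

variable {P : Param} {p : ℕ}

theorem nu_zero : P.nu p 0 0 = 0 := by
  funext i
  fin_cases i <;> simp [nu]

theorem Valid.theta_zero_ne_zero (h : P.Valid p) (hp : 0 < p) : P.theta 0 ≠ 0 := by
  intro h0
  have h1 := Complex.hasSum_re (h.hasSum_theta hp 0 UpperHalfPlane.I)
  rw [h0] at h1
  have h2 : ∀ x : Fin 4 → ℤ, (cexp (2 * Real.pi * I *
      (P.Q (fun i => (x i : ℝ) + (0 : Fin 4 → ℝ) i) : ℝ) * (UpperHalfPlane.I : ℍ))).re =
      Real.exp (-(2 * Real.pi) * P.Q (fun i => (x i : ℝ) + (0 : Fin 4 → ℝ) i)) := by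
    intro x
    have : (2 * Real.pi * I * (P.Q (fun i => (x i : ℝ) + (0 : Fin 4 → ℝ) i) : ℝ) *
        ((UpperHalfPlane.I : ℍ) : ℂ) : ℂ) =
        ((-(2 * Real.pi) * P.Q (fun i => (x i : ℝ) + (0 : Fin 4 → ℝ) i) : ℝ) : ℂ) := by
      rw [UpperHalfPlane.coe_I]
      push_cast
      linear_combination (2 * Real.pi * (P.Q (fun i => (x i : ℝ) + (0 : Fin 4 → ℝ) i) : ℝ) : ℂ)
        * Complex.I_mul_I
    rw [this, ← Complex.ofReal_exp, Complex.ofReal_re]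
  simp only [h2] at h1
  have h3 := h1.summable.tsum_pos (fun x => (Real.exp_pos _).le) 0 (Real.exp_pos _)
  rw [h1.tsum_eq] at h3
  simp at h3

/-- **(T3)** modularity from the two transformation laws (T2). -/
theorem Valid.isModular_of [Fact p.Prime] (h : P.Valid p) (hp2 : p ≠ 2)
    (hT : ∀ y : ZMod p × ZMod p, P.theta (P.nu p y.1.val y.2.val) ∣[(2 : ℤ)] T =
      psi p (Nq P p y) • P.theta (P.nu p y.1.val y.2.val))
    (hS : ∀ y : ZMod p × ZMod p, P.theta (P.nu p y.1.val y.2.val) ∣[(2 : ℤ)] S =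
      (-(1 / (p : ℂ))) • ∑ y' : ZMod p × ZMod p,
        psi p (-Bq P p y y') • P.theta (P.nu p y'.1.val y'.2.val)) :
    P.IsModular p := by
  have hp0 : 0 < p := (Fact.out : p.Prime).pos
  have D0 : (P.D : ZMod p) ≠ 0 := by
    rw [Ne, ZMod.intCast_zmod_eq_zero_iff_dvd]
    exact h.ndvd
  have e0 : P.theta (P.nu p ((0 : ZMod p × ZMod p).1.val) ((0 : ZMod p × ZMod p).2.val)) =
      P.theta 0 := by
    simp [nu_zero]
  have key := row0 P p (Θ := fun y => P.theta (P.nu p y.1.val y.2.val)) hp2 D0 hT hS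
    (by rw [e0]; exact h.theta_zero_ne_zero hp0)
  simp only [e0] at key
  constructor
  · intro γ hγ
    rw [CongruenceSubgroup.Gamma0_mem] at hγ
    rw [key, rowRHS, if_pos hγ, e0]
  · intro γ
    rw [key, rowRHS]
    split_ifs
    · rw [e0]
      exact h.isBoundedAtImInfty_theta hp0 0
    · exact (Filter.boundedFilterSubmodule ℂ atImInfty).smul_mem _
        ((Filter.boundedFilterSubmodule ℂ atImInfty).sum_mem fun ν _ =>
          (Filter.boundedFilterSubmodule ℂ atImInfty).smul_mem _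
            (h.isBoundedAtImInfty_theta hp0 _))

end Param

end Fermat.Agent.S16.Theta
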