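import Mathlib
import Fermat.Agent.S16.ThetaFin

set_option autoImplicit false

/-!
# S16 [T2]: the `T`-step and the `S`-step for the theta series `Θ_y`
-/

namespace Fermat.Agent.S16.Theta

open Complex UpperHalfPlane ModularGroup

namespace Param

variable (P : Param)

/-- the Gram matrix `A` as a map. -/
def Amap {R : Type*} [CommRing R] (x : Fin 4 → R) : Fin 4 → R :=
  ![2 * x 0 + P.Tt * x 1 + P.r * x 3, P.Tt * x 0 + 2 * P.Na * x 1 - P.r * x 2,
    -P.r * x 1 + P.s * (2 * x 2 + P.Tt * x 3), P.r * x 0 + P.s * (P.Tt * x 2 + 2 * P.Na * x 3)]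

/-- `p A⁻¹` as a map. -/
def Bmap {R : Type*} [CommRing R] (v : Fin 4 → R) : Fin 4 → R :=
  ![P.s * (2 * P.Na * v 0 - P.Tt * v 1) - P.r * v 3, P.s * (-P.Tt * v 0 + 2 * v 1) + P.r * v 2,
    P.r * v 1 + 2 * P.Na * v 2 - P.Tt * v 3, -P.r * v 0 - P.Tt * v 2 + 2 * v 3]

theorem Valid.cast_eq {p : ℕ} (hP : P.Valid p) (R : Type*) [CommRing R] :
    (p : R) = (4 * (P.Na : R) - (P.Tt : R) ^ 2) * P.s - (P.r : R) ^ 2 := by
  have h := hP.eq
  rw [Param.D] at h
  have h' : ((p : ℤ) : R) = (((4 * P.Na - P.Tt ^ 2) * P.s - P.r ^ 2 : ℤ) : R) := by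
    congr 1
    linarith
  push_cast at h'
  exact h'

theorem Amap_Bmap {p : ℕ} (hP : P.Valid p) {R : Type*} [CommRing R] (v : Fin 4 → R) :
    P.Amap (P.Bmap v) = fun i => (p : R) * v i := by
  funext i
  rw [hP.cast_eq P R]
  fin_cases i <;> simp [Amap, Bmap] <;> ring

theorem Bmap_Amap {p : ℕ} (hP : P.Valid p) {R : Type*} [CommRing R] (v : Fin 4 → R) :
    P.Bmap (P.Amap v) = fun i => (p : R) * v i := by
  funext i
  rw [hP.cast_eq P R]
  fin_cases i <;> simp [Amap, Bmap] <;> ring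

theorem Qd_Amap {p : ℕ} (hP : P.Valid p) {R : Type*} [CommRing R] (x : Fin 4 → R) :
    P.Qd (P.Amap x) = (p : R) * P.QR x := by
  rw [hP.cast_eq P R]
  simp [Amap, Qd, QR, N']
  ring

theorem Qd_eq_QR {R : Type*} [CommRing R] (u : Fin 4 → R) :
    P.Qd u = P.QR ![u 3, -u 2, u 1, -u 0] := by
  simp [Qd, QR, N']
  ring

/-- the range of `A` on `ℤ^4`. -/
theorem exists_Amap_eq {p : ℕ} [Fact p.Prime] (hP : P.Valid p) (v : Fin 4 → ℤ)
    (h1 : (p : ℤ) ∣ P.r * v 1 + 2 * P.Na * v 2 - P.Tt * v 3)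
    (h2 : (p : ℤ) ∣ -P.r * v 0 - P.Tt * v 2 + 2 * v 3) :
    ∃ x : Fin 4 → ℤ, P.Amap x = v := by
  have hp : Prime (p : ℤ) := Nat.prime_iff_prime_int.mp Fact.out
  have hpe := hP.cast_eq P ℤ
  simp only [Int.cast_id] at hpe
  obtain ⟨k1, hk1⟩ := h1
  obtain ⟨k2, hk2⟩ := h2
  have h3 : (p : ℤ) ∣ P.D * (P.s * (2 * P.Na * v 0 - P.Tt * v 1) - P.r * v 3) := by
    refine ⟨(2 * P.Na * v 0 - P.Tt * v 1) - P.r * (P.Tt * k1 + 2 * P.Na * k2), ?_⟩
    have e : P.D * (P.s * (2 * P.Na * v 0 - P.Tt * v 1) - P.r * v 3) =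
        ((4 * P.Na - P.Tt ^ 2) * P.s - P.r ^ 2) * (2 * P.Na * v 0 - P.Tt * v 1) -
          P.r * (P.Tt * (P.r * v 1 + 2 * P.Na * v 2 - P.Tt * v 3) +
            2 * P.Na * (-P.r * v 0 - P.Tt * v 2 + 2 * v 3)) := by
      rw [Param.D]; ring
    rw [e, hk1, hk2, ← hpe]
    ring
  have h4 : (p : ℤ) ∣ P.D * (P.s * (-P.Tt * v 0 + 2 * v 1) + P.r * v 2) := by
    refine ⟨(-P.Tt * v 0 + 2 * v 1) - P.r * (-2 * k1 - P.Tt * k2), ?_⟩
    have e : P.D * (P.s * (-P.Tt * v 0 + 2 * v 1) + P.r * v 2) =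
        ((4 * P.Na - P.Tt ^ 2) * P.s - P.r ^ 2) * (-P.Tt * v 0 + 2 * v 1) -
          P.r * (-2 * (P.r * v 1 + 2 * P.Na * v 2 - P.Tt * v 3) -
            P.Tt * (-P.r * v 0 - P.Tt * v 2 + 2 * v 3)) := by
      rw [Param.D]; ring
    rw [e, hk1, hk2, ← hpe]
    ring
  obtain ⟨k3, hk3⟩ := (hp.dvd_or_dvd h3).resolve_left hP.ndvd
  obtain ⟨k4, hk4⟩ := (hp.dvd_or_dvd h4).resolve_left hP.ndvd
  refine ⟨![k3, k4, k1, k2], ?_⟩
  have hB : P.Bmap v = fun i => (p : ℤ) * (![k3, k4, k1, k2] : Fin 4 → ℤ) i := by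
    funext i
    fin_cases i
    · simpa [Bmap] using hk3
    · simpa [Bmap] using hk4
    · simpa [Bmap] using hk1
    · simpa [Bmap] using hk2
  have hAB := P.Amap_Bmap hP v
  rw [hB] at hAB
  have hlin : P.Amap (fun i => (p : ℤ) * (![k3, k4, k1, k2] : Fin 4 → ℤ) i) =
      fun i => (p : ℤ) * P.Amap (![k3, k4, k1, k2] : Fin 4 → ℤ) i := by
    funext i
    fin_cases i <;> simp [Amap] <;> ring
  rw [hlin] at hAB
  funext i
  have := congrFun hAB i
  exact mul_left_cancel₀ hp.ne_zero this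

theorem Amap_injective {p : ℕ} [Fact p.Prime] (hP : P.Valid p) :
    Function.Injective (P.Amap : (Fin 4 → ℤ) → (Fin 4 → ℤ)) := by
  intro x y h
  have h1 := congrArg P.Bmap h
  rw [P.Bmap_Amap hP, P.Bmap_Amap hP] at h1
  funext i
  have := congrFun h1 i
  have hp : ((p : ℕ) : ℤ) ≠ 0 := Nat.cast_ne_zero.mpr (Fact.out : p.Prime).ne_zero
  exact mul_left_cancel₀ hp this

/-- translation invariance in the characteristic. -/
theorem theta_add_int (ν : Fin 4 → ℝ) (m : Fin 4 → ℤ) :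
    P.theta (fun i => ν i + m i) = P.theta ν := by
  funext z
  rw [theta, theta]
  rw [← (Equiv.addRight m).tsum_eq (fun x : Fin 4 → ℤ =>
    cexp (2 * Real.pi * Complex.I * (P.Q (fun i => (x i : ℝ) + ν i) : ℝ) * z))]
  refine tsum_congr fun x => ?_
  have e : (fun i => (x i : ℝ) + (ν i + m i)) =
      fun i => (((Equiv.addRight m) x i : ℤ) : ℝ) + ν i := by
    funext i
    simp only [Equiv.coe_addRight, Pi.add_apply]
    push_cast
    ring
  rw [e]

end Param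

section TS

variable (P : Param) (p : ℕ) [Fact p.Prime]

/-- `Θ_y`. -/
noncomputable def th (y : ZMod p × ZMod p) (z : ℍ) : ℂ :=
  P.theta (P.nu p (y.1.val : ℤ) (y.2.val : ℤ)) z

theorem theta_nu_eq_th (a b : ℤ) : P.theta (P.nu p a b) = th P p ((a : ZMod p), (b : ZMod p)) := by
  funext z
  rw [th]
  have hp0 : (p : ℝ) ≠ 0 := Nat.cast_ne_zero.mpr (Fact.out : p.Prime).ne_zero
  have ha : (((a : ZMod p).val : ℕ) : ℤ) = a % p := ZMod.val_intCast a
  have hb : (((b : ZMod p).val : ℕ) : ℤ) = b % p := ZMod.val_intCast b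
  simp only [ha, hb]
  have e : P.nu p a b = fun i => P.nu p (a % p) (b % p) i +
      ((![-(P.r * (b / p)), P.r * (a / p), 2 * P.Na * (a / p) - P.Tt * (b / p),
        -P.Tt * (a / p) + 2 * (b / p)] : Fin 4 → ℤ) i : ℝ) := by
    have ea : (a : ℝ) = ((a % p : ℤ) : ℝ) + p * ((a / p : ℤ) : ℝ) := by
      exact_mod_cast (Int.emod_add_mul_ediv a p).symm
    have eb : (b : ℝ) = ((b % p : ℤ) : ℝ) + p * ((b / p : ℤ) : ℝ) := by
      exact_mod_cast (Int.emod_add_mul_ediv b p).symm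
    funext i
    fin_cases i <;> simp [Param.nu] <;> (first | rw [ea, eb] | rw [ea] | rw [eb]) <;>
      field_simp <;> ring
  rw [e, P.theta_add_int]

variable {P p}

theorem Q_add_nu' (hP : P.Valid p) (x : Fin 4 → ℤ) (a b : ℤ) :
    P.Q (fun i => (x i : ℝ) + P.nu p a b i) =
      ((P.Qz x + x 2 * a + x 3 * b : ℤ) : ℝ) + ((P.N' a b : ℤ) : ℝ) / p := by
  have hp0 : (p : ℝ) ≠ 0 := Nat.cast_ne_zero.mpr (Fact.out : p.Prime).ne_zero
  have hp := hP.cast_eq P ℝ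
  simp only [Param.Q, Param.Qz, Param.QR, Param.nu, Param.N']
  simp only [Matrix.cons_val_zero, Matrix.cons_val_one, Matrix.cons_val]
  push_cast
  field_simp
  rw [hp]
  ring

theorem psi_Nq (y : ZMod p × ZMod p) :
    psi p (Nq P p y) = cexp (2 * Real.pi * Complex.I *
      ((P.N' (y.1.val : ℤ) (y.2.val : ℤ) : ℤ) : ℂ) / p) := by
  rw [← ZMod.stdAddChar_coe]
  congr 1
  simp [Nq, Param.N']

theorem th_T (hP : P.Valid p) (y : ZMod p × ZMod p) (z : ℍ) :
    th P p y ((1 : ℝ) +ᵥ z) = psi p (Nq P p y) * th P p y z := by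
  rw [th, th, Param.theta, Param.theta, ← tsum_mul_left]
  refine tsum_congr fun x => ?_
  rw [Q_add_nu' hP, psi_Nq, ← Complex.exp_add, UpperHalfPlane.coe_vadd]
  set n : ℤ := P.Qz x + x 2 * (y.1.val : ℤ) + x 3 * (y.2.val : ℤ) with hn
  set N : ℤ := P.N' (y.1.val : ℤ) (y.2.val : ℤ) with hN
  have e : 2 * (Real.pi : ℂ) * Complex.I * (((n : ℝ) + (N : ℝ) / (p : ℝ) : ℝ) : ℂ) *
      (((1 : ℝ) : ℂ) + (z : ℂ)) =
      (2 * (Real.pi : ℂ) * Complex.I * (N : ℂ) / p +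
        2 * (Real.pi : ℂ) * Complex.I * (((n : ℝ) + (N : ℝ) / (p : ℝ) : ℝ) : ℂ) * (z : ℂ)) +
        n * (2 * (Real.pi : ℂ) * Complex.I) := by
    push_cast
    ring
  rw [e, Complex.exp_add _ ((n : ℂ) * _), Complex.exp_int_mul_two_pi_mul_I, mul_one]

/-- the Gaussian factor of the dual sum. -/
noncomputable def Eterm (P : Param) (p : ℕ) (z : ℍ) (u : Fin 4 → ℤ) : ℂ :=
  cexp (2 * Real.pi * Complex.I * (-((P.Qd (fun i => (u i : ℝ)) : ℝ) : ℂ) / (p * z)))

/-- third row of `p A⁻¹`. -/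
def W1 (P : Param) (u : Fin 4 → ℤ) : ℤ := P.r * u 1 + 2 * P.Na * u 2 - P.Tt * u 3

/-- fourth row of `p A⁻¹`. -/
def W2 (P : Param) (u : Fin 4 → ℤ) : ℤ := -P.r * u 0 - P.Tt * u 2 + 2 * u 3

theorem dual_term (y' : ZMod p × ZMod p) (u : Fin 4 → ℤ) (z : ℍ) :
    cexp (2 * Real.pi * Complex.I * (-((P.Qd (fun i => (u i : ℝ)) : ℝ) : ℂ) / (p * z) +
      ∑ i, (u i : ℂ) * (P.nu p (y'.1.val : ℤ) (y'.2.val : ℤ) i : ℂ))) =
    Eterm P p z u * psi p (y'.1 * (W1 P u : ZMod p) + y'.2 * (W2 P u : ZMod p)) := by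
  have hp0 : (p : ℂ) ≠ 0 := Nat.cast_ne_zero.mpr (Fact.out : p.Prime).ne_zero
  have e1 : y'.1 * (W1 P u : ZMod p) + y'.2 * (W2 P u : ZMod p) =
      (((y'.1.val : ℤ) * W1 P u + (y'.2.val : ℤ) * W2 P u : ℤ) : ZMod p) := by
    simp
  rw [e1, ZMod.stdAddChar_coe, Eterm, ← Complex.exp_add]
  congr 1
  rw [mul_add]
  congr 1
  rw [Fin.sum_univ_four]
  simp only [Param.nu, W1, W2, Matrix.cons_val_zero, Matrix.cons_val_one, Matrix.cons_val]
  push_cast
  field_simp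
  ring

theorem coe_S_smul (z : ℍ) : ((S • z : ℍ) : ℂ) = (-(z : ℂ))⁻¹ := by
  rw [UpperHalfPlane.modular_S_smul]

theorem norm_Eterm (z : ℍ) (u : Fin 4 → ℤ) :
    ‖Eterm P p z u‖ = Real.exp (-(2 * Real.pi * (S • z).im / p) *
      P.Q (fun i => ((![u 3, -u 2, u 1, -u 0] : Fin 4 → ℤ) i : ℝ))) := by
  have hp0 : (p : ℂ) ≠ 0 := Nat.cast_ne_zero.mpr (Fact.out : p.Prime).ne_zero
  have hz : (z : ℂ) ≠ 0 := UpperHalfPlane.ne_zero z
  rw [Eterm, Complex.norm_exp]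
  congr 1
  have e1 : (fun i => ((![u 3, -u 2, u 1, -u 0] : Fin 4 → ℤ) i : ℝ)) =
      ![(u 3 : ℝ), -(u 2 : ℝ), (u 1 : ℝ), -(u 0 : ℝ)] := by
    funext i
    fin_cases i <;> simp
  rw [e1, Param.Q, ← Param.Qd_eq_QR P (fun i => (u i : ℝ))]
  set q : ℝ := P.Qd (fun i => (u i : ℝ)) with hq
  have e2 : 2 * (Real.pi : ℂ) * Complex.I * (-(q : ℂ) / (p * z)) =
      ((2 * Real.pi * q / p : ℝ) : ℂ) * (Complex.I * ((S • z : ℍ) : ℂ)) := by
    rw [coe_S_smul]
    push_cast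
    field_simp
  rw [e2, Complex.re_ofReal_mul, Complex.I_mul_re, UpperHalfPlane.coe_im]
  ring

/-- the summability hypothesis. -/
def SumHyp (P : Param) : Prop :=
  ∀ a : ℝ, 0 < a → Summable fun x : Fin 4 → ℤ => Real.exp (-a * P.Q (fun i => (x i : ℝ)))

theorem summable_norm_Eterm (hsum : SumHyp P) (z : ℍ) :
    Summable fun u : Fin 4 → ℤ => ‖Eterm P p z u‖ := by
  have hp0 : (0 : ℝ) < p := Nat.cast_pos.mpr (Fact.out : p.Prime).pos
  have ha : 0 < 2 * Real.pi * (S • z).im / p := by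
    have := (S • z).im_pos
    positivity
  have hinj : Function.Injective (fun u : Fin 4 → ℤ => (![u 3, -u 2, u 1, -u 0] : Fin 4 → ℤ)) := by
    intro u v h
    have h0 := congrFun h 0
    have h1 := congrFun h 1
    have h2 := congrFun h 2
    have h3 := congrFun h 3
    simp at h0 h1 h2 h3
    funext i
    fin_cases i
    · exact h3
    · exact h2
    · exact h1
    · exact h0
  have := (hsum _ ha).comp_injective hinj
  refine this.congr fun u => ?_
  rw [norm_Eterm]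
  rfl

theorem th_eq_dual (hinv : P.InvFormula p) (y' : ZMod p × ZMod p) (z : ℍ) :
    th P p y' z = -(1 / ((p : ℂ) * (z : ℂ) ^ 2)) *
      ∑' u : Fin 4 → ℤ, Eterm P p z u *
        psi p (y'.1 * (W1 P u : ZMod p) + y'.2 * (W2 P u : ZMod p)) := by
  rw [th, hinv]
  congr 1
  exact tsum_congr fun u => dual_term y' u z

/-- the affine map `x ↦ A x - (0,0,a,b)`. -/
def gmap (P : Param) (a b : ℤ) (x : Fin 4 → ℤ) : Fin 4 → ℤ :=
  fun i => P.Amap x i - (![0, 0, a, b] : Fin 4 → ℤ) i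

theorem gmap_injective (hP : P.Valid p) (a b : ℤ) : Function.Injective (gmap P a b) := by
  intro x y h
  apply P.Amap_injective hP
  funext i
  have := congrFun h i
  simp only [gmap] at this
  linarith

theorem Eterm_gmap (hP : P.Valid p) (a b : ℤ) (z : ℍ) (x : Fin 4 → ℤ) :
    Eterm P p z (gmap P a b x) =
      cexp (2 * Real.pi * Complex.I * (P.Q (fun i => (x i : ℝ) + P.nu p (-a) (-b) i) : ℝ) *
        ((S • z : ℍ) : ℂ)) := by
  have hp0 : (p : ℝ) ≠ 0 := Nat.cast_ne_zero.mpr (Fact.out : p.Prime).ne_zero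
  have hp0' : (p : ℂ) ≠ 0 := Nat.cast_ne_zero.mpr (Fact.out : p.Prime).ne_zero
  have hz : (z : ℂ) ≠ 0 := UpperHalfPlane.ne_zero z
  have hp := hP.cast_eq P ℝ
  have e1 : (fun i => ((gmap P a b x i : ℤ) : ℝ)) =
      P.Amap (fun i => (x i : ℝ) + P.nu p (-a) (-b) i) := by
    funext i
    fin_cases i <;> simp [gmap, Param.Amap, Param.nu] <;> field_simp <;> rw [hp] <;> ring
  rw [Eterm, e1, P.Qd_Amap hP, coe_S_smul]
  congr 1
  push_cast
  field_simp

theorem sum_psi_th (hP : P.Valid p) (hinv : P.InvFormula p) (hsum : SumHyp P)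
    (y0 : ZMod p × ZMod p) (z : ℍ) :
    ∑ y', psi p (Bq P p y0 y') * th P p y' z =
      -((p : ℂ) / (z : ℂ) ^ 2) * th P p (-y0) (S • z) := by
  classical
  have hp0' : (p : ℂ) ≠ 0 := Nat.cast_ne_zero.mpr (Fact.out : p.Prime).ne_zero
  have hz : (z : ℂ) ≠ 0 := UpperHalfPlane.ne_zero z
  set c : ℂ := -(1 / ((p : ℂ) * (z : ℂ) ^ 2)) with hc
  set A1 : ZMod p := 2 * (P.Na : ZMod p) * y0.1 - P.Tt * y0.2 with hA1
  set A2 : ZMod p := -(P.Tt : ZMod p) * y0.1 + 2 * y0.2 with hA2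
  -- step 1: exchange the sums
  have hs : ∀ y' : ZMod p × ZMod p, Summable fun u : Fin 4 → ℤ =>
      psi p (Bq P p y0 y') * (Eterm P p z u *
        psi p (y'.1 * (W1 P u : ZMod p) + y'.2 * (W2 P u : ZMod p))) := by
    intro y'
    refine Summable.of_norm ?_
    refine (summable_norm_Eterm (p := p) hsum z).congr fun u => ?_
    rw [norm_mul, norm_mul, AddChar.norm_apply, AddChar.norm_apply, one_mul, mul_one]
  have h1 : ∑ y', psi p (Bq P p y0 y') * th P p y' z =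
      c * ∑' u : Fin 4 → ℤ, ∑ y' : ZMod p × ZMod p, psi p (Bq P p y0 y') * (Eterm P p z u *
        psi p (y'.1 * (W1 P u : ZMod p) + y'.2 * (W2 P u : ZMod p))) := by
    rw [Summable.tsum_finsetSum (fun y' _ => hs y'), Finset.mul_sum]
    refine Finset.sum_congr rfl fun y' _ => ?_
    rw [th_eq_dual hinv, tsum_mul_left]
    ring
  -- step 2: orthogonality
  have h2 : ∀ u : Fin 4 → ℤ, ∑ y' : ZMod p × ZMod p, psi p (Bq P p y0 y') * (Eterm P p z u *
        psi p (y'.1 * (W1 P u : ZMod p) + y'.2 * (W2 P u : ZMod p))) =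
      if (A1 + (W1 P u : ZMod p) = 0 ∧ A2 + (W2 P u : ZMod p) = 0) then
        (p : ℂ) ^ 2 * Eterm P p z u else 0 := by
    intro u
    have := sum_psi_pair p (A1 + (W1 P u : ZMod p)) (A2 + (W2 P u : ZMod p))
    have e : ∀ y' : ZMod p × ZMod p, psi p (Bq P p y0 y') * (Eterm P p z u *
        psi p (y'.1 * (W1 P u : ZMod p) + y'.2 * (W2 P u : ZMod p))) =
        Eterm P p z u * psi p (y'.1 * (A1 + (W1 P u : ZMod p)) + y'.2 * (A2 + (W2 P u : ZMod p))) := by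
      intro y'
      have : y'.1 * (A1 + (W1 P u : ZMod p)) + y'.2 * (A2 + (W2 P u : ZMod p)) =
          Bq P p y0 y' + (y'.1 * (W1 P u : ZMod p) + y'.2 * (W2 P u : ZMod p)) := by
        simp only [Bq, Param.B', hA1, hA2]
        ring
      rw [this, AddChar.map_add_eq_mul (psi p) (Bq P p y0 y')]
      ring
    simp_rw [e]
    rw [← Finset.mul_sum, this]
    split_ifs <;> ring
  simp_rw [h2] at h1
  rw [h1]
  -- step 3: reindex
  set a0 : ℤ := (y0.1.val : ℤ) with ha0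
  set b0 : ℤ := (y0.2.val : ℤ) with hb0
  have ha0' : (a0 : ZMod p) = y0.1 := by simp [ha0]
  have hb0' : (b0 : ZMod p) = y0.2 := by simp [hb0]
  have h3 := (gmap_injective hP a0 b0).tsum_eq (f := fun u : Fin 4 → ℤ =>
      if (A1 + (W1 P u : ZMod p) = 0 ∧ A2 + (W2 P u : ZMod p) = 0) then
        (p : ℂ) ^ 2 * Eterm P p z u else 0) (by
    intro u hu
    rw [Function.mem_support] at hu
    have hcond : A1 + (W1 P u : ZMod p) = 0 ∧ A2 + (W2 P u : ZMod p) = 0 := by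
      by_contra hcon
      exact hu (if_neg hcon)
    obtain ⟨x, hx⟩ := P.exists_Amap_eq hP (fun i => u i + (![0, 0, a0, b0] : Fin 4 → ℤ) i)
      (by
        rw [← ZMod.intCast_zmod_eq_zero_iff_dvd]
        have := hcond.1
        rw [hA1, ← ha0', ← hb0'] at this
        simp only [W1] at this
        simp only [Matrix.cons_val_zero, Matrix.cons_val_one, Matrix.cons_val]
        push_cast at this ⊢
        linear_combination this)
      (by
        rw [← ZMod.intCast_zmod_eq_zero_iff_dvd]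
        have := hcond.2
        rw [hA2, ← ha0', ← hb0'] at this
        simp only [W2] at this
        simp only [Matrix.cons_val_zero, Matrix.cons_val_one, Matrix.cons_val]
        push_cast at this ⊢
        linear_combination this)
    refine ⟨x, ?_⟩
    funext i
    simp only [gmap, hx]
    ring)
  rw [← h3]
  have h4 : ∀ x : Fin 4 → ℤ, A1 + (W1 P (gmap P a0 b0 x) : ZMod p) = 0 ∧
      A2 + (W2 P (gmap P a0 b0 x) : ZMod p) = 0 := by
    intro x
    have hpz := hP.cast_eq P (ZMod p)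
    rw [ZMod.natCast_self] at hpz
    constructor
    · rw [hA1, ← ha0', ← hb0']
      simp only [W1, gmap, Param.Amap, Matrix.cons_val_zero, Matrix.cons_val_one, Matrix.cons_val]
      push_cast
      linear_combination (-(x 2 : ZMod p)) * hpz
    · rw [hA2, ← ha0', ← hb0']
      simp only [W2, gmap, Param.Amap, Matrix.cons_val_zero, Matrix.cons_val_one, Matrix.cons_val]
      push_cast
      linear_combination (-(x 3 : ZMod p)) * hpz
  simp_rw [if_pos (h4 _), Eterm_gmap hP]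
  rw [tsum_mul_left]
  have h5 : th P p (-y0) (S • z) = P.theta (P.nu p (-a0) (-b0)) (S • z) := by
    rw [theta_nu_eq_th]
    congr 1
    ext <;> simp [ha0', hb0']
  have key : ∀ T : ℂ, c * ((p : ℂ) ^ 2 * T) = -((p : ℂ) / (z : ℂ) ^ 2) * T := by
    intro T
    rw [hc]
    field_simp
  rw [h5, Param.theta]
  exact key _

/-- the `S`-step. -/
theorem th_S (hP : P.Valid p) (hinv : P.InvFormula p) (hsum : SumHyp P)
    (y0 : ZMod p × ZMod p) (z : ℍ) :
    th P p y0 (S • z) * (z : ℂ) ^ (-2 : ℤ) =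
      -(1 / (p : ℂ)) * ∑ y', psi p (- Bq P p y0 y') * th P p y' z := by
  have hp0' : (p : ℂ) ≠ 0 := Nat.cast_ne_zero.mpr (Fact.out : p.Prime).ne_zero
  have hz : (z : ℂ) ≠ 0 := UpperHalfPlane.ne_zero z
  have h := sum_psi_th hP hinv hsum (-y0) z
  rw [neg_neg] at h
  simp_rw [Bq_neg_left] at h
  rw [h, zpow_neg]
  have : (z : ℂ) ^ (2 : ℤ) = (z : ℂ) ^ 2 := by norm_cast
  rw [this]
  field_simp

end TS

end Fermat.Agent.S16.Theta
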