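import Mathlib
import Fermat.Agent.S16.UDefs
import Fermat.Agent.S16.ToolkitA
import Fermat.Agent.S16.SturmNorm

/-! # S16 [K]: the toolkit at prime level `p` -/

set_option autoImplicit false

namespace Fermat.Agent.S16

open UpperHalfPlane ModularForm ModularFormClass CongruenceSubgroup PowerSeries
open scoped MatrixGroups Manifold

/-- the toolkit at prime level `p`: `M k = MK p k`. -/
noncomputable def toolkit (p : ℕ) [Fact p.Prime] : Toolkit p where
  M := MK p
  mul_mem := MK_mul_mem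
  swap_mem := MK_swap_mem
  lvl1_mem := MK_lvl1_mem
  trace := MK_trace
  sturm := fun ℓ hℓ _ _ _ _ h hA hB n₁ n₂ h₁ h₂ hn => MK_sturm ℓ hℓ h hA hB n₁ n₂ h₁ h₂ hn

theorem toolkit_M (p : ℕ) [Fact p.Prime] : (toolkit p).M = MK p := rfl

theorem mem_toolkit (p : ℕ) [Fact p.Prime] (Φ : ModularForm (Gamma0 p) 2) :
    ∃ B, (qExpansion 1 Φ, B) ∈ (toolkit p).M 2 := mem_MK_two Φ

end Fermat.Agent.S16
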