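import Mathlib
import Fermat.Agent.S16.UDefs

set_option autoImplicit false

/-! # S16 [U]: congruences of power series modulo `ℓ^a ℤ_(ℓ)` -/

namespace Fermat.Agent.S16

open PowerSeries

/-- `A ≡ B mod ℓ^a` (difference in `ℓ^a • ℤ_(ℓ)⟦X⟧`) -/
def Cong (ℓ a : ℕ) (A B : ℂ⟦X⟧) : Prop := ∃ u ∈ intS ℓ, A = B + (ℓ : ℂ⟦X⟧) ^ a * u

end Fermat.Agent.S16
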