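import Mathlib
import Fermat.Agent.S16.UCong
import Fermat.Agent.S16.ToolkitA
import Fermat.Agent.S16.SturmNorm

set_option autoImplicit false

/-! # S16 [U]: parallel split of the upper bound, directly on `MK p k`
(REFERENCE ONLY -- never import this file).
Tools: `MK_mul_mem, MK_swap_mem, MK_lvl1_mem, MK_trace` (ToolkitA), `MK_sturm` (SturmNorm),
`MK p k` is a `Submodule ℂ`.  Each owner: file `S16/<Name>.lean`, the final theorem in namespace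
`Fermat.Agent.S16` with the exact name below, ALL auxiliary lemmas in the sub-namespace
`Fermat.Agent.S16.<Name>` (to avoid name clashes between the parallel files). -/

namespace Fermat.Agent.S16.UStubs

open PowerSeries

variable {p : ℕ} [Fact p.Prime]

/-- U0 (file S16/U0.lean): `w G = - U_p G` in weight 2 (MK_trace with h = 1, `M_2(SL₂ℤ) = 0`,
MK_swap_mem) -/
theorem MK_two_snd {A B : ℂ⟦X⟧} (h : (A, B) ∈ MK p 2) : B = -(Up p A) := sorry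

/-- U1 (file S16/U1.lean) -/
theorem U1 (ℓ a : ℕ) (hℓ : ℓ.Prime) (hne : ℓ ≠ p) {G G' : ℂ⟦X⟧} (h : (G, G') ∈ MK p 2)
    (hG : Cong ℓ a G 1) (hG' : Cong ℓ a G' (-1)) : ℓ ^ a ∣ p + 1 := sorry

/-- U2 (file S16/U2.lean) -/
theorem U2 (ℓ a : ℕ) (hℓ : ℓ.Prime) (hne : ℓ ≠ p) {G G' : ℂ⟦X⟧} (h : (G, G') ∈ MK p 2)
    (hG : Cong ℓ a G 1) (hG' : Cong ℓ a G' (-1)) (hp1 : ℓ ^ a ∣ p + 1) :
    ℓ ^ a ∣ 240 ∧ ℓ ^ a ∣ 504 := sorry

/-- U3 (file S16/U3.lean) -/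
theorem U3 {G G' : ℂ⟦X⟧} (h : (G, G') ∈ MK p 2)
    (hG : Cong 2 3 G 1) (hG' : Cong 2 3 G' (-1)) (hp1 : 8 ∣ p + 1) : False := sorry

/-- U4 (file S16/U4.lean) -/
theorem U4 (hp : 7 ≤ p) {G G' : ℂ⟦X⟧} (h : (G, G') ∈ MK p 2)
    (hG : Cong p 1 G 1) (hG' : Cong p 1 G' (-1)) : False := sorry

/-- UA (file S16/UA.lean): assembly + arithmetic, from U0..U4 -/
theorem upper_bound_MK (hp : 7 ≤ p) (M : ℕ) {A B : ℂ⟦X⟧}
    (hAB : (A, B) ∈ MK p 2) (h0 : coeff 0 A = ((p : ℂ) - 1) / 24)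
    (hj : ∀ j, 1 ≤ j → ∃ c : ℤ, coeff j A = (M : ℂ) * c) :
    M ∣ (p - 1) / Nat.gcd (p - 1) 12 := sorry

end Fermat.Agent.S16.UStubs
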