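import Mathlib
import Fermat.Agent.S28.Rat

set_option autoImplicit false

/-! # S16 (K2): algebra of orders of Laurent series over a domain -/

namespace Fermat.Agent.S16.W0

open ModularCurve Polynomial Fermat.Agent.S28

/-- orders under a twisted substitution `t ↦ u t^s`. -/
theorem order_of_coeff_rel {κ : Type} [CommRing κ] [IsDomain κ] (x y : LaurentSeries κ) (s : ℕ)
    (hs : 0 < s) (h1 : ∀ n : ℤ, ∃ v : κ, v ≠ 0 ∧ x.coeff ((s : ℤ) * n) = v * y.coeff n)
    (h2 : ∀ m : ℤ, ¬ (s : ℤ) ∣ m → x.coeff m = 0) (hy : y ≠ 0) :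
    x ≠ 0 ∧ x.order = (s : ℤ) * y.order := by
  have hs' : (0 : ℤ) < s := by exact_mod_cast hs
  have hc : x.coeff ((s : ℤ) * y.order) ≠ 0 := by
    obtain ⟨v, hv, h⟩ := h1 y.order
    rw [h]
    exact mul_ne_zero hv (fun h0 => hy (HahnSeries.coeff_order_eq_zero.mp h0))
  have hx : x ≠ 0 := by
    rintro rfl
    simp at hc
  refine ⟨hx, le_antisymm (HahnSeries.order_le_of_coeff_ne_zero hc) ?_⟩
  by_contra hlt
  push Not at hlt
  have hx0 : x.coeff x.order ≠ 0 := fun h0 => hx (HahnSeries.coeff_order_eq_zero.mp h0)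
  by_cases hd : (s : ℤ) ∣ x.order
  · obtain ⟨n, hn⟩ := hd
    obtain ⟨v, -, h⟩ := h1 n
    rw [hn] at hx0 hlt
    rw [h, HahnSeries.coeff_eq_zero_of_lt_order (lt_of_mul_lt_mul_left hlt hs'.le), mul_zero] at hx0
    exact hx0 rfl
  · exact hx0 (h2 _ hd)

theorem order_finset_prod' {κ : Type} [CommRing κ] [IsDomain κ] {Q : Type} (s : Finset Q)
    (U : Q → LaurentSeries κ) (hU : ∀ q ∈ s, U q ≠ 0) :
    (∏ q ∈ s, U q).order = ∑ q ∈ s, (U q).order := by
  classical
  induction s using Finset.induction_on with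
  | empty => simp
  | insert a s ha ih =>
    rw [Finset.prod_insert ha, Finset.sum_insert ha,
      HahnSeries.order_mul (hU a (Finset.mem_insert_self a s))
        (Finset.prod_ne_zero_iff.mpr fun q hq => hU q (Finset.mem_insert_of_mem hq)),
      ih fun q hq => hU q (Finset.mem_insert_of_mem hq)]

/-- a nonzero polynomial in a series with a pole has order `≤ 0`. -/
theorem order_eval₂_C_le {κ : Type} [CommRing κ] [IsDomain κ] (J : LaurentSeries κ)
    (hJ : J.order < 0) (P : κ[X]) (hP : P ≠ 0) :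
    (Polynomial.eval₂RingHom (HahnSeries.C : κ →+* LaurentSeries κ) J P).order ≤ 0 := by
  have hJ0 : J ≠ 0 := by
    rintro rfl
    simp at hJ
  have h1 : (Polynomial.eval₂RingHom (HahnSeries.C : κ →+* LaurentSeries κ) J P).coeff
      (P.natDegree • J.order) = P.leadingCoeff * (J ^ P.natDegree).coeff (P.natDegree • J.order) := by
    rw [Polynomial.coe_eval₂RingHom, Polynomial.eval₂_eq_sum_range, HahnSeries.coeff_sum,
      Finset.sum_range_succ, Finset.sum_eq_zero, zero_add, HahnSeries.C_mul_eq_smul,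
      HahnSeries.coeff_smul, smul_eq_mul]
    · rfl
    · intro i hi
      rw [HahnSeries.C_mul_eq_smul, HahnSeries.coeff_smul, HahnSeries.coeff_eq_zero_of_lt_order,
        smul_zero]
      rw [HahnSeries.order_pow]
      have hi' : (i : ℤ) < P.natDegree := by exact_mod_cast Finset.mem_range.mp hi
      simp only [nsmul_eq_mul]
      nlinarith
  have h2 : (J ^ P.natDegree).coeff (P.natDegree • J.order) ≠ 0 := by
    rw [← HahnSeries.order_pow]
    exact fun h => pow_ne_zero _ hJ0 (HahnSeries.coeff_order_eq_zero.mp h)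
  have h3 := HahnSeries.order_le_of_coeff_ne_zero
    (h1 ▸ mul_ne_zero (Polynomial.leadingCoeff_ne_zero.mpr hP) h2)
  refine h3.trans ?_
  simp only [nsmul_eq_mul]
  have : (0 : ℤ) ≤ P.natDegree := Int.natCast_nonneg _
  nlinarith

theorem order_evJN_le (N : ℕ) [NeZero N] {κ : Type} [CommRing κ] [IsDomain κ] (P : κ[X])
    (hP : P ≠ 0) : (evJN N κ P).order ≤ 0 :=
  order_eval₂_C_le (JN N κ) (RAT.order_JN_neg N κ) P hP

/-- lower bound for the order of a power series. -/
theorem le_order_ofPowerSeries {κ : Type} [CommRing κ] (A : PowerSeries κ) (n : ℕ)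
    (h : ∀ j < n, A.coeff j = 0) (hA : HahnSeries.ofPowerSeries ℤ κ A ≠ 0) :
    (n : ℤ) ≤ (HahnSeries.ofPowerSeries ℤ κ A).order := by
  by_contra hlt
  push Not at hlt
  apply hA
  rw [← HahnSeries.coeff_order_eq_zero]
  generalize (HahnSeries.ofPowerSeries ℤ κ A).order = m at hlt
  rcases lt_or_ge m 0 with hneg | hpos
  · rw [HahnSeries.ofPowerSeries_apply, HahnSeries.embDomain_of_notMem_range]
    rintro ⟨j, hj⟩
    simp at hj
    omega
  · lift m to ℕ using hpos
    rw [HahnSeries.ofPowerSeries_apply_coeff]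
    exact h m (by exact_mod_cast hlt)

end Fermat.Agent.S16.W0
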