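import Mathlib
import Fermat.Agent.S16.W0Alg
import Fermat.Agent.S28.Sym
import Fermat.Agent.S28.Unit
import Fermat.Agent.S28.LevelOneInt

set_option autoImplicit false

/-! # S16 (K2): reduction of expansions -/

namespace Fermat.Agent.S16.W0

open UpperHalfPlane ModularForm Matrix.SpecialLinearGroup ModularCurve Polynomial
open scoped MatrixGroups ModularForm Manifold
open Fermat.Agent.S20 (Quo sl)
open Fermat.Agent.S24 (Mer expInf jfun)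
open Fermat.Agent.S28

variable {N : ℕ} [NeZero N] {R : Subring ℂ} {κ : Type} [CommRing κ] [IsDomain κ] (ρ : ↥R →+* κ)

/-- the reduction of the `q_N`-expansion. -/
noncomputable def redE : ↥(RMer N R) →+* LaurentSeries κ := (coeffMap ρ).comp (expR N R)

theorem redE_apply (y : ↥(RMer N R)) : redE ρ y = coeffMap ρ (expR N R y) := rfl

theorem coe_coeff_expR (y : ↥(RMer N R)) (n : ℤ) :
    (((expR N R y).coeff n : ↥R) : ℂ) = (expInf N ⟨y.1, RMer_le_Mer y.2⟩).coeff n := by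
  rw [← coeffMap_expR]
  rfl

theorem redE_unit {u : (Mer N)ˣ} (hu : u ∈ UG N R) :
    redE ρ ⟨u.1.1, val_mem_RMer_of_mem_UG hu⟩ ≠ 0 ∧
      (redE ρ ⟨u.1.1, val_mem_RMer_of_mem_UG hu⟩).order = Multiplicative.toAdd (MG.ordU N u) := by
  obtain ⟨h1, h2⟩ := RAT.order_coeffMap_of_isUnit ρ _ (isUnit_expR_of_mem_UG hu)
  refine ⟨h1, ?_⟩
  rw [redE_apply, h2, ← order_coeffMap_subtype, coeffMap_expR, MG.ordU_apply]

theorem tri_mem_RMer (a d : ℕ) (b : ℤ) (ha : a ≠ 0) (hd : d ≠ 0) (hdN : d ∣ N)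
    (hζ : ∀ ω : ℂ, ω ^ N = 1 → ω ∈ R) (f : Mer 1) (hf : expInf 1 f ∈ WR R) :
    (triHom N a d b ha hd hdN f).1 ∈ RMer N R := by
  rw [mem_RMer]
  refine ⟨(triHom N a d b ha hd hdN f).2, ?_⟩
  apply expInf_triHom_mem_WR N a d b ha hd hdN R (hζ _ (MG.exp_pow_eq_one N d b hd hdN)) _ f hf
  apply hζ
  rw [inv_pow, MG.exp_pow_eq_one N d b hd hdN, inv_one]

theorem redE_tri (a d : ℕ) (b : ℤ) (ha : a ≠ 0) (hd : d ≠ 0) (hdN : d ∣ N)
    (hζ : ∀ ω : ℂ, ω ^ N = 1 → ω ∈ R) (f : Mer 1) (f₀ : LaurentSeries ↥R)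
    (hf₀ : coeffMap R.subtype f₀ = expInf 1 f) (hne : coeffMap ρ f₀ ≠ 0) :
    redE ρ ⟨_, tri_mem_RMer a d b ha hd hdN hζ f ⟨f₀, hf₀⟩⟩ ≠ 0 ∧
      (redE ρ ⟨_, tri_mem_RMer a d b ha hd hdN hζ f ⟨f₀, hf₀⟩⟩).order =
        ((a * (N / d) : ℕ) : ℤ) * (coeffMap ρ f₀).order := by
  set ω := Complex.exp (2 * Real.pi * Complex.I * b / d) with hω
  have hω1 : ω ^ N = 1 := MG.exp_pow_eq_one N d b hd hdN
  have hω0 : ω ≠ 0 := Complex.exp_ne_zero _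
  have hωR : ω ∈ R := hζ _ hω1
  have hωR' : ω⁻¹ ∈ R := hζ _ (by rw [inv_pow, hω1, inv_one])
  let ωu : (↥R)ˣ := ⟨⟨ω, hωR⟩, ⟨ω⁻¹, hωR'⟩, Subtype.ext (mul_inv_cancel₀ hω0),
    Subtype.ext (inv_mul_cancel₀ hω0)⟩
  have hωu : ∀ n : ℤ, (((ωu ^ n : (↥R)ˣ) : ↥R) : ℂ) = ω ^ n := by
    intro n
    have h1 : ((Units.map R.subtype.toMonoidHom (ωu ^ n) : ℂˣ) : ℂ) = ω ^ n := by
      rw [map_zpow, Units.val_zpow_eq_zpow_val]
      rfl
    exact h1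
  apply order_of_coeff_rel _ _ _ (Nat.mul_pos (Nat.pos_of_ne_zero ha)
    (Nat.div_pos (Nat.le_of_dvd (Nat.pos_of_ne_zero (NeZero.ne N)) hdN) (Nat.pos_of_ne_zero hd)))
    _ _ hne
  · intro n
    refine ⟨ρ ((ωu ^ n : (↥R)ˣ) : ↥R), ((ωu ^ n).isUnit.map ρ).ne_zero, ?_⟩
    rw [redE_apply, coeffMap_coeff, coeffMap_coeff, ← map_mul]
    congr 1
    apply Subtype.ext
    rw [coe_coeff_expR, Subring.coe_mul, hωu]
    have h2 := S24.expInf_comp_tri_coeff_mul N a d b ha hd hdN f n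
    rw [← hf₀, coeffMap_coeff] at h2
    exact h2
  · intro m hm
    rw [redE_apply, coeffMap_coeff]
    have h2 := S24.expInf_comp_tri_coeff_of_not_dvd N a d b ha hd hdN f m hm
    have h3 : (expR N R ⟨_, tri_mem_RMer a d b ha hd hdN hζ f ⟨f₀, hf₀⟩⟩).coeff m = 0 := by
      apply Subtype.ext
      rw [coe_coeff_expR]
      exact h2
    rw [h3, map_zero]

end Fermat.Agent.S16.W0
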