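import Mathlib
import Fermat.Agent.S16.W0Red
import Fermat.Agent.S20.CardQuo
import Fermat.Agent.S20.LamDefs

set_option autoImplicit false

/-! # S16 (K2): the two-cusp Sturm bound, core inequality -/

namespace Fermat.Agent.S16.W0

open UpperHalfPlane ModularForm Matrix.SpecialLinearGroup ModularCurve Polynomial
open scoped MatrixGroups ModularForm Manifold
open Fermat.Agent.S20 (Quo sl)
open Fermat.Agent.S24 (Mer expInf jfun)
open Fermat.Agent.S28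

/-- coset representatives of `Γ₀(p)` in `SL₂(ℤ)`. -/
theorem exists_coset' (p : ℕ) [Fact p.Prime] (γ : SL(2, ℤ))
    (hγ : γ ∉ CongruenceSubgroup.Gamma0 p) :
    ∃ δ ∈ CongruenceSubgroup.Gamma0 p, ∃ b : ℤ, γ = δ * (ModularGroup.S * ModularGroup.T ^ b) := by
  rw [CongruenceSubgroup.Gamma0_mem] at hγ
  set c : ZMod p := ((γ 1 0 : ℤ) : ZMod p) with hc
  set b : ℤ := (((((γ 1 1 : ℤ) : ZMod p) * c⁻¹).val : ℕ) : ℤ) with hb
  refine ⟨γ * (ModularGroup.S * ModularGroup.T ^ b)⁻¹, ?_, b, by group⟩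
  rw [CongruenceSubgroup.Gamma0_mem]
  have hM : ((ModularGroup.S * ModularGroup.T ^ b : SL(2, ℤ)) : Matrix (Fin 2) (Fin 2) ℤ) =
      !![0, -1; 1, b] := by
    rw [Matrix.SpecialLinearGroup.coe_mul, ModularGroup.coe_T_zpow, ModularGroup.coe_S]
    ext i j
    fin_cases i <;> fin_cases j <;> simp [Matrix.mul_apply, Fin.sum_univ_two]
  have h1 : ((γ * (ModularGroup.S * ModularGroup.T ^ b)⁻¹ : SL(2, ℤ)) 1 0 : ℤ) =
      γ 1 0 * b - γ 1 1 := by
    rw [Matrix.SpecialLinearGroup.coe_mul, Matrix.SpecialLinearGroup.coe_inv, hM,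
      Matrix.adjugate_fin_two_of]
    simp [Matrix.mul_apply, Fin.sum_univ_two]
    ring
  rw [h1]
  have h2 : ((b : ℤ) : ZMod p) = ((γ 1 1 : ℤ) : ZMod p) * c⁻¹ := by
    rw [hb, Int.cast_natCast, ZMod.natCast_zmod_val]
  push_cast
  rw [h2, ← hc, mul_comm (((γ 1 1 : ℤ) : ZMod p)), ← mul_assoc, mul_inv_cancel₀ hγ, one_mul,
    sub_self]

theorem card_quo_prime (p : ℕ) [Fact p.Prime] : Fintype.card (Quo p) = p + 1 := by
  rw [← Nat.card_eq_fintype_card, S20.card_quo]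
  have := S20.dedekindPsi_prime_pow (Fact.out : p.Prime) 0
  simpa using this

/-- the weight zero function `Φ^12 / Δ^k`. -/
noncomputable def gfun (k : ℤ) (Φ : ℍ → ℂ) : ℍ → ℂ :=
  fun z => Φ z ^ 12 * ModularForm.discriminant z ^ (-k)

theorem zpow_cancel_aux (d : ℂ) (hd : d ≠ 0) (k : ℤ) : (d ^ k) ^ 12 * (d ^ (12 : ℤ)) ^ (-k) = 1 := by
  rw [← zpow_natCast (d ^ k) 12, ← zpow_mul, ← zpow_mul, ← zpow_add₀ hd]
  have : k * ((12 : ℕ) : ℤ) + 12 * -k = 0 := by push_cast; ring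
  rw [this, zpow_zero]

theorem gfun_Gamma0 (p : ℕ) (k : ℤ) (Φ : ℍ → ℂ)
    (hmod : ∀ γ ∈ CongruenceSubgroup.Gamma0 p, ∀ z : ℍ, Φ (γ • z) = denom γ z ^ k * Φ z) :
    ∀ δ ∈ CongruenceSubgroup.Gamma0 p, ∀ z, gfun k Φ (δ • z) = gfun k Φ z := by
  intro δ hδ z
  unfold gfun
  rw [hmod δ hδ z, disc_smul_aux, mul_pow, mul_zpow]
  have := zpow_cancel_aux (denom δ z) (denom_ne_zero _ z) k
  linear_combination (Φ z ^ 12 * ModularForm.discriminant z ^ (-k)) * this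

theorem gfun_S (p : ℕ) [NeZero p] (k : ℤ) (Φ Ψ : ℍ → ℂ) (c : ℂ)
    (hS : ∀ z : ℍ, Φ (ModularGroup.S • z) ^ 12 =
      c * ((z : ℂ) ^ k) ^ 12 * Ψ (S22.tri 1 p 0 one_ne_zero (NeZero.ne p) • z) ^ 12) (z : ℍ) :
    gfun k Φ (ModularGroup.S • z) =
      c * Ψ (S22.tri 1 p 0 one_ne_zero (NeZero.ne p) • z) ^ 12 *
        ModularForm.discriminant z ^ (-k) := by
  unfold gfun
  rw [hS, disc_smul_aux, mul_zpow]
  have hd : denom (ModularGroup.S : SL(2, ℤ)) z = z := ModularGroup.denom_S z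
  rw [hd]
  have := zpow_cancel_aux (z : ℂ) (ne_zero z) k
  linear_combination (c * Ψ (S22.tri 1 p 0 one_ne_zero (NeZero.ne p) • z) ^ 12 *
    ModularForm.discriminant z ^ (-k)) * this

theorem disc_T_zpow (b : ℤ) (z : ℍ) :
    ModularForm.discriminant (ModularGroup.T ^ b • z) = ModularForm.discriminant z := by
  rw [disc_smul_aux]
  have hd : denom ((ModularGroup.T ^ b : SL(2, ℤ))) z = 1 := by
    rw [ModularGroup.denom_apply, ModularGroup.coe_T_zpow]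
    simp
  rw [hd, one_zpow, one_mul]

theorem tri_T_zpow (p : ℕ) [NeZero p] (b : ℤ) (z : ℍ) :
    S22.tri 1 p 0 one_ne_zero (NeZero.ne p) • (ModularGroup.T ^ b • z) =
      S22.tri 1 p b one_ne_zero (NeZero.ne p) • z := by
  apply UpperHalfPlane.ext
  rw [S22.coe_tri_smul, S22.coe_tri_smul, UpperHalfPlane.modular_T_zpow_smul, coe_vadd]
  push_cast
  ring

/-- the other conjugates. -/
noncomputable def gb (p : ℕ) [NeZero p] (k : ℤ) (Ψ : ℍ → ℂ) (c : ℂ) (b : ℤ) : ℍ → ℂ :=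
  fun z => c * Ψ (S22.tri 1 p b one_ne_zero (NeZero.ne p) • z) ^ 12 *
    ModularForm.discriminant z ^ (-k)

theorem conj_cases (p : ℕ) [Fact p.Prime] (k : ℤ) (Φ Ψ : ℍ → ℂ) (c : ℂ)
    (hmod : ∀ γ ∈ CongruenceSubgroup.Gamma0 p, ∀ z : ℍ, Φ (γ • z) = denom γ z ^ k * Φ z)
    (hS : ∀ z : ℍ, Φ (ModularGroup.S • z) ^ 12 =
      c * ((z : ℂ) ^ k) ^ 12 * Ψ (S22.tri 1 p 0 one_ne_zero (NeZero.ne p) • z) ^ 12)
    (q : Quo p) :
    (q = (QuotientGroup.mk (sl 1) : Quo p) ∧ conj p (gfun k Φ) q = gfun k Φ) ∨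
    (q ≠ (QuotientGroup.mk (sl 1) : Quo p) ∧ ∃ b : ℤ, conj p (gfun k Φ) q = gb p k Ψ c b) := by
  have hg := gfun_Gamma0 p k Φ hmod
  obtain ⟨γ, rfl⟩ := S20.exists_mk q
  rw [conj_mk p _ hg]
  by_cases hγ : γ ∈ CongruenceSubgroup.Gamma0 p
  · left
    refine ⟨((S20.mk_eq_mk_iff 1 γ).mpr (by simpa using hγ)).symm, ?_⟩
    funext z
    exact hg _ (inv_mem hγ) z
  · right
    refine ⟨fun h => hγ (by simpa using (S20.mk_eq_mk_iff 1 γ).mp h.symm), ?_⟩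
    obtain ⟨δ, hδ, b, hb⟩ := exists_coset' p γ⁻¹ (fun h => hγ (by simpa using inv_mem h))
    refine ⟨b, ?_⟩
    funext z
    rw [hb, mul_smul, mul_smul, hg δ hδ, gfun_S p k Φ Ψ c hS, tri_T_zpow, disc_T_zpow]
    rfl

theorem unit_zpow_apply (N : ℕ) [NeZero N] (u : (Mer N)ˣ) (n : ℤ) (z : ℍ) :
    (u ^ n).1.1 z = u.1.1 z ^ n := by
  have := map_zpow (MG.evU N z) u n
  exact this

theorem ordU_zpow (N : ℕ) [NeZero N] (u : (Mer N)ˣ) (n : ℤ) :
    Multiplicative.toAdd (MG.ordU N (u ^ n)) = n * Multiplicative.toAdd (MG.ordU N u) := by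
  rw [map_zpow, toAdd_zpow, smul_eq_mul]

/-- **The core inequality**: `12 (ord Ā + ord B̄) ≤ k (p + 1)`. -/
theorem core (p : ℕ) [Fact p.Prime] (k : ℤ) (R : Subring ℂ) (hζ : ∀ ω : ℂ, ω ^ p = 1 → ω ∈ R)
    {κ : Type} [CommRing κ] [IsDomain κ] (ρ : ↥R →+* κ)
    (Φ Ψ : Mer 1) (A₀ B₀ : LaurentSeries ↥R)
    (hA : coeffMap R.subtype A₀ = expInf 1 Φ) (hB : coeffMap R.subtype B₀ = expInf 1 Ψ)
    (hmod : ∀ γ ∈ CongruenceSubgroup.Gamma0 p, ∀ z : ℍ, Φ.1 (γ • z) = denom γ z ^ k * Φ.1 z)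
    (c : ℂ) (hc0 : c ≠ 0) (hc : c ∈ R) (hc' : c⁻¹ ∈ R)
    (hS : ∀ z : ℍ, Φ.1 (ModularGroup.S • z) ^ 12 =
      c * ((z : ℂ) ^ k) ^ 12 * Ψ.1 (S22.tri 1 p 0 one_ne_zero (NeZero.ne p) • z) ^ 12)
    (hAne : coeffMap ρ A₀ ≠ 0) (hBne : coeffMap ρ B₀ ≠ 0) :
    12 * ((coeffMap ρ A₀).order + (coeffMap ρ B₀).order) ≤ k * (p + 1) := by
  classical
  have hp0 : p ≠ 0 := NeZero.ne p
  set g := gfun k Φ.1 with hgdef
  have hg := gfun_Gamma0 p k Φ.1 hmod
  set q₀ : Quo p := QuotientGroup.mk (sl 1) with hq₀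
  set α := (coeffMap ρ A₀).order with hα
  set β := (coeffMap ρ B₀).order with hβ
  -- the units
  set Dp : (Mer p)ˣ := MG.triU p 1 1 0 one_ne_zero one_ne_zero (one_dvd p) with hDp
  have hDpU : Dp ∈ UG p R := MG.triU_mem_UG p 1 1 0 one_ne_zero one_ne_zero (one_dvd p)
    (by simp) (by simp)
  have hDpord : Multiplicative.toAdd (MG.ordU p Dp) = (p : ℤ) := by
    rw [hDp, MG.ordU_triU]
    simp
  have hDpz : ∀ z, Dp.1.1 z = ModularForm.discriminant z := by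
    intro z
    rw [hDp, MG.triU_apply, S24.tri_one_smul_L1]
  set u0 : (Mer p)ˣ := Dp ^ (-k) with hu0
  have hu0U : u0 ∈ UG p R := zpow_mem hDpU _
  set u1 : (Mer p)ˣ := MG.constU p c hc0 * Dp ^ (-k) with hu1
  have hu1U : u1 ∈ UG p R := mul_mem (MG.constU_mem_UG p c hc0 hc hc') hu0U
  have hu0ord : Multiplicative.toAdd (MG.ordU p u0) = -k * p := by
    rw [hu0, ordU_zpow, hDpord]
  have hu1ord : Multiplicative.toAdd (MG.ordU p u1) = -k * p := by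
    rw [hu1, MG.ordU_mul, MG.ordU_constU, zero_add, ordU_zpow, hDpord]
  -- the conjugates
  have key : ∀ q : Quo p, ∃ y : ↥(RMer p R), y.1 = conj p g q ∧ redE ρ y ≠ 0 ∧
      (redE ρ y).order = if q = q₀ then 12 * (p * α) + -k * p else 12 * β + -k * p := by
    intro q
    rcases conj_cases p k Φ.1 Ψ.1 c hmod hS q with ⟨hq, hconj⟩ | ⟨hq, b, hconj⟩
    · obtain ⟨h1, h2⟩ := redE_tri ρ 1 1 0 one_ne_zero one_ne_zero (one_dvd p) hζ Φ A₀ hA hAne
      obtain ⟨h3, h4⟩ := redE_unit ρ hu0U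
      refine ⟨⟨_, tri_mem_RMer 1 1 0 one_ne_zero one_ne_zero (one_dvd p) hζ Φ ⟨A₀, hA⟩⟩ ^ 12 *
        ⟨u0.1.1, val_mem_RMer_of_mem_UG hu0U⟩, ?_, ?_, ?_⟩
      · rw [hconj]
        funext z
        show (triHom p 1 1 0 one_ne_zero one_ne_zero (one_dvd p) Φ).1 z ^ 12 * u0.1.1 z = _
        rw [triHom_apply, S24.tri_one_smul_L1, hu0, unit_zpow_apply, hDpz]
        rfl
      · rw [map_mul, map_pow]
        exact mul_ne_zero (pow_ne_zero _ h1) h3
      · rw [if_pos hq, map_mul, map_pow, HahnSeries.order_mul (pow_ne_zero _ h1) h3,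
          HahnSeries.order_pow, h2, h4, hu0ord, ← hα]
        simp
    · obtain ⟨h1, h2⟩ := redE_tri ρ 1 p b one_ne_zero hp0 dvd_rfl hζ Ψ B₀ hB hBne
      obtain ⟨h3, h4⟩ := redE_unit ρ hu1U
      refine ⟨⟨_, tri_mem_RMer 1 p b one_ne_zero hp0 dvd_rfl hζ Ψ ⟨B₀, hB⟩⟩ ^ 12 *
        ⟨u1.1.1, val_mem_RMer_of_mem_UG hu1U⟩, ?_, ?_, ?_⟩
      · rw [hconj]
        funext z
        show (triHom p 1 p b one_ne_zero hp0 dvd_rfl Ψ).1 z ^ 12 * u1.1.1 z = _
        have hu1z : u1.1.1 z = c * ModularForm.discriminant z ^ (-k) := by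
          show (MG.constU p c hc0).1.1 z * (Dp ^ (-k)).1.1 z = _
          rw [MG.constU_apply, unit_zpow_apply, hDpz]
        rw [triHom_apply, hu1z]
        unfold gb
        ring
      · rw [map_mul, map_pow]
        exact mul_ne_zero (pow_ne_zero _ h1) h3
      · rw [if_neg hq, map_mul, map_pow, HahnSeries.order_mul (pow_ne_zero _ h1) h3,
          HahnSeries.order_pow, h2, h4, hu1ord, Nat.div_self (Nat.pos_of_ne_zero hp0), ← hβ]
        simp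
  choose y hy1 hy2 hy3 using key
  -- the norm
  have hs : (∏ q : Quo p, y q).1 = ∏ q : Quo p, conj p g q := by
    rw [show (∏ q : Quo p, y q).1 = ∏ q : Quo p, (y q).1 from
      map_prod (RMer p R).subtype _ _]
    exact Finset.prod_congr rfl fun q _ => hy1 q
  obtain ⟨P, hP⟩ := levelOne_int p R (∏ q : Quo p, y q).1 (∏ q : Quo p, y q).2 (by
    intro γ z
    rw [hs]
    exact prod_conj_smul p g hg γ z)
  have h1 : evJN p ↥R P = expR p R (∏ q : Quo p, y q) := by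
    rw [← expR_evJ]
    congr 1
    exact Subtype.ext hP
  have h2 : evJN p κ (P.map ρ) = ∏ q : Quo p, redE ρ (y q) := by
    have := congrArg (coeffMap ρ) h1
    rw [← map_prod]
    rw [show coeffMap ρ (evJN p ↥R P) = evJN p κ (P.map ρ) from
      congrArg (fun f => f P) (RAT.coeffMap_comp_evJN p ρ)] at this
    exact this
  have h3 : ∏ q : Quo p, redE ρ (y q) ≠ 0 := Finset.prod_ne_zero_iff.mpr fun q _ => hy2 q
  have h4 : P.map ρ ≠ 0 := by
    intro h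
    rw [h, map_zero] at h2
    exact h3 h2.symm
  have h5 := order_evJN_le p (P.map ρ) h4
  rw [h2, order_finset_prod' _ _ fun q _ => hy2 q, Finset.sum_congr rfl fun q _ => hy3 q,
    ← Finset.add_sum_erase _ _ (Finset.mem_univ q₀), if_pos rfl,
    Finset.sum_congr rfl fun q hq => if_neg (Finset.ne_of_mem_erase hq), Finset.sum_const,
    Finset.card_erase_of_mem (Finset.mem_univ q₀), Finset.card_univ, card_quo_prime] at h5
  simp only [Nat.add_sub_cancel, nsmul_eq_mul] at h5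
  have hp1 : (0 : ℤ) < p := by exact_mod_cast Nat.pos_of_ne_zero hp0
  have h6 : (p : ℤ) * (12 * (α + β) - k * (p + 1)) ≤ 0 := by nlinarith
  have h7 : 12 * (α + β) - k * (p + 1) ≤ 0 := by
    by_contra hcon
    push Not at hcon
    nlinarith
  linarith

end Fermat.Agent.S16.W0
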