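import Mathlib
import Fermat.Agent.S28.Red
import Fermat.Agent.S16.UDefs

set_option autoImplicit false

/-! # S16 (K2): a residue field of `S28.Rl ℓ` detecting divisibility by `ℓ` in `ℤ_(ℓ)` -/

namespace Fermat.Agent.S16.W0

open Fermat.Agent

theorem Zc_le_Rl (ℓ : ℕ) : Zc ℓ ≤ S28.Rl ℓ := by
  intro z hz
  obtain ⟨x, hx, rfl⟩ := Subring.mem_map.mp hz
  exact S28.algebraMap_Zl_mem_Rl ℓ ⟨x, hx⟩

/-- A residue field `κ` of `Rl ℓ` (the integral closure of `ℤ_(ℓ)` in `ℂ`): the kernel of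
`π : Rl ℓ → κ` meets `ℤ_(ℓ)` in `ℓ ℤ_(ℓ)`. -/
theorem exists_residue (ℓ : ℕ) [Fact ℓ.Prime] :
    ∃ (κ : Type) (_ : Field κ) (π : ↥(S28.Rl ℓ) →+* κ),
      ∀ z : ↥(S28.Rl ℓ), (z : ℂ) ∈ Zc ℓ → (π z = 0 ↔ Ldvd ℓ (z : ℂ)) := by
  obtain ⟨κ, _, π, hπ⟩ := S28.exists_residue_Rl ℓ
  refine ⟨κ, inferInstance, π, ?_⟩
  have : CharP κ ℓ := (CharP.charP_iff_prime_eq_zero (Fact.out : ℓ.Prime)).mpr (by
    rw [← hπ, map_natCast])
  set θ : ZMod ℓ →+* κ := ZMod.castHom dvd_rfl κ with hθ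
  have hcomp : π.comp (S28.kap ℓ) = θ.comp (S28.red ℓ) := S28.Zl_ringHom_ext _ _
  intro z hz
  obtain ⟨x, hx, hxz⟩ := Subring.mem_map.mp hz
  have hz' : z = S28.kap ℓ ⟨x, hx⟩ := Subtype.ext (by rw [S28.kap_coe]; exact hxz.symm)
  have h1 : π z = θ (S28.red ℓ ⟨x, hx⟩) := by
    rw [hz']; exact congrArg (fun f : S28.Zl ℓ →+* κ => f ⟨x, hx⟩) hcomp
  rw [h1, map_eq_zero_iff θ θ.injective, S28.red_eq_zero_iff]
  constructor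
  · rintro ⟨a', ha'⟩
    refine ⟨((a' : ℚ) : ℂ), Subring.mem_map.mpr ⟨a', a'.2, rfl⟩, ?_⟩
    have h2 : x = (ℓ : ℚ) * (a' : ℚ) := by
      have := congrArg Subtype.val ha'
      simpa using this
    rw [← hxz, h2]
    simp
  · rintro ⟨c, hc, hzc⟩
    obtain ⟨y, hy, rfl⟩ := Subring.mem_map.mp hc
    refine ⟨⟨y, hy⟩, Subtype.ext ?_⟩
    have h3 : ((x : ℚ) : ℂ) = (((ℓ : ℚ) * y : ℚ) : ℂ) := by
      have : (algebraMap ℚ ℂ) x = (ℓ : ℂ) * (algebraMap ℚ ℂ) y := hxz.trans hzc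
      simpa using this
    have h4 : x = (ℓ : ℚ) * y := by exact_mod_cast h3
    simpa using h4

end Fermat.Agent.S16.W0
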