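import Mathlib
import Fermat.Agent.S16.W0Core
import Fermat.Agent.S16.W0Res
import Fermat.Agent.S16.ToolkitA

set_option autoImplicit false

/-! # S16 (K2): the two-cusp Sturm bound (weight-0 route) -/

namespace Fermat.Agent.S16.W0

open UpperHalfPlane ModularForm ModularFormClass Matrix.SpecialLinearGroup ModularCurve
open CongruenceSubgroup PowerSeries
open scoped MatrixGroups ModularForm Manifold
open Fermat.Agent.S24 (Mer expInf)
open Fermat.Agent.S28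

/-- modular forms on `Γ₀(N)` as elements of `Mer 1`. -/
theorem mem_Mer_one {N : ℕ} {k : ℤ} (F : ModularForm (Gamma0 N) k) : ⇑F ∈ Mer 1 := by
  have hΓ := CongruenceSubgroup.one_mem_strictPeriods_Gamma0 N
  have : Fact (IsCusp OnePoint.infty (Gamma0 N : Subgroup (GL (Fin 2) ℝ))) :=
    ⟨Subgroup.isCusp_of_mem_strictPeriods one_pos hΓ⟩
  refine ⟨ModularFormClass.holo F, fun z => ?_, 0, ?_⟩
  · have := SlashInvariantForm.vAdd_apply_of_mem_strictPeriods F z hΓ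
    simpa using this
  · simpa using ModularFormClass.bdd_at_infty F

theorem expInf_form {N : ℕ} {k : ℤ} (F : ModularForm (Gamma0 N) k) :
    expInf 1 ⟨⇑F, mem_Mer_one F⟩ = HahnSeries.ofPowerSeries ℤ ℂ (qExpansion 1 F) := by
  have hΓ := CongruenceSubgroup.one_mem_strictPeriods_Gamma0 N
  have : Fact (IsCusp OnePoint.infty (Gamma0 N : Subgroup (GL (Fin 2) ℝ))) :=
    ⟨Subgroup.isCusp_of_mem_strictPeriods one_pos hΓ⟩
  rw [S24.expInf_eq _ 0 (by rw [S24.shiftF_zero]; exact ModularFormClass.bdd_at_infty F),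
    S24.shiftF_zero]
  simp

theorem form_S_smul (p : ℕ) [Fact p.Prime] (h : ℕ) (Φ : ℍ → ℂ) (z : ℍ) :
    Φ (ModularGroup.S • z) = ((p : ℂ)⁻¹) ^ h * (z : ℂ) ^ ((h + h : ℕ) : ℤ) *
      wFun p (h + h) Φ (S22.tri 1 p 0 one_ne_zero (NeZero.ne p) • z) := by
  have hp : (p : ℂ) ≠ 0 := by exact_mod_cast NeZero.ne p
  have hz := z.ne_zero
  have h1 : frickeGL p • (S22.tri 1 p 0 one_ne_zero (NeZero.ne p) • z) = ModularGroup.S • z := by
    apply UpperHalfPlane.ext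
    rw [coe_frickeGL_smul, S22.coe_tri_smul, UpperHalfPlane.modular_S_smul]
    field_simp
    simp [hz]
  rw [wFun_apply, h1, S22.coe_tri_smul]
  have h2 : (h + h) / 2 = h := by omega
  rw [h2]
  simp only [Nat.cast_one, one_mul, Int.cast_zero, add_zero, zpow_neg, zpow_natCast, div_pow,
    inv_pow]
  field_simp
  ring

/-- **The two-cusp Sturm bound** modulo a prime of a ring `R ∋ ζ_p, 1/p`. -/
theorem sturm_form (p : ℕ) [Fact p.Prime] (k : ℕ) (hk : Even k) (R : Subring ℂ)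
    (hζ : ∀ ω : ℂ, ω ^ p = 1 → ω ∈ R) (hpinv : ((p : ℂ))⁻¹ ∈ R)
    {κ : Type} [CommRing κ] [IsDomain κ] (ρ : ↥R →+* κ)
    (Φ : ModularForm (Gamma0 p) (k : ℤ)) (A₀ B₀ : PowerSeries ↥R)
    (hA : A₀.map R.subtype = qExpansion 1 Φ) (hB : B₀.map R.subtype = qExpansion 1 (wForm p k Φ))
    (n₁ n₂ : ℕ) (h₁ : ∀ j < n₁, ρ (A₀.coeff j) = 0) (h₂ : ∀ j < n₂, ρ (B₀.coeff j) = 0)
    (hn : k * (p + 1) < 12 * (n₁ + n₂)) : A₀.map ρ = 0 ∨ B₀.map ρ = 0 := by
  by_contra hcon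
  push Not at hcon
  obtain ⟨hA0, hB0⟩ := hcon
  obtain ⟨h, rfl⟩ := hk
  have hp : (p : ℂ) ≠ 0 := by exact_mod_cast NeZero.ne p
  have hAne : HahnSeries.ofPowerSeries ℤ κ (A₀.map ρ) ≠ 0 := by
    rw [Ne, map_eq_zero_iff _ HahnSeries.ofPowerSeries_injective]; exact hA0
  have hBne : HahnSeries.ofPowerSeries ℤ κ (B₀.map ρ) ≠ 0 := by
    rw [Ne, map_eq_zero_iff _ HahnSeries.ofPowerSeries_injective]; exact hB0
  have key := core p ((h + h : ℕ) : ℤ) R hζ ρ ⟨⇑Φ, mem_Mer_one Φ⟩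
    ⟨⇑(wForm p (h + h) Φ), mem_Mer_one _⟩
    (HahnSeries.ofPowerSeries ℤ ↥R A₀) (HahnSeries.ofPowerSeries ℤ ↥R B₀)
    (by rw [coeffMap_ofPowerSeries, hA, expInf_form])
    (by rw [coeffMap_ofPowerSeries, hB, expInf_form])
    (fun γ hγ z => SlashInvariantForm.slash_action_eqn_SL'' Φ hγ z)
    ((((p : ℂ)⁻¹) ^ h) ^ 12) (pow_ne_zero _ (pow_ne_zero _ (inv_ne_zero hp)))
    (pow_mem (pow_mem hpinv _) _)
    (by
      rw [← inv_pow, ← inv_pow, inv_inv]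
      exact pow_mem (pow_mem (natCast_mem R p) _) _)
    (fun z => by
      show Φ (ModularGroup.S • z) ^ 12 = _ * _ * (wFun p (h + h) Φ _) ^ 12
      rw [form_S_smul p h Φ z]
      ring)
    (by rw [coeffMap_ofPowerSeries]; exact hAne)
    (by rw [coeffMap_ofPowerSeries]; exact hBne)
  rw [coeffMap_ofPowerSeries, coeffMap_ofPowerSeries] at key
  have e1 := le_order_ofPowerSeries (A₀.map ρ) n₁ (fun j hj => by
    rw [PowerSeries.coeff_map]; exact h₁ j hj) hAne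
  have e2 := le_order_ofPowerSeries (B₀.map ρ) n₂ (fun j hj => by
    rw [PowerSeries.coeff_map]; exact h₂ j hj) hBne
  have e3 : (((h + h : ℕ) : ℤ)) * ((p : ℤ) + 1) < 12 * ((n₁ : ℤ) + n₂) := by exact_mod_cast hn
  linarith

/-- **(K2)** the `sturm` field of the toolkit. -/
theorem MK_sturm {p : ℕ} [Fact p.Prime] (ℓ : ℕ) (hℓ : ℓ.Prime) (hℓp : ℓ ≠ p) {k : ℕ}
    {A B : ℂ⟦X⟧} (h : (A, B) ∈ MK p k) (hA : A ∈ intS ℓ) (hB : B ∈ intS ℓ) (n₁ n₂ : ℕ)
    (h₁ : ∀ j < n₁, Ldvd ℓ (coeff j A)) (h₂ : ∀ j < n₂, Ldvd ℓ (coeff j B))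
    (hn : k * (p + 1) < 12 * (n₁ + n₂)) :
    (∀ j, Ldvd ℓ (coeff j A)) ∨ (∀ j, Ldvd ℓ (coeff j B)) := by
  have : Fact ℓ.Prime := ⟨hℓ⟩
  by_cases hk : Even k
  · obtain ⟨Φ, hΦ⟩ := (mem_MK_of_even hk).mp h
    obtain ⟨hΦA, hΦB⟩ := Prod.mk.inj hΦ
    obtain ⟨κ, _, π, hπ⟩ := exists_residue ℓ
    set A₀ : PowerSeries ↥(Rl ℓ) := PowerSeries.mk fun j => ⟨coeff j A, Zc_le_Rl ℓ (hA j)⟩ with hA₀
    set B₀ : PowerSeries ↥(Rl ℓ) := PowerSeries.mk fun j => ⟨coeff j B, Zc_le_Rl ℓ (hB j)⟩ with hB₀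
    have hA₀c : ∀ j, ((A₀.coeff j : ↥(Rl ℓ)) : ℂ) = coeff j A := fun j => by
      rw [hA₀, PowerSeries.coeff_mk]
    have hB₀c : ∀ j, ((B₀.coeff j : ↥(Rl ℓ)) : ℂ) = coeff j B := fun j => by
      rw [hB₀, PowerSeries.coeff_mk]
    have hnd : ¬ ℓ ∣ p := fun hd =>
      hℓp ((Nat.prime_dvd_prime_iff_eq hℓ (Fact.out : p.Prime)).mp hd)
    have key := sturm_form p k hk (Rl ℓ)
      (fun ω hω => mem_Rl_of_pow_eq_one ℓ ω p (NeZero.ne p) hω) (natCast_inv_mem_Rl ℓ p hnd) π Φ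
      A₀ B₀ (by ext j; rw [PowerSeries.coeff_map, hΦA]; exact hA₀c j)
      (by ext j; rw [PowerSeries.coeff_map, hΦB]; exact hB₀c j) n₁ n₂
      (fun j hj => (hπ _ (by rw [hA₀c]; exact hA j)).mpr (by rw [hA₀c]; exact h₁ j hj))
      (fun j hj => (hπ _ (by rw [hB₀c]; exact hB j)).mpr (by rw [hB₀c]; exact h₂ j hj)) hn
    rcases key with key | key
    · left
      intro j
      have := congrArg (PowerSeries.coeff j) key
      rw [PowerSeries.coeff_map, map_zero, hπ _ (by rw [hA₀c]; exact hA j), hA₀c] at this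
      exact this
    · right
      intro j
      have := congrArg (PowerSeries.coeff j) key
      rw [PowerSeries.coeff_map, map_zero, hπ _ (by rw [hB₀c]; exact hB j), hB₀c] at this
      exact this
  · have h0 := (mem_MK_of_not_even hk).mp h
    left
    intro j
    have hA0 : A = 0 := congrArg Prod.fst h0
    rw [hA0, map_zero]
    exact ⟨0, zero_mem _, by simp⟩

end Fermat.Agent.S16.W0
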